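/-
S24, work package G1 (helper17): local degree of the `j`-function.

We reuse `Fermat.Agent.S23.R4.jInv z = E₄ z ^ 3 / Δ z` (helper23) and the lemmas of
`Fermat.Agent.S23.R1` (helper14) about the same function.
-/
import Mathlib
import Fermat.Agent.S23.H14_J
import Fermat.Agent.S23.H23_Distinct
import Fermat.Agent.S23.H23_JFun

set_option autoImplicit false

namespace Fermat.Agent.S24.G1

open UpperHalfPlane ModularForm EisensteinSeries Filter Topology Complex Metric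
open scoped MatrixGroups Manifold Real
open Fermat.Agent.S23
open Derivative

/-- The two copies of `j` on `main` agree. -/
theorem jInv_R1_eq_R4 : R1.jInv = R4.jInv := rfl

/-- `j` as a function on `ℂ` (junk value outside the upper half plane). -/
noncomputable def jC (w : ℂ) : ℂ := R4.jInv (ofComplex w)

theorem jC_eq_comp : jC = R4.jInv ∘ ofComplex := rfl

theorem jC_coe (z : ℍ) : jC (z : ℂ) = R4.jInv z := by
  rw [jC, ofComplex_apply]

/-! ### Cauchy estimate for the derivative near `i∞` -/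

/-- **Cauchy estimate.** If `F` is holomorphic on `ℍ` and `‖F w‖ ≤ B (im w)` for `im w ≥ A > 0`
with `B` antitone, then `‖(F ∘ ofComplex)' z‖ ≤ B (im z - 1)` for `im z ≥ A + 1`. -/
theorem norm_deriv_comp_ofComplex_le {F : ℍ → ℂ} (hF : MDifferentiable 𝓘(ℂ) 𝓘(ℂ) F)
    {A : ℝ} (hA : 0 < A) {B : ℝ → ℝ} (hB : Antitone B)
    (hbound : ∀ w : ℍ, A ≤ w.im → ‖F w‖ ≤ B w.im) (z : ℍ) (hz : A + 1 ≤ z.im) :
    ‖deriv (F ∘ ofComplex) z‖ ≤ B (z.im - 1) := by
  have hd : DifferentiableOn ℂ (F ∘ ofComplex) {w : ℂ | 0 < w.im} :=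
    UpperHalfPlane.mdifferentiable_iff.mp hF
  have him : ∀ w : ℂ, ‖w - (z : ℂ)‖ ≤ 1 → z.im - 1 ≤ w.im := by
    intro w hw
    have h1 : |(w - (z : ℂ)).im| ≤ ‖w - (z : ℂ)‖ := Complex.abs_im_le_norm _
    have h2 := (abs_le.mp (h1.trans hw)).1
    rw [Complex.sub_im] at h2
    have : (z : ℂ).im = z.im := rfl
    linarith
  have hsub : closedBall (z : ℂ) 1 ⊆ {w : ℂ | 0 < w.im} := by
    intro w hw
    rw [mem_closedBall, dist_eq_norm] at hw
    have := him w hw
    show 0 < w.im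
    linarith
  have hC : ∀ w ∈ sphere (z : ℂ) 1, ‖(F ∘ ofComplex) w‖ ≤ B (z.im - 1) := by
    intro w hw
    rw [mem_sphere, dist_eq_norm] at hw
    have h1 := him w hw.le
    have hwpos : 0 < w.im := by linarith
    have h2 : (ofComplex w).im = w.im := by
      rw [ofComplex_apply_of_im_pos hwpos]
      rfl
    have h3 := hbound (ofComplex w) (by rw [h2]; linarith)
    rw [h2] at h3
    exact h3.trans (hB h1)
  have := Complex.norm_deriv_le_of_forall_mem_sphere_norm_le zero_lt_one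
    (hd.diffContOnCl_ball hsub) hC
  simpa using this

/-- The normalised derivative of a holomorphic function bounded at `i∞` is bounded at `i∞`. -/
theorem isBoundedAtImInfty_D {F : ℍ → ℂ} (hF : MDifferentiable 𝓘(ℂ) 𝓘(ℂ) F)
    (hb : IsBoundedAtImInfty F) : IsBoundedAtImInfty (D F) := by
  rw [isBoundedAtImInfty_iff] at hb ⊢
  obtain ⟨M, A, hMA⟩ := hb
  refine ⟨‖(2 * π * Complex.I : ℂ)⁻¹‖ * M, max A 1 + 1, fun z hz => ?_⟩
  have hA' : (0 : ℝ) < max A 1 := lt_of_lt_of_le zero_lt_one (le_max_right _ _)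
  have h := norm_deriv_comp_ofComplex_le hF hA' (B := fun _ => M) (fun _ _ _ => le_rfl)
    (fun w hw => hMA w ((le_max_left _ _).trans hw)) z hz
  rw [normalizedDerivOfComplex, norm_mul]
  exact mul_le_mul_of_nonneg_left h (norm_nonneg _)


/-! ### The derivative of `j` -/

local notation "Δ" => ModularForm.discriminant

theorem mdifferentiable_discriminant : MDifferentiable 𝓘(ℂ) 𝓘(ℂ) (Δ : ℍ → ℂ) :=
  ModularFormClass.holo CuspForm.discriminant

theorem discriminant_slash (γ : SL(2, ℤ)) : (Δ : ℍ → ℂ) ∣[(12 : ℤ)] γ = Δ := by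
  rw [SL_slash]
  exact SlashInvariantFormClass.slash_action_eq CuspForm.discriminant _ ⟨γ, rfl⟩

/-- `D j` is slash invariant of weight `2` under `SL(2, ℤ)`. -/
theorem D_jInv_slash (γ : SL(2, ℤ)) : (D R4.jInv) ∣[(2 : ℤ)] γ = D R4.jInv := by
  have h := normalizedDerivOfComplex_SL_slash (k := 0) R4.mdifferentiable_jInv (γ := γ)
  have hj : R4.jInv ∣[(0 : ℤ)] γ = R4.jInv := R1.jInv_slash γ
  rw [hj] at h
  have h2 : (fun z : ℍ ↦ ((0 : ℤ) : ℂ) * (2 * π * Complex.I)⁻¹ * (γ 1 0 / denom γ z) *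
      R4.jInv z) = 0 := by
    ext z
    simp
  rw [h2, sub_zero, zero_add] at h
  exact h.symm

/-- The function `D j * Δ`. -/
noncomputable def DjDelta (z : ℍ) : ℂ := D R4.jInv z * Δ z

theorem DjDelta_eq_mul : DjDelta = D R4.jInv * (Δ : ℍ → ℂ) := rfl

theorem mdifferentiable_DjDelta : MDifferentiable 𝓘(ℂ) 𝓘(ℂ) DjDelta :=
  (normalizedDerivOfComplex_mdifferentiable R4.mdifferentiable_jInv).mul
    mdifferentiable_discriminant

theorem DjDelta_slash (γ : SL(2, ℤ)) : DjDelta ∣[(14 : ℤ)] γ = DjDelta := by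
  rw [DjDelta_eq_mul, show (14 : ℤ) = 2 + 12 by norm_num, mul_slash_SL2, D_jInv_slash,
    discriminant_slash]

/-- `D j * Δ = D (E₄ ^ 3) - j * D Δ`. -/
theorem DjDelta_eq (z : ℍ) :
    DjDelta z = D (fun w : ℍ => E₄ w ^ 3) z - R4.jInv z * D (Δ : ℍ → ℂ) z := by
  have h1 : (fun w : ℍ => E₄ w ^ 3) = R4.jInv * (Δ : ℍ → ℂ) := by
    ext w
    exact (R1.jInv_mul_discriminant w).symm
  rw [h1, normalizedDerivOfComplex_mul _ _ R4.mdifferentiable_jInv mdifferentiable_discriminant]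
  simp only [Pi.add_apply, Pi.mul_apply, DjDelta]
  ring

theorem isBoundedAtImInfty_DjDelta : IsBoundedAtImInfty DjDelta := by
  -- first summand
  have hE : MDifferentiable 𝓘(ℂ) 𝓘(ℂ) (fun w : ℍ => E₄ w ^ 3) :=
    (ModularFormClass.holo E₄).pow 3
  have hEb : IsBoundedAtImInfty (fun w : ℍ => E₄ w ^ 3) := by
    have := ModularFormClass.bdd_at_infty (E₄.pow 3)
    rwa [ModularForm.coe_pow] at this
  have h1 := isBoundedAtImInfty_D hE hEb
  rw [isBoundedAtImInfty_iff] at h1 ⊢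
  obtain ⟨M₁, A₁, hM₁⟩ := h1
  obtain ⟨A₂, hA₂, hj⟩ := R4.jInv_growth
  obtain ⟨A₃, hA₃, hΔ⟩ := R4.norm_discriminant_bounds
  set c : ℝ := ‖(2 * π * Complex.I : ℂ)⁻¹‖ with hc
  refine ⟨M₁ + 16 * (c * (2 * Real.exp (2 * π))), max A₁ (max A₂ (A₃ + 1)), fun z hz => ?_⟩
  have hz1 : A₁ ≤ z.im := (le_max_left _ _).trans hz
  have hz2 : A₂ ≤ z.im := ((le_max_left _ _).trans (le_max_right _ _)).trans hz
  have hz3 : A₃ + 1 ≤ z.im := ((le_max_right _ _).trans (le_max_right _ _)).trans hz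
  have hB : Antitone (fun y : ℝ => 2 * Real.exp (-(2 * π * y))) := by
    intro a b hab
    have : -(2 * π * b) ≤ -(2 * π * a) := by
      have := Real.pi_pos
      nlinarith
    exact mul_le_mul_of_nonneg_left (Real.exp_le_exp.mpr this) (by norm_num)
  have hd := norm_deriv_comp_ofComplex_le mdifferentiable_discriminant hA₃ hB
    (fun w hw => (hΔ w hw).2) z hz3
  have hDΔ : ‖D (Δ : ℍ → ℂ) z‖ ≤ c * (2 * Real.exp (-(2 * π * (z.im - 1)))) := by
    rw [normalizedDerivOfComplex, norm_mul]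
    exact mul_le_mul_of_nonneg_left hd (norm_nonneg _)
  have hjz := (hj z hz2).2
  rw [DjDelta_eq]
  calc ‖D (fun w : ℍ => E₄ w ^ 3) z - R4.jInv z * D (Δ : ℍ → ℂ) z‖
      ≤ ‖D (fun w : ℍ => E₄ w ^ 3) z‖ + ‖R4.jInv z * D (Δ : ℍ → ℂ) z‖ := norm_sub_le _ _
    _ ≤ M₁ + 16 * (c * (2 * Real.exp (2 * π))) := by
        refine add_le_add (hM₁ z hz1) ?_
        rw [norm_mul]
        have hc0 : 0 ≤ c := norm_nonneg _
        have h3 : ‖R4.jInv z‖ * ‖D (Δ : ℍ → ℂ) z‖ ≤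
            (16 * Real.exp (2 * π * z.im)) * (c * (2 * Real.exp (-(2 * π * (z.im - 1))))) :=
          mul_le_mul hjz hDΔ (norm_nonneg _) (by positivity)
        refine h3.trans (le_of_eq ?_)
        have h4 : Real.exp (2 * π * z.im) * Real.exp (-(2 * π * (z.im - 1))) =
            Real.exp (2 * π) := by
          rw [← Real.exp_add]
          congr 1
          ring
        calc (16 * Real.exp (2 * π * z.im)) * (c * (2 * Real.exp (-(2 * π * (z.im - 1)))))
            = 16 * (c * (2 * (Real.exp (2 * π * z.im) * Real.exp (-(2 * π * (z.im - 1)))))) := by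
              ring
          _ = 16 * (c * (2 * Real.exp (2 * π))) := by rw [h4]

/-- `D j * Δ` as a level one modular form of weight `14`. -/
noncomputable def DjDeltaForm : ModularForm 𝒮ℒ ((14 : ℕ) : ℤ) where
  toFun := DjDelta
  slash_action_eq' := by
    intro γ hγ
    obtain ⟨γ', rfl⟩ := hγ
    have := DjDelta_slash γ'
    rw [SL_slash] at this
    exact this
  holo' := mdifferentiable_DjDelta
  bdd_at_cusps' := by
    intro c hc
    rw [OnePoint.isBoundedAt_iff_forall_SL2Z hc]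
    intro γ _
    have h : DjDelta ∣[((14 : ℕ) : ℤ)] γ = DjDelta := DjDelta_slash γ
    rw [h]
    exact isBoundedAtImInfty_DjDelta

@[simp] theorem DjDeltaForm_apply (z : ℍ) : DjDeltaForm z = DjDelta z := rfl

/-- `E₄ ^ 2 * E₆` as a level one modular form of weight `14`. -/
noncomputable def E4sqE6Form : ModularForm 𝒮ℒ ((14 : ℕ) : ℤ) :=
  ModularForm.mcast (by norm_num) ((E₄.pow 2).mul E₆)

@[simp] theorem E4sqE6Form_apply (z : ℍ) : E4sqE6Form z = E₄ z ^ 2 * E₆ z := by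
  show ((E₄.pow 2).mul E₆) z = _
  rw [ModularForm.coe_mul, Pi.mul_apply, ModularForm.coe_pow, Pi.pow_apply]


theorem E4_ne_zero_fun : ∃ z : ℍ, E₄ z ≠ 0 := by
  by_contra h
  simp only [not_exists, not_not] at h
  have h0 : (E₄ : ModularForm 𝒮ℒ 4) = 0 := ModularForm.ext h
  have := E_qExpansion_coeff_zero (by norm_num : 3 ≤ 4) ⟨2, rfl⟩
  rw [show E (by norm_num : 3 ≤ 4) = E₄ from rfl, h0] at this
  simp [qExpansion_zero] at this

theorem E6_ne_zero_fun : ∃ z : ℍ, E₆ z ≠ 0 := by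
  by_contra h
  simp only [not_exists, not_not] at h
  have h0 : (E₆ : ModularForm 𝒮ℒ 6) = 0 := ModularForm.ext h
  have := E_qExpansion_coeff_zero (by norm_num : 3 ≤ 6) ⟨3, rfl⟩
  rw [show E (by norm_num : 3 ≤ 6) = E₆ from rfl, h0] at this
  simp [qExpansion_zero] at this

theorem E4sqE6Form_ne_zero : E4sqE6Form ≠ 0 := by
  intro h
  have h1 : (fun z : ℍ => E₄ z ^ 2) * (fun z : ℍ => E₆ z) = 0 := by
    ext z
    have := DFunLike.congr_fun h z
    rw [E4sqE6Form_apply] at this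
    exact this
  have hE4 : MDifferentiable 𝓘(ℂ) 𝓘(ℂ) (fun z : ℍ => E₄ z ^ 2) :=
    (ModularFormClass.holo E₄).pow 2
  have hE6 : MDifferentiable 𝓘(ℂ) 𝓘(ℂ) (fun z : ℍ => E₆ z) := ModularFormClass.holo E₆
  rcases (UpperHalfPlane.mul_eq_zero_iff hE4 hE6).mp h1 with h2 | h2
  · obtain ⟨z, hz⟩ := E4_ne_zero_fun
    have := congrFun h2 z
    simp only [Pi.zero_apply] at this
    exact hz (pow_eq_zero_iff (two_ne_zero) |>.mp this)
  · obtain ⟨z, hz⟩ := E6_ne_zero_fun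
    exact hz (congrFun h2 z)

theorem finrank_weight_fourteen : Module.finrank ℂ (ModularForm 𝒮ℒ ((14 : ℕ) : ℤ)) = 1 := by
  have h := ModularForm.dimension_level_one 14 (by decide)
  have h2 : 14 ≡ 2 [MOD 12] := by decide
  rw [if_pos h2] at h
  have h3 : Module.rank ℂ (ModularForm 𝒮ℒ ((14 : ℕ) : ℤ)) = 1 := by
    rw [h]
    norm_num
  exact Module.finrank_eq_of_rank_eq (n := 1) (by rw [h3]; simp)

/-- `j` is not constant. -/
theorem exists_jInv_ne (c : ℂ) : ∃ z : ℍ, R4.jInv z ≠ c := by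
  obtain ⟨A, hA, hj⟩ := R4.jInv_growth
  -- pick `y` large
  obtain ⟨y, hy1, hy2⟩ : ∃ y : ℝ, A ≤ y ∧ 16 * (‖c‖ + 1) ≤ Real.exp (2 * π * y) := by
    have hpos : (0 : ℝ) < 2 * π := by positivity
    refine ⟨max A (16 * (‖c‖ + 1) / (2 * π)), le_max_left _ _, ?_⟩
    have h1 : 16 * (‖c‖ + 1) ≤ 2 * π * max A (16 * (‖c‖ + 1) / (2 * π)) := by
      have := le_max_right A (16 * (‖c‖ + 1) / (2 * π))
      calc 16 * (‖c‖ + 1) = 2 * π * (16 * (‖c‖ + 1) / (2 * π)) := by field_simp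
        _ ≤ 2 * π * max A (16 * (‖c‖ + 1) / (2 * π)) :=
            mul_le_mul_of_nonneg_left this hpos.le
    have h2 := Real.add_one_le_exp (2 * π * max A (16 * (‖c‖ + 1) / (2 * π)))
    linarith
  have hypos : 0 < y := lt_of_lt_of_le hA hy1
  refine ⟨⟨⟨0, y⟩, hypos⟩, fun h => ?_⟩
  have h1 := (hj ⟨⟨0, y⟩, hypos⟩ hy1).1
  rw [h] at h1
  have h2 : (⟨⟨0, y⟩, hypos⟩ : ℍ).im = y := rfl
  rw [h2] at h1
  have : ‖c‖ + 1 ≤ ‖c‖ := by linarith
  linarith

theorem differentiableOn_jC : DifferentiableOn ℂ jC {w : ℂ | 0 < w.im} :=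
  UpperHalfPlane.mdifferentiable_iff.mp R4.mdifferentiable_jInv

/-- **The derivative of `j`**: `j' Δ = c E₄² E₆` with `c ≠ 0`. -/
theorem exists_deriv_jC_mul_discriminant :
    ∃ c : ℂ, c ≠ 0 ∧ ∀ z : ℍ, deriv jC z * Δ z = c * E₄ z ^ 2 * E₆ z := by
  obtain ⟨c, hc⟩ := exists_smul_eq_of_finrank_eq_one finrank_weight_fourteen
    E4sqE6Form_ne_zero DjDeltaForm
  have hcz : ∀ z : ℍ, c * (E₄ z ^ 2 * E₆ z) = D R4.jInv z * Δ z := by
    intro z
    have := DFunLike.congr_fun hc z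
    rw [_root_.smul_apply, E4sqE6Form_apply, DjDeltaForm_apply, smul_eq_mul] at this
    exact this
  have h2pi : (2 * π * Complex.I : ℂ) ≠ 0 := by
    simp [Real.pi_ne_zero]
  have hD : ∀ z : ℍ, deriv jC z = (2 * π * Complex.I) * D R4.jInv z := by
    intro z
    rw [normalizedDerivOfComplex, ← mul_assoc, mul_inv_cancel₀ h2pi, one_mul]
    rfl
  refine ⟨2 * π * Complex.I * c, ?_, fun z => ?_⟩
  · refine mul_ne_zero h2pi ?_
    rintro rfl
    -- then `D j = 0`, so `j` is constant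
    have hder : Set.EqOn (deriv jC) 0 {w : ℂ | 0 < w.im} := by
      intro w hw
      have h1 := hcz ⟨w, hw⟩
      rw [zero_mul] at h1
      have h2 : D R4.jInv ⟨w, hw⟩ = 0 :=
        (mul_eq_zero.mp h1.symm).resolve_right (discriminant_ne_zero _)
      have h3 := hD ⟨w, hw⟩
      rw [h2, mul_zero] at h3
      exact h3
    obtain ⟨z, hz⟩ := exists_jInv_ne (R4.jInv UpperHalfPlane.I)
    have := isOpen_upperHalfPlaneSet.is_const_of_deriv_eq_zero
      (convex_halfSpace_im_gt 0).isPreconnected differentiableOn_jC hder z.im_pos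
      (UpperHalfPlane.I).im_pos
    rw [jC_coe, jC_coe] at this
    exact hz this
  · rw [hD z, mul_assoc, mul_assoc, mul_assoc, ← hcz z]
    ring


/-! ### Local degree -/

/-- A holomorphic function on `ℍ`, composed with `ofComplex`, is analytic at points of `ℍ`. -/
theorem analyticAt_comp_ofComplex {F : ℍ → ℂ} (hF : MDifferentiable 𝓘(ℂ) 𝓘(ℂ) F) (z : ℍ) :
    AnalyticAt ℂ (F ∘ ofComplex) (z : ℂ) :=
  (UpperHalfPlane.mdifferentiable_iff.mp hF).analyticAt
    (isOpen_upperHalfPlaneSet.mem_nhds z.im_pos)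

theorem analyticAt_jC (z : ℍ) : AnalyticAt ℂ jC (z : ℂ) :=
  analyticAt_comp_ofComplex R4.mdifferentiable_jInv z

theorem analyticAt_E4C (z : ℍ) : AnalyticAt ℂ ((E₄ : ℍ → ℂ) ∘ ofComplex) (z : ℂ) :=
  analyticAt_comp_ofComplex (ModularFormClass.holo E₄) z

theorem analyticAt_E6C (z : ℍ) : AnalyticAt ℂ ((E₆ : ℍ → ℂ) ∘ ofComplex) (z : ℂ) :=
  analyticAt_comp_ofComplex (ModularFormClass.holo E₆) z

theorem analyticAt_discriminantC (z : ℍ) : AnalyticAt ℂ ((Δ : ℍ → ℂ) ∘ ofComplex) (z : ℂ) :=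
  analyticAt_comp_ofComplex mdifferentiable_discriminant z

theorem analyticOrderAt_discriminantC (z : ℍ) :
    analyticOrderAt ((Δ : ℍ → ℂ) ∘ ofComplex) (z : ℂ) = 0 := by
  rw [(analyticAt_discriminantC z).analyticOrderAt_eq_zero]
  simp only [Function.comp_apply, ofComplex_apply]
  exact discriminant_ne_zero z

/-- The local degree of `j` at `z₀` is finite (`j` is not constant). -/
theorem analyticOrderAt_jC_sub_ne_top (z₀ : ℍ) :
    analyticOrderAt (fun w => jC w - jC z₀) (z₀ : ℂ) ≠ ⊤ := by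
  intro h
  rw [analyticOrderAt_eq_top] at h
  have hj : AnalyticOnNhd ℂ jC {w : ℂ | 0 < w.im} :=
    differentiableOn_jC.analyticOnNhd isOpen_upperHalfPlaneSet
  have hc : AnalyticOnNhd ℂ (fun _ : ℂ => jC z₀) {w : ℂ | 0 < w.im} :=
    fun _ _ => analyticAt_const
  have hev : jC =ᶠ[𝓝 (z₀ : ℂ)] fun _ => jC z₀ := by
    filter_upwards [h] with w hw using sub_eq_zero.mp hw
  have heq := hj.eqOn_of_preconnected_of_eventuallyEq hc
    (convex_halfSpace_im_gt 0).isPreconnected z₀.im_pos hev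
  obtain ⟨z, hz⟩ := exists_jInv_ne (jC z₀)
  apply hz
  have := heq z.im_pos
  rwa [jC_coe] at this

/-- **Local degree formula**: `ord_{z₀} (j - j(z₀)) = 2 ord_{z₀} E₄ + ord_{z₀} E₆ + 1`. -/
theorem analyticOrderAt_jC_sub (z₀ : ℍ) :
    analyticOrderAt (fun w => jC w - jC z₀) (z₀ : ℂ) =
      2 * analyticOrderAt ((E₄ : ℍ → ℂ) ∘ ofComplex) (z₀ : ℂ) +
        analyticOrderAt ((E₆ : ℍ → ℂ) ∘ ofComplex) (z₀ : ℂ) + 1 := by
  obtain ⟨c, hc0, hc⟩ := exists_deriv_jC_mul_discriminant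
  rw [← (analyticAt_jC z₀).analyticOrderAt_deriv_add_one]
  congr 1
  have hev : deriv jC * ((Δ : ℍ → ℂ) ∘ ofComplex) =ᶠ[𝓝 (z₀ : ℂ)]
      (fun _ => c) * ((E₄ : ℍ → ℂ) ∘ ofComplex) ^ 2 * ((E₆ : ℍ → ℂ) ∘ ofComplex) := by
    filter_upwards [isOpen_upperHalfPlaneSet.mem_nhds z₀.im_pos] with w hw
    have := hc ⟨w, hw⟩
    simp only [Pi.mul_apply, Pi.pow_apply, Function.comp_apply]
    rw [ofComplex_apply_of_im_pos hw]
    exact this
  have h1 := analyticOrderAt_congr hev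
  have hd : AnalyticAt ℂ (deriv jC) (z₀ : ℂ) := (analyticAt_jC z₀).deriv
  have hconst : AnalyticAt ℂ (fun _ : ℂ => c) (z₀ : ℂ) := analyticAt_const
  have hconst0 : analyticOrderAt (fun _ : ℂ => c) (z₀ : ℂ) = 0 := by
    rw [hconst.analyticOrderAt_eq_zero]
    exact hc0
  rw [analyticOrderAt_mul hd (analyticAt_discriminantC z₀), analyticOrderAt_discriminantC,
    add_zero, analyticOrderAt_mul (hconst.mul ((analyticAt_E4C z₀).pow 2)) (analyticAt_E6C z₀),
    analyticOrderAt_mul hconst ((analyticAt_E4C z₀).pow 2), hconst0, zero_add,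
    analyticOrderAt_pow (analyticAt_E4C z₀)] at h1
  rw [h1]
  simp

/-- `E₄` and `E₆` have no common zero. -/
theorem E4_ne_zero_or_E6_ne_zero (z : ℍ) : E₄ z ≠ 0 ∨ E₆ z ≠ 0 := by
  by_contra h
  simp only [not_or, not_not] at h
  have := discriminant_eq_E₄_cube_sub_E₆_sq z
  rw [h.1, h.2] at this
  simp at this
  exact discriminant_ne_zero z this

theorem jInv_eq_zero_iff (z : ℍ) : R4.jInv z = 0 ↔ E₄ z = 0 := by
  rw [R4.jInv_def, div_eq_zero_iff]
  simp [discriminant_ne_zero z]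

theorem jInv_eq_1728_iff (z : ℍ) : R4.jInv z = 1728 ↔ E₆ z = 0 := by
  have h := R1.E₆_sq_eq z
  rw [jInv_R1_eq_R4] at h
  constructor
  · intro hj
    rw [hj, sub_self, zero_mul] at h
    exact pow_eq_zero_iff (two_ne_zero) |>.mp h
  · intro h6
    rw [h6] at h
    have : R4.jInv z - 1728 = 0 := by
      have h' : (R4.jInv z - 1728) * Δ z = 0 := by rw [← h]; ring
      exact (mul_eq_zero.mp h').resolve_right (discriminant_ne_zero z)
    exact sub_eq_zero.mp this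

/-- Away from the zeros of `E₄` and `E₆` the function `j` is locally injective: `e = 1`. -/
theorem analyticOrderAt_jC_sub_eq_one (z₀ : ℍ) (h4 : E₄ z₀ ≠ 0) (h6 : E₆ z₀ ≠ 0) :
    analyticOrderAt (fun w => jC w - jC z₀) (z₀ : ℂ) = 1 := by
  rw [analyticOrderAt_jC_sub]
  have e4 : analyticOrderAt ((E₄ : ℍ → ℂ) ∘ ofComplex) (z₀ : ℂ) = 0 := by
    rw [(analyticAt_E4C z₀).analyticOrderAt_eq_zero]
    simpa [ofComplex_apply] using h4
  have e6 : analyticOrderAt ((E₆ : ℍ → ℂ) ∘ ofComplex) (z₀ : ℂ) = 0 := by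
    rw [(analyticAt_E6C z₀).analyticOrderAt_eq_zero]
    simpa [ofComplex_apply] using h6
  rw [e4, e6]
  simp

/-- At a zero of `E₄` (i.e. where `j = 0`): `E₄` has a simple zero and `e = 3`. -/
theorem analyticOrderAt_of_E4_eq_zero (z₀ : ℍ) (h4 : E₄ z₀ = 0) :
    analyticOrderAt ((E₄ : ℍ → ℂ) ∘ ofComplex) (z₀ : ℂ) = 1 ∧
      analyticOrderAt (fun w => jC w - jC z₀) (z₀ : ℂ) = 3 := by
  have h6 : E₆ z₀ ≠ 0 := (E4_ne_zero_or_E6_ne_zero z₀).resolve_left (not_not.mpr h4)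
  have e6 : analyticOrderAt ((E₆ : ℍ → ℂ) ∘ ofComplex) (z₀ : ℂ) = 0 := by
    rw [(analyticAt_E6C z₀).analyticOrderAt_eq_zero]
    simpa [ofComplex_apply] using h6
  have hform := analyticOrderAt_jC_sub z₀
  rw [e6, add_zero] at hform
  -- second computation of the order: `j Δ = E₄ ^ 3`
  have hj0 : jC z₀ = 0 := by rw [jC_coe]; exact (jInv_eq_zero_iff z₀).mpr h4
  have hev : (fun w => jC w - jC z₀) * ((Δ : ℍ → ℂ) ∘ ofComplex) =ᶠ[𝓝 (z₀ : ℂ)]
      ((E₄ : ℍ → ℂ) ∘ ofComplex) ^ 3 := by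
    filter_upwards with w
    simp only [Pi.mul_apply, Pi.pow_apply, Function.comp_apply]
    rw [hj0, sub_zero]
    exact R1.jInv_mul_discriminant (ofComplex w)
  have h2 := analyticOrderAt_congr hev
  have hsub : AnalyticAt ℂ (fun w => jC w - jC z₀) (z₀ : ℂ) :=
    (analyticAt_jC z₀).sub analyticAt_const
  rw [analyticOrderAt_mul hsub (analyticAt_discriminantC z₀), analyticOrderAt_discriminantC,
    add_zero, analyticOrderAt_pow (analyticAt_E4C z₀)] at h2
  have hne := analyticOrderAt_jC_sub_ne_top z₀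
  -- arithmetic in `ℕ∞`
  set a := analyticOrderAt ((E₄ : ℍ → ℂ) ∘ ofComplex) (z₀ : ℂ) with ha
  set e := analyticOrderAt (fun w => jC w - jC z₀) (z₀ : ℂ) with he
  have hatop : a ≠ ⊤ := by
    intro hat
    rw [hat] at h2
    simp at h2
    exact hne h2
  lift a to ℕ using hatop with a' ha'
  lift e to ℕ using hne with e' he'
  have h2' : e' = 3 * a' := by
    have : ((e' : ℕ) : ℕ∞) = ((3 * a' : ℕ) : ℕ∞) := by
      rw [h2]; push_cast; simp
    exact_mod_cast this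
  have h1' : e' = 2 * a' + 1 := by
    have : ((e' : ℕ) : ℕ∞) = ((2 * a' + 1 : ℕ) : ℕ∞) := by
      rw [hform]; push_cast; rfl
    exact_mod_cast this
  have ha1 : a' = 1 := by omega
  subst ha1
  refine ⟨by simp, ?_⟩
  have : e' = 3 := by omega
  rw [this]
  rfl

/-- At a zero of `E₆` (i.e. where `j = 1728`): `E₆` has a simple zero and `e = 2`. -/
theorem analyticOrderAt_of_E6_eq_zero (z₀ : ℍ) (h6 : E₆ z₀ = 0) :
    analyticOrderAt ((E₆ : ℍ → ℂ) ∘ ofComplex) (z₀ : ℂ) = 1 ∧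
      analyticOrderAt (fun w => jC w - jC z₀) (z₀ : ℂ) = 2 := by
  have h4 : E₄ z₀ ≠ 0 := (E4_ne_zero_or_E6_ne_zero z₀).resolve_right (not_not.mpr h6)
  have e4 : analyticOrderAt ((E₄ : ℍ → ℂ) ∘ ofComplex) (z₀ : ℂ) = 0 := by
    rw [(analyticAt_E4C z₀).analyticOrderAt_eq_zero]
    simpa [ofComplex_apply] using h4
  have hform := analyticOrderAt_jC_sub z₀
  rw [e4, mul_zero, zero_add] at hform
  have hj0 : jC z₀ = 1728 := by rw [jC_coe]; exact (jInv_eq_1728_iff z₀).mpr h6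
  have hev : (fun w => jC w - jC z₀) * ((Δ : ℍ → ℂ) ∘ ofComplex) =ᶠ[𝓝 (z₀ : ℂ)]
      ((E₆ : ℍ → ℂ) ∘ ofComplex) ^ 2 := by
    filter_upwards with w
    simp only [Pi.mul_apply, Pi.pow_apply, Function.comp_apply]
    rw [hj0]
    exact (R1.E₆_sq_eq (ofComplex w)).symm
  have h2 := analyticOrderAt_congr hev
  have hsub : AnalyticAt ℂ (fun w => jC w - jC z₀) (z₀ : ℂ) :=
    (analyticAt_jC z₀).sub analyticAt_const
  rw [analyticOrderAt_mul hsub (analyticAt_discriminantC z₀), analyticOrderAt_discriminantC,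
    add_zero, analyticOrderAt_pow (analyticAt_E6C z₀)] at h2
  have hne := analyticOrderAt_jC_sub_ne_top z₀
  set b := analyticOrderAt ((E₆ : ℍ → ℂ) ∘ ofComplex) (z₀ : ℂ) with hb
  set e := analyticOrderAt (fun w => jC w - jC z₀) (z₀ : ℂ) with he
  have hbtop : b ≠ ⊤ := by
    intro hbt
    rw [hbt] at h2
    simp at h2
    exact hne h2
  lift b to ℕ using hbtop with b' hb'
  lift e to ℕ using hne with e' he'
  have h2' : e' = 2 * b' := by
    have : ((e' : ℕ) : ℕ∞) = ((2 * b' : ℕ) : ℕ∞) := by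
      rw [h2]; push_cast; simp
    exact_mod_cast this
  have h1' : e' = b' + 1 := by
    have : ((e' : ℕ) : ℕ∞) = ((b' + 1 : ℕ) : ℕ∞) := by
      rw [hform]; push_cast; rfl
    exact_mod_cast this
  have hb1 : b' = 1 := by omega
  subst hb1
  refine ⟨by simp, ?_⟩
  have : e' = 2 := by omega
  rw [this]
  rfl


/-! ### Special points -/

/-- `S` fixes `i`. -/
theorem S_smul_I : ModularGroup.S • UpperHalfPlane.I = UpperHalfPlane.I := by
  rw [UpperHalfPlane.modular_S_smul]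
  ext
  simp [UpperHalfPlane.I]

/-- `E₆ (i) = 0`. -/
theorem E6_I : E₆ UpperHalfPlane.I = 0 := by
  have h := R1.level_one_smul_eq E₆ ModularGroup.S UpperHalfPlane.I
  rw [S_smul_I, ModularGroup.denom_S] at h
  have h6 : ((UpperHalfPlane.I : ℍ) : ℂ) ^ (6 : ℤ) = -1 := by
    have : ((UpperHalfPlane.I : ℍ) : ℂ) = Complex.I := rfl
    rw [this]
    have h2 : (Complex.I) ^ (6 : ℤ) = (Complex.I ^ 2) ^ 3 := by
      rw [← pow_mul]
      norm_cast
    rw [h2, Complex.I_sq]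
    norm_num
  rw [h6] at h
  have h2 : (2 : ℂ) * E₆ UpperHalfPlane.I = 0 := by linear_combination h
  exact (mul_eq_zero.mp h2).resolve_left two_ne_zero

/-- `j (i) = 1728`. -/
theorem jInv_I : R4.jInv UpperHalfPlane.I = 1728 := (jInv_eq_1728_iff _).mpr E6_I

/-- The point `ρ = (-1 + i √3) / 2`. -/
noncomputable def rho : ℍ := ⟨⟨-1 / 2, Real.sqrt 3 / 2⟩, by
  show 0 < Real.sqrt 3 / 2
  positivity⟩

theorem coe_rho : ((rho : ℍ) : ℂ) = ⟨-1 / 2, Real.sqrt 3 / 2⟩ := rfl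

theorem rho_sq_add : ((rho : ℍ) : ℂ) ^ 2 + (rho : ℂ) + 1 = 0 := by
  have h3 : Real.sqrt 3 * Real.sqrt 3 = 3 := Real.mul_self_sqrt (by norm_num)
  rw [coe_rho]
  apply Complex.ext
  · simp only [pow_two, Complex.add_re, Complex.mul_re, Complex.one_re, Complex.zero_re]
    nlinarith
  · simp only [pow_two, Complex.add_im, Complex.mul_im, Complex.one_im, Complex.zero_im]
    nlinarith

/-- The matrix entries of `S * T`. -/
theorem ST_entries : (ModularGroup.S * ModularGroup.T) 0 0 = 0 ∧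
    (ModularGroup.S * ModularGroup.T) 0 1 = -1 ∧ (ModularGroup.S * ModularGroup.T) 1 0 = 1 ∧
    (ModularGroup.S * ModularGroup.T) 1 1 = 1 := by
  decide

/-- `S * T` fixes `ρ`. -/
theorem ST_smul_rho : (ModularGroup.S * ModularGroup.T) • rho = rho := by
  apply UpperHalfPlane.ext
  rw [R4.coe_smul_SL]
  have hne := R4.cz_add_d_ne_zero (ModularGroup.S * ModularGroup.T) rho
  obtain ⟨h00, h01, h10, h11⟩ := ST_entries
  rw [h10, h11] at hne
  rw [h00, h01, h10, h11]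
  have h := rho_sq_add
  simp only [Int.cast_zero, Int.cast_one, Int.cast_neg, zero_mul, zero_add, one_mul] at hne ⊢
  rw [div_eq_iff hne]
  linear_combination -h

/-- `E₄ (ρ) = 0`. -/
theorem E4_rho : E₄ rho = 0 := by
  have h := R4.smul_eq_of_SL E₄ (ModularGroup.S * ModularGroup.T) rho
  obtain ⟨-, -, h10, h11⟩ := ST_entries
  rw [ST_smul_rho, h10, h11] at h
  simp only [Int.cast_one, one_mul] at h
  have hr := rho_sq_add
  -- `(ρ + 1) ^ 4 = ρ ^ 2`
  have h4 : (((rho : ℍ) : ℂ) + 1) ^ (4 : ℤ) = (rho : ℂ) ^ 2 := by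
    have e : (((rho : ℍ) : ℂ) + 1) ^ (4 : ℤ) = (((rho : ℍ) : ℂ) + 1) ^ 4 := by norm_cast
    rw [e]
    linear_combination ((rho : ℂ) ^ 2 + 3 * (rho : ℂ) + 1) * hr
  rw [h4] at h
  -- `1 - ρ ^ 2 ≠ 0`
  have hne : (1 : ℂ) - (rho : ℂ) ^ 2 ≠ 0 := by
    intro h0
    have h1 : ((rho : ℍ) : ℂ) ^ 2 = 1 := by linear_combination -h0
    have h2 : ((rho : ℍ) : ℂ) = -2 := by linear_combination hr - h1
    have h3 : ((rho : ℍ) : ℂ).re = -2 := by rw [h2]; simp
    rw [coe_rho] at h3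
    norm_num at h3
  have h5 : (1 - ((rho : ℍ) : ℂ) ^ 2) * E₄ rho = 0 := by linear_combination h
  exact (mul_eq_zero.mp h5).resolve_left hne

/-- `j (ρ) = 0`. -/
theorem jInv_rho : R4.jInv rho = 0 := (jInv_eq_zero_iff _).mpr E4_rho

/-- The local degree of `j` at `ρ` is `3`. -/
theorem analyticOrderAt_jC_rho : analyticOrderAt (fun w => jC w - jC rho) (rho : ℂ) = 3 :=
  (analyticOrderAt_of_E4_eq_zero rho E4_rho).2

/-- The local degree of `j` at `i` is `2`. -/
theorem analyticOrderAt_jC_I :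
    analyticOrderAt (fun w => jC w - jC UpperHalfPlane.I) (UpperHalfPlane.I : ℂ) = 2 :=
  (analyticOrderAt_of_E6_eq_zero UpperHalfPlane.I E6_I).2

/-- The local degree of `j` at a point where `j ≠ 0, 1728` is `1`. -/
theorem analyticOrderAt_jC_of_ne (z₀ : ℍ) (h0 : R4.jInv z₀ ≠ 0) (h1 : R4.jInv z₀ ≠ 1728) :
    analyticOrderAt (fun w => jC w - jC z₀) (z₀ : ℂ) = 1 :=
  analyticOrderAt_jC_sub_eq_one z₀ (fun h => h0 ((jInv_eq_zero_iff z₀).mpr h))
    (fun h => h1 ((jInv_eq_1728_iff z₀).mpr h))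

/-! ### Surjectivity of `j` -/

/-- **`j : ℍ → ℂ` is surjective.** -/
theorem jInv_surjective : Function.Surjective R4.jInv := by
  intro c
  by_contra hcon
  simp only [not_exists] at hcon
  have hne : ∀ z : ℍ, R4.jInv z - c ≠ 0 := fun z h => hcon z (sub_eq_zero.mp h)
  set h : ℍ → ℂ := fun z => (R4.jInv z - c)⁻¹ with hh
  have hjc : MDifferentiable 𝓘(ℂ) 𝓘(ℂ) (fun z => R4.jInv z - c) :=
    R4.mdifferentiable_jInv.sub mdifferentiable_const
  have hhol : MDifferentiable 𝓘(ℂ) 𝓘(ℂ) h := hjc.inv hne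
  have hinv : ∀ γ : SL(2, ℤ), h ∣[(0 : ℤ)] γ = h := by
    intro γ
    ext z
    rw [SL_slash_apply]
    simp only [hh, neg_zero, zpow_zero, mul_one, R4.jInv_smul]
  have hbdd : IsBoundedAtImInfty h := by
    rw [isBoundedAtImInfty_iff]
    obtain ⟨A, hA, hj⟩ := R4.jInv_growth
    refine ⟨1, max A ((16 * (‖c‖ + 1)) / (2 * π)), fun z hz => ?_⟩
    have hz1 : A ≤ z.im := (le_max_left _ _).trans hz
    have hz2 : (16 * (‖c‖ + 1)) / (2 * π) ≤ z.im := (le_max_right _ _).trans hz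
    have hpos : (0 : ℝ) < 2 * π := by positivity
    have h1 : 16 * (‖c‖ + 1) ≤ 2 * π * z.im := by
      calc 16 * (‖c‖ + 1) = 2 * π * (16 * (‖c‖ + 1) / (2 * π)) := by field_simp
        _ ≤ 2 * π * z.im := mul_le_mul_of_nonneg_left hz2 hpos.le
    have h2 := Real.add_one_le_exp (2 * π * z.im)
    have h3 := (hj z hz1).1
    have h4 : ‖c‖ + 1 ≤ ‖R4.jInv z‖ := by linarith
    have h5 : 1 ≤ ‖R4.jInv z - c‖ := by
      have := norm_sub_norm_le (R4.jInv z) c
      linarith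
    simp only [hh, norm_inv]
    exact inv_le_one_of_one_le₀ h5
  let F : ModularForm 𝒮ℒ 0 :=
    { toFun := h
      slash_action_eq' := by
        intro γ hγ
        obtain ⟨γ', rfl⟩ := hγ
        have := hinv γ'
        rw [SL_slash] at this
        exact this
      holo' := hhol
      bdd_at_cusps' := by
        intro c' hc'
        rw [OnePoint.isBoundedAt_iff_forall_SL2Z hc']
        intro γ _
        rw [hinv γ]
        exact hbdd }
  obtain ⟨c', hc'⟩ := ModularFormClass.levelOne_weight_zero_const F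
  have hF : ∀ z : ℍ, (R4.jInv z - c)⁻¹ = c' := fun z => congrFun hc' z
  obtain ⟨z, hz⟩ := exists_jInv_ne (R4.jInv UpperHalfPlane.I)
  apply hz
  have e1 := hF z
  have e2 := hF UpperHalfPlane.I
  have e3 : R4.jInv z - c = R4.jInv UpperHalfPlane.I - c := by
    rw [← inv_inv (R4.jInv z - c), e1, ← e2, inv_inv]
  linear_combination e3

end Fermat.Agent.S24.G1
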