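import Mathlib.NumberTheory.ModularForms.QExpansion
import Mathlib.RingTheory.LaurentSeries
import Mathlib.Tactic

/-!
# S24 G4.1 (helper12): Laurent expansion at the cusp `i∞` as a ring homomorphism

For a real period `h > 0` we consider functions `x : ℍ → ℂ` which are `h`-periodic, holomorphic
and of moderate growth at `i∞` (some `x * q_h ^ m` is bounded, `q_h = exp (2πi z / h)`).
`laurentExp h x : LaurentSeries ℂ` is the Laurent expansion of `x` in the parameter `q_h`.
It is additive, multiplicative, injective, and its order detects boundedness.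
-/

set_option autoImplicit false

namespace Fermat.Agent.S24.G4

open UpperHalfPlane Filter Topology Function

open scoped Manifold

/-- The function `z ↦ exp (2πi z / h)` on the upper half plane. -/
noncomputable def qFun (h : ℝ) : ℍ → ℂ := fun z => Periodic.qParam h (z : ℂ)

theorem qFun_apply (h : ℝ) (z : ℍ) : qFun h z = Periodic.qParam h (z : ℂ) := rfl

theorem qFun_ne_zero (h : ℝ) (z : ℍ) : qFun h z ≠ 0 := Periodic.qParam_ne_zero _

/-- Functions on `ℍ` with period `h`, holomorphic and bounded at `i∞`. -/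
structure Nice (h : ℝ) (x : ℍ → ℂ) : Prop where
  periodic : Periodic (x ∘ ofComplex) h
  holo : MDiff x
  bdd : IsBoundedAtImInfty x

namespace Nice

variable {h : ℝ} {x y : ℍ → ℂ}

lemma analyticAt (hh : 0 < h) (hx : Nice h x) : AnalyticAt ℂ (cuspFunction h x) 0 :=
  analyticAt_cuspFunction_zero hh hx.periodic hx.holo hx.bdd

lemma const (h : ℝ) (c : ℂ) : Nice h (fun _ : ℍ => c) :=
  ⟨fun _ => rfl, mdifferentiable_const, Filter.const_boundedAtFilter _ c⟩

lemma zero (h : ℝ) : Nice h (0 : ℍ → ℂ) := const h 0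

lemma one (h : ℝ) : Nice h (1 : ℍ → ℂ) := const h 1

lemma add (hx : Nice h x) (hy : Nice h y) : Nice h (x + y) :=
  ⟨fun w => by
      have h1 := hx.periodic w
      have h2 := hy.periodic w
      simp only [Function.comp_apply, Pi.add_apply] at h1 h2 ⊢
      rw [h1, h2],
    hx.holo.add hy.holo, hx.bdd.add hy.bdd⟩

lemma mul (hx : Nice h x) (hy : Nice h y) : Nice h (x * y) :=
  ⟨fun w => by
      have h1 := hx.periodic w
      have h2 := hy.periodic w
      simp only [Function.comp_apply, Pi.mul_apply] at h1 h2 ⊢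
      rw [h1, h2],
    hx.holo.mul hy.holo, hx.bdd.mul hy.bdd⟩

lemma smul (c : ℂ) (hx : Nice h x) : Nice h (c • x) := (const h c).mul hx

lemma neg (hx : Nice h x) : Nice h (-x) := by
  have := hx.smul (-1)
  simpa using this

lemma sub (hx : Nice h x) (hy : Nice h y) : Nice h (x - y) := by
  rw [sub_eq_add_neg]
  exact hx.add hy.neg

lemma pow (hx : Nice h x) (n : ℕ) : Nice h (x ^ n) := by
  induction n with
  | zero => simpa using one h
  | succ n ih => rw [pow_succ]; exact ih.mul hx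

end Nice

/-- periodicity of `x ∘ ofComplex` from invariance of `x` under the translation by `h`. -/
theorem periodic_comp_ofComplex_of_vadd {h : ℝ} {x : ℍ → ℂ} (hx : ∀ z : ℍ, x (h +ᵥ z) = x z) :
    Periodic (x ∘ ofComplex) h := by
  intro w
  by_cases! hw : 0 < Complex.im w
  · have : 0 < Complex.im (w + h) := by simp [hw]
    simp only [comp_apply, ofComplex_apply_of_im_pos this, ofComplex_apply_of_im_pos hw]
    rw [← hx ⟨w, hw⟩]
    congr 1
    ext
    simp [add_comm]
  · have : Complex.im (w + h) ≤ 0 := by simpa using hw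
    simp [ofComplex_apply_of_im_nonpos this, ofComplex_apply_of_im_nonpos hw]

/-- invariance of `x` under the translation by `h` from periodicity of `x ∘ ofComplex`. -/
theorem vadd_of_periodic_comp_ofComplex {h : ℝ} {x : ℍ → ℂ} (hx : Periodic (x ∘ ofComplex) h)
    (z : ℍ) : x (h +ᵥ z) = x z := by
  have h1 := hx (z : ℂ)
  simp only [comp_apply, ofComplex_apply] at h1
  rw [← h1]
  congr 1
  have h2 : ((z : ℂ) + (h : ℂ)) = ((h +ᵥ z : ℍ) : ℂ) := by simp [add_comm]
  rw [h2, ofComplex_apply]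

theorem qFun_vadd {h : ℝ} (hh : h ≠ 0) (z : ℍ) : qFun h (h +ᵥ z) = qFun h z := by
  simp only [qFun, Periodic.qParam, UpperHalfPlane.coe_vadd]
  have h1 : 2 * (Real.pi : ℂ) * Complex.I * ((h : ℂ) + (z : ℂ)) / (h : ℂ) =
      2 * (Real.pi : ℂ) * Complex.I * (z : ℂ) / (h : ℂ) + 2 * (Real.pi : ℂ) * Complex.I := by
    have : (h : ℂ) ≠ 0 := by exact_mod_cast hh
    field_simp
    ring
  rw [h1, Complex.exp_add, Complex.exp_two_pi_mul_I, mul_one]

theorem norm_qFun (h : ℝ) (z : ℍ) : ‖qFun h z‖ = Real.exp (-2 * Real.pi * z.im / h) := by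
  simp [qFun, Periodic.norm_qParam]

theorem norm_qFun_lt_one {h : ℝ} (hh : 0 < h) (z : ℍ) : ‖qFun h z‖ < 1 :=
  Periodic.norm_qParam_lt_one hh z.im_pos

theorem mdifferentiable_qFun (h : ℝ) : MDiff (qFun h) := by
  intro z
  rw [UpperHalfPlane.mdifferentiableAt_iff]
  have h1 : DifferentiableAt ℂ (Periodic.qParam h) (z : ℂ) :=
    (Periodic.differentiable_qParam (h := h)).differentiableAt
  refine h1.congr_of_eventuallyEq ?_
  have hopen : IsOpen {w : ℂ | 0 < w.im} := isOpen_lt continuous_const Complex.continuous_im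
  filter_upwards [hopen.mem_nhds z.im_pos] with w hw
  simp [qFun, comp_apply, ofComplex_apply_of_im_pos hw]

theorem nice_qFun {h : ℝ} (hh : 0 < h) : Nice h (qFun h) := by
  refine ⟨periodic_comp_ofComplex_of_vadd (qFun_vadd hh.ne'), mdifferentiable_qFun h, ?_⟩
  rw [UpperHalfPlane.isBoundedAtImInfty_iff]
  refine ⟨1, 0, fun z _ => (norm_qFun_lt_one hh z).le⟩

/-- function-level uniqueness of `q`-expansion coefficients. -/
theorem qExpansion_coeff_unique_fun {h : ℝ} {f : ℍ → ℂ} {c : ℕ → ℂ} (hh : 0 < h)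
    (hfanalytic : AnalyticAt ℂ (cuspFunction h f) 0)
    (hf : ∀ τ : ℍ, HasSum (fun m ↦ c m • Periodic.qParam h (τ : ℂ) ^ m) (f τ)) (m : ℕ) :
    c m = (qExpansion h f).coeff m := by
  have h1 := (hasFPowerSeriesOnBall_cuspFunction hh hfanalytic hf).hasFPowerSeriesAt
  have h2 := hfanalytic.hasFPowerSeriesAt
  have h3 := congr_arg (FormalMultilinearSeries.coeff · m) (h1.eq_formalMultilinearSeries h2)
  simp only [FormalMultilinearSeries.coeff_ofScalars] at h3
  rw [h3, qExpansion_coeff, div_eq_inv_mul]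

theorem qExpansion_eq_of_hasSum {h : ℝ} {f : ℍ → ℂ} {p : PowerSeries ℂ} (hh : 0 < h)
    (hf : Nice h f)
    (hsum : ∀ τ : ℍ, HasSum (fun m ↦ p.coeff m • Periodic.qParam h (τ : ℂ) ^ m) (f τ)) :
    qExpansion h f = p := by
  ext m
  exact (qExpansion_coeff_unique_fun hh (hf.analyticAt hh) hsum m).symm

theorem qExpansion_qFun {h : ℝ} (hh : 0 < h) : qExpansion h (qFun h) = PowerSeries.X := by
  refine qExpansion_eq_of_hasSum hh (nice_qFun hh) fun τ => ?_
  have := hasSum_ite_eq (1 : ℕ) (Periodic.qParam h (τ : ℂ) ^ 1)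
  simp only [pow_one] at this
  rw [qFun_apply]
  convert this using 2 with n
  by_cases hn : n = 1
  · simp [hn, PowerSeries.coeff_X]
  · simp [hn, PowerSeries.coeff_X]

/-! ## Moderate growth and the Laurent expansion -/

/-- Functions on `ℍ` with period `h`, holomorphic, of moderate growth at `i∞`. -/
structure MG (h : ℝ) (x : ℍ → ℂ) : Prop where
  periodic : Periodic (x ∘ ofComplex) h
  holo : MDiff x
  growth : ∃ m : ℕ, IsBoundedAtImInfty (x * qFun h ^ m)

theorem Nice.mg {h : ℝ} {x : ℍ → ℂ} (hx : Nice h x) : MG h x :=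
  ⟨hx.periodic, hx.holo, ⟨0, by simpa using hx.bdd⟩⟩

theorem MG.nice_mul {h : ℝ} {x : ℍ → ℂ} (hh : 0 < h) (hx : MG h x) {m : ℕ}
    (hm : IsBoundedAtImInfty (x * qFun h ^ m)) : Nice h (x * qFun h ^ m) := by
  refine ⟨?_, hx.holo.mul ((nice_qFun hh).pow m).holo, hm⟩
  intro w
  have h1 := hx.periodic w
  have h2 := ((nice_qFun hh).pow m).periodic w
  simp only [Function.comp_apply, Pi.mul_apply] at h1 h2 ⊢
  rw [h1, h2]

theorem MG.bdd_add {h : ℝ} {x : ℍ → ℂ} (hh : 0 < h) {m : ℕ}
    (hm : IsBoundedAtImInfty (x * qFun h ^ m)) (k : ℕ) :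
    IsBoundedAtImInfty (x * qFun h ^ (m + k)) := by
  have h1 : x * qFun h ^ (m + k) = (x * qFun h ^ m) * qFun h ^ k := by
    rw [pow_add, mul_assoc]
  rw [h1]
  exact hm.mul ((nice_qFun hh).pow k).bdd

theorem MG.bdd_of_le {h : ℝ} {x : ℍ → ℂ} (hh : 0 < h) {m m' : ℕ}
    (hm : IsBoundedAtImInfty (x * qFun h ^ m)) (hmm : m ≤ m') :
    IsBoundedAtImInfty (x * qFun h ^ m') := by
  obtain ⟨k, rfl⟩ := Nat.exists_eq_add_of_le hmm
  exact MG.bdd_add hh hm k

/-- The Laurent expansion computed with the gauge `q ^ m`. -/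
noncomputable def laurentExpAux (h : ℝ) (m : ℕ) (x : ℍ → ℂ) : LaurentSeries ℂ :=
  HahnSeries.single (-(m : ℤ)) (1 : ℂ) * HahnSeries.ofPowerSeries ℤ ℂ (qExpansion h (x * qFun h ^ m))

theorem qExpansion_qFun_pow {h : ℝ} (hh : 0 < h) (k : ℕ) :
    qExpansion h (qFun h ^ k) = PowerSeries.X ^ k := by
  induction k with
  | zero => simpa using qExpansion_one h
  | succ k ih =>
    rw [pow_succ, qExpansion_mul (((nice_qFun hh).pow k).analyticAt hh)
      ((nice_qFun hh).analyticAt hh), ih, qExpansion_qFun hh, pow_succ]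

theorem laurentExpAux_add {h : ℝ} {x : ℍ → ℂ} (hh : 0 < h) {m : ℕ}
    (hx : Nice h (x * qFun h ^ m)) (k : ℕ) :
    laurentExpAux h (m + k) x = laurentExpAux h m x := by
  unfold laurentExpAux
  have h1 : x * qFun h ^ (m + k) = (x * qFun h ^ m) * qFun h ^ k := by
    rw [pow_add, mul_assoc]
  rw [h1, qExpansion_mul (hx.analyticAt hh) (((nice_qFun hh).pow k).analyticAt hh),
    qExpansion_qFun_pow hh, map_mul, map_pow, HahnSeries.ofPowerSeries_X, HahnSeries.single_pow]
  have h2 : HahnSeries.single (-((m + k : ℕ) : ℤ)) (1 : ℂ) =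
      HahnSeries.single (-(m : ℤ)) (1 : ℂ) * HahnSeries.single (-(k : ℤ)) (1 : ℂ) := by
    rw [HahnSeries.single_mul_single]
    have h4 : (-((m + k : ℕ) : ℤ)) = -(m : ℤ) + -(k : ℤ) := by push_cast; ring
    rw [h4, mul_one]
  rw [h2]
  have h3 : HahnSeries.single (-(k : ℤ)) (1 : ℂ) * HahnSeries.single (k • (1 : ℤ)) ((1 : ℂ) ^ k)
      = 1 := by
    rw [HahnSeries.single_mul_single]
    simp
  calc HahnSeries.single (-(m : ℤ)) (1 : ℂ) * HahnSeries.single (-(k : ℤ)) (1 : ℂ) *
        (HahnSeries.ofPowerSeries ℤ ℂ (qExpansion h (x * qFun h ^ m)) *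
          HahnSeries.single (k • (1 : ℤ)) ((1 : ℂ) ^ k))
      = HahnSeries.single (-(m : ℤ)) (1 : ℂ) *
        HahnSeries.ofPowerSeries ℤ ℂ (qExpansion h (x * qFun h ^ m)) *
        (HahnSeries.single (-(k : ℤ)) (1 : ℂ) *
          HahnSeries.single (k • (1 : ℤ)) ((1 : ℂ) ^ k)) := mul_mul_mul_comm _ _ _ _
    _ = _ := by rw [h3, mul_one]

open Classical in
/-- The Laurent expansion of `x` at `i∞` in the parameter `q_h = exp (2πi z / h)`
(junk value `0` if `x` is not of moderate growth). -/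
noncomputable def laurentExp (h : ℝ) (x : ℍ → ℂ) : LaurentSeries ℂ :=
  if hx : ∃ m : ℕ, IsBoundedAtImInfty (x * qFun h ^ m) then laurentExpAux h (Nat.find hx) x else 0

theorem laurentExp_eq {h : ℝ} {x : ℍ → ℂ} (hh : 0 < h) (hx : MG h x) {m : ℕ}
    (hm : IsBoundedAtImInfty (x * qFun h ^ m)) : laurentExp h x = laurentExpAux h m x := by
  classical
  have hex : ∃ m : ℕ, IsBoundedAtImInfty (x * qFun h ^ m) := ⟨m, hm⟩
  unfold laurentExp
  rw [dif_pos hex]
  obtain ⟨k, hk⟩ := Nat.exists_eq_add_of_le (Nat.find_min' hex hm)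
  conv_rhs => rw [hk]
  exact (laurentExpAux_add hh (hx.nice_mul hh (Nat.find_spec hex)) k).symm

theorem laurentExp_of_nice {h : ℝ} {x : ℍ → ℂ} (hh : 0 < h) (hx : Nice h x) :
    laurentExp h x = HahnSeries.ofPowerSeries ℤ ℂ (qExpansion h x) := by
  rw [laurentExp_eq hh hx.mg (m := 0) (by simpa using hx.bdd)]
  simp [laurentExpAux]

namespace MG

variable {h : ℝ} {x y : ℍ → ℂ}

lemma const (h : ℝ) (c : ℂ) : MG h (fun _ : ℍ => c) := (Nice.const h c).mg

lemma zero (h : ℝ) : MG h (0 : ℍ → ℂ) := (Nice.zero h).mg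

lemma one (h : ℝ) : MG h (1 : ℍ → ℂ) := (Nice.one h).mg

lemma mul (hx : MG h x) (hy : MG h y) : MG h (x * y) := by
  obtain ⟨m, hm⟩ := hx.growth
  obtain ⟨n, hn⟩ := hy.growth
  refine ⟨?_, hx.holo.mul hy.holo, ⟨m + n, ?_⟩⟩
  · intro w
    have h1 := hx.periodic w
    have h2 := hy.periodic w
    simp only [Function.comp_apply, Pi.mul_apply] at h1 h2 ⊢
    rw [h1, h2]
  · have h1 : x * y * qFun h ^ (m + n) = (x * qFun h ^ m) * (y * qFun h ^ n) := by
      rw [pow_add]; ring
    rw [h1]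
    exact hm.mul hn

lemma add (hh : 0 < h) (hx : MG h x) (hy : MG h y) : MG h (x + y) := by
  obtain ⟨m, hm⟩ := hx.growth
  obtain ⟨n, hn⟩ := hy.growth
  refine ⟨?_, hx.holo.add hy.holo, ⟨m + n, ?_⟩⟩
  · intro w
    have h1 := hx.periodic w
    have h2 := hy.periodic w
    simp only [Function.comp_apply, Pi.add_apply] at h1 h2 ⊢
    rw [h1, h2]
  · have h1 : (x + y) * qFun h ^ (m + n) = x * qFun h ^ (m + n) + y * qFun h ^ (n + m) := by
      rw [add_mul, add_comm n m]
    rw [h1]
    exact (MG.bdd_add hh hm n).add (MG.bdd_add hh hn m)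

lemma smul (c : ℂ) (hx : MG h x) : MG h (c • x) := (const h c).mul hx

lemma neg (hx : MG h x) : MG h (-x) := by
  have := hx.smul (-1)
  simpa using this

lemma sub (hh : 0 < h) (hx : MG h x) (hy : MG h y) : MG h (x - y) := by
  rw [sub_eq_add_neg]
  exact hx.add hh hy.neg

lemma pow (hx : MG h x) (n : ℕ) : MG h (x ^ n) := by
  induction n with
  | zero => simpa using one h
  | succ n ih => rw [pow_succ]; exact ih.mul hx

lemma sum (hh : 0 < h) {ι : Type*} (s : Finset ι) {x : ι → ℍ → ℂ} (hx : ∀ i ∈ s, MG h (x i)) :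
    MG h (∑ i ∈ s, x i) := by
  classical
  induction s using Finset.induction_on with
  | empty => simpa using zero h
  | insert a s ha ih =>
    rw [Finset.sum_insert ha]
    exact (hx a (Finset.mem_insert_self a s)).add hh
      (ih fun i hi => hx i (Finset.mem_insert_of_mem hi))

lemma prod {ι : Type*} (s : Finset ι) {x : ι → ℍ → ℂ} (hx : ∀ i ∈ s, MG h (x i)) :
    MG h (∏ i ∈ s, x i) := by
  classical
  induction s using Finset.induction_on with
  | empty => simpa using one h
  | insert a s ha ih =>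
    rw [Finset.prod_insert ha]
    exact (hx a (Finset.mem_insert_self a s)).mul
      (ih fun i hi => hx i (Finset.mem_insert_of_mem hi))

end MG

section ringHom

variable {h : ℝ} {x y : ℍ → ℂ}

theorem qExpansion_const (h : ℝ) (c : ℂ) :
    qExpansion h (fun _ : ℍ => c) = PowerSeries.C c := by
  have h1 : (fun _ : ℍ => c) = c • (1 : ℍ → ℂ) := by
    ext z; simp
  have h2 : AnalyticAt ℂ (cuspFunction h (1 : ℍ → ℂ)) 0 := by
    have : cuspFunction h (1 : ℍ → ℂ) = 1 := by
      ext q
      rcases eq_or_ne q 0 with rfl | hq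
      · simpa [cuspFunction, Periodic.cuspFunction] using! tendsto_const_nhds.limUnder_eq
      · simp [cuspFunction, Periodic.cuspFunction_eq_of_nonzero h _ hq]
    rw [this]
    exact analyticAt_const
  rw [h1, qExpansion_smul h2, qExpansion_one]
  ext n
  simp [PowerSeries.coeff_one, PowerSeries.coeff_C]

theorem laurentExp_const (hh : 0 < h) (c : ℂ) :
    laurentExp h (fun _ : ℍ => c) = HahnSeries.C c := by
  rw [laurentExp_of_nice hh (Nice.const h c), qExpansion_const, HahnSeries.ofPowerSeries_C]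

theorem laurentExp_zero (hh : 0 < h) : laurentExp h (0 : ℍ → ℂ) = 0 := by
  have := laurentExp_const hh 0
  rw [map_zero] at this
  exact this

theorem laurentExp_one (hh : 0 < h) : laurentExp h (1 : ℍ → ℂ) = 1 := by
  have := laurentExp_const hh 1
  rw [map_one] at this
  exact this

theorem laurentExp_mul (hh : 0 < h) (hx : MG h x) (hy : MG h y) :
    laurentExp h (x * y) = laurentExp h x * laurentExp h y := by
  obtain ⟨m, hm⟩ := hx.growth
  obtain ⟨n, hn⟩ := hy.growth
  have h1 : x * y * qFun h ^ (m + n) = (x * qFun h ^ m) * (y * qFun h ^ n) := by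
    rw [pow_add]; ring
  have hmn : IsBoundedAtImInfty (x * y * qFun h ^ (m + n)) := by
    rw [h1]; exact hm.mul hn
  rw [laurentExp_eq hh (hx.mul hy) hmn, laurentExp_eq hh hx hm, laurentExp_eq hh hy hn]
  unfold laurentExpAux
  rw [h1, qExpansion_mul ((hx.nice_mul hh hm).analyticAt hh) ((hy.nice_mul hh hn).analyticAt hh),
    map_mul]
  have h2 : HahnSeries.single (-((m + n : ℕ) : ℤ)) (1 : ℂ) =
      HahnSeries.single (-(m : ℤ)) (1 : ℂ) * HahnSeries.single (-(n : ℤ)) (1 : ℂ) := by
    rw [HahnSeries.single_mul_single]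
    have h4 : (-((m + n : ℕ) : ℤ)) = -(m : ℤ) + -(n : ℤ) := by push_cast; ring
    rw [h4, mul_one]
  rw [h2]
  exact mul_mul_mul_comm _ _ _ _

theorem laurentExp_add (hh : 0 < h) (hx : MG h x) (hy : MG h y) :
    laurentExp h (x + y) = laurentExp h x + laurentExp h y := by
  obtain ⟨m, hm⟩ := hx.growth
  obtain ⟨n, hn⟩ := hy.growth
  have hm' := MG.bdd_add hh hm n
  have hn' : IsBoundedAtImInfty (y * qFun h ^ (m + n)) := by
    rw [add_comm]; exact MG.bdd_add hh hn m
  have h1 : (x + y) * qFun h ^ (m + n) = x * qFun h ^ (m + n) + y * qFun h ^ (m + n) :=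
    add_mul _ _ _
  have hmn : IsBoundedAtImInfty ((x + y) * qFun h ^ (m + n)) := by
    rw [h1]; exact hm'.add hn'
  rw [laurentExp_eq hh (hx.add hh hy) hmn, laurentExp_eq hh hx hm', laurentExp_eq hh hy hn']
  unfold laurentExpAux
  rw [h1, qExpansion_add ((hx.nice_mul hh hm').analyticAt hh)
    ((hy.nice_mul hh hn').analyticAt hh), map_add, mul_add]

theorem laurentExp_smul (hh : 0 < h) (c : ℂ) (hx : MG h x) :
    laurentExp h (c • x) = HahnSeries.C c * laurentExp h x := by
  have h1 : c • x = (fun _ : ℍ => c) * x := by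
    ext z; simp
  rw [h1, laurentExp_mul hh (MG.const h c) hx, laurentExp_const hh]

theorem laurentExp_neg (hh : 0 < h) (hx : MG h x) : laurentExp h (-x) = -laurentExp h x := by
  have h1 : -x = (-1 : ℂ) • x := by simp
  rw [h1, laurentExp_smul hh _ hx]
  simp

theorem laurentExp_sub (hh : 0 < h) (hx : MG h x) (hy : MG h y) :
    laurentExp h (x - y) = laurentExp h x - laurentExp h y := by
  rw [sub_eq_add_neg, laurentExp_add hh hx hy.neg, laurentExp_neg hh hy, sub_eq_add_neg]

theorem laurentExp_pow (hh : 0 < h) (hx : MG h x) (n : ℕ) :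
    laurentExp h (x ^ n) = laurentExp h x ^ n := by
  induction n with
  | zero => simpa using laurentExp_one hh
  | succ n ih => rw [pow_succ, laurentExp_mul hh (hx.pow n) hx, ih, pow_succ]

theorem laurentExp_sum (hh : 0 < h) {ι : Type*} (s : Finset ι) {x : ι → ℍ → ℂ}
    (hx : ∀ i ∈ s, MG h (x i)) :
    laurentExp h (∑ i ∈ s, x i) = ∑ i ∈ s, laurentExp h (x i) := by
  classical
  induction s using Finset.induction_on with
  | empty => simpa using laurentExp_zero hh
  | insert a s ha ih =>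
    rw [Finset.sum_insert ha, Finset.sum_insert ha,
      laurentExp_add hh (hx a (Finset.mem_insert_self a s))
        (MG.sum hh s fun i hi => hx i (Finset.mem_insert_of_mem hi)),
      ih fun i hi => hx i (Finset.mem_insert_of_mem hi)]

theorem laurentExp_prod (hh : 0 < h) {ι : Type*} (s : Finset ι) {x : ι → ℍ → ℂ}
    (hx : ∀ i ∈ s, MG h (x i)) :
    laurentExp h (∏ i ∈ s, x i) = ∏ i ∈ s, laurentExp h (x i) := by
  classical
  induction s using Finset.induction_on with
  | empty => simpa using laurentExp_one hh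
  | insert a s ha ih =>
    rw [Finset.prod_insert ha, Finset.prod_insert ha,
      laurentExp_mul hh (hx a (Finset.mem_insert_self a s))
        (MG.prod s fun i hi => hx i (Finset.mem_insert_of_mem hi)),
      ih fun i hi => hx i (Finset.mem_insert_of_mem hi)]

theorem laurentExp_eq_zero_iff (hh : 0 < h) (hx : MG h x) : laurentExp h x = 0 ↔ x = 0 := by
  constructor
  · intro H
    obtain ⟨m, hm⟩ := hx.growth
    rw [laurentExp_eq hh hx hm] at H
    unfold laurentExpAux at H
    have h1 : HahnSeries.single (-(m : ℤ)) (1 : ℂ) ≠ 0 := by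
      simp
    have h2 := (mul_eq_zero.mp H).resolve_left h1
    have h3 : qExpansion h (x * qFun h ^ m) = 0 := by
      have hinj := HahnSeries.ofPowerSeries_injective (Γ := ℤ) (R := ℂ)
      exact hinj (by rw [h2, map_zero])
    have hn := hx.nice_mul hh hm
    have h4 := (qExpansion_eq_zero_iff hh hn.periodic hn.holo hn.bdd).mp h3
    ext z
    have h5 := congrFun h4 z
    simp only [Pi.mul_apply, Pi.pow_apply, Pi.zero_apply, mul_eq_zero] at h5
    rcases h5 with h5 | h5
    · exact h5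
    · exact absurd ((pow_eq_zero_iff (Nat.succ_ne_zero m)).mp (by
        rw [pow_succ, h5, zero_mul])) (qFun_ne_zero h z)
  · rintro rfl
    exact laurentExp_zero hh

theorem laurentExp_injective (hh : 0 < h) (hx : MG h x) (hy : MG h y)
    (H : laurentExp h x = laurentExp h y) : x = y := by
  have h1 : laurentExp h (x - y) = 0 := by
    rw [laurentExp_sub hh hx hy, H, sub_self]
  exact sub_eq_zero.mp ((laurentExp_eq_zero_iff hh (hx.sub hh hy)).mp h1)

end ringHom

/-! ## Coefficients -/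

section coeff

variable {h : ℝ} {x : ℍ → ℂ}

theorem ofPowerSeries_coeff_neg (p : PowerSeries ℂ) {k : ℤ} (hk : k < 0) :
    (HahnSeries.ofPowerSeries ℤ ℂ p).coeff k = 0 := by
  rw [HahnSeries.ofPowerSeries_apply]
  refine HahnSeries.embDomain_of_notMem_range ?_
  rintro ⟨m, rfl⟩
  exact absurd hk (not_lt.mpr (Int.natCast_nonneg m))

theorem laurentExpAux_coeff (h : ℝ) (m : ℕ) (x : ℍ → ℂ) (n : ℕ) :
    (laurentExpAux h m x).coeff ((n : ℤ) - m) = (qExpansion h (x * qFun h ^ m)).coeff n := by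
  unfold laurentExpAux
  rw [HahnSeries.coeff_single_mul, one_mul]
  have h1 : (n : ℤ) - m - -(m : ℤ) = (n : ℤ) := by ring
  rw [h1, HahnSeries.ofPowerSeries_apply_coeff]

theorem laurentExpAux_coeff_of_lt (h : ℝ) (m : ℕ) (x : ℍ → ℂ) {k : ℤ} (hk : k < -(m : ℤ)) :
    (laurentExpAux h m x).coeff k = 0 := by
  unfold laurentExpAux
  rw [HahnSeries.coeff_single_mul, one_mul]
  exact ofPowerSeries_coeff_neg _ (by omega)

theorem laurentExp_coeff (hh : 0 < h) (hx : MG h x) {m : ℕ}
    (hm : IsBoundedAtImInfty (x * qFun h ^ m)) (n : ℕ) :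
    (laurentExp h x).coeff ((n : ℤ) - m) = (qExpansion h (x * qFun h ^ m)).coeff n := by
  rw [laurentExp_eq hh hx hm, laurentExpAux_coeff]

theorem laurentExp_coeff_of_lt (hh : 0 < h) (hx : MG h x) {m : ℕ}
    (hm : IsBoundedAtImInfty (x * qFun h ^ m)) {k : ℤ} (hk : k < -(m : ℤ)) :
    (laurentExp h x).coeff k = 0 := by
  rw [laurentExp_eq hh hx hm, laurentExpAux_coeff_of_lt _ _ _ hk]

/-- Characterisation of the Laurent coefficients by a convergent expansion. -/
theorem laurentExp_coeff_of_hasSum (hh : 0 < h) (hx : MG h x) (m : ℕ) (c : ℕ → ℂ)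
    (hsum : ∀ τ : ℍ, HasSum (fun n ↦ c n • Periodic.qParam h (τ : ℂ) ^ n)
      (x τ * qFun h τ ^ m)) :
    IsBoundedAtImInfty (x * qFun h ^ m) ∧ ∀ n : ℕ, (laurentExp h x).coeff ((n : ℤ) - m) = c n := by
  have hb : IsBoundedAtImInfty (x * qFun h ^ m) :=
    isBoundedAtImInfty_of_hasSum_qExpansion hh (f := x * qFun h ^ m) (c := c) hsum
  refine ⟨hb, fun n => ?_⟩
  rw [laurentExp_coeff hh hx hb]
  exact (qExpansion_coeff_unique_fun hh ((hx.nice_mul hh hb).analyticAt hh) hsum n).symm

theorem hasSum_laurentExp (hh : 0 < h) (hx : MG h x) {m : ℕ}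
    (hm : IsBoundedAtImInfty (x * qFun h ^ m)) (τ : ℍ) :
    HasSum (fun n : ℕ ↦ (laurentExp h x).coeff ((n : ℤ) - m) • Periodic.qParam h (τ : ℂ) ^ n)
      (x τ * qFun h τ ^ m) := by
  have hn := hx.nice_mul hh hm
  have := hasSum_qExpansion hh hn.periodic hn.holo hn.bdd τ
  simp only [laurentExp_coeff hh hx hm]
  exact this

end coeff

/-! ## Translation `z ↦ z + t` -/

section translate

variable {h : ℝ} {x : ℍ → ℂ}

theorem qFun_vadd' (h : ℝ) (t : ℝ) (z : ℍ) :
    qFun h (t +ᵥ z) = Complex.exp (2 * Real.pi * Complex.I * t / h) * qFun h z := by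
  simp only [qFun, Periodic.qParam, UpperHalfPlane.coe_vadd]
  rw [← Complex.exp_add]
  congr 1
  ring

theorem mdifferentiable_comp_vadd (hx : MDiff x) (t : ℝ) : MDiff (fun z : ℍ => x (t +ᵥ z)) := by
  intro z
  rw [UpperHalfPlane.mdifferentiableAt_iff]
  have hz' : 0 < ((z : ℂ) + t).im := by simpa using z.im_pos
  have h1 : DifferentiableAt ℂ (x ∘ ofComplex) ((z : ℂ) + t) :=
    UpperHalfPlane.mdifferentiableAt_iff.mp (hx ⟨(z : ℂ) + t, hz'⟩)
  have h0 : DifferentiableAt ℂ (fun w : ℂ => w + (t : ℂ)) (z : ℂ) := by fun_prop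
  have h2 : DifferentiableAt ℂ ((x ∘ ofComplex) ∘ (fun w : ℂ => w + (t : ℂ))) (z : ℂ) :=
    DifferentiableAt.comp (z : ℂ) h1 h0
  refine h2.congr_of_eventuallyEq ?_
  have hopen : IsOpen {w : ℂ | 0 < w.im} := isOpen_lt continuous_const Complex.continuous_im
  filter_upwards [hopen.mem_nhds z.im_pos] with w hw
  have hw' : 0 < (w + t).im := by simpa using hw
  simp only [comp_apply, ofComplex_apply_of_im_pos hw, ofComplex_apply_of_im_pos hw']
  congr 1
  ext
  simp [add_comm]

theorem isBoundedAtImInfty_comp_vadd {f : ℍ → ℂ} (hf : IsBoundedAtImInfty f) (t : ℝ) :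
    IsBoundedAtImInfty (fun z : ℍ => f (t +ᵥ z)) := by
  rw [UpperHalfPlane.isBoundedAtImInfty_iff] at hf ⊢
  obtain ⟨M, A, hMA⟩ := hf
  exact ⟨M, A, fun z hz => hMA (t +ᵥ z) (by simpa using hz)⟩

theorem MG.comp_vadd (hx : MG h x) (t : ℝ) : MG h (fun z : ℍ => x (t +ᵥ z)) := by
  refine ⟨periodic_comp_ofComplex_of_vadd fun z => ?_, mdifferentiable_comp_vadd hx.holo t, ?_⟩
  · have h1 : t +ᵥ (h +ᵥ z) = h +ᵥ (t +ᵥ z) := by
      ext; simp; ring
    rw [h1]
    exact vadd_of_periodic_comp_ofComplex hx.periodic _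
  · obtain ⟨m, hm⟩ := hx.growth
    refine ⟨m, ?_⟩
    have h1 := (isBoundedAtImInfty_comp_vadd hm t).const_mul_left
      ((Complex.exp (2 * Real.pi * Complex.I * t / h))⁻¹ ^ m)
    have hfun : ((fun z : ℍ => x (t +ᵥ z)) * qFun h ^ m) =
        (fun z : ℍ => (Complex.exp (2 * Real.pi * Complex.I * t / h))⁻¹ ^ m *
          (x * qFun h ^ m) (t +ᵥ z)) := by
      ext z
      simp only [Pi.mul_apply, Pi.pow_apply, qFun_vadd', mul_pow]
      have hne : Complex.exp (2 * Real.pi * Complex.I * t / h) ^ m ≠ 0 :=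
        pow_ne_zero _ (Complex.exp_ne_zero _)
      rw [inv_pow]
      field_simp
    rw [hfun]
    exact h1

/-- The Laurent coefficients of the translate `z ↦ x (z + t)`. -/
theorem laurentExp_comp_vadd_coeff (hh : 0 < h) (hx : MG h x) (t : ℝ) (k : ℤ) :
    (laurentExp h (fun z : ℍ => x (t +ᵥ z))).coeff k =
      Complex.exp (2 * Real.pi * Complex.I * t / h) ^ k * (laurentExp h x).coeff k := by
  set ε := Complex.exp (2 * Real.pi * Complex.I * t / h) with hε
  have hε0 : ε ≠ 0 := Complex.exp_ne_zero _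
  obtain ⟨m, hm⟩ := hx.growth
  have key := laurentExp_coeff_of_hasSum hh (hx.comp_vadd t) m
    (fun n => ε ^ ((n : ℤ) - m) * (laurentExp h x).coeff ((n : ℤ) - m)) (fun τ => by
      have h1 := (hasSum_laurentExp hh hx hm (t +ᵥ τ)).mul_left ((ε ^ m)⁻¹)
      have hεm : ε ^ m ≠ 0 := pow_ne_zero _ hε0
      have h2 : (ε ^ m)⁻¹ * (x (t +ᵥ τ) * qFun h (t +ᵥ τ) ^ m) = x (t +ᵥ τ) * qFun h τ ^ m := by
        rw [qFun_vadd', ← hε, mul_pow]
        field_simp
      rw [h2] at h1
      have h3 : Periodic.qParam h ((t +ᵥ τ : ℍ) : ℂ) = ε * Periodic.qParam h (τ : ℂ) :=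
        qFun_vadd' h t τ
      have h4 : (fun n : ℕ => (ε ^ ((n : ℤ) - m) * (laurentExp h x).coeff ((n : ℤ) - m)) •
          Periodic.qParam h (τ : ℂ) ^ n) =
          (fun i : ℕ => (ε ^ m)⁻¹ * (laurentExp h x).coeff ((i : ℤ) - m) •
            Periodic.qParam h ((t +ᵥ τ : ℍ) : ℂ) ^ i) := by
        funext n
        rw [h3, mul_pow, zpow_sub₀ hε0, zpow_natCast, zpow_natCast, smul_eq_mul, smul_eq_mul]
        field_simp
      rw [h4]
      exact h1)
  by_cases hk : k < -(m : ℤ)
  · rw [laurentExp_coeff_of_lt hh (hx.comp_vadd t) key.1 hk,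
      laurentExp_coeff_of_lt hh hx hm hk, mul_zero]
  · have hk' : k = (((k + m).toNat : ℕ) : ℤ) - m := by
      rw [Int.toNat_of_nonneg (by omega)]; ring
    rw [hk', key.2]

/-- The translate has the same support. -/
theorem laurentExp_comp_vadd_coeff_eq_zero_iff (hh : 0 < h) (hx : MG h x) (t : ℝ) (k : ℤ) :
    (laurentExp h (fun z : ℍ => x (t +ᵥ z))).coeff k = 0 ↔ (laurentExp h x).coeff k = 0 := by
  rw [laurentExp_comp_vadd_coeff hh hx t k, mul_eq_zero]
  constructor
  · rintro (h1 | h1)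
    · exact absurd h1 (zpow_ne_zero _ (Complex.exp_ne_zero _))
    · exact h1
  · exact fun h1 => Or.inr h1

end translate

/-! ## Orders -/

section order

variable {h : ℝ} {x : ℍ → ℂ}

theorem coeff_order_ne_zero' {a : LaurentSeries ℂ} (ha : a ≠ 0) : a.coeff a.order ≠ 0 :=
  fun h0 => ha (HahnSeries.coeff_order_eq_zero.mp h0)

theorem order_eq_of_coeff_eq_zero_iff {a b : LaurentSeries ℂ}
    (hab : ∀ k : ℤ, a.coeff k = 0 ↔ b.coeff k = 0) : a.order = b.order := by
  by_cases ha : a = 0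
  · have hb : b = 0 := by
      ext k
      rw [HahnSeries.coeff_zero, ← hab k, ha, HahnSeries.coeff_zero]
    rw [ha, hb]
  · have hb : b ≠ 0 := by
      intro hb
      apply ha
      ext k
      rw [HahnSeries.coeff_zero, hab k, hb, HahnSeries.coeff_zero]
    apply le_antisymm
    · exact HahnSeries.order_le_of_coeff_ne_zero
        (fun h0 => coeff_order_ne_zero' hb ((hab _).mp h0))
    · exact HahnSeries.order_le_of_coeff_ne_zero
        (fun h0 => coeff_order_ne_zero' ha ((hab _).mpr h0))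

theorem laurentExp_comp_vadd_order (hh : 0 < h) (hx : MG h x) (t : ℝ) :
    (laurentExp h (fun z : ℍ => x (t +ᵥ z))).order = (laurentExp h x).order :=
  order_eq_of_coeff_eq_zero_iff (laurentExp_comp_vadd_coeff_eq_zero_iff hh hx t)

theorem dvd_order_of_coeff {a : LaurentSeries ℂ} {r : ℤ}
    (ha : ∀ k : ℤ, ¬ r ∣ k → a.coeff k = 0) : r ∣ a.order := by
  by_cases h0 : a = 0
  · rw [h0, HahnSeries.order_zero]; exact dvd_zero r
  · by_contra hr
    exact coeff_order_ne_zero' h0 (ha _ hr)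

theorem order_nonneg_of_coeff {a : LaurentSeries ℂ} {n : ℤ}
    (ha : ∀ k : ℤ, k < n → a.coeff k = 0) (h0 : a ≠ 0) : n ≤ a.order := by
  by_contra hlt
  exact coeff_order_ne_zero' h0 (ha _ (not_le.mp hlt))

theorem laurentExp_order_ge (hh : 0 < h) (hx : MG h x) (hx0 : x ≠ 0) {m : ℕ}
    (hm : IsBoundedAtImInfty (x * qFun h ^ m)) : -(m : ℤ) ≤ (laurentExp h x).order :=
  order_nonneg_of_coeff (fun _ hk => laurentExp_coeff_of_lt hh hx hm hk)
    (fun H => hx0 ((laurentExp_eq_zero_iff hh hx).mp H))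

theorem laurentExp_order_nonneg (hh : 0 < h) (hx : Nice h x) (hx0 : x ≠ 0) :
    0 ≤ (laurentExp h x).order := by
  have := laurentExp_order_ge hh hx.mg hx0 (m := 0) (by simpa using hx.bdd)
  simpa using this

/-- If `x * q ^ m` is bounded and bounded away from `0` near `i∞`, the order is exactly `-m`. -/
theorem laurentExp_order_eq_neg (hh : 0 < h) (hx : MG h x) {m : ℕ}
    (hm : IsBoundedAtImInfty (x * qFun h ^ m))
    (hlow : ∃ c : ℝ, 0 < c ∧ ∀ᶠ z in atImInfty, c ≤ ‖x z * qFun h z ^ m‖) :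
    (laurentExp h x).order = -(m : ℤ) := by
  obtain ⟨c, hc, hev⟩ := hlow
  have hn := hx.nice_mul hh hm
  -- the constant coefficient is the limit at infinity
  have h0 : (laurentExp h x).coeff (-(m : ℤ)) = valueAtInfty (x * qFun h ^ m) := by
    have h1 := laurentExp_coeff hh hx hm 0
    simp only [Nat.cast_zero, zero_sub] at h1
    rw [h1]
    exact qExpansion_coeff_zero hh (hn.analyticAt hh) hn.periodic
  have htend : Tendsto (x * qFun h ^ m) atImInfty (𝓝 (valueAtInfty (x * qFun h ^ m))) := by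
    have h2 := (hn.analyticAt hh).continuousAt.tendsto.comp (qParam_tendsto_atImInfty hh)
    rw [cuspFunction_apply_zero hh (hn.analyticAt hh) hn.periodic] at h2
    refine h2.congr fun τ => ?_
    simp only [Function.comp_apply]
    exact eq_cuspFunction τ hh.ne' hn.periodic
  have hnorm : c ≤ ‖valueAtInfty (x * qFun h ^ m)‖ := by
    refine ge_of_tendsto (htend.norm) ?_
    filter_upwards [hev] with z hz
    simpa using hz
  have hne : (laurentExp h x).coeff (-(m : ℤ)) ≠ 0 := by
    rw [h0]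
    intro H
    rw [H, norm_zero] at hnorm
    linarith
  apply le_antisymm
  · exact HahnSeries.order_le_of_coeff_ne_zero hne
  · exact order_nonneg_of_coeff (fun _ hk => laurentExp_coeff_of_lt hh hx hm hk)
      (HahnSeries.ne_zero_of_coeff_ne_zero hne)

end order

/-! ## Change of period `w ↦ w * r` -/

section period

variable {w : ℝ} {x : ℍ → ℂ}

theorem qFun_mul_pow (hw : w ≠ 0) {r : ℕ} (hr : 0 < r) (z : ℍ) :
    qFun (w * r) z ^ r = qFun w z := by
  simp only [qFun, Periodic.qParam]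
  rw [← Complex.exp_nat_mul]
  congr 1
  have h1 : (w : ℂ) ≠ 0 := by exact_mod_cast hw
  have h2 : (r : ℂ) ≠ 0 := by exact_mod_cast hr.ne'
  push_cast
  field_simp

theorem MG.mul_period (hw : 0 < w) (hx : MG w x) {r : ℕ} (hr : 0 < r) : MG (w * r) x := by
  refine ⟨?_, hx.holo, ?_⟩
  · have := hx.periodic.nat_mul r
    rw [mul_comm] at this
    have hcast : ((w * r : ℝ) : ℂ) = (w : ℂ) * (r : ℂ) := by push_cast; rfl
    rw [hcast]
    exact this
  · obtain ⟨m, hm⟩ := hx.growth
    refine ⟨r * m, ?_⟩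
    have h1 : x * qFun (w * r) ^ (r * m) = x * qFun w ^ m := by
      ext z
      simp only [Pi.mul_apply, Pi.pow_apply]
      rw [pow_mul, qFun_mul_pow hw.ne' hr]
    rw [h1]
    exact hm

/-- Laurent coefficients for the period `w * r` of a function with period `w`. -/
theorem laurentExp_mul_period_coeff (hw : 0 < w) (hx : MG w x) {r : ℕ} (hr : 0 < r) (j : ℤ) :
    (laurentExp (w * r) x).coeff j =
      if (r : ℤ) ∣ j then (laurentExp w x).coeff (j / r) else 0 := by
  have hwr : 0 < w * r := mul_pos hw (by exact_mod_cast hr)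
  have hr0 : (r : ℤ) ≠ 0 := by exact_mod_cast hr.ne'
  obtain ⟨m, hm⟩ := hx.growth
  -- the reindexed coefficient sequence
  set c : ℕ → ℂ := fun k => if r ∣ k then (laurentExp w x).coeff (((k / r : ℕ) : ℤ) - m) else 0
    with hc
  have key := laurentExp_coeff_of_hasSum hwr (hx.mul_period hw hr) (r * m) c (fun τ => by
    have h1 := hasSum_laurentExp hw hx hm τ
    have h2 : x τ * qFun (w * r) τ ^ (r * m) = x τ * qFun w τ ^ m := by
      rw [pow_mul, qFun_mul_pow hw.ne' hr]
    rw [h2]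
    have hinj : Function.Injective (fun n : ℕ => r * n) :=
      fun a b hab => Nat.eq_of_mul_eq_mul_left hr hab
    refine (Function.Injective.hasSum_iff hinj ?_).mp ?_
    · intro k hk
      have : ¬ r ∣ k := fun ⟨n, hn⟩ => hk ⟨n, hn.symm⟩
      simp [hc, this]
    · have h3 : ((fun k : ℕ => c k • Periodic.qParam (w * r) (τ : ℂ) ^ k) ∘ fun n : ℕ => r * n)
          = fun n : ℕ => (laurentExp w x).coeff ((n : ℤ) - m) • Periodic.qParam w (τ : ℂ) ^ n := by
        funext n
        simp only [Function.comp_apply, hc, dvd_mul_right, if_true,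
          Nat.mul_div_cancel_left n hr]
        rw [pow_mul]
        have := qFun_mul_pow hw.ne' hr τ
        simp only [qFun] at this
        rw [this]
      rw [h3]
      exact h1)
  by_cases hj : j < -((r * m : ℕ) : ℤ)
  · rw [laurentExp_coeff_of_lt hwr (hx.mul_period hw hr) key.1 hj]
    split_ifs with hd
    · obtain ⟨j', rfl⟩ := hd
      rw [Int.mul_ediv_cancel_left _ hr0]
      refine (laurentExp_coeff_of_lt hw hx hm ?_).symm
      push_cast at hj
      have hrpos : (0 : ℤ) < r := by exact_mod_cast hr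
      nlinarith
    · rfl
  · rw [not_lt] at hj
    have hj' : j = (((j + (r * m : ℕ)).toNat : ℕ) : ℤ) - ((r * m : ℕ) : ℤ) := by
      rw [Int.toNat_of_nonneg (by omega)]; ring
    rw [hj', key.2]
    simp only [hc]
    have hcast : (((j + (r * m : ℕ)).toNat : ℕ) : ℤ) = j + (r * m : ℕ) :=
      Int.toNat_of_nonneg (by omega)
    have hdvd : (r ∣ (j + (r * m : ℕ)).toNat) ↔ ((r : ℤ) ∣ j) := by
      rw [← Int.natCast_dvd_natCast, hcast]
      push_cast
      constructor
      · intro hd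
        have := (Int.dvd_add_left (Dvd.intro _ rfl : (r : ℤ) ∣ (r : ℤ) * (m : ℤ))).mp hd
        exact this
      · intro hd
        exact dvd_add hd (Dvd.intro _ rfl)
    rw [← hj']
    by_cases hd : (r : ℤ) ∣ j
    · rw [if_pos (hdvd.mpr hd), if_pos hd]
      congr 1
      obtain ⟨j', rfl⟩ := hd
      rw [Int.mul_ediv_cancel_left _ hr0]
      have h5 : ((r : ℤ) * j' + ((r * m : ℕ) : ℤ)).toNat / r = (j' + m).toNat := by
        have h6 : (r : ℤ) * j' + ((r * m : ℕ) : ℤ) = (r : ℤ) * (j' + m) := by push_cast; ring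
        rw [h6]
        have hjm : 0 ≤ j' + (m : ℤ) := by
          have hrpos : (0 : ℤ) < r := by exact_mod_cast hr
          push_cast at hj
          nlinarith
        obtain ⟨n, hn⟩ := Int.eq_ofNat_of_zero_le hjm
        rw [hn]
        have h7 : ((r : ℤ) * (n : ℤ)).toNat = r * n := by
          rw [← Nat.cast_mul, Int.toNat_natCast]
        rw [h7, Nat.mul_div_cancel_left n hr, Int.toNat_natCast]
      rw [h5]
      have hjm : 0 ≤ j' + (m : ℤ) := by
        have hrpos : (0 : ℤ) < r := by exact_mod_cast hr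
        push_cast at hj
        nlinarith
      rw [Int.toNat_of_nonneg hjm]
      ring
    · rw [if_neg (fun h0 => hd (hdvd.mp h0)), if_neg hd]

theorem laurentExp_mul_period_dvd_order (hw : 0 < w) (hx : MG w x) {r : ℕ} (hr : 0 < r) :
    (r : ℤ) ∣ (laurentExp (w * r) x).order :=
  dvd_order_of_coeff fun k hk => by
    rw [laurentExp_mul_period_coeff hw hx hr, if_neg hk]

theorem laurentExp_mul_period_order (hw : 0 < w) (hx : MG w x) {r : ℕ} (hr : 0 < r) :
    (laurentExp (w * r) x).order = r * (laurentExp w x).order := by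
  have hwr : 0 < w * r := mul_pos hw (by exact_mod_cast hr)
  have hr0 : (r : ℤ) ≠ 0 := by exact_mod_cast hr.ne'
  have hrpos : (0 : ℤ) < r := by exact_mod_cast hr
  by_cases hx0 : x = 0
  · subst hx0
    rw [laurentExp_zero hwr, laurentExp_zero hw]
    simp
  have h1 : laurentExp (w * r) x ≠ 0 :=
    fun H => hx0 ((laurentExp_eq_zero_iff hwr (hx.mul_period hw hr)).mp H)
  have h2 : laurentExp w x ≠ 0 := fun H => hx0 ((laurentExp_eq_zero_iff hw hx).mp H)
  apply le_antisymm
  · apply HahnSeries.order_le_of_coeff_ne_zero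
    rw [laurentExp_mul_period_coeff hw hx hr, if_pos (Dvd.intro _ rfl),
      Int.mul_ediv_cancel_left _ hr0]
    exact coeff_order_ne_zero' h2
  · obtain ⟨j, hj⟩ := laurentExp_mul_period_dvd_order hw hx hr
    have h3 := coeff_order_ne_zero' h1
    rw [laurentExp_mul_period_coeff hw hx hr, hj, if_pos (Dvd.intro _ rfl),
      Int.mul_ediv_cancel_left _ hr0] at h3
    have h4 := HahnSeries.order_le_of_coeff_ne_zero h3
    rw [hj]
    exact mul_le_mul_of_nonneg_left h4 hrpos.le

end period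

end Fermat.Agent.S24.G4
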