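import Mathlib
import Fermat.Prelude.Def_AlgebraicCurve_DivisorClassGroup

/-!
# S24, package ALG (helper2), part 1: places of the fraction field of a Dedekind domain

`B` is a Dedekind domain with fraction field `F`, containing a field `K`.
* `placeOfPrime P` : the `Place K F` attached to a maximal ideal `P` of `B`;
* `ord_placeOfPrime` : its `ord` is the `P`-adic valuation;
* `exists_prime_of_le` : every place whose valuation ring contains `B` is a `placeOfPrime`.
-/

set_option autoImplicit false
set_option linter.style.haveILetI false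
set_option linter.unusedSectionVars false

namespace Fermat.Agent.S24.Alg

open IsDedekindDomain AlgebraicCurve WithZero

variable {K B F : Type*} [Field K] [CommRing B] [IsDedekindDomain B] [Field F]
  [Algebra B F] [IsFractionRing B F] [Algebra K B] [Algebra K F] [IsScalarTower K B F]

/-- The valuation subring of the `P`-adic valuation is a principal ideal ring. -/
theorem isPrincipalIdealRing_valuationSubring (P : HeightOneSpectrum B) :
    IsPrincipalIdealRing (P.valuation F).valuationSubring := by
  rw [← HeightOneSpectrum.valuationSubringAtPrime_eq_valuationSubring]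
  haveI : IsDiscreteValuationRing (HeightOneSpectrum.valuationSubringAtPrime F P) :=
    IsLocalization.AtPrime.isDiscreteValuationRing_of_dedekind_domain B P.ne_bot _
  infer_instance

variable (K) in
/-- The place of `F` attached to a maximal ideal of `B`. -/
noncomputable def placeOfPrime (P : HeightOneSpectrum B) : Place K F where
  toValuationSubring := (P.valuation F).valuationSubring
  algebraMap_mem' a := by
    rw [Valuation.mem_valuationSubring_iff, IsScalarTower.algebraMap_apply K B F]
    exact P.valuation_le_one _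
  ne_top' := by
    simp only [ne_eq, Valuation.valuationSubring_eq_top_iff, not_not]
    infer_instance
  isPrincipalIdealRing' := isPrincipalIdealRing_valuationSubring P

@[simp]
theorem placeOfPrime_toValuationSubring (P : HeightOneSpectrum B) :
    (placeOfPrime K P).toValuationSubring = (P.valuation F).valuationSubring := rfl

theorem mem_placeOfPrime_iff (P : HeightOneSpectrum B) (x : F) :
    x ∈ (placeOfPrime K P).toValuationSubring ↔ P.valuation F x ≤ 1 :=
  Iff.rfl

/-- units of the valuation ring of `placeOfPrime P` are the elements of valuation `1`. -/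
theorem isUnit_placeOfPrime_iff (P : HeightOneSpectrum B)
    (x : (placeOfPrime K P).toValuationSubring) :
    IsUnit x ↔ P.valuation F x.1 = 1 := by
  rw [ValuationSubring.valuation_eq_one_iff]
  exact ((P.valuation F).isEquiv_valuation_valuationSubring.eq_one_iff_eq_one).symm

theorem mem_maximalIdeal_placeOfPrime_iff (P : HeightOneSpectrum B)
    (x : (placeOfPrime K P).toValuationSubring) :
    x ∈ IsLocalRing.maximalIdeal (placeOfPrime K P).toValuationSubring ↔
      P.valuation F x.1 < 1 := by
  rw [ValuationSubring.valuation_lt_one_iff]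
  exact ((P.valuation F).isEquiv_valuation_valuationSubring.lt_one_iff_lt_one).symm

theorem le_exp_neg_one_of_lt_one {x : ℤᵐ⁰} (hx : x < 1) : x ≤ exp (-1 : ℤ) := by
  rcases eq_or_ne x 0 with rfl | h0
  · exact zero_le
  · rw [← log_le_iff_le_exp h0]
    have : log x < 0 := by
      rw [log_lt_iff_lt_exp h0, exp_zero]; exact hx
    omega

/-- The valuation of an irreducible element of the valuation ring of `placeOfPrime P`. -/
theorem valuation_irreducible (P : HeightOneSpectrum B)
    {ϖ : (placeOfPrime K P).toValuationSubring} (hϖ : Irreducible ϖ) :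
    P.valuation F ϖ.1 = exp (-1 : ℤ) := by
  obtain ⟨π, hπ⟩ := P.valuation_exists_uniformizer F
  have hπO : π ∈ (placeOfPrime K P).toValuationSubring := by
    rw [mem_placeOfPrime_iff, hπ, ← exp_zero, exp_le_exp]; omega
  have hπm : (⟨π, hπO⟩ : (placeOfPrime K P).toValuationSubring) ∈
      IsLocalRing.maximalIdeal (placeOfPrime K P).toValuationSubring := by
    rw [mem_maximalIdeal_placeOfPrime_iff]
    show P.valuation F π < 1
    rw [hπ, ← exp_zero, exp_lt_exp]; omega
  rw [(IsDiscreteValuationRing.irreducible_iff_uniformizer ϖ).1 hϖ,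
    Ideal.mem_span_singleton] at hπm
  obtain ⟨y, hy⟩ := hπm
  have hy' : π = ϖ.1 * y.1 := congrArg Subtype.val hy
  have h1 : P.valuation F ϖ.1 < 1 := by
    rw [← mem_maximalIdeal_placeOfPrime_iff]
    exact (IsDiscreteValuationRing.irreducible_iff_uniformizer ϖ).1 hϖ ▸
      Ideal.mem_span_singleton_self ϖ
  have h2 : P.valuation F y.1 ≤ 1 := y.2
  apply le_antisymm (le_exp_neg_one_of_lt_one h1)
  calc exp (-1 : ℤ) = P.valuation F π := hπ.symm
    _ = P.valuation F ϖ.1 * P.valuation F y.1 := by rw [hy', map_mul]
    _ ≤ P.valuation F ϖ.1 * 1 := by gcongr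
    _ = P.valuation F ϖ.1 := mul_one _

/-- The order function of `placeOfPrime P` is the `P`-adic valuation. -/
theorem ord_placeOfPrime (P : HeightOneSpectrum B) (f : F) :
    (placeOfPrime K P).ord f = -(WithZero.log (P.valuation F f)) := by
  rcases eq_or_ne f 0 with rfl | hf
  · simp
  obtain ⟨ϖ, hϖ⟩ := IsDiscreteValuationRing.exists_irreducible
    (placeOfPrime K P (F := F)).toValuationSubring
  obtain ⟨u, hu⟩ := (placeOfPrime K P).exists_unit_mul_zpow hf hϖ
  have hu1 : P.valuation F (u : (placeOfPrime K P).toValuationSubring).1 = 1 :=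
    (isUnit_placeOfPrime_iff P _).1 u.isUnit
  have h := congrArg (P.valuation F) hu
  rw [map_mul, map_zpow₀, valuation_irreducible P hϖ] at h
  rw [hu1, one_mul] at h
  rw [h, ← exp_zsmul, log_exp]
  simp

theorem placeOfPrime_injective :
    Function.Injective (placeOfPrime K : HeightOneSpectrum B → Place K F) := by
  intro P Q h
  have h' : (P.valuation F).valuationSubring = (Q.valuation F).valuationSubring :=
    congrArg Place.toValuationSubring h
  apply HeightOneSpectrum.eq_of_valuation_isEquiv_valuation (K := F)
  rw [Valuation.isEquiv_iff_val_le_one]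
  intro x
  rw [← Valuation.mem_valuationSubring_iff, ← Valuation.mem_valuationSubring_iff, h']

/-- Every place whose valuation ring contains `B` comes from a maximal ideal of `B`. -/
theorem exists_prime_of_le (v : Place K F)
    (hv : ∀ b : B, algebraMap B F b ∈ v.toValuationSubring) :
    ∃ P : HeightOneSpectrum B, v = placeOfPrime K P := by
  classical
  let φ : B →+* v.toValuationSubring :=
    (algebraMap B F).codRestrict v.toValuationSubring.toSubring hv
  have hφ : ∀ b, ((φ b : v.toValuationSubring) : F) = algebraMap B F b := fun _ => rfl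
  let 𝔭 : Ideal B := (IsLocalRing.maximalIdeal v.toValuationSubring).comap φ
  have h𝔭 : 𝔭.IsPrime := Ideal.comap_isPrime φ _
  have hunit : ∀ b : B, b ∉ 𝔭 → (algebraMap B F b)⁻¹ ∈ v.toValuationSubring := by
    intro b hb
    have hb' : IsUnit (φ b) := by
      by_contra hnu
      exact hb ((IsLocalRing.mem_maximalIdeal _).2 hnu)
    rw [ValuationSubring.valuation_eq_one_iff, hφ] at hb'
    rw [← ValuationSubring.valuation_le_one_iff, map_inv₀, hb', inv_one]
  have hne : 𝔭 ≠ ⊥ := by
    intro h0
    apply v.ne_top'
    rw [eq_top_iff]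
    intro x _
    obtain ⟨a, b, hb, rfl⟩ := IsFractionRing.div_surjective (A := B) x
    have hb0 : b ≠ 0 := nonZeroDivisors.ne_zero hb
    have hb𝔭 : b ∉ 𝔭 := by rw [h0]; simpa using hb0
    rw [div_eq_mul_inv]
    exact mul_mem (hv a) (hunit b hb𝔭)
  let P : HeightOneSpectrum B := ⟨𝔭, h𝔭, hne⟩
  refine ⟨P, ?_⟩
  have hle : (P.valuation F).valuationSubring ≤ v.toValuationSubring := by
    intro x hx
    obtain ⟨n, d, hnd⟩ := P.exists_primeCompl_mul_eq_of_integer x
      ((Valuation.mem_valuationSubring_iff _ _).1 hx)
    have hd : (d : B) ∉ 𝔭 := d.2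
    have hd0 : algebraMap B F (d : B) ≠ 0 := by
      intro h0
      apply hd
      have : (d : B) = 0 := (IsFractionRing.injective B F) (by rw [h0, map_zero])
      rw [this]; exact 𝔭.zero_mem
    have hx' : x = algebraMap B F n * (algebraMap B F (d : B))⁻¹ := by
      rw [← hnd]; field_simp
    rw [hx']
    exact mul_mem (hv n) (hunit _ hd)
  apply Place.ext
  have hK : Ring.KrullDimLE 1 (P.valuation F).valuationSubring := by
    rw [← HeightOneSpectrum.valuationSubringAtPrime_eq_valuationSubring]
    infer_instance
  exact (ValuationSubring.eq_of_le_of_ne_top (A := (P.valuation F).valuationSubring)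
    hle v.ne_top').symm

theorem ord_placeOfPrime_pos_iff (P : HeightOneSpectrum B) {b : B} (hb : b ≠ 0) :
    0 < (placeOfPrime K P (F := F)).ord (algebraMap B F b) ↔ b ∈ P.asIdeal := by
  have hv0 : P.valuation F (algebraMap B F b) ≠ 0 := by
    rw [Ne, Valuation.zero_iff]
    intro h0
    exact hb ((IsFractionRing.injective B F) (by rw [h0, map_zero]))
  rw [ord_placeOfPrime, ← P.valuation_lt_one_iff_mem (K := F), neg_pos,
    log_lt_iff_lt_exp hv0, exp_zero]

section ord

variable (v : Place K F)

/-- Every place is the place of the maximal ideal of its own valuation ring. -/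
theorem exists_prime_self :
    ∃ P : HeightOneSpectrum v.toValuationSubring, v = placeOfPrime K P :=
  exists_prime_of_le v (fun b => b.2)

theorem mem_iff_ord_nonneg {x : F} (hx : x ≠ 0) :
    x ∈ v.toValuationSubring ↔ 0 ≤ v.ord x := by
  obtain ⟨P, hP⟩ := exists_prime_self v
  have hv0 : P.valuation F x ≠ 0 := by rwa [Ne, Valuation.zero_iff]
  have h1 : x ∈ v.toValuationSubring ↔ P.valuation F x ≤ 1 := by
    conv_lhs => rw [hP]
    exact Iff.rfl
  have h2 : v.ord x = -(log (P.valuation F x)) := by
    conv_lhs => rw [hP]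
    exact ord_placeOfPrime P x
  rw [h1, h2, neg_nonneg, log_le_iff_le_exp hv0, exp_zero]

theorem mem_of_ord_pos {x : F} (hx : 0 < v.ord x) : x ∈ v.toValuationSubring := by
  have hx0 : x ≠ 0 := by
    rintro rfl
    simp at hx
  exact (mem_iff_ord_nonneg v hx0).2 hx.le

theorem ord_add_ge {x y : F} (hx : x ≠ 0) (hy : y ≠ 0) (hxy : x + y ≠ 0) :
    min (v.ord x) (v.ord y) ≤ v.ord (x + y) := by
  obtain ⟨P, hP⟩ := exists_prime_self v
  have e : ∀ z : F, v.ord z = -(log (P.valuation F z)) := fun z => by
    conv_lhs => rw [hP]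
    exact ord_placeOfPrime P z
  have hx0 : P.valuation F x ≠ 0 := by rwa [Ne, Valuation.zero_iff]
  have hy0 : P.valuation F y ≠ 0 := by rwa [Ne, Valuation.zero_iff]
  have hxy0 : P.valuation F (x + y) ≠ 0 := by rwa [Ne, Valuation.zero_iff]
  rw [e, e, e]
  rcases le_max_iff.1 ((P.valuation F).map_add x y) with h | h
  · exact (min_le_left _ _).trans (neg_le_neg ((log_le_log hxy0 hx0).2 h))
  · exact (min_le_right _ _).trans (neg_le_neg ((log_le_log hxy0 hy0).2 h))

end ord

section residue

variable (K) in
/-- The inclusion of `B` into the valuation ring of `placeOfPrime P`, as a `K`-algebra map. -/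
noncomputable def toPlaceRing (P : HeightOneSpectrum B) :
    B →ₐ[K] (placeOfPrime K P (F := F)).toValuationSubring where
  toRingHom := (algebraMap B F).codRestrict (placeOfPrime K P).toValuationSubring.toSubring
    (fun b => P.valuation_le_one b)
  commutes' a := by
    apply Subtype.ext
    exact (IsScalarTower.algebraMap_apply K B F a).symm

@[simp]
theorem coe_toPlaceRing (P : HeightOneSpectrum B) (b : B) :
    ((toPlaceRing K P b : (placeOfPrime K P (F := F)).toValuationSubring) : F) =
      algebraMap B F b := rfl

variable (K) in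
/-- The residue map `B → k(P)`. -/
noncomputable def resHom (P : HeightOneSpectrum B) :
    B →ₐ[K] (placeOfPrime K P (F := F)).ResidueField :=
  (IsScalarTower.toAlgHom K (placeOfPrime K P (F := F)).toValuationSubring
    (placeOfPrime K P (F := F)).ResidueField).comp (toPlaceRing K P)

theorem resHom_apply (P : HeightOneSpectrum B) (b : B) :
    resHom K P (F := F) b = IsLocalRing.residue _ (toPlaceRing K P b) := rfl

theorem resHom_eq_zero_iff (P : HeightOneSpectrum B) (b : B) :
    resHom K P (F := F) b = 0 ↔ b ∈ P.asIdeal := by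
  rw [resHom_apply, IsLocalRing.residue_eq_zero_iff, mem_maximalIdeal_placeOfPrime_iff,
    coe_toPlaceRing, HeightOneSpectrum.valuation_lt_one_iff_mem]

theorem ker_resHom (P : HeightOneSpectrum B) :
    RingHom.ker (resHom K P (F := F)) = P.asIdeal := by
  ext b
  rw [RingHom.mem_ker, resHom_eq_zero_iff]

theorem resHom_surjective (P : HeightOneSpectrum B) :
    Function.Surjective (resHom K P (F := F)) := by
  intro x
  obtain ⟨x, rfl⟩ := IsLocalRing.residue_surjective x
  obtain ⟨n, d, hnd⟩ := P.exists_primeCompl_mul_eq_of_integer x.1 x.2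
  have hd : (d : B) ∉ P.asIdeal := d.2
  haveI : P.asIdeal.IsMaximal := P.isMaximal
  obtain ⟨s, hs⟩ := Ideal.Quotient.mk_surjective (I := P.asIdeal)
    (letI := Ideal.Quotient.field P.asIdeal; (Ideal.Quotient.mk P.asIdeal (d : B))⁻¹)
  have hsd : s * (d : B) - 1 ∈ P.asIdeal := by
    letI := Ideal.Quotient.field P.asIdeal
    rw [← Ideal.Quotient.eq_zero_iff_mem, map_sub, map_mul, hs, map_one,
      inv_mul_cancel₀, sub_self]
    rwa [Ne, Ideal.Quotient.eq_zero_iff_mem]
  refine ⟨n * s, ?_⟩
  rw [resHom_apply, ← sub_eq_zero, ← map_sub, IsLocalRing.residue_eq_zero_iff,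
    mem_maximalIdeal_placeOfPrime_iff]
  have hx : (toPlaceRing K P (n * s) - x).1 =
      x.1 * algebraMap B F (s * (d : B) - 1) := by
    show algebraMap B F (n * s) - x.1 = _
    rw [map_mul, ← hnd, map_sub, map_mul, map_one]
    ring
  rw [hx, map_mul]
  have h1 : P.valuation F x.1 ≤ 1 := x.2
  have h2 : P.valuation F (algebraMap B F (s * (d : B) - 1)) < 1 :=
    (P.valuation_lt_one_iff_mem _).2 hsd
  calc P.valuation F x.1 * P.valuation F (algebraMap B F (s * (d : B) - 1))
      ≤ 1 * P.valuation F (algebraMap B F (s * (d : B) - 1)) := by gcongr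
    _ < 1 := by rwa [one_mul]

variable (K) in
/-- `B ⧸ P` is the residue field of `placeOfPrime P`, as `K`-algebras. -/
noncomputable def quotEquivResidue (P : HeightOneSpectrum B) :
    (B ⧸ P.asIdeal) ≃ₐ[K] (placeOfPrime K P (F := F)).ResidueField :=
  (Ideal.quotientEquivAlgOfEq K (ker_resHom (K := K) (F := F) P).symm).trans
    (Ideal.quotientKerAlgEquivOfSurjective (resHom_surjective (K := K) (F := F) P))

theorem deg_placeOfPrime (P : HeightOneSpectrum B) :
    (placeOfPrime K P (F := F)).deg = Module.finrank K (B ⧸ P.asIdeal) :=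
  (quotEquivResidue K P (F := F)).toLinearEquiv.finrank_eq.symm

end residue

end Fermat.Agent.S24.Alg
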