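import Mathlib.NumberTheory.ModularForms.CongruenceSubgroups
import Mathlib.NumberTheory.ModularForms.SlashActions
import Mathlib.GroupTheory.GroupAction.Quotient
import Mathlib.Data.ZMod.Units
import Mathlib.Tactic
import Fermat.Prelude.Def_ModularCurve_GenusNumerics

/-!
# S24 COMB C4 (helper12): the number of orbits of `T` on `SL(2,ℤ) ⧸ Γ₀(N)` is `cuspCount N`

The invariant of the orbit of the coset of `g` (first column `(x, y)`) is the pair `(d, k)`,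
`d = gcd (y, N)`, `e = gcd (d, N / d)`, `k < e` with `k * (y / d) ≡ x mod e`.
-/

set_option autoImplicit false

open scoped MatrixGroups
open CongruenceSubgroup ModularCurve

namespace Fermat.Agent.S24.Comb

/-! ## Integer core -/

/-- `d = gcd (y, N)`. -/
def h12_d (N : ℕ) (y : ℤ) : ℕ := Int.gcd y N

/-- `e = gcd (d, N / d)`. -/
def h12_e (N d : ℕ) : ℕ := Nat.gcd d (N / d)

/-- the class `x * (y / d)⁻¹ mod e`, as a natural number `< e`. -/
def h12_k (N : ℕ) (x y : ℤ) : ℕ :=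
  ((x * Int.gcdA (y / (h12_d N y : ℤ)) (h12_e N (h12_d N y) : ℤ)) %
    (h12_e N (h12_d N y) : ℤ)).toNat

theorem h12_d_pos (N : ℕ) [NeZero N] (y : ℤ) : 0 < h12_d N y :=
  Int.gcd_pos_of_ne_zero_right _ (by exact_mod_cast NeZero.ne N)

theorem h12_d_dvd (N : ℕ) (y : ℤ) : h12_d N y ∣ N := by
  have h : ((Int.gcd y N : ℕ) : ℤ) ∣ (N : ℤ) := Int.gcd_dvd_right y N
  exact_mod_cast h

theorem h12_d_dvd_left (N : ℕ) (y : ℤ) : (h12_d N y : ℤ) ∣ y := Int.gcd_dvd_left y N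

theorem h12_e_pos {N d : ℕ} (hd : 0 < d) : 0 < h12_e N d := Nat.gcd_pos_of_pos_left _ hd

theorem h12_e_dvd_d (N d : ℕ) : h12_e N d ∣ d := Nat.gcd_dvd_left _ _

theorem h12_e_dvd_M (N d : ℕ) : h12_e N d ∣ N / d := Nat.gcd_dvd_right _ _

/-- decomposition `y = d u`, `N = d M`, `gcd (u, M) = 1`. -/
theorem h12_decomp (N : ℕ) [NeZero N] (y : ℤ) :
    y = (h12_d N y : ℤ) * (y / (h12_d N y : ℤ)) ∧
    N = h12_d N y * (N / h12_d N y) ∧
    IsCoprime (y / (h12_d N y : ℤ)) ((N / h12_d N y : ℕ) : ℤ) := by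
  have hd := h12_d_pos N y
  refine ⟨(Int.mul_ediv_cancel' (h12_d_dvd_left N y)).symm,
    (Nat.mul_div_cancel' (h12_d_dvd N y)).symm, ?_⟩
  have h1 : Int.gcd (y / (Int.gcd y N : ℤ)) ((N : ℤ) / (Int.gcd y N : ℤ)) = 1 :=
    Int.gcd_div_gcd_div_gcd hd
  rw [Int.isCoprime_iff_gcd_eq_one]
  have h2 : ((N / h12_d N y : ℕ) : ℤ) = (N : ℤ) / (Int.gcd y N : ℤ) := by
    simp [h12_d]
  rw [h2]
  exact h1

theorem h12_coprime_u_e (N : ℕ) [NeZero N] (y : ℤ) :
    IsCoprime (y / (h12_d N y : ℤ)) ((h12_e N (h12_d N y) : ℕ) : ℤ) := by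
  obtain ⟨-, -, h3⟩ := h12_decomp N y
  have h : ((h12_e N (h12_d N y) : ℕ) : ℤ) ∣ ((N / h12_d N y : ℕ) : ℤ) := by
    exact_mod_cast h12_e_dvd_M N (h12_d N y)
  exact h3.of_isCoprime_of_dvd_right h

theorem h12_k_lt (N : ℕ) [NeZero N] (x y : ℤ) : h12_k N x y < h12_e N (h12_d N y) := by
  have he : (0 : ℤ) < (h12_e N (h12_d N y) : ℤ) := by
    exact_mod_cast h12_e_pos (h12_d_pos N y)
  have h1 := Int.emod_lt_of_pos (x * Int.gcdA (y / (h12_d N y : ℤ)) (h12_e N (h12_d N y) : ℤ)) he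
  have h0 := Int.emod_nonneg (x * Int.gcdA (y / (h12_d N y : ℤ)) (h12_e N (h12_d N y) : ℤ))
    he.ne'
  unfold h12_k
  omega

theorem h12_k_spec (N : ℕ) [NeZero N] (x y : ℤ) :
    ((h12_e N (h12_d N y) : ℕ) : ℤ) ∣ (h12_k N x y : ℤ) * (y / (h12_d N y : ℤ)) - x := by
  set d := h12_d N y with hd
  set e := h12_e N d with he
  set u := y / (d : ℤ) with hu
  have hepos : (0 : ℤ) < (e : ℤ) := by exact_mod_cast h12_e_pos (h12_d_pos N y)
  have hcop : Int.gcd u e = 1 := Int.isCoprime_iff_gcd_eq_one.mp (h12_coprime_u_e N y)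
  have hbez := Int.gcd_eq_gcd_ab u e
  rw [hcop] at hbez
  have hk : (h12_k N x y : ℤ) = (x * Int.gcdA u e) % e := by
    unfold h12_k
    rw [Int.toNat_of_nonneg (Int.emod_nonneg _ hepos.ne')]
  rw [hk]
  have h1 : (e : ℤ) ∣ x * Int.gcdA u e - (x * Int.gcdA u e) % e :=
    Int.dvd_self_sub_emod
  obtain ⟨c, hc⟩ := h1
  refine ⟨- c * u - x * Int.gcdB u e, ?_⟩
  have h2 : (x * Int.gcdA u e) % e = x * Int.gcdA u e - e * c := by linarith
  rw [h2]
  have h3 : ((1 : ℕ) : ℤ) = 1 := by norm_num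
  rw [h3] at hbez
  linear_combination (-x) * hbez

theorem h12_k_coprime (N : ℕ) [NeZero N] {x y : ℤ} (hxy : IsCoprime x y) :
    Nat.Coprime (h12_e N (h12_d N y)) (h12_k N x y) := by
  have hxd : IsCoprime x ((h12_e N (h12_d N y) : ℕ) : ℤ) := by
    have h1 : ((h12_e N (h12_d N y) : ℕ) : ℤ) ∣ y :=
      (Int.natCast_dvd_natCast.mpr (h12_e_dvd_d N (h12_d N y))).trans (h12_d_dvd_left N y)
    exact hxy.of_isCoprime_of_dvd_right h1
  have hspec := h12_k_spec N x y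
  rw [← Nat.isCoprime_iff_coprime]
  -- any common divisor of e and k divides x
  obtain ⟨a, b, hab⟩ := hxd
  obtain ⟨c, hc⟩ := hspec
  refine ⟨b - a * c, a * (y / (h12_d N y : ℤ)), ?_⟩
  linear_combination hab + a * hc

/-- the relation "same `T`-orbit" on first columns. -/
def h12_Rel (N : ℕ) (x y x' y' : ℤ) : Prop :=
  ∃ n : ℤ, (N : ℤ) ∣ (x + n * y) * y' - y * x'

theorem h12_d_eq_of_rel (N : ℕ) [NeZero N] {x y x' y' : ℤ} (hxy : IsCoprime x y)
    (hxy' : IsCoprime x' y') (h : h12_Rel N x y x' y') : h12_d N y = h12_d N y' := by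
  obtain ⟨n, hn⟩ := h
  have hdN : (h12_d N y : ℤ) ∣ (N : ℤ) := Int.gcd_dvd_right y N
  have hdN' : (h12_d N y' : ℤ) ∣ (N : ℤ) := Int.gcd_dvd_right y' N
  have hdy : (h12_d N y : ℤ) ∣ y := h12_d_dvd_left N y
  have hdy' : (h12_d N y' : ℤ) ∣ y' := h12_d_dvd_left N y'
  apply Nat.dvd_antisymm
  · -- d ∣ y'
    have h1 : (h12_d N y : ℤ) ∣ y' * (x + n * y) := by
      have h2 : (h12_d N y : ℤ) ∣ (x + n * y) * y' - y * x' := hdN.trans hn
      have h3 : (h12_d N y : ℤ) ∣ y * x' := Dvd.dvd.mul_right hdy _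
      have h4 := dvd_add h2 h3
      have h5 : (x + n * y) * y' - y * x' + y * x' = y' * (x + n * y) := by ring
      rwa [h5] at h4
    have hc : IsCoprime ((h12_d N y : ℕ) : ℤ) (x + n * y) :=
      ((hxy.add_mul_right_left n).of_isCoprime_of_dvd_right hdy).symm
    have h6 : (h12_d N y : ℤ) ∣ y' := hc.dvd_of_dvd_mul_right h1
    have h7 : (h12_d N y : ℤ) ∣ ((Int.gcd y' N : ℕ) : ℤ) := Int.dvd_coe_gcd h6 hdN
    exact Int.natCast_dvd_natCast.mp h7
  · have h1 : (h12_d N y' : ℤ) ∣ y * x' := by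
      have h2 : (h12_d N y' : ℤ) ∣ (x + n * y) * y' - y * x' := hdN'.trans hn
      have h3 : (h12_d N y' : ℤ) ∣ (x + n * y) * y' := Dvd.dvd.mul_left hdy' _
      have h4 := dvd_sub h3 h2
      have h5 : (x + n * y) * y' - ((x + n * y) * y' - y * x') = y * x' := by ring
      rwa [h5] at h4
    have hc : IsCoprime ((h12_d N y' : ℕ) : ℤ) x' :=
      (hxy'.of_isCoprime_of_dvd_right hdy').symm
    have h6 : (h12_d N y' : ℤ) ∣ y := hc.dvd_of_dvd_mul_right h1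
    have h7 : (h12_d N y' : ℤ) ∣ ((Int.gcd y N : ℕ) : ℤ) := Int.dvd_coe_gcd h6 hdN'
    exact Int.natCast_dvd_natCast.mp h7

/-- the congruence `e ∣ x u' - x' u` extracted from the relation. -/
theorem h12_cross_of_rel (N : ℕ) [NeZero N] {x y x' y' : ℤ}
    (hd : h12_d N y = h12_d N y') (h : h12_Rel N x y x' y') :
    ((h12_e N (h12_d N y) : ℕ) : ℤ) ∣
      x * (y' / (h12_d N y : ℤ)) - x' * (y / (h12_d N y : ℤ)) := by
  obtain ⟨n, hn⟩ := h
  obtain ⟨hy, hN, -⟩ := h12_decomp N y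
  obtain ⟨hy', -, -⟩ := h12_decomp N y'
  rw [← hd] at hy'
  set d := h12_d N y with hdd
  set u := y / (d : ℤ) with hu
  set u' := y' / (d : ℤ) with hu'
  set M := N / d with hM
  have hd0 : (d : ℤ) ≠ 0 := by exact_mod_cast (h12_d_pos N y).ne'
  have hNZ : (N : ℤ) = (d : ℤ) * (M : ℤ) := by exact_mod_cast hN
  have h1 : (d : ℤ) * (M : ℤ) ∣ (d : ℤ) * ((x + n * ((d : ℤ) * u)) * u' - u * x') := by
    have h2 : (d : ℤ) * ((x + n * ((d : ℤ) * u)) * u' - u * x') =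
        (x + n * y) * y' - y * x' := by
      rw [hy, hy']; ring
    rw [h2, ← hNZ]; exact hn
  have h3 : (M : ℤ) ∣ (x + n * ((d : ℤ) * u)) * u' - u * x' :=
    (mul_dvd_mul_iff_left hd0).mp h1
  have heM : ((h12_e N d : ℕ) : ℤ) ∣ (M : ℤ) := by exact_mod_cast h12_e_dvd_M N d
  have hed : ((h12_e N d : ℕ) : ℤ) ∣ (d : ℤ) := by exact_mod_cast h12_e_dvd_d N d
  have h4 := heM.trans h3
  have h5 : ((h12_e N d : ℕ) : ℤ) ∣ n * u * u' * (d : ℤ) := Dvd.dvd.mul_left hed _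
  have h6 := dvd_sub h4 h5
  have h7 : (x + n * ((d : ℤ) * u)) * u' - u * x' - n * u * u' * (d : ℤ) = x * u' - x' * u := by
    ring
  rwa [h7] at h6

theorem h12_k_eq_of_cross (N : ℕ) [NeZero N] {x y x' y' : ℤ}
    (hd : h12_d N y = h12_d N y')
    (hc : ((h12_e N (h12_d N y) : ℕ) : ℤ) ∣
      x * (y' / (h12_d N y : ℤ)) - x' * (y / (h12_d N y : ℤ))) :
    h12_k N x y = h12_k N x' y' := by
  have hs := h12_k_spec N x y
  have hs' := h12_k_spec N x' y'
  have hlt := h12_k_lt N x y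
  have hlt' := h12_k_lt N x' y'
  have hcu := h12_coprime_u_e N y
  have hcu' := h12_coprime_u_e N y'
  rw [← hd] at hs' hlt' hcu'
  set d := h12_d N y with hdd
  set e := h12_e N d with hee
  set u := y / (d : ℤ) with hu
  set u' := y' / (d : ℤ) with hu'
  set k := h12_k N x y with hk
  set k' := h12_k N x' y' with hk'
  have h1 : (e : ℤ) ∣ ((k : ℤ) - k') * (u * u') := by
    have h2 : ((k : ℤ) - k') * (u * u') =
        ((k : ℤ) * u - x) * u' - ((k' : ℤ) * u' - x') * u + (x * u' - x' * u) := by ring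
    rw [h2]
    exact dvd_add (dvd_sub (Dvd.dvd.mul_right hs _) (Dvd.dvd.mul_right hs' _)) hc
  have hcop : IsCoprime ((e : ℕ) : ℤ) (u * u') := (hcu.mul_left hcu').symm
  have h3 : (e : ℤ) ∣ (k : ℤ) - k' := hcop.dvd_of_dvd_mul_right h1
  have h4 : (k : ℤ) - k' = 0 := by
    apply Int.eq_zero_of_abs_lt_dvd h3
    rw [abs_lt]
    constructor <;> omega
  have h5 : (k : ℤ) = k' := by linarith
  exact_mod_cast h5

theorem h12_cross_of_k_eq (N : ℕ) [NeZero N] {x y x' y' : ℤ}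
    (hd : h12_d N y = h12_d N y') (hk : h12_k N x y = h12_k N x' y') :
    ((h12_e N (h12_d N y) : ℕ) : ℤ) ∣
      x * (y' / (h12_d N y : ℤ)) - x' * (y / (h12_d N y : ℤ)) := by
  have hs := h12_k_spec N x y
  have hs' := h12_k_spec N x' y'
  rw [← hd, ← hk] at hs'
  set d := h12_d N y with hdd
  set e := h12_e N d with hee
  set u := y / (d : ℤ) with hu
  set u' := y' / (d : ℤ) with hu'
  set k := h12_k N x y with hk
  have h2 : x * u' - x' * u = ((k : ℤ) * u' - x') * u - ((k : ℤ) * u - x) * u' := by ring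
  rw [h2]
  exact dvd_sub (Dvd.dvd.mul_right hs' _) (Dvd.dvd.mul_right hs _)

theorem h12_rel_of_cross (N : ℕ) [NeZero N] {x y x' y' : ℤ}
    (hd : h12_d N y = h12_d N y')
    (hc : ((h12_e N (h12_d N y) : ℕ) : ℤ) ∣
      x * (y' / (h12_d N y : ℤ)) - x' * (y / (h12_d N y : ℤ))) :
    h12_Rel N x y x' y' := by
  obtain ⟨hy, hN, hcu⟩ := h12_decomp N y
  obtain ⟨hy', -, hcu'⟩ := h12_decomp N y'
  rw [← hd] at hy' hcu'
  set d := h12_d N y with hdd
  set u := y / (d : ℤ) with hu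
  set u' := y' / (d : ℤ) with hu'
  set M := N / d with hM
  have hNZ : (N : ℤ) = (d : ℤ) * (M : ℤ) := by exact_mod_cast hN
  -- Bezout for e = gcd (d, M)
  have hbez : ((h12_e N d : ℕ) : ℤ) = (d : ℤ) * Int.gcdA d M + (M : ℤ) * Int.gcdB d M := by
    have := Int.gcd_eq_gcd_ab (d : ℤ) (M : ℤ)
    rw [Int.gcd_natCast_natCast] at this
    exact this
  set α := Int.gcdA d M with hα
  set β := Int.gcdB d M with hβ
  obtain ⟨c', hc'⟩ := hc
  obtain ⟨w, v, hwv⟩ : IsCoprime (u * u') (M : ℤ) := hcu.mul_left hcu'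
  refine ⟨- c' * α * w, ?_⟩
  rw [hNZ]
  refine ⟨c' * (β + α * (d : ℤ) * v), ?_⟩
  rw [hy, hy']
  linear_combination (d : ℤ) * hc' + (d : ℤ) * c' * hbez - (d : ℤ) * c' * α * (d : ℤ) * hwv

theorem h12_k_unique (N : ℕ) [NeZero N] (x y : ℤ) (k : ℕ)
    (hk : k < h12_e N (h12_d N y))
    (h : ((h12_e N (h12_d N y) : ℕ) : ℤ) ∣ (k : ℤ) * (y / (h12_d N y : ℤ)) - x) :
    h12_k N x y = k := by
  have hs := h12_k_spec N x y
  have hlt := h12_k_lt N x y
  have hcu := h12_coprime_u_e N y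
  set d := h12_d N y with hdd
  set e := h12_e N d with hee
  set u := y / (d : ℤ) with hu
  set k₀ := h12_k N x y with hk₀
  have h1 : (e : ℤ) ∣ ((k₀ : ℤ) - k) * u := by
    have h2 : ((k₀ : ℤ) - k) * u = ((k₀ : ℤ) * u - x) - ((k : ℤ) * u - x) := by ring
    rw [h2]
    exact dvd_sub hs h
  have h3 : (e : ℤ) ∣ (k₀ : ℤ) - k := hcu.symm.dvd_of_dvd_mul_right h1
  have h4 : (k₀ : ℤ) - k = 0 := by
    apply Int.eq_zero_of_abs_lt_dvd h3
    rw [abs_lt]
    constructor <;> omega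
  have h5 : (k₀ : ℤ) = k := by linarith
  exact_mod_cast h5

/-! ## The invariant on `SL(2,ℤ)` -/

/-- The invariant `(d, k)` of the first column of `g`. -/
def h12_Phi (N : ℕ) (g : SL(2, ℤ)) : (Σ _ : ℕ, ℕ) :=
  ⟨h12_d N (g 1 0), h12_k N (g 0 0) (g 1 0)⟩

/-- The target set of the invariant. -/
def h12_S (N : ℕ) : Finset (Σ _ : ℕ, ℕ) :=
  N.divisors.sigma fun d => (Finset.range (h12_e N d)).filter (Nat.Coprime (h12_e N d))

theorem h12_card_S (N : ℕ) : (h12_S N).card = cuspCount N := by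
  unfold h12_S cuspCount
  rw [Finset.card_sigma]
  refine Finset.sum_congr rfl fun d _ => ?_
  rw [Nat.totient_eq_card_coprime]
  rfl

theorem h12_col_coprime (g : SL(2, ℤ)) : IsCoprime (g 0 0) (g 1 0) := by
  have h := g.2
  rw [Matrix.det_fin_two] at h
  exact ⟨g 1 1, - g 0 1, by linear_combination h⟩

theorem h12_mk_eq_mk_iff (N : ℕ) (g h : SL(2, ℤ)) :
    (QuotientGroup.mk g : SL(2, ℤ) ⧸ Gamma0 N) = QuotientGroup.mk h ↔
      (N : ℤ) ∣ g 0 0 * h 1 0 - g 1 0 * h 0 0 := by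
  rw [QuotientGroup.eq, Gamma0_mem, ZMod.intCast_zmod_eq_zero_iff_dvd]
  have h1 : (g⁻¹ * h) 1 0 = g 0 0 * h 1 0 - g 1 0 * h 0 0 := by
    simp [Matrix.SpecialLinearGroup.coe_mul, Matrix.SpecialLinearGroup.coe_inv,
      Matrix.adjugate_fin_two, Matrix.mul_apply, Fin.sum_univ_two]
    ring
  rw [h1]

theorem h12_T_zpow_mul_col (n : ℤ) (g : SL(2, ℤ)) :
    (ModularGroup.T ^ n * g) 0 0 = g 0 0 + n * g 1 0 ∧ (ModularGroup.T ^ n * g) 1 0 = g 1 0 := by
  constructor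
  · simp [Matrix.SpecialLinearGroup.coe_mul, ModularGroup.coe_T_zpow, Matrix.mul_apply,
      Fin.sum_univ_two]
  · simp

theorem h12_Phi_eq_iff (N : ℕ) [NeZero N] (g h : SL(2, ℤ)) :
    h12_Phi N g = h12_Phi N h ↔ h12_Rel N (g 0 0) (g 1 0) (h 0 0) (h 1 0) := by
  constructor
  · intro hΦ
    have hd : h12_d N (g 1 0) = h12_d N (h 1 0) := congrArg Sigma.fst hΦ
    have hk : h12_k N (g 0 0) (g 1 0) = h12_k N (h 0 0) (h 1 0) := by
      have := hΦ
      simp only [h12_Phi, Sigma.mk.injEq, heq_eq_eq] at this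
      exact this.2
    exact h12_rel_of_cross N hd (h12_cross_of_k_eq N hd hk)
  · intro hR
    have hd := h12_d_eq_of_rel N (h12_col_coprime g) (h12_col_coprime h) hR
    have hk := h12_k_eq_of_cross N hd (h12_cross_of_rel N hd hR)
    simp only [h12_Phi, Sigma.mk.injEq, heq_eq_eq]
    exact ⟨hd, hk⟩

theorem h12_Phi_mem (N : ℕ) [NeZero N] (g : SL(2, ℤ)) : h12_Phi N g ∈ h12_S N := by
  simp only [h12_S, h12_Phi, Finset.mem_sigma, Nat.mem_divisors, Finset.mem_filter,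
    Finset.mem_range]
  exact ⟨⟨h12_d_dvd N _, NeZero.ne N⟩, h12_k_lt N _ _, h12_k_coprime N (h12_col_coprime g)⟩

theorem h12_Phi_surj (N : ℕ) [NeZero N] (p : Σ _ : ℕ, ℕ) (hp : p ∈ h12_S N) :
    ∃ g : SL(2, ℤ), h12_Phi N g = p := by
  obtain ⟨d, k⟩ := p
  simp only [h12_S, Finset.mem_sigma, Nat.mem_divisors, Finset.mem_filter,
    Finset.mem_range] at hp
  obtain ⟨⟨hdN, -⟩, hke, hcop⟩ := hp
  have hd0 : d ≠ 0 := fun h => by
    rw [h, zero_dvd_iff] at hdN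
    exact NeZero.ne N hdN
  have : NeZero d := ⟨hd0⟩
  have hed : h12_e N d ∣ d := h12_e_dvd_d N d
  -- lift the unit `k mod e` to a unit mod `d`
  obtain ⟨v, hv⟩ := ZMod.unitsMap_surjective hed (ZMod.unitOfCoprime k hcop.symm)
  set x : ℕ := (v : ZMod d).val with hx
  have hxd : Nat.Coprime x d := ZMod.val_coe_unit_coprime v
  have hxk : ((x : ℕ) : ZMod (h12_e N d)) = (k : ZMod (h12_e N d)) := by
    have h1 := congrArg (fun t : (ZMod (h12_e N d))ˣ => (t : ZMod (h12_e N d))) hv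
    simp only [ZMod.unitsMap_val, ZMod.coe_unitOfCoprime] at h1
    rw [← h1, hx, ← ZMod.cast_natCast hed, ZMod.natCast_zmod_val]
  have hxkZ : ((h12_e N d : ℕ) : ℤ) ∣ (k : ℤ) - (x : ℤ) := by
    have h2 : (((k : ℤ) - (x : ℤ) : ℤ) : ZMod (h12_e N d)) = 0 := by
      push_cast
      rw [hxk, sub_self]
    exact (ZMod.intCast_zmod_eq_zero_iff_dvd _ _).mp h2
  obtain ⟨a, b, hab⟩ : IsCoprime (x : ℤ) (d : ℤ) := Nat.isCoprime_iff_coprime.mpr hxd
  let g : SL(2, ℤ) := ⟨!![(x : ℤ), -b; (d : ℤ), a], by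
    rw [Matrix.det_fin_two_of]; linear_combination hab⟩
  have hg00 : g 0 0 = (x : ℤ) := rfl
  have hg10 : g 1 0 = (d : ℤ) := rfl
  refine ⟨g, ?_⟩
  have hdd : h12_d N (d : ℤ) = d := by
    unfold h12_d
    rw [Int.gcd_natCast_natCast]
    exact Nat.gcd_eq_left hdN
  have hdiv : ((d : ℕ) : ℤ) / (d : ℤ) = 1 := Int.ediv_self (by exact_mod_cast hd0)
  have hk : h12_k N (x : ℤ) (d : ℤ) = k := by
    apply h12_k_unique
    · rw [hdd]; exact hke
    · rw [hdd, hdiv, mul_one]; exact hxkZ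
  simp only [h12_Phi, hg00, hg10, Sigma.mk.injEq, heq_eq_eq]
  exact ⟨hdd, hk⟩

/-! ## Orbits of `T` on the coset space -/

theorem h12_orbitRel_iff (N : ℕ) (g h : SL(2, ℤ)) :
    MulAction.orbitRel (Subgroup.zpowers ModularGroup.T) (SL(2, ℤ) ⧸ Gamma0 N)
        (QuotientGroup.mk g) (QuotientGroup.mk h) ↔
      h12_Rel N (h 0 0) (h 1 0) (g 0 0) (g 1 0) := by
  rw [MulAction.orbitRel_apply, MulAction.mem_orbit_iff]
  constructor
  · rintro ⟨⟨t, ht⟩, hth⟩
    obtain ⟨n, rfl⟩ := Subgroup.mem_zpowers_iff.mp ht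
    have h1 : (QuotientGroup.mk (ModularGroup.T ^ n * h) : SL(2, ℤ) ⧸ Gamma0 N) =
        QuotientGroup.mk g := hth
    rw [h12_mk_eq_mk_iff] at h1
    obtain ⟨h00, h10⟩ := h12_T_zpow_mul_col n h
    rw [h00, h10] at h1
    exact ⟨n, h1⟩
  · rintro ⟨n, hn⟩
    refine ⟨⟨ModularGroup.T ^ n, Subgroup.mem_zpowers_iff.mpr ⟨n, rfl⟩⟩, ?_⟩
    have h1 : (QuotientGroup.mk (ModularGroup.T ^ n * h) : SL(2, ℤ) ⧸ Gamma0 N) =
        QuotientGroup.mk g := by
      rw [h12_mk_eq_mk_iff]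
      obtain ⟨h00, h10⟩ := h12_T_zpow_mul_col n h
      rw [h00, h10]
      exact hn
    exact h1

/-- The invariant on the coset space. -/
noncomputable def h12_PhiX (N : ℕ) [NeZero N] (a : SL(2, ℤ) ⧸ Gamma0 N) : (Σ _ : ℕ, ℕ) :=
  Quotient.liftOn' a (h12_Phi N) (by
    intro g h hgh
    have h1 : (QuotientGroup.mk g : SL(2, ℤ) ⧸ Gamma0 N) = QuotientGroup.mk h :=
      Quotient.sound' hgh
    rw [h12_mk_eq_mk_iff] at h1
    rw [h12_Phi_eq_iff]
    exact ⟨0, by simpa using h1⟩)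

theorem h12_PhiX_mk (N : ℕ) [NeZero N] (g : SL(2, ℤ)) :
    h12_PhiX N (QuotientGroup.mk g) = h12_Phi N g := rfl

theorem h12_PhiX_eq_iff (N : ℕ) [NeZero N] (a b : SL(2, ℤ) ⧸ Gamma0 N) :
    h12_PhiX N a = h12_PhiX N b ↔
      MulAction.orbitRel (Subgroup.zpowers ModularGroup.T) (SL(2, ℤ) ⧸ Gamma0 N) b a := by
  induction a using QuotientGroup.induction_on with
  | H g =>
    induction b using QuotientGroup.induction_on with
    | H h =>
      rw [h12_PhiX_mk, h12_PhiX_mk, h12_Phi_eq_iff, h12_orbitRel_iff]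

/-- The invariant on the orbit space. -/
noncomputable def h12_PhiOrb (N : ℕ) [NeZero N]
    (a : MulAction.orbitRel.Quotient (Subgroup.zpowers ModularGroup.T) (SL(2, ℤ) ⧸ Gamma0 N)) :
    h12_S N :=
  Quotient.liftOn' a
    (fun x => (⟨h12_PhiX N x, by
      induction x using QuotientGroup.induction_on with
      | H g => exact h12_Phi_mem N g⟩ : h12_S N))
    (by
      intro x y hxy
      apply Subtype.ext
      show h12_PhiX N x = h12_PhiX N y
      rw [h12_PhiX_eq_iff]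
      exact (MulAction.orbitRel _ _).symm hxy)

theorem h12_PhiOrb_bijective (N : ℕ) [NeZero N] : Function.Bijective (h12_PhiOrb N) := by
  constructor
  · intro a b hab
    induction a using Quotient.inductionOn' with
    | h x =>
      induction b using Quotient.inductionOn' with
      | h y =>
        have h1 : h12_PhiX N x = h12_PhiX N y := congrArg Subtype.val hab
        rw [h12_PhiX_eq_iff] at h1
        exact Quotient.sound' ((MulAction.orbitRel _ _).symm h1)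
  · rintro ⟨p, hp⟩
    obtain ⟨g, hg⟩ := h12_Phi_surj N p hp
    refine ⟨Quotient.mk'' (QuotientGroup.mk g), ?_⟩
    apply Subtype.ext
    exact hg

/-- **S24 COMB C4**: the number of orbits of `T` on `SL(2,ℤ) ⧸ Γ₀(N)` is `cuspCount N`. -/
theorem card_orbits_T (N : ℕ) [NeZero N] :
    Nat.card (MulAction.orbitRel.Quotient (Subgroup.zpowers ModularGroup.T)
      (SL(2, ℤ) ⧸ Gamma0 N)) = cuspCount N := by
  rw [Nat.card_eq_of_bijective _ (h12_PhiOrb_bijective N), Nat.card_eq_finsetCard, h12_card_S]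

end Fermat.Agent.S24.Comb
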