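import Mathlib
import Fermat.Prelude.Def_ModularCurve_GenusNumerics

/-!
# S24 / COMB C1 (helper16), arithmetic part

`dedekindPsi` is multiplicative, and its values at prime powers.
-/

set_option autoImplicit false

open ModularCurve

namespace Fermat.Agent.S24.Comb

/-- The indicator function of squarefree numbers as an arithmetic function. -/
def h16_sqf : ArithmeticFunction ℕ :=
  ⟨fun n => if Squarefree n then 1 else 0, by simp⟩

theorem h16_sqf_apply (n : ℕ) : h16_sqf n = if Squarefree n then 1 else 0 := rfl

theorem h16_sqf_isMultiplicative : ArithmeticFunction.IsMultiplicative h16_sqf := by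
  refine ⟨by simp [h16_sqf_apply], ?_⟩
  intro m n hmn
  simp only [h16_sqf_apply, Nat.squarefree_mul hmn]
  by_cases hm : Squarefree m <;> by_cases hn : Squarefree n <;> simp [hm, hn]

theorem h16_dedekindPsi_eq (N : ℕ) :
    dedekindPsi N = (h16_sqf * ArithmeticFunction.id) N := by
  rw [ArithmeticFunction.mul_apply, dedekindPsi, Finset.sum_filter,
    Nat.sum_divisorsAntidiagonal (fun d e => h16_sqf d * ArithmeticFunction.id e)]
  refine Finset.sum_congr rfl fun d _ => ?_
  simp only [h16_sqf_apply, ArithmeticFunction.id_apply]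
  split_ifs <;> simp

theorem h16_dedekindPsi_mul {m n : ℕ} (h : m.Coprime n) :
    dedekindPsi (m * n) = dedekindPsi m * dedekindPsi n := by
  rw [h16_dedekindPsi_eq, h16_dedekindPsi_eq, h16_dedekindPsi_eq]
  exact (h16_sqf_isMultiplicative.mul ArithmeticFunction.isMultiplicative_id).map_mul_of_coprime h

theorem h16_dedekindPsi_prime_pow {p k : ℕ} (hp : p.Prime) (hk : 0 < k) :
    dedekindPsi (p ^ k) = p ^ k + p ^ (k - 1) := by
  rw [dedekindPsi, Finset.sum_filter, Nat.divisors_prime_pow hp, Finset.sum_map]
  simp only [Function.Embedding.coeFn_mk]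
  have hsub : ({0, 1} : Finset ℕ) ⊆ Finset.range (k + 1) := by
    intro i hi
    simp only [Finset.mem_insert, Finset.mem_singleton] at hi
    rw [Finset.mem_range]
    omega
  rw [← Finset.sum_subset hsub]
  · rw [Finset.sum_pair (by norm_num)]
    simp only [pow_zero, squarefree_one, if_true, Nat.div_one, pow_one, hp.squarefree]
    congr 1
    exact Nat.div_eq_of_eq_mul_left hp.pos (by rw [← pow_succ]; congr 1; omega)
  · intro i _ hi
    simp only [Finset.mem_insert, Finset.mem_singleton, not_or] at hi
    have h2 : ¬ Squarefree (p ^ i) := by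
      rw [Nat.squarefree_pow_iff hp.ne_one hi.1]
      exact fun h => hi.2 h.2
    simp [h2]

theorem h16_dedekindPsi_pos {N : ℕ} (hN : N ≠ 0) : 0 < dedekindPsi N := by
  rw [dedekindPsi]
  refine Finset.sum_pos' (fun _ _ => Nat.zero_le _) ⟨1, ?_, ?_⟩
  · simp [hN]
  · simpa using Nat.pos_of_ne_zero hN

end Fermat.Agent.S24.Comb
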