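import Mathlib
import Fermat.Agent.S24.H16_PsiArith

/-!
# S24 / COMB C1 (helper16), counting unimodular pairs

The number of pairs `(x, y)` in `ZMod N` with `IsCoprime x y` is `φ(N) * dedekindPsi N`.
-/

set_option autoImplicit false

open ModularCurve

namespace Fermat.Agent.S24.Comb

/-- The number of unimodular pairs modulo `N`. -/
noncomputable def h16_pc (N : ℕ) : ℕ :=
  Nat.card {v : ZMod N × ZMod N // IsCoprime v.1 v.2}

theorem h16_isCoprime_prod_iff {A B : Type*} [CommRing A] [CommRing B] (x y : A × B) :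
    IsCoprime x y ↔ IsCoprime x.1 y.1 ∧ IsCoprime x.2 y.2 := by
  constructor
  · intro h
    exact ⟨h.map (RingHom.fst A B), h.map (RingHom.snd A B)⟩
  · rintro ⟨⟨a₁, b₁, h₁⟩, ⟨a₂, b₂, h₂⟩⟩
    exact ⟨(a₁, a₂), (b₁, b₂), Prod.ext (by simpa using h₁) (by simpa using h₂)⟩

theorem h16_isCoprime_ringEquiv_iff {A B : Type*} [CommRing A] [CommRing B] (e : A ≃+* B)
    (x y : A) : IsCoprime (e x) (e y) ↔ IsCoprime x y := by
  constructor
  · intro h
    have := h.map (e.symm : B →+* A)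
    simpa using this
  · intro h
    exact h.map (e : A →+* B)

theorem h16_pc_mul {m n : ℕ} (h : m.Coprime n) : h16_pc (m * n) = h16_pc m * h16_pc n := by
  unfold h16_pc
  rw [← Nat.card_prod]
  let e := ZMod.chineseRemainder h
  let E : (ZMod (m * n) × ZMod (m * n)) ≃ (ZMod m × ZMod m) × (ZMod n × ZMod n) :=
    (e.toEquiv.prodCongr e.toEquiv).trans (Equiv.prodProdProdComm _ _ _ _)
  refine Nat.card_congr (((E.subtypeEquiv (q := fun w => IsCoprime w.1.1 w.1.2 ∧
    IsCoprime w.2.1 w.2.2) ?_)).trans (Equiv.subtypeProdEquivProd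
      (p := fun a : ZMod m × ZMod m => IsCoprime a.1 a.2)
      (q := fun b : ZMod n × ZMod n => IsCoprime b.1 b.2)))
  rintro ⟨x, y⟩
  show IsCoprime x y ↔ IsCoprime (e x).1 (e y).1 ∧ IsCoprime (e x).2 (e y).2
  rw [← h16_isCoprime_prod_iff, h16_isCoprime_ringEquiv_iff]

theorem h16_pc_one : h16_pc 1 = 1 := by
  unfold h16_pc
  have : Subsingleton (ZMod 1) := by
    change Subsingleton (Fin 1); infer_instance
  have : Unique {v : ZMod 1 × ZMod 1 // IsCoprime v.1 v.2} :=
    { default := ⟨(0, 0), ⟨0, 0, Subsingleton.elim _ _⟩⟩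
      uniq := fun _ => Subsingleton.elim _ _ }
  exact Nat.card_unique

section primePow

variable {p k : ℕ}

theorem h16_not_isUnit_iff (hp : p.Prime) (hk : 0 < k) (x : ZMod (p ^ k)) :
    ¬ IsUnit x ↔ ZMod.castHom (dvd_pow_self p hk.ne') (ZMod p) x = 0 := by
  have : NeZero (p ^ k) := ⟨pow_ne_zero _ hp.ne_zero⟩
  have : Fact p.Prime := ⟨hp⟩
  obtain ⟨a, rfl⟩ : ∃ a : ℕ, x = (a : ZMod (p ^ k)) := ⟨x.val, (ZMod.natCast_zmod_val x).symm⟩
  rw [ZMod.isUnit_iff_coprime, map_natCast, ZMod.natCast_eq_zero_iff]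
  rw [Nat.coprime_pow_right_iff hk, Nat.coprime_comm, hp.coprime_iff_not_dvd, not_not]

theorem h16_isCoprime_iff (hp : p.Prime) (hk : 0 < k) (x y : ZMod (p ^ k)) :
    IsCoprime x y ↔ IsUnit x ∨ IsUnit y := by
  have : Fact p.Prime := ⟨hp⟩
  constructor
  · intro h
    by_contra hcon
    rw [not_or] at hcon
    have hx := (h16_not_isUnit_iff hp hk x).mp hcon.1
    have hy := (h16_not_isUnit_iff hp hk y).mp hcon.2
    obtain ⟨a, b, hab⟩ := h
    have := congrArg (ZMod.castHom (dvd_pow_self p hk.ne') (ZMod p)) hab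
    rw [map_add, map_mul, map_mul, hx, hy, mul_zero, mul_zero, add_zero, map_one] at this
    exact zero_ne_one this
  · rintro (h | h)
    · obtain ⟨u, rfl⟩ := h
      exact ⟨((u⁻¹ : (ZMod (p ^ k))ˣ) : ZMod (p ^ k)), 0, by simp⟩
    · obtain ⟨u, rfl⟩ := h
      exact ⟨0, ((u⁻¹ : (ZMod (p ^ k))ˣ) : ZMod (p ^ k)), by simp⟩

theorem h16_card_isUnit (N : ℕ) [NeZero N] :
    Nat.card {x : ZMod N // IsUnit x} = Nat.totient N := by
  have e : (ZMod N)ˣ ≃ {x : ZMod N // IsUnit x} :=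
    Equiv.ofBijective (fun u => ⟨(u : ZMod N), u.isUnit⟩)
      ⟨fun u v huv => Units.ext (congrArg Subtype.val huv),
        fun ⟨x, hx⟩ => ⟨hx.unit, rfl⟩⟩
  rw [← Nat.card_congr e, Nat.card_eq_fintype_card, ZMod.card_units_eq_totient]

theorem h16_card_not_isUnit (hp : p.Prime) (hk : 0 < k) :
    Nat.card {x : ZMod (p ^ k) // ¬ IsUnit x} = p ^ (k - 1) := by
  have : NeZero (p ^ k) := ⟨pow_ne_zero _ hp.ne_zero⟩
  classical
  have h1 := h16_card_isUnit (p ^ k)
  rw [Nat.card_eq_fintype_card] at h1 ⊢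
  rw [Fintype.card_subtype_compl, h1, ZMod.card, Nat.totient_prime_pow hp hk]
  have hpk : p ^ k = p ^ (k - 1) * p := by
    rw [← pow_succ]; congr 1; omega
  rw [hpk, ← Nat.mul_sub]
  have : p - (p - 1) = 1 := by have := hp.one_lt; omega
  rw [this, mul_one]

theorem h16_pc_prime_pow (hp : p.Prime) (hk : 0 < k) :
    h16_pc (p ^ k) = Nat.totient (p ^ k) * dedekindPsi (p ^ k) := by
  have : NeZero (p ^ k) := ⟨pow_ne_zero _ hp.ne_zero⟩
  classical
  unfold h16_pc
  have hcompl : Nat.card {v : ZMod (p ^ k) × ZMod (p ^ k) // ¬ IsCoprime v.1 v.2}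
      = p ^ (k - 1) * p ^ (k - 1) := by
    rw [← h16_card_not_isUnit hp hk, ← Nat.card_prod]
    refine Nat.card_congr (((Equiv.refl _).subtypeEquiv ?_).trans
      (Equiv.subtypeProdEquivProd (p := fun a : ZMod (p ^ k) => ¬ IsUnit a)
        (q := fun b : ZMod (p ^ k) => ¬ IsUnit b)))
    rintro ⟨x, y⟩
    simp only [Equiv.refl_apply]
    rw [h16_isCoprime_iff hp hk, not_or]
  have htot : Nat.card {v : ZMod (p ^ k) × ZMod (p ^ k) // IsCoprime v.1 v.2}
      + Nat.card {v : ZMod (p ^ k) × ZMod (p ^ k) // ¬ IsCoprime v.1 v.2}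
      = p ^ k * p ^ k := by
    rw [Nat.card_eq_fintype_card, Nat.card_eq_fintype_card, Fintype.card_subtype_compl,
      Nat.add_sub_cancel' (Fintype.card_subtype_le _), Fintype.card_prod, ZMod.card]
  rw [hcompl] at htot
  rw [h16_dedekindPsi_prime_pow hp hk, Nat.totient_prime_pow hp hk]
  have hpk : p ^ k = p ^ (k - 1) * p := by
    rw [← pow_succ]; congr 1; omega
  obtain ⟨q, hq⟩ : ∃ q, p = q + 1 := ⟨p - 1, by have := hp.one_lt; omega⟩
  have hq' : p - 1 = q := by omega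
  rw [hq']
  generalize p ^ (k - 1) = r at *
  rw [hpk] at htot ⊢
  have : Nat.card {v : ZMod (r * p) × ZMod (r * p) // IsCoprime v.1 v.2}
      + r * r = r * q * (r * p + r) + r * r := by
    rw [htot, hq]; ring
  exact Nat.add_right_cancel this

end primePow

theorem h16_pc_eq {N : ℕ} (hN : 0 < N) : h16_pc N = Nat.totient N * dedekindPsi N := by
  induction N using Nat.recOnPosPrimePosCoprime with
  | prime_pow p k hp hk => exact h16_pc_prime_pow hp hk
  | zero => exact absurd hN (lt_irrefl 0)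
  | one => simp [h16_pc_one]
  | coprime a b ha hb hab iha ihb =>
    rw [h16_pc_mul hab, iha (by omega), ihb (by omega), Nat.totient_mul hab,
      h16_dedekindPsi_mul hab]
    ring

end Fermat.Agent.S24.Comb
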