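import Mathlib
import Fermat.Prelude.Def_ModularCurve_GenusNumerics

/-!
# S24, package COMB (part 1): the coset space `SL(2, ℤ) ⧸ Γ₀(N)` and fixed points

We describe the left coset space `X N = SL(2, ℤ) ⧸ Γ₀(N)` through the first column of a
representative modulo `N` (a point of `ℙ¹(ℤ/N)`), and count the fixed points of
`S` and of `S * T`:

* `card_fixedBy_S : Nat.card (fixedBy (X N) S) = nuTwo N`,
* `card_fixedBy_ST : Nat.card (fixedBy (X N) (S * T)) = nuThree N`.
-/

set_option autoImplicit false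

open scoped MatrixGroups
open CongruenceSubgroup ModularCurve

namespace Fermat.Agent.S24.Comb

variable (N : ℕ)

/-- The coset space `SL(2, ℤ) ⧸ Γ₀(N)` (left cosets), with `SL(2, ℤ)` acting by left
multiplication. -/
abbrev X := SL(2, ℤ) ⧸ Gamma0 N

variable {N}

theorem inv_mul_one_zero (g h : SL(2, ℤ)) :
    (g⁻¹ * h) 1 0 = g 0 0 * h 1 0 - g 1 0 * h 0 0 := by
  rw [Matrix.SpecialLinearGroup.coe_mul, Matrix.mul_apply, Fin.sum_univ_two,
    Matrix.SpecialLinearGroup.SL2_inv_expl]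
  simp only [Matrix.cons_val_zero, Matrix.cons_val_one, Matrix.cons_val', Matrix.cons_val_fin_one]
  ring

/-- (C0) Two elements of `SL(2, ℤ)` define the same left coset of `Γ₀(N)` iff their first columns
are proportional modulo `N`. -/
theorem mk_eq_mk_iff (g h : SL(2, ℤ)) :
    (QuotientGroup.mk g : X N) = QuotientGroup.mk h ↔
      ((g 0 0 * h 1 0 - g 1 0 * h 0 0 : ℤ) : ZMod N) = 0 := by
  rw [QuotientGroup.eq, Gamma0_mem, inv_mul_one_zero]

theorem smul_mk (γ g : SL(2, ℤ)) : γ • (QuotientGroup.mk g : X N) = QuotientGroup.mk (γ * g) :=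
  rfl

theorem S_mul_zero_zero (g : SL(2, ℤ)) : (ModularGroup.S * g) 0 0 = - g 1 0 := by
  rw [Matrix.SpecialLinearGroup.coe_mul, Matrix.mul_apply, Fin.sum_univ_two, ModularGroup.coe_S]
  simp

theorem S_mul_one_zero (g : SL(2, ℤ)) : (ModularGroup.S * g) 1 0 = g 0 0 := by
  rw [Matrix.SpecialLinearGroup.coe_mul, Matrix.mul_apply, Fin.sum_univ_two, ModularGroup.coe_S]
  simp

theorem T_mul_zero_zero (g : SL(2, ℤ)) : (ModularGroup.T * g) 0 0 = g 0 0 + g 1 0 := by
  rw [Matrix.SpecialLinearGroup.coe_mul, Matrix.mul_apply, Fin.sum_univ_two, ModularGroup.coe_T]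
  simp

theorem T_mul_one_zero (g : SL(2, ℤ)) : (ModularGroup.T * g) 1 0 = g 1 0 := by
  rw [Matrix.SpecialLinearGroup.coe_mul, Matrix.mul_apply, Fin.sum_univ_two, ModularGroup.coe_T]
  simp

theorem ST_mul_zero_zero (g : SL(2, ℤ)) :
    (ModularGroup.S * ModularGroup.T * g) 0 0 = - g 1 0 := by
  rw [mul_assoc, S_mul_zero_zero, T_mul_one_zero]

theorem ST_mul_one_zero (g : SL(2, ℤ)) :
    (ModularGroup.S * ModularGroup.T * g) 1 0 = g 0 0 + g 1 0 := by
  rw [mul_assoc, S_mul_one_zero, T_mul_zero_zero]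

/-- The first column of an element of `SL(2, ℤ)` is primitive modulo `N`. -/
theorem exists_bezout (g : SL(2, ℤ)) :
    ((g 1 1 : ℤ) : ZMod N) * (g 0 0 : ℤ) + ((- g 0 1 : ℤ) : ZMod N) * (g 1 0 : ℤ) = 1 := by
  have h := g.det_coe
  rw [Matrix.det_fin_two] at h
  have h' : (g 1 1 * g 0 0 + (- g 0 1) * g 1 0 : ℤ) = 1 := by linarith
  have := congrArg (Int.cast : ℤ → ZMod N) h'
  push_cast at this ⊢
  exact this

/-- The matrix `[u, -1; 1, 0]` with first column `(u, 1)`. -/
def colMat (u : ℤ) : SL(2, ℤ) :=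
  ⟨!![u, -1; 1, 0], by rw [Matrix.det_fin_two_of]; ring⟩

@[simp] theorem colMat_zero_zero (u : ℤ) : colMat u 0 0 = u := rfl
@[simp] theorem colMat_one_zero (u : ℤ) : colMat u 1 0 = 1 := rfl

/-- The coset with first column `(u : 1)`. -/
def colPt (u : ZMod N) : X N := QuotientGroup.mk (colMat (u.cast : ℤ))

theorem colPt_injective : Function.Injective (colPt : ZMod N → X N) := by
  intro u u' h
  rw [colPt, colPt, mk_eq_mk_iff] at h
  simp only [colMat_zero_zero, colMat_one_zero, mul_one, one_mul] at h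
  push_cast at h
  exact sub_eq_zero.1 h

/-- A coset whose representative has first column `(a, c)` with `c` invertible modulo `N`
is the point `(a / c : 1)`. -/
theorem mk_eq_colPt (g : SL(2, ℤ)) (d : ZMod N) (hd : ((g 1 0 : ℤ) : ZMod N) * d = 1) :
    (QuotientGroup.mk g : X N) = colPt (((g 0 0 : ℤ) : ZMod N) * d) := by
  rw [colPt, mk_eq_mk_iff]
  simp only [colMat_zero_zero, colMat_one_zero, mul_one]
  push_cast
  linear_combination (-((g 0 0 : ℤ) : ZMod N)) * hd

theorem smul_colPt_eq_iff (γ : SL(2, ℤ)) (u : ZMod N) :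
    γ • colPt u = colPt u ↔
      (((γ * colMat (u.cast : ℤ)) 0 0 : ℤ) : ZMod N)
        - (((γ * colMat (u.cast : ℤ)) 1 0 : ℤ) : ZMod N) * u = 0 := by
  rw [colPt, smul_mk, mk_eq_mk_iff]
  simp only [colMat_zero_zero, colMat_one_zero, mul_one]
  push_cast
  rfl

theorem S_smul_colPt_iff (u : ZMod N) :
    ModularGroup.S • colPt u = colPt u ↔ u ^ 2 + 1 = 0 := by
  rw [smul_colPt_eq_iff, S_mul_zero_zero, S_mul_one_zero]
  simp only [colMat_zero_zero, colMat_one_zero]
  push_cast
  constructor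
  · intro h; linear_combination -h
  · intro h; linear_combination -h

theorem ST_smul_colPt_iff (u : ZMod N) :
    (ModularGroup.S * ModularGroup.T) • colPt u = colPt u ↔ u ^ 2 + u + 1 = 0 := by
  rw [smul_colPt_eq_iff, ST_mul_zero_zero, ST_mul_one_zero]
  simp only [colMat_zero_zero, colMat_one_zero]
  push_cast
  constructor
  · intro h; linear_combination -h
  · intro h; linear_combination -h

/-- At a fixed point of `S` the lower left entry is invertible modulo `N`. -/
theorem exists_inv_of_S_fixed (g : SL(2, ℤ))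
    (h : ModularGroup.S • (QuotientGroup.mk g : X N) = QuotientGroup.mk g) :
    ∃ d : ZMod N, ((g 1 0 : ℤ) : ZMod N) * d = 1 := by
  rw [smul_mk, mk_eq_mk_iff, S_mul_zero_zero, S_mul_one_zero] at h
  push_cast at h
  have hb := exists_bezout (N := N) g
  push_cast at hb
  set a : ZMod N := ((g 0 0 : ℤ) : ZMod N) with ha
  set c : ZMod N := ((g 1 0 : ℤ) : ZMod N) with hc
  set r : ZMod N := ((g 1 1 : ℤ) : ZMod N) with hr
  set s : ZMod N := ((g 0 1 : ℤ) : ZMod N) with hs
  refine ⟨-r ^ 2 * c - 2 * r * s * a + s ^ 2 * c, ?_⟩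
  linear_combination (r ^ 2) * h + (r * a - s * c + 1) * hb

/-- At a fixed point of `S * T` the lower left entry is invertible modulo `N`. -/
theorem exists_inv_of_ST_fixed (g : SL(2, ℤ))
    (h : (ModularGroup.S * ModularGroup.T) • (QuotientGroup.mk g : X N) = QuotientGroup.mk g) :
    ∃ d : ZMod N, ((g 1 0 : ℤ) : ZMod N) * d = 1 := by
  rw [smul_mk, mk_eq_mk_iff, ST_mul_zero_zero, ST_mul_one_zero] at h
  push_cast at h
  have hb := exists_bezout (N := N) g
  push_cast at hb
  set a : ZMod N := ((g 0 0 : ℤ) : ZMod N) with ha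
  set c : ZMod N := ((g 1 0 : ℤ) : ZMod N) with hc
  set r : ZMod N := ((g 1 1 : ℤ) : ZMod N) with hr
  set s : ZMod N := ((g 0 1 : ℤ) : ZMod N) with hs
  refine ⟨-r ^ 2 * a - r ^ 2 * c - 2 * r * s * a + s ^ 2 * c, ?_⟩
  linear_combination (r ^ 2) * h + (r * a - s * c + 1) * hb

/-- Generic counting lemma: if the points fixed by `γ` all have invertible lower left entry and
`γ` fixes `colPt u` iff `P u`, then the number of fixed points is the number of `u` with `P u`. -/
theorem card_fixedBy_eq (γ : SL(2, ℤ)) (P : ZMod N → Prop)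
    (hP : ∀ u : ZMod N, γ • colPt u = colPt u ↔ P u)
    (hinv : ∀ g : SL(2, ℤ), γ • (QuotientGroup.mk g : X N) = QuotientGroup.mk g →
      ∃ d : ZMod N, ((g 1 0 : ℤ) : ZMod N) * d = 1) :
    Nat.card (MulAction.fixedBy (X N) γ) = Nat.card {u : ZMod N // P u} := by
  symm
  refine Nat.card_congr (Equiv.ofBijective
    (fun u => (⟨colPt u.1, (hP u.1).2 u.2⟩ : MulAction.fixedBy (X N) γ)) ⟨?_, ?_⟩)
  · intro u u' h
    exact Subtype.ext (colPt_injective (congrArg Subtype.val h))
  · rintro ⟨q, hq⟩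
    induction q using QuotientGroup.induction_on with
    | H g =>
      have hq' : γ • (QuotientGroup.mk g : X N) = QuotientGroup.mk g := hq
      obtain ⟨d, hd⟩ := hinv g hq'
      have hg := mk_eq_colPt g d hd
      refine ⟨⟨((g 0 0 : ℤ) : ZMod N) * d, (hP _).1 ?_⟩, Subtype.ext hg.symm⟩
      rw [← hg]
      exact hq'

/-- (C2) The number of fixed points of `S` on `SL(2, ℤ) ⧸ Γ₀(N)` is `nuTwo N`. -/
theorem card_fixedBy_S : Nat.card (MulAction.fixedBy (X N) ModularGroup.S) = nuTwo N :=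
  card_fixedBy_eq ModularGroup.S (fun u => u ^ 2 + 1 = 0) S_smul_colPt_iff exists_inv_of_S_fixed

/-- (C3) The number of fixed points of `S * T` on `SL(2, ℤ) ⧸ Γ₀(N)` is `nuThree N`. -/
theorem card_fixedBy_ST :
    Nat.card (MulAction.fixedBy (X N) (ModularGroup.S * ModularGroup.T)) = nuThree N :=
  card_fixedBy_eq (ModularGroup.S * ModularGroup.T) (fun u => u ^ 2 + u + 1 = 0)
    ST_smul_colPt_iff exists_inv_of_ST_fixed

end Fermat.Agent.S24.Comb
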