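import Mathlib
import Fermat.Agent.S24.H9_CombBasic
import Fermat.Agent.S24.H16_PairCount

/-!
# S24 / COMB C1 (helper16): the index of `Γ₀(N)` in `SL(2, ℤ)` is `dedekindPsi N`

The first column modulo `N` identifies `SL(2, ℤ) ⧸ Γ₀(N)` with the unimodular pairs of
`ZMod N` modulo units; the unimodular pairs are counted in `H16_PairCount`.
-/

set_option autoImplicit false

open scoped MatrixGroups
open CongruenceSubgroup ModularCurve

namespace Fermat.Agent.S24.Comb

/-- For `a ≠ 0` and `c`, `n` without a common prime factor with `a`, some `c + k * n` is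
coprime to `a`. -/
theorem h16_exists_coprime_add_mul {a c n : ℕ} (ha : a ≠ 0)
    (h : ∀ p : ℕ, p.Prime → p ∣ a → p ∣ c → ¬ p ∣ n) :
    ∃ k : ℕ, (c + k * n).Coprime a := by
  let ps : Finset ℕ := {p ∈ a.primeFactors | ¬p ∣ c}
  refine ⟨ps.prod id, ?_⟩
  apply Nat.coprime_of_dvd
  intro p pp hp hpa
  by_cases hpc : p ∣ c
  · have h1 := (Nat.dvd_add_right hpc).mp hp
    rcases pp.dvd_mul.mp h1 with h2 | h2
    · have ⟨q, hq, hq'⟩ := (pp.prime.dvd_finsetProd_iff id).mp h2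
      rw [Finset.mem_filter, Nat.mem_primeFactors,
        ← (Nat.prime_dvd_prime_iff_eq pp hq.1.1).mp hq'] at hq
      exact hq.2 hpc
    · exact h p pp hpa hpc h2
  · have pps : p ∈ ps := Finset.mem_filter.mpr ⟨Nat.mem_primeFactors.mpr ⟨pp, hpa, ha⟩, hpc⟩
    have h1 : p ∣ ps.prod id * n := (Finset.dvd_prod_of_mem id pps).mul_right n
    exact hpc ((Nat.dvd_add_left h1).mp hp)

variable {N : ℕ}

/-- Lifting: every unimodular pair modulo `N` is the first column of an element of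
`SL(2, ℤ)`. -/
theorem h16_exists_SL2_col [NeZero N] {x y : ZMod N} (hxy : IsCoprime x y) :
    ∃ g : SL(2, ℤ), ((g 0 0 : ℤ) : ZMod N) = x ∧ ((g 1 0 : ℤ) : ZMod N) = y := by
  have hN : N ≠ 0 := NeZero.ne N
  -- a nonzero natural lift of `x`
  obtain ⟨a, ha0, hax⟩ : ∃ a : ℕ, a ≠ 0 ∧ (a : ZMod N) = x := by
    by_cases h0 : x.val = 0
    · refine ⟨N, hN, ?_⟩
      rw [ZMod.natCast_self, ← ZMod.natCast_zmod_val x, h0, Nat.cast_zero]
    · exact ⟨x.val, h0, ZMod.natCast_zmod_val x⟩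
  set c := y.val with hc
  have hcy : (c : ZMod N) = y := ZMod.natCast_zmod_val y
  have hprime : ∀ p : ℕ, p.Prime → p ∣ a → p ∣ c → ¬ p ∣ N := by
    intro p pp hpa hpc hpN
    have : Fact p.Prime := ⟨pp⟩
    obtain ⟨r, s, hrs⟩ := hxy
    have := congrArg (ZMod.castHom hpN (ZMod p)) hrs
    rw [map_add, map_mul, map_mul, ← hax, ← hcy, map_natCast, map_natCast,
      (ZMod.natCast_eq_zero_iff a p).mpr hpa, (ZMod.natCast_eq_zero_iff c p).mpr hpc,
      mul_zero, mul_zero, add_zero, map_one] at this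
    exact zero_ne_one this
  obtain ⟨k, hk⟩ := h16_exists_coprime_add_mul ha0 hprime
  have hcop : IsCoprime ((a : ℕ) : ℤ) ((c + k * N : ℕ) : ℤ) :=
    Nat.isCoprime_iff_coprime.mpr hk.symm
  obtain ⟨u, v, huv⟩ := hcop
  refine ⟨⟨!![(a : ℤ), -v; ((c + k * N : ℕ) : ℤ), u], ?_⟩, ?_, ?_⟩
  · rw [Matrix.det_fin_two_of]
    linear_combination huv
  · show (((a : ℕ) : ℤ) : ZMod N) = x
    rw [Int.cast_natCast, hax]
  · show ((((c + k * N : ℕ)) : ℤ) : ZMod N) = y
    rw [Int.cast_natCast, Nat.cast_add, Nat.cast_mul, ZMod.natCast_self, mul_zero, add_zero,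
      hcy]

/-- The type of unimodular pairs modulo `N`. -/
abbrev h16_P (N : ℕ) : Type := {v : ZMod N × ZMod N // IsCoprime v.1 v.2}

/-- The first column of `g` modulo `N`. -/
def h16_col (N : ℕ) (g : SL(2, ℤ)) : h16_P N :=
  ⟨(((g 0 0 : ℤ) : ZMod N), ((g 1 0 : ℤ) : ZMod N)), ⟨_, _, exists_bezout g⟩⟩

/-- Scaling a unimodular pair by a unit. -/
def h16_scale (u : (ZMod N)ˣ) (v : h16_P N) : h16_P N :=
  ⟨((u : ZMod N) * v.1.1, (u : ZMod N) * v.1.2), by
    obtain ⟨a, b, hab⟩ := v.2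
    refine ⟨a * ((u⁻¹ : (ZMod N)ˣ) : ZMod N), b * ((u⁻¹ : (ZMod N)ˣ) : ZMod N), ?_⟩
    have hu : ((u⁻¹ : (ZMod N)ˣ) : ZMod N) * (u : ZMod N) = 1 := u.inv_mul
    linear_combination (a * v.1.1 + b * v.1.2) * hu + hab⟩

theorem h16_scale_injective (v : h16_P N) : Function.Injective (fun u => h16_scale u v) := by
  intro u u' h
  have h1 : (u : ZMod N) * v.1.1 = (u' : ZMod N) * v.1.1 :=
    congrArg (fun w : h16_P N => w.1.1) h
  have h2 : (u : ZMod N) * v.1.2 = (u' : ZMod N) * v.1.2 :=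
    congrArg (fun w : h16_P N => w.1.2) h
  obtain ⟨a, b, hab⟩ := v.2
  refine Units.ext ?_
  linear_combination (-(u : ZMod N) + (u' : ZMod N)) * hab + a * h1 + b * h2

/-- Two unimodular pairs with vanishing determinant differ by a unit. -/
theorem h16_exists_scale {v w : h16_P N} (h : v.1.1 * w.1.2 - v.1.2 * w.1.1 = 0) :
    ∃ u : (ZMod N)ˣ, w = h16_scale u v := by
  obtain ⟨a, b, hab⟩ := v.2
  obtain ⟨a', b', hab'⟩ := w.2
  have e1 : (a * w.1.1 + b * w.1.2) * v.1.1 = w.1.1 := by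
    linear_combination w.1.1 * hab + b * h
  have e2 : (a * w.1.1 + b * w.1.2) * v.1.2 = w.1.2 := by
    linear_combination w.1.2 * hab - a * h
  have huu : (a * w.1.1 + b * w.1.2) * (a' * v.1.1 + b' * v.1.2) = 1 := by
    linear_combination a' * e1 + b' * e2 + hab'
  refine ⟨⟨a * w.1.1 + b * w.1.2, a' * v.1.1 + b' * v.1.2, huu, by rw [mul_comm]; exact huu⟩, ?_⟩
  apply Subtype.ext
  apply Prod.ext
  · exact e1.symm
  · exact e2.symm

theorem h16_mk_eq_mk_iff_col (g h : SL(2, ℤ)) :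
    (QuotientGroup.mk g : X N) = QuotientGroup.mk h ↔
      (h16_col N g).1.1 * (h16_col N h).1.2 - (h16_col N g).1.2 * (h16_col N h).1.1 = 0 := by
  rw [mk_eq_mk_iff]
  simp only [h16_col]
  push_cast
  rfl

/-- The bijection `X × (ZMod N)ˣ ≃ P`. -/
theorem h16_card_X_mul_totient [NeZero N] :
    Nat.card (X N) * Nat.totient N = h16_pc N := by
  classical
  let Ψ : X N × (ZMod N)ˣ → h16_P N := fun cu => h16_scale cu.2 (h16_col N cu.1.out)
  have hπ : ∀ (u : (ZMod N)ˣ) (g h : SL(2, ℤ)), h16_col N h = h16_scale u (h16_col N g) →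
      (QuotientGroup.mk g : X N) = QuotientGroup.mk h := by
    intro u g h hh
    rw [h16_mk_eq_mk_iff_col, hh]
    simp only [h16_scale]
    ring
  have hinj : Function.Injective Ψ := by
    rintro ⟨c, u⟩ ⟨c', u'⟩ hΨ
    simp only [Ψ] at hΨ
    obtain ⟨g, hg⟩ := h16_exists_SL2_col (h16_scale u (h16_col N c.out)).2
    have hg' : h16_col N g = h16_scale u (h16_col N c.out) :=
      Subtype.ext (Prod.ext hg.1 hg.2)
    have h1 : (QuotientGroup.mk c.out : X N) = QuotientGroup.mk g := hπ u _ _ hg'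
    have h2 : (QuotientGroup.mk c'.out : X N) = QuotientGroup.mk g := hπ u' _ _ (hg'.trans hΨ)
    have hc : c = c' := by
      rw [← QuotientGroup.out_eq' c, ← QuotientGroup.out_eq' c']
      exact h1.trans h2.symm
    subst hc
    have := h16_scale_injective (h16_col N c.out) hΨ
    rw [this]
  have hsurj : Function.Surjective Ψ := by
    intro v
    obtain ⟨g, hg⟩ := h16_exists_SL2_col v.2
    have hg' : h16_col N g = v := Subtype.ext (Prod.ext hg.1 hg.2)
    set c : X N := QuotientGroup.mk g with hc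
    have h1 : (QuotientGroup.mk c.out : X N) = QuotientGroup.mk g := QuotientGroup.out_eq' c
    rw [h16_mk_eq_mk_iff_col] at h1
    obtain ⟨u, hu⟩ := h16_exists_scale h1
    exact ⟨(c, u), by simp only [Ψ]; rw [← hu, hg']⟩
  have e : X N × (ZMod N)ˣ ≃ h16_P N := Equiv.ofBijective Ψ ⟨hinj, hsurj⟩
  unfold h16_pc
  rw [← Nat.card_congr e, Nat.card_prod, Nat.card_eq_fintype_card (α := (ZMod N)ˣ),
    ZMod.card_units_eq_totient]

/-- **(C1)** The index of `Γ₀(N)` in `SL(2, ℤ)` is `dedekindPsi N`. -/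
theorem card_X (N : ℕ) [NeZero N] : Nat.card (SL(2, ℤ) ⧸ Gamma0 N) = dedekindPsi N := by
  have h1 := h16_card_X_mul_totient (N := N)
  rw [h16_pc_eq (Nat.pos_of_ne_zero (NeZero.ne N)), mul_comm] at h1
  exact Nat.eq_of_mul_eq_mul_left (Nat.totient_pos.mpr (Nat.pos_of_ne_zero (NeZero.ne N))) h1

end Fermat.Agent.S24.Comb
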