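import Fermat.Agent.S24.H9_CombCount
import Fermat.Agent.S24.H16_CardX
import Fermat.Agent.S24.H12_OrbitsT

/-!
# S24 COMB, final unconditional statements (helper9)

Combines helper9's orbit counts (`H9_CombCount`), helper16's index computation
(`card_X`) and helper12's count of `T`-orbits (`card_orbits_T`).

All statements are about `X N = SL(2,ℤ) ⧸ Gamma0 N` with the left-multiplication action.
-/

open scoped MatrixGroups
open CongruenceSubgroup ModularCurve

namespace Fermat.Agent.S24.Comb

/-- number of orbits of `⟨γ⟩` on `X N`. -/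
noncomputable abbrev h9_orb (N : ℕ) (γ : SL(2, ℤ)) : ℕ :=
  Nat.card (MulAction.orbitRel.Quotient (Subgroup.zpowers γ) (X N))

theorem h9_two_mul_orb_S (N : ℕ) [NeZero N] :
    2 * h9_orb N ModularGroup.S = dedekindPsi N + nuTwo N := by
  rw [← card_X N]; exact two_mul_card_orbits_S (N := N)

theorem h9_three_mul_orb_ST (N : ℕ) [NeZero N] :
    3 * h9_orb N (ModularGroup.S * ModularGroup.T) = dedekindPsi N + 2 * nuThree N := by
  rw [← card_X N]; exact three_mul_card_orbits_ST (N := N)

theorem h9_orb_T (N : ℕ) [NeZero N] : h9_orb N ModularGroup.T = cuspCount N :=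
  card_orbits_T N

/-- **Riemann–Hurwitz count, unconditional**:
`μ - c_S - c_ST - c_T = 2 g - 2` with `g = genusFormula N`. -/
theorem h9_genus_count (N : ℕ) [NeZero N] :
    ((Nat.card (X N) : ℚ) - h9_orb N ModularGroup.S
        - h9_orb N (ModularGroup.S * ModularGroup.T) - h9_orb N ModularGroup.T)
      = 2 * genusFormula N - 2 :=
  genus_count (N := N) (card_X N) (card_orbits_T N)

/-- The same count in the shape "sum of `(e - 1)` over the three special fibres":
`(μ - c_S) + (μ - c_ST) + (μ - c_T) = 2 μ + 2 g - 2`. -/
theorem h9_ramification_count (N : ℕ) [NeZero N] :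
    (((Nat.card (X N) : ℚ) - h9_orb N ModularGroup.S)
        + ((Nat.card (X N) : ℚ) - h9_orb N (ModularGroup.S * ModularGroup.T))
        + ((Nat.card (X N) : ℚ) - h9_orb N ModularGroup.T))
      = 2 * (Nat.card (X N) : ℚ) + 2 * genusFormula N - 2 := by
  have h := h9_genus_count N
  linarith

/-- `genusFormula N` expressed through the orbit counts. -/
theorem h9_genusFormula_eq (N : ℕ) [NeZero N] :
    genusFormula N
      = 1 + ((Nat.card (X N) : ℚ) - h9_orb N ModularGroup.S
        - h9_orb N (ModularGroup.S * ModularGroup.T) - h9_orb N ModularGroup.T) / 2 := by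
  have h := h9_genus_count N
  linarith

end Fermat.Agent.S24.Comb
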