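import Mathlib
import Fermat.Prelude.Def_ModularCurve_ArithmeticGalois
import Fermat.Prelude.Def_AlgebraicCurve_DivisorClassGroup

/-!
# S24 (helper13): transcendence of `j` and change of the generator of `K(x)`

* an element with valuation `≠ 1` for a valuation which is trivial on `K` is transcendental
  over `K`; in particular elements with a zero or a pole at some place, and Laurent series of
  nonzero order (e.g. the formal `j`);
* `K⟮x - c⟯ = K⟮x⟯ = K⟮x⁻¹⟯`, with the induced equalities of degrees.
-/

open ModularCurve WithZero

namespace Fermat.Agent.S24.LD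

section Valuation

variable {K E Γ₀ : Type*} [Field K] [Field E] [Algebra K E]
  [LinearOrderedCommGroupWithZero Γ₀]

/-- If `v` is trivial on `K` and `v x ≤ 1`, then `v ≤ 1` on `K[x]`. -/
theorem val_aeval_le_one (v : Valuation E Γ₀) (hv : ∀ a : K, v (algebraMap K E a) ≤ 1)
    {x : E} (hx : v x ≤ 1) (P : Polynomial K) : v (Polynomial.aeval x P) ≤ 1 := by
  induction P using Polynomial.induction_on' with
  | add p q hp hq => rw [map_add]; exact Valuation.map_add_le v hp hq
  | monomial n a =>
    rw [Polynomial.aeval_monomial, map_mul, map_pow]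
    exact mul_le_one' (hv a) (pow_le_one₀ zero_le hx)

/-- If `v` is trivial on `K` and `v x < 1`, `x ≠ 0`, then `x` is transcendental over `K`. -/
theorem transcendental_of_val_lt_one (v : Valuation E Γ₀)
    (hv : ∀ a : K, a ≠ 0 → v (algebraMap K E a) = 1) {x : E} (hx0 : x ≠ 0) (hx : v x < 1) :
    Transcendental K x := by
  have hv' : ∀ a : K, v (algebraMap K E a) ≤ 1 := by
    intro a
    rcases eq_or_ne a 0 with rfl | ha
    · rw [map_zero, map_zero]; exact zero_le_one
    · exact (hv a ha).le
  -- every nonzero polynomial has nonzero value at `x`, by induction on the degree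
  have key : ∀ n : ℕ, ∀ P : Polynomial K, P.natDegree ≤ n → P ≠ 0 →
      Polynomial.aeval x P ≠ 0 := by
    intro n
    induction n with
    | zero =>
      intro P hP hP0
      rw [Polynomial.eq_C_of_natDegree_le_zero hP] at hP0 ⊢
      rw [Polynomial.aeval_C]
      have hc : P.coeff 0 ≠ 0 := fun h => hP0 (by rw [h, map_zero])
      intro h0
      have := hv _ hc
      rw [h0, map_zero] at this
      exact zero_ne_one this
    | succ n ih =>
      intro P hP hP0
      by_cases hc : P.coeff 0 = 0
      · -- `P = X * Q`
        obtain ⟨Q, rfl⟩ := Polynomial.X_dvd_iff.mpr hc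
        have hQ0 : Q ≠ 0 := fun h => hP0 (by rw [h, mul_zero])
        have hQd : Q.natDegree ≤ n := by
          rw [Polynomial.natDegree_X_mul hQ0] at hP
          omega
        rw [map_mul, Polynomial.aeval_X]
        exact mul_ne_zero hx0 (ih Q hQd hQ0)
      · -- `P = c + X * Q` with `c ≠ 0`: the value has valuation `1`
        have hdiv : Polynomial.X ∣ P - Polynomial.C (P.coeff 0) := by
          rw [Polynomial.X_dvd_iff]; simp
        obtain ⟨Q, hQ⟩ := hdiv
        have hP' : P = Polynomial.C (P.coeff 0) + Polynomial.X * Q := by
          rw [← hQ]; ring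
        rw [hP', map_add, Polynomial.aeval_C, map_mul, Polynomial.aeval_X]
        intro h0
        have h1 : v (algebraMap K E (P.coeff 0) + x * Polynomial.aeval x Q) = 1 := by
          rw [Valuation.map_add_eq_of_lt_left, hv _ hc]
          rw [hv _ hc, map_mul]
          exact mul_lt_one_of_lt_of_le hx (val_aeval_le_one v hv' hx.le Q)
        rw [h0, map_zero] at h1
        exact zero_ne_one h1
  rw [transcendental_iff]
  intro P hP
  by_contra hP0
  exact key P.natDegree P le_rfl hP0 hP

/-- If `v` is trivial on `K` and `v x ≠ 1`, `x ≠ 0`, then `x` is transcendental over `K`. -/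
theorem transcendental_of_val_ne_one (v : Valuation E Γ₀)
    (hv : ∀ a : K, a ≠ 0 → v (algebraMap K E a) = 1) {x : E} (hx0 : x ≠ 0) (hx : v x ≠ 1) :
    Transcendental K x := by
  rcases lt_or_gt_of_ne hx with h | h
  · exact transcendental_of_val_lt_one v hv hx0 h
  · have hinv : v x⁻¹ < 1 := by
      rw [map_inv₀]
      exact inv_lt_one_of_one_lt₀ h
    have ht := transcendental_of_val_lt_one v hv (inv_ne_zero hx0) hinv
    intro halg
    exact ht halg.inv

end Valuation

section Place

open AlgebraicCurve

variable {K F : Type*} [Field K] [Field F] [Algebra K F]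

theorem adicValuation_algebraMap (v : Place K F) {a : K} (ha : a ≠ 0) :
    v.adicValuation (algebraMap K F a) = 1 := by
  have hu : IsUnit (algebraMap K v.toValuationSubring a) :=
    (Ne.isUnit ha).map (algebraMap K v.toValuationSubring)
  have := (v.adicValuation_coe_eq_one_iff (algebraMap K v.toValuationSubring a)).mpr hu
  rwa [v.coe_algebraMap] at this

/-- An element with a zero or a pole at some place is transcendental over `K`. -/
theorem transcendental_of_ord_ne_zero (v : Place K F) {x : F} (h : v.ord x ≠ 0) :
    Transcendental K x := by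
  have hx0 : x ≠ 0 := by
    rintro rfl
    exact h v.ord_zero
  refine transcendental_of_val_ne_one v.adicValuation
    (fun a ha => adicValuation_algebraMap v ha) hx0 ?_
  intro h1
  apply h
  rw [Place.ord, h1, WithZero.log_one, neg_zero]

end Place

section Laurent

variable {K : Type*} [Field K]

theorem laurent_val_algebraMap {a : K} (ha : a ≠ 0) :
    (Valued.v : Valuation (LaurentSeries K) ℤᵐ⁰) (algebraMap K (LaurentSeries K) a) = 1 := by
  have h1 : ∀ b : K, (Valued.v : Valuation (LaurentSeries K) ℤᵐ⁰)
      (algebraMap K (LaurentSeries K) b) ≤ 1 := by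
    intro b
    have := (LaurentSeries.valuation_le_iff_coeff_lt_eq_zero K (D := 0)
      (f := algebraMap K (LaurentSeries K) b)).mpr (by
        intro n hn
        rw [algebraMap_laurentSeries_eq_single, HahnSeries.coeff_single_of_ne hn.ne])
    simpa using this
  refine le_antisymm (h1 a) ?_
  have h2 := h1 a⁻¹
  rw [map_inv₀, map_inv₀] at h2
  have hne : (Valued.v : Valuation (LaurentSeries K) ℤᵐ⁰)
      (algebraMap K (LaurentSeries K) a) ≠ 0 :=
    (Valuation.ne_zero_iff _).mpr ((map_ne_zero _).mpr ha)
  exact (inv_le_one₀ (lt_of_le_of_ne zero_le hne.symm)).mp h2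

/-- A Laurent series with a nonzero coefficient in negative degree is transcendental over the
coefficient field. -/
theorem transcendental_of_coeff_ne_zero {x : LaurentSeries K} {n : ℤ} (hn : n < 0)
    (hx : x.coeff n ≠ 0) : Transcendental K x := by
  have hx0 : x ≠ 0 := by
    rintro rfl
    exact hx HahnSeries.coeff_zero
  refine transcendental_of_val_ne_one (Valued.v : Valuation (LaurentSeries K) ℤᵐ⁰)
    (fun a ha => laurent_val_algebraMap ha) hx0 ?_
  intro h1
  have := (LaurentSeries.valuation_le_iff_coeff_lt_eq_zero K (D := 0) (f := x)).mp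
    (by simpa using h1.le) n hn
  exact hx this

variable (K) [Algebra ℚ K]

theorem coeff_coeffEmb_qExpand_jq (d : ℕ) [NeZero d] :
    (coeffEmb K (qExpand ℚ d jq)).coeff (-(d : ℤ)) = 1 := by
  rw [coeffEmb_coeff, show (-(d : ℤ)) = (d : ℤ) * (-1) by ring, qExpand_coeff_mul,
    coeff_jq_neg_one, map_one]

/-- The formal `j(q ^ d)` is transcendental over `K`. -/
theorem transcendental_coeffEmb_qExpand_jq (d : ℕ) [NeZero d] :
    Transcendental K (coeffEmb K (qExpand ℚ d jq)) := by
  refine transcendental_of_coeff_ne_zero (n := -(d : ℤ)) ?_ ?_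
  · have : 0 < d := Nat.pos_of_ne_zero (NeZero.ne d)
    omega
  · rw [coeff_coeffEmb_qExpand_jq]; exact one_ne_zero

/-- The formal `j` is transcendental over `K`. -/
theorem transcendental_coeffEmb_jq : Transcendental K (coeffEmb K jq) := by
  have := transcendental_coeffEmb_qExpand_jq K 1
  rwa [qExpand_one_apply] at this

theorem coeffEmb_jq_mem_bar (N : ℕ) [NeZero N] :
    coeffEmb K jq ∈ laurentBaseChange K (modularFunctionFieldFull N) := by
  refine coeffEmb_mem_laurentBaseChange K ?_
  have h := jqd_mem_full N (one_dvd N)
  rwa [qExpand_one_apply] at h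

end Laurent

section Subfield

variable {K E : Type*} [Field K] [Field E] [Algebra K E]

/-- Transcendence of an element of an intermediate field can be checked in the big field. -/
theorem transcendental_subtype (F : IntermediateField K E) {x : E} (hx : x ∈ F)
    (h : Transcendental K x) : Transcendental K (⟨x, hx⟩ : F) := by
  intro halg
  apply h
  have := halg.algebraMap (A := E)
  exact this

end Subfield

section Adjoin

variable {K F : Type*} [Field K] [Field F] [Algebra K F]

open IntermediateField

theorem adjoin_sub_algebraMap (x : F) (c : K) : K⟮x - algebraMap K F c⟯ = K⟮x⟯ := by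
  apply le_antisymm
  · rw [adjoin_simple_le_iff]
    exact sub_mem (mem_adjoin_simple_self K x) (IntermediateField.algebraMap_mem _ c)
  · rw [adjoin_simple_le_iff]
    have h := add_mem (mem_adjoin_simple_self K (x - algebraMap K F c))
      (IntermediateField.algebraMap_mem K⟮x - algebraMap K F c⟯ c)
    rwa [sub_add_cancel] at h

theorem adjoin_inv (x : F) : K⟮x⁻¹⟯ = K⟮x⟯ := by
  apply le_antisymm
  · rw [adjoin_simple_le_iff]
    exact inv_mem (mem_adjoin_simple_self K x)
  · rw [adjoin_simple_le_iff]
    have h := inv_mem (mem_adjoin_simple_self K x⁻¹)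
    rwa [inv_inv] at h

theorem finrank_congr {A B : IntermediateField K F} (h : A = B) :
    Module.finrank A F = Module.finrank B F := by
  subst h; rfl

theorem finiteDimensional_congr {A B : IntermediateField K F} (h : A = B)
    [hA : FiniteDimensional A F] : FiniteDimensional B F := by
  subst h; exact hA

theorem finrank_adjoin_sub_algebraMap (x : F) (c : K) :
    Module.finrank K⟮x - algebraMap K F c⟯ F = Module.finrank K⟮x⟯ F :=
  finrank_congr (adjoin_sub_algebraMap x c)

theorem finrank_adjoin_inv (x : F) :
    Module.finrank K⟮x⁻¹⟯ F = Module.finrank K⟮x⟯ F :=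
  finrank_congr (adjoin_inv x)

theorem finiteDimensional_adjoin_sub_algebraMap (x : F) (c : K) [FiniteDimensional K⟮x⟯ F] :
    FiniteDimensional K⟮x - algebraMap K F c⟯ F :=
  finiteDimensional_congr (adjoin_sub_algebraMap x c).symm

theorem finiteDimensional_adjoin_inv (x : F) [FiniteDimensional K⟮x⟯ F] :
    FiniteDimensional K⟮x⁻¹⟯ F :=
  finiteDimensional_congr (adjoin_inv x).symm

theorem transcendental_sub_algebraMap {x : F} (hx : Transcendental K x) (c : K) :
    Transcendental K (x - algebraMap K F c) := by
  intro halg
  apply hx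
  have : x = (x - algebraMap K F c) + algebraMap K F c := by ring
  rw [this]
  exact halg.add (isAlgebraic_algebraMap c)

theorem transcendental_inv {x : F} (hx : Transcendental K x) : Transcendental K x⁻¹ := by
  intro halg
  apply hx
  have := halg.inv
  rwa [inv_inv] at this

end Adjoin

end Fermat.Agent.S24.LD
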