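import Fermat.Agent.S24.H6_Rho

/-!
# S24 REAL (helper6), part 3: fractions, generators, linear `q`-expansion principle
-/

set_option autoImplicit false

open UpperHalfPlane ModularForm EisensteinSeries ModularFormClass Filter Topology
open CongruenceSubgroup
open scoped MatrixGroups ModularForm Manifold

namespace Fermat.Agent.S24.Real

open Fermat.Agent.S23 Fermat.Agent.S23.R5 Fermat.Agent.S23.R4

section K

variable (K : Type*) [Field K] [Algebra ℚ K] (N : ℕ)

/-- The function field `F = K(j_d : d ∣ N)` of the prelude. -/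
noncomputable abbrev FK : IntermediateField K (LaurentSeries K) :=
  ModularCurve.laurentBaseChange K (ModularCurve.modularFunctionFieldFull N)

lemma coeffEmb_algebraMap (r : ℚ) :
    ModularCurve.coeffEmb K (algebraMap ℚ (LaurentSeries ℚ) r) =
      algebraMap K (LaurentSeries K) (algebraMap ℚ K r) := by
  rw [ModularCurve.algebraMap_laurentSeries_eq_single,
    ModularCurve.algebraMap_laurentSeries_eq_single, ModularCurve.coeffEmb,
    ModularCurve.coeffMap_single]

/-- `F` is generated over `K` by the `j_d`, `d ∣ N`. -/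
theorem FK_eq_adjoin :
    FK K N = IntermediateField.adjoin K
      (⇑(ModularCurve.coeffEmb K) '' ModularCurve.divisorExpansions N) := by
  apply le_antisymm
  · rw [FK, ModularCurve.laurentBaseChange, IntermediateField.adjoin_le_iff]
    rintro x ⟨y, hy, rfl⟩
    change y ∈ IntermediateField.adjoin ℚ (ModularCurve.divisorExpansions N) at hy
    induction hy using IntermediateField.adjoin_induction with
    | mem y hy => exact IntermediateField.subset_adjoin K _ ⟨y, hy, rfl⟩
    | algebraMap r =>
      rw [coeffEmb_algebraMap]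
      exact IntermediateField.algebraMap_mem _ _
    | add x y _ _ hx hy => rw [map_add]; exact add_mem hx hy
    | mul x y _ _ hx hy => rw [map_mul]; exact mul_mem hx hy
    | inv x _ hx => rw [map_inv₀]; exact inv_mem hx
  · apply IntermediateField.adjoin.mono
    apply Set.image_mono
    exact IntermediateField.subset_adjoin ℚ _

theorem AK_le_FK : AK K N ≤ (FK K N).toSubalgebra := by
  rw [FK_eq_adjoin]
  exact IntermediateField.algebra_adjoin_le_adjoin K _

variable {K N}

/-- Every element of `F` is a quotient of two elements of `K[j_d : d ∣ N]`. -/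
theorem exists_div_of_mem_FK {x : LaurentSeries K} (hx : x ∈ FK K N) :
    ∃ a ∈ AK K N, ∃ b ∈ AK K N, b ≠ 0 ∧ x * b = a := by
  rw [FK_eq_adjoin, IntermediateField.mem_adjoin_iff_div] at hx
  obtain ⟨r, hr, s, hs, rfl⟩ := hx
  by_cases hs0 : s = 0
  · exact ⟨0, zero_mem _, 1, one_mem _, one_ne_zero, by simp [hs0]⟩
  · exact ⟨r, hr, s, hs, hs0, div_mul_cancel₀ r hs0⟩

variable (K N)

/-- The generator `j_d` as an element of `K[j_d : d ∣ N]`. -/
noncomputable def jdAK (d : ℕ) [NeZero d] (hd : d ∣ N) : AK K N :=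
  ⟨ModularCurve.coeffEmb K (ModularCurve.qExpand ℚ d ModularCurve.jq),
    Algebra.subset_adjoin ⟨_, ModularCurve.mem_divisorExpansions N hd, rfl⟩⟩

/-- The element `j` of `K[j_d : d ∣ N]`. -/
noncomputable def jAK : AK K N :=
  ⟨ModularCurve.coeffEmb K ModularCurve.jq, by
    have := (jdAK K N 1 (one_dvd N)).2
    simpa [jdAK, ModularCurve.qExpand_one_apply] using this⟩

@[simp] lemma coe_jdAK (d : ℕ) [NeZero d] (hd : d ∣ N) :
    ((jdAK K N d hd : AK K N) : LaurentSeries K) =
      ModularCurve.coeffEmb K (ModularCurve.qExpand ℚ d ModularCurve.jq) := rfl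

@[simp] lemma coe_jAK : ((jAK K N : AK K N) : LaurentSeries K) =
    ModularCurve.coeffEmb K ModularCurve.jq := rfl

variable {K N} (e : K →+* ℂ)

theorem rho_jdAK (d : ℕ) [NeZero d] (hd : d ∣ N) : rho e (jdAK K N d hd) = jN d := by
  refine (isModReal_rho e (jdAK K N d hd)).unique_fun ?_
  rw [coe_jdAK, coeffMap_coeffEmb_eq]
  exact isModReal_jN N d hd

theorem jN_one : jN 1 = jInv := by
  funext z
  rw [jN]
  congr 1
  apply UpperHalfPlane.ext
  simp

theorem rho_jAK : rho e (jAK K N) = jInv := by
  refine (isModReal_rho e (jAK K N)).unique_fun ?_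
  rw [coe_jAK, coeffMap_coeffEmb_eq]
  have := isModReal_jN N 1 (one_dvd N)
  rwa [ModularCurve.qExpand_one_apply, jN_one] at this

theorem rho_apply_eq_zero_iff (x : AK K N) : rho e x = 0 ↔ x = 0 := by
  constructor
  · intro h
    exact rho_injective e (by rw [h, map_zero])
  · rintro rfl
    exact map_zero _

lemma isReal_sum_smul {ι : Type*} (s : Finset ι) (u : ι → AK K N) (b : ι → ℂ) :
    IsReal (∑ i ∈ s, HahnSeries.C (b i) * ModularCurve.coeffMap e (u i : LaurentSeries K))
      (∑ i ∈ s, b i • rho e (u i)) := by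
  classical
  induction s using Finset.induction_on with
  | empty => simpa using IsReal.zero
  | insert i s hi ih =>
    rw [Finset.sum_insert hi, Finset.sum_insert hi]
    exact ((isModReal_rho e (u i)).real.smul (b i)).add ih

/-- `ℂ`-linear `q`-expansion principle: a `ℂ`-linear relation between the functions `rho u_i`
holds coefficientwise for the formal series. -/
theorem linear_qExpansion_principle {ι : Type*} (s : Finset ι) (u : ι → AK K N) (b : ι → ℂ)
    (h : ∀ z : ℍ, ∑ i ∈ s, b i * rho e (u i) z = 0) (n : ℤ) :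
    ∑ i ∈ s, b i * e (((u i : AK K N) : LaurentSeries K).coeff n) = 0 := by
  have key := isReal_sum_smul e s u b
  have h0 : (∑ i ∈ s, b i • rho e (u i)) = 0 := by
    funext z
    simpa [Finset.sum_apply] using h z
  have h1 := key.eq_zero_iff.mpr h0
  have h2 := congrArg (fun x : LaurentSeries ℂ => x.coeff n) h1
  simpa [HahnSeries.coeff_sum, HahnSeries.C_mul_eq_smul] using h2

/-! ### `F` is the fraction field of `K[j_d : d ∣ N]` -/

variable (K N)

/-- The inclusion `K[j_d : d ∣ N] → F`. -/
noncomputable def inclAK : AK K N →ₐ[K] FK K N where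
  toFun x := ⟨x.1, AK_le_FK K N x.2⟩
  map_one' := rfl
  map_mul' _ _ := rfl
  map_zero' := rfl
  map_add' _ _ := rfl
  commutes' _ := rfl

@[simp] lemma coe_inclAK (x : AK K N) : ((inclAK K N x : FK K N) : LaurentSeries K) = x := rfl

lemma inclAK_injective : Function.Injective (inclAK K N) := fun x y h => by
  apply Subtype.ext
  have := congrArg (fun t : FK K N => (t : LaurentSeries K)) h
  simpa using this

/-- `F = K(j_d : d ∣ N)` is the fraction field of `K[j_d : d ∣ N]` (for the algebra structure
given by the inclusion `inclAK`). -/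
theorem isFractionRing_AK :
    @IsFractionRing (AK K N) _ (FK K N) _ (inclAK K N).toRingHom.toAlgebra := by
  let _ : Algebra (AK K N) (FK K N) := (inclAK K N).toRingHom.toAlgebra
  have : FaithfulSMul (AK K N) (FK K N) :=
    (faithfulSMul_iff_algebraMap_injective _ _).mpr (inclAK_injective K N)
  refine IsFractionRing.of_field (AK K N) (FK K N) fun z => ?_
  obtain ⟨a, ha, b, hb, hb0, hab⟩ := exists_div_of_mem_FK z.2
  refine ⟨⟨a, ha⟩, ⟨b, hb⟩, ?_⟩
  have e1 : (algebraMap (AK K N) (FK K N) ⟨a, ha⟩ : FK K N) = ⟨a, AK_le_FK K N ha⟩ := rfl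
  have e2 : (algebraMap (AK K N) (FK K N) ⟨b, hb⟩ : FK K N) = ⟨b, AK_le_FK K N hb⟩ := rfl
  have hb' : (⟨b, AK_le_FK K N hb⟩ : FK K N) ≠ 0 := by
    intro h
    exact hb0 (congrArg Subtype.val h)
  rw [e1, e2, eq_div_iff hb']
  exact Subtype.ext hab

end K

end Fermat.Agent.S24.Real
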