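import Fermat.Agent.S24.H25_Final
import Fermat.Agent.S24.H6_Frac
import Fermat.Agent.S24.H13_Transc
import Fermat.Prelude.Def_ModularCurve_ArithmeticGalois
import Fermat.Prelude.Def_ModularCurve_GenusNumerics

/-!
# S24, concrete wiring (helper25)

The element `jF` of the function field `FK K N = K(j_d : d ∣ N) ⊆ K((q))`, and the reduction of
the genus statement for `FK K N` to the four package outputs (degree, count data, places over
finite values, places over infinity).
-/

set_option autoImplicit false

noncomputable section

namespace Fermat.Agent.S24.Final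

open AlgebraicCurve KaehlerDifferential MulAction IntermediateField
open scoped MatrixGroups
open CongruenceSubgroup ModularCurve
open Fermat.Agent.S24.RH Fermat.Agent.S24.Comb Fermat.Agent.S24.Real

variable (K : Type*) [Field K] [Algebra ℚ K] (N : ℕ) [NeZero N]

/-- The element `j` of the function field `FK K N`. -/
def jF : FK K N := inclAK K N (jAK K N)

@[simp] theorem coe_jF : ((jF K N : FK K N) : LaurentSeries K) = coeffEmb K jq := rfl

theorem jF_eq : jF K N = ⟨coeffEmb K jq, LD.coeffEmb_jq_mem_bar K N⟩ := rfl

theorem transcendental_jF : Transcendental K (jF K N) :=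
  LD.transcendental_subtype _ _ (LD.transcendental_coeffEmb_jq K)

/-- The package outputs the final assembly consumes. -/
structure Inputs : Prop where
  /-- DEG -/
  finDim : FiniteDimensional K⟮jF K N⟯ (FK K N)
  finrank_eq : Module.finrank K⟮jF K N⟯ (FK K N) = Nat.card (X N)
  /-- ALG adapter -/
  count : CountData (K := K) (jF K N) (Module.finrank K⟮jF K N⟯ (FK K N))
  princ : ∀ f : FK K N, f ≠ 0 → ∀ E : Divisor K (FK K N),
    (∀ v : Place K (FK K N), E v = v.ord f) → Divisor.degree E = 0
  nontrivial : Nontrivial Ω[FK K N⁄K]
  /-- G3 -/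
  gen : ∀ c : K, c ≠ 0 → c ≠ 1728 →
    Nat.card {v : Place K (FK K N) // 0 < v.ord (jF K N - algebraMap K (FK K N) c)} =
      Nat.card (X N)
  zero : Nat.card {v : Place K (FK K N) // 0 < v.ord (jF K N - algebraMap K (FK K N) 0)} =
    Nat.card (orbitRel.Quotient (Subgroup.zpowers (ModularGroup.S * ModularGroup.T)) (X N))
  one : Nat.card {v : Place K (FK K N) // 0 < v.ord (jF K N - algebraMap K (FK K N) 1728)} =
    Nat.card (orbitRel.Quotient (Subgroup.zpowers ModularGroup.S) (X N))
  /-- G4 -/
  inf : Nat.card {v : Place K (FK K N) // 0 < v.ord (jF K N)⁻¹} =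
    Nat.card (orbitRel.Quotient (Subgroup.zpowers ModularGroup.T) (X N))

variable {K N}

theorem genus_FK_eq_of_inputs [CharZero K] [HasCanonicalDivisor (K := K) (F := FK K N)]
    (h : Inputs K N) : (AlgebraicCurve.genus K (FK K N) : ℚ) = genusFormula N := by
  haveI := h.nontrivial
  have hc := h.count
  rw [h.finrank_eq] at hc
  exact genus_eq_genusFormula_of_places N hc h.princ h.gen h.zero h.one h.inf

end Fermat.Agent.S24.Final
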