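import Fermat.Agent.S24.H15_Kaehler
import Fermat.Prelude.Def_AlgebraicCurve_CanonicalDivisor

/-!
# S24, package G6 (helper15): the Riemann–Hurwitz count

For a non-constant `x` in a function field `F / K` (char. zero, residue fields `K`), the degree
of the divisor of `dx` is computed from the fundamental identity over each value of `x`:
`deg div(dx) = ∑_{c ∈ B} (n - r_c) - (n + r_∞)`, where `B` contains all branch values,
`r_c` is the number of places over `x = c` and `r_∞` the number of poles of `x`.
-/

set_option autoImplicit false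

noncomputable section

namespace Fermat.Agent.S24.RH

open AlgebraicCurve KaehlerDifferential IsLocalRing

variable {K F : Type*} [Field K] [Field F] [Algebra K F]

/-- The fundamental identity for `t` (all residue degrees one): the zeros of `t` form a finite
set and their multiplicities add up to `n`. -/
def FundId (t : F) (n : ℕ) : Prop :=
  ∃ S : Finset (Place K F), (∀ Q : Place K F, Q ∈ S ↔ 0 < Q.ord t) ∧ ∑ Q ∈ S, Q.ord t = (n : ℤ)

theorem FundId.card_eq {t : F} {S : Finset (Place K F)}
    (hS : ∀ Q : Place K F, Q ∈ S ↔ 0 < Q.ord t) :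
    Nat.card {Q : Place K F // 0 < Q.ord t} = S.card := by
  rw [← Nat.card_congr (Equiv.subtypeEquivRight hS), Nat.card_eq_fintype_card,
    Fintype.card_coe]

/-- If the number of zeros of `t` equals `n`, then all zeros are simple. -/
theorem FundId.ord_eq_one_of_card_eq {t : F} {n : ℕ} (h : FundId (K := K) t n)
    (hcard : Nat.card {Q : Place K F // 0 < Q.ord t} = n) {v : Place K F}
    (hv : 0 < v.ord t) : v.ord t = 1 := by
  obtain ⟨S, hS, hsum⟩ := h
  rw [FundId.card_eq hS] at hcard
  by_contra hne
  have hlt : ∑ Q ∈ S, (1 : ℤ) < ∑ Q ∈ S, Q.ord t := by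
    refine Finset.sum_lt_sum (fun Q hQ => ?_) ⟨v, (hS v).mpr hv, ?_⟩
    · have := (hS Q).mp hQ; omega
    · omega
  rw [hsum, Finset.sum_const, nsmul_eq_mul, mul_one, hcard] at hlt
  exact lt_irrefl _ hlt

theorem degree_eq_sum_of_subset (hdeg : ∀ v : Place K F, v.deg = 1) (D : Divisor K F)
    (T : Finset (Place K F)) (hT : D.support ⊆ T) :
    Divisor.degree D = ∑ v ∈ T, D v := by
  have h1 : Divisor.degree D = D.sum fun v k => k * (v.deg : ℤ) := by
    simp [Divisor.degree, Finsupp.liftAddHom_apply]
  rw [h1, Finsupp.sum_of_support_subset D hT _ (fun v _ => by simp)]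
  refine Finset.sum_congr rfl fun v _ => ?_
  rw [hdeg v]; simp

/-- Standing hypotheses of the count: residue fields are `K`, valuation rings have finitely
generated differentials, the fundamental identity holds over every value of `x` and over `∞`. -/
structure CountData (x : F) (n : ℕ) : Prop where
  not_const : x ∉ Set.range (algebraMap K F)
  res : ∀ v : Place K F, ResidueTrivial v
  fin : ∀ v : Place K F, Module.Finite v.toValuationSubring Ω[v.toValuationSubring⁄K]
  deg : ∀ v : Place K F, v.deg = 1
  zero : ∀ c : K, FundId (K := K) (x - algebraMap K F c) n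
  pole : FundId (K := K) x⁻¹ n

/-- **Riemann–Hurwitz count.** -/
theorem degree_divisor_D [CharZero K] [Nontrivial Ω[F⁄K]] {x : F} {n : ℕ}
    (h : CountData (K := K) x n) (B : Finset K)
    (hB : ∀ c : K, c ∉ B → ∀ v : Place K F, 0 < v.ord (x - algebraMap K F c) →
      v.ord (x - algebraMap K F c) = 1)
    (D : Divisor K F) (hD : ∀ v : Place K F, D v = v.ordDifferential (KaehlerDifferential.D K F x)) :
    Divisor.degree D =
      ∑ c ∈ B, ((n : ℤ) - (Nat.card {v : Place K F // 0 < v.ord (x - algebraMap K F c)} : ℤ))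
        - ((n : ℤ) + (Nat.card {v : Place K F // 0 < v.ord x⁻¹} : ℤ)) := by
  classical
  choose Z hZ hZsum using h.zero
  obtain ⟨P, hP, hPsum⟩ := h.pole
  have hfin := h.fin
  -- the values of `D`
  have hDz : ∀ c : K, ∀ v ∈ Z c, D v = v.ord (x - algebraMap K F c) - 1 := fun c v hv => by
    rw [hD]; exact ordDifferential_D_of_zero v (h.res v) ((hZ c v).mp hv)
  have hDp : ∀ v ∈ P, D v = - v.ord x⁻¹ - 1 := fun v hv => by
    have h1 : v.ord x < 0 := by
      have := (hP v).mp hv
      rw [v.ord_inv] at this
      omega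
    rw [hD, ordDifferential_D_of_pole v (h.res v) h1, v.ord_inv]
    ring
  -- the support
  have hsupp : D.support ⊆ (B.biUnion Z) ∪ P := by
    intro v hv
    rw [Finsupp.mem_support_iff] at hv
    rw [Finset.mem_union, Finset.mem_biUnion]
    rcases ord_pos_or_ord_neg v (h.res v) h.not_const with hneg | ⟨c, hc⟩
    · right
      rw [hP, v.ord_inv]; omega
    · left
      by_cases hcB : c ∈ B
      · exact ⟨c, hcB, (hZ c v).mpr hc⟩
      · exfalso
        apply hv
        rw [hDz c v ((hZ c v).mpr hc), hB c hcB v hc]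
        norm_num
  rw [degree_eq_sum_of_subset h.deg D _ hsupp]
  -- disjointness
  have hdisj1 : Disjoint (B.biUnion Z) P := by
    rw [Finset.disjoint_left]
    intro v hv hvP
    rw [Finset.mem_biUnion] at hv
    obtain ⟨c, -, hvc⟩ := hv
    have h1 := (hP v).mp hvP
    rw [v.ord_inv] at h1
    exact not_ord_sub_pos_of_ord_neg v (by omega) c ((hZ c v).mp hvc)
  have hdisj2 : (B : Set K).PairwiseDisjoint Z := by
    intro c _ c' _ hne
    rw [Function.onFun, Finset.disjoint_left]
    intro v hv hv'
    exact hne (eq_of_ord_sub_pos v ((hZ c v).mp hv) ((hZ c' v).mp hv'))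
  rw [Finset.sum_union hdisj1, Finset.sum_biUnion hdisj2]
  have e1 : ∀ c ∈ B, ∑ v ∈ Z c, D v =
      (n : ℤ) - (Nat.card {v : Place K F // 0 < v.ord (x - algebraMap K F c)} : ℤ) := by
    intro c _
    rw [FundId.card_eq (hZ c), Finset.sum_congr rfl (hDz c), Finset.sum_sub_distrib, hZsum c]
    simp
  have e2 : ∑ v ∈ P, D v = -((n : ℤ) + (Nat.card {v : Place K F // 0 < v.ord x⁻¹} : ℤ)) := by
    rw [FundId.card_eq hP, Finset.sum_congr rfl hDp, Finset.sum_sub_distrib, Finset.sum_neg_distrib,
      hPsum]
    simp
    ring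
  rw [Finset.sum_congr rfl e1, e2]
  ring

/-- Under the hypotheses of the count (with `0 < n`) there is at least one place. -/
theorem CountData.exists_place {x : F} {n : ℕ} (h : CountData (K := K) x n) (hn : 0 < n) :
    Nonempty (Place K F) := by
  obtain ⟨P, -, hPsum⟩ := h.pole
  by_contra hne
  rw [not_nonempty_iff] at hne
  have : P = ∅ := Finset.eq_empty_of_isEmpty P
  rw [this, Finset.sum_empty] at hPsum
  have : (n : ℤ) = 0 := hPsum.symm
  omega

/-- Every nonzero differential is a nonzero multiple of `dx`. -/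
theorem CountData.exists_smul_D [CharZero K] [Nontrivial Ω[F⁄K]] {x : F} {n : ℕ}
    (h : CountData (K := K) x n) (hn : 0 < n) {ω : Ω[F⁄K]} (hω : ω ≠ 0) :
    ∃ f : F, f ≠ 0 ∧ ω = f • KaehlerDifferential.D K F x := by
  obtain ⟨v⟩ := h.exists_place hn
  have hfin := h.fin
  have := dCoordGenerates v (h.res v)
  have hb := differentialCoeff_D_ne_zero_of_not_const v (h.res v) h.not_const
  have h1 := v.differentialCoeff_smul_dCoord ω
  have h2 := v.differentialCoeff_smul_dCoord (KaehlerDifferential.D K F x)
  refine ⟨v.differentialCoeff ω / v.differentialCoeff (KaehlerDifferential.D K F x), ?_, ?_⟩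
  · refine div_ne_zero ?_ hb
    intro h0
    apply hω
    rw [← h1, h0, zero_smul]
  · have h3 : (v.differentialCoeff ω / v.differentialCoeff (KaehlerDifferential.D K F x)) •
        KaehlerDifferential.D K F x =
        (v.differentialCoeff ω / v.differentialCoeff (KaehlerDifferential.D K F x)) •
          (v.differentialCoeff (KaehlerDifferential.D K F x) • v.dCoord) := by rw [h2]
    rw [h3, smul_smul, div_mul_cancel₀ _ hb, h1]

/-- The degree of the divisor of a nonzero differential does not depend on the differential,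
provided principal divisors have degree zero. -/
theorem degree_eq_degree_D [CharZero K] [Nontrivial Ω[F⁄K]] {x : F} {n : ℕ}
    (h : CountData (K := K) x n) (hn : 0 < n)
    (hprinc : ∀ f : F, f ≠ 0 → ∀ E : Divisor K F, (∀ v : Place K F, E v = v.ord f) →
      Divisor.degree E = 0)
    {ω : Ω[F⁄K]} (hω : ω ≠ 0) (D Dx : Divisor K F)
    (hD : ∀ v : Place K F, D v = v.ordDifferential ω)
    (hDx : ∀ v : Place K F, Dx v = v.ordDifferential (KaehlerDifferential.D K F x)) :
    Divisor.degree D = Divisor.degree Dx := by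
  obtain ⟨f, hf, rfl⟩ := h.exists_smul_D hn hω
  have hfin := h.fin
  have key : Divisor.degree (D - Dx) = 0 := by
    refine hprinc f hf _ fun v => ?_
    have := dCoordGenerates v (h.res v)
    rw [Finsupp.sub_apply, hD, hDx, v.ordDifferential_smul hf
      (differentialCoeff_D_ne_zero_of_not_const v (h.res v) h.not_const)]
    ring
  rw [map_sub, sub_eq_zero] at key
  exact key

/-- **Generic genus computation.** If principal divisors have degree zero and the
Riemann–Hurwitz count for `x` equals `2 g - 2`, then the prelude genus of `F / K` is `g`. -/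
theorem genus_eq_of_count [CharZero K] [Nontrivial Ω[F⁄K]]
    [HasCanonicalDivisor (K := K) (F := F)] {x : F} {n : ℕ}
    (h : CountData (K := K) x n) (hn : 0 < n)
    (hprinc : ∀ f : F, f ≠ 0 → ∀ E : Divisor K F, (∀ v : Place K F, E v = v.ord f) →
      Divisor.degree E = 0)
    (B : Finset K)
    (hB : ∀ c : K, c ∉ B → ∀ v : Place K F, 0 < v.ord (x - algebraMap K F c) →
      v.ord (x - algebraMap K F c) = 1)
    (g : ℕ)
    (hg : ∑ c ∈ B, ((n : ℤ) - (Nat.card {v : Place K F // 0 < v.ord (x - algebraMap K F c)} : ℤ))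
        - ((n : ℤ) + (Nat.card {v : Place K F // 0 < v.ord x⁻¹} : ℤ)) = 2 * (g : ℤ) - 2) :
    AlgebraicCurve.genus K F = g := by
  have hex : ∃ ω : Ω[F⁄K], ω ≠ 0 := exists_ne 0
  obtain ⟨v⟩ := h.exists_place hn
  have hfin := h.fin
  have hDx0 : KaehlerDifferential.D K F x ≠ 0 := D_ne_zero_of_not_const v (h.res v) h.not_const
  have h1 : Divisor.degree (canonicalDivisorOf (K := K) (F := F) hex.choose_spec) =
      2 * (g : ℤ) - 2 := by
    rw [degree_eq_degree_D h hn hprinc hex.choose_spec _ (canonicalDivisorOf hDx0)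
      (fun v => canonicalDivisorOf_apply _ v) (fun v => canonicalDivisorOf_apply _ v),
      degree_divisor_D h B hB _ (fun v => canonicalDivisorOf_apply _ v), hg]
  unfold AlgebraicCurve.genus
  rw [dif_pos hex, h1]
  have : (2 * (g : ℤ) - 2 + 2).toNat = 2 * g := by
    rw [show 2 * (g : ℤ) - 2 + 2 = ((2 * g : ℕ) : ℤ) by push_cast; ring, Int.toNat_natCast]
  rw [this]
  omega

end Fermat.Agent.S24.RH
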