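import Fermat.Agent.S24.H2_FunField
import Fermat.Agent.S24.H15_Hurwitz

/-!
# S24, package ALG (helper2), part 4: function fields of one variable over an algebraically
closed field

`F / K` is a field extension, `x : F` transcendental with `F` finite over `K⟮x⟯`.
* `finiteDimensional_adjoin_of_transcendental` : `F` is finite over `K⟮y⟯` for every
  transcendental `y`;
* `place_induction` : every place is `placeOfPrime K P` for a maximal ideal `P` of a Dedekind
  `K`-algebra of finite type with fraction field `F`;
* `deg_eq_one`, `residueTrivial` (for `K` algebraically closed);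
* `fundId` : the fundamental identity in the shape `RH.FundId`;
* `degree_principal` : principal divisors have degree zero;
* `countData` : the hypotheses `RH.CountData` of the Riemann-Hurwitz count.
-/

set_option autoImplicit false
set_option linter.style.haveILetI false
set_option linter.unusedSectionVars false

namespace Fermat.Agent.S24.Alg

open IsDedekindDomain AlgebraicCurve WithZero Polynomial IntermediateField

section generic

variable {K F : Type*} [Field K] [Field F] [Algebra K F]

theorem deg_eq_one_of_surjective (v : Place K F)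
    (h : Function.Surjective (algebraMap K v.ResidueField)) : v.deg = 1 := by
  unfold Place.deg
  have e : K ≃ₗ[K] v.ResidueField :=
    LinearEquiv.ofBijective (Algebra.linearMap K _) ⟨(algebraMap K _).injective, h⟩
  rw [← e.finrank_eq, Module.finrank_self]

theorem residueTrivial_of_surjective (v : Place K F)
    (h : Function.Surjective (algebraMap K v.ResidueField)) : RH.ResidueTrivial v := by
  intro u
  obtain ⟨c, hc⟩ := h (IsLocalRing.residue _ u)
  refine ⟨c, ?_⟩
  rw [← IsLocalRing.residue_eq_zero_iff, map_sub, ← hc, sub_eq_zero]
  rfl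

/-- exchange: if `F` is finite over `K(x)` and `y` is transcendental, then `x` is algebraic over
`K(y)`. -/
theorem isAlgebraic_adjoin_of_transcendental {x : F} (hx : Transcendental K x)
    [FiniteDimensional K⟮x⟯ F] {y : F} (hy : Transcendental K y) :
    IsAlgebraic K⟮y⟯ x :=
  isAlgebraic_adjoin_iff.mpr (.adjoin_singleton hx hy
    (isAlgebraic_adjoin_iff.mp (Algebra.IsAlgebraic.isAlgebraic y)))

/-- A function field of one variable is finite over `K(y)` for every transcendental `y`. -/
theorem finiteDimensional_adjoin_of_transcendental {x : F} (hx : Transcendental K x)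
    [FiniteDimensional K⟮x⟯ F] {y : F} (hy : Transcendental K y) :
    FiniteDimensional K⟮y⟯ F :=
  let Fyx := restrictScalars K K⟮y⟯⟮x⟯
  let Fxy := restrictScalars K K⟮x⟯⟮y⟯
  let : Algebra K⟮y⟯ Fyx := K⟮y⟯⟮x⟯.algebra
  let : Module K⟮y⟯ Fyx := Algebra.toModule
  let : SMul K⟮y⟯ Fyx := Algebra.toSMul
  let : Algebra K⟮x⟯ Fxy := K⟮x⟯⟮y⟯.algebra
  let : Module K⟮x⟯ Fxy := Algebra.toModule
  let : SMul K⟮x⟯ Fxy := Algebra.toSMul
  have : FiniteDimensional K⟮y⟯ Fyx :=
    adjoin.finiteDimensional
      (isAlgebraic_iff_isIntegral.mp (isAlgebraic_adjoin_of_transcendental hx hy))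
  have : FiniteDimensional Fyx F := by
    unfold Fyx
    rw [adjoin_simple_comm]
    have : IsScalarTower K⟮x⟯ Fxy F := isScalarTower_mid' K⟮x⟯⟮y⟯
    exact .right K⟮x⟯ Fxy F
  have : IsScalarTower K⟮y⟯ Fyx F := isScalarTower_mid' K⟮y⟯⟮x⟯
  .trans K⟮y⟯ Fyx F

theorem finrank_congr_intermediateField {E₁ E₂ : IntermediateField K F} (h : E₁ = E₂) :
    Module.finrank E₁ F = Module.finrank E₂ F := by
  subst h; rfl

theorem finiteDimensional_congr_intermediateField {E₁ E₂ : IntermediateField K F} (h : E₁ = E₂)
    [FiniteDimensional E₁ F] : FiniteDimensional E₂ F := by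
  subst h; infer_instance

theorem adjoin_sub_algebraMap (x : F) (c : K) : K⟮x - algebraMap K F c⟯ = K⟮x⟯ := by
  apply le_antisymm
  · rw [adjoin_simple_le_iff]
    exact sub_mem (mem_adjoin_simple_self K x) (IntermediateField.algebraMap_mem _ c)
  · rw [adjoin_simple_le_iff]
    have h1 : (x - algebraMap K F c) + algebraMap K F c ∈ K⟮x - algebraMap K F c⟯ :=
      add_mem (mem_adjoin_simple_self K _) (IntermediateField.algebraMap_mem _ c)
    simpa using h1

theorem adjoin_inv (x : F) : K⟮x⁻¹⟯ = K⟮x⟯ := by
  apply le_antisymm
  · rw [adjoin_simple_le_iff]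
    exact inv_mem (mem_adjoin_simple_self K x)
  · rw [adjoin_simple_le_iff]
    have h1 : (x⁻¹)⁻¹ ∈ K⟮x⁻¹⟯ := inv_mem (mem_adjoin_simple_self K _)
    simpa using h1

theorem transcendental_sub_algebraMap {x : F} (hx : Transcendental K x) (c : K) :
    Transcendental K (x - algebraMap K F c) := by
  intro h
  apply hx
  have : x = (x - algebraMap K F c) + algebraMap K F c := by ring
  rw [this]
  exact h.add (isAlgebraic_algebraMap c)

theorem transcendental_inv {x : F} (hx : Transcendental K x) : Transcendental K x⁻¹ := by
  intro h
  apply hx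
  have : x = (x⁻¹)⁻¹ := (inv_inv x).symm
  rw [this]
  exact h.inv

theorem not_mem_range_of_transcendental {x : F} (hx : Transcendental K x) :
    x ∉ Set.range (algebraMap K F) := by
  rintro ⟨c, rfl⟩
  exact hx (isAlgebraic_algebraMap c)

/-- An element algebraic over `K` has order zero at every place. -/
theorem ord_eq_zero_of_isAlgebraic (v : Place K F) {f : F} (hf : IsAlgebraic K f) :
    v.ord f = 0 := by
  rcases eq_or_ne f 0 with rfl | hf0
  · simp
  have hmem : ∀ g : F, IsAlgebraic K g → g ∈ v.toValuationSubring := by
    intro g hg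
    have hint : IsIntegral v.toValuationSubring g := hg.isIntegral.tower_top
    obtain ⟨y, hy⟩ := IsIntegrallyClosed.isIntegral_iff.1 hint
    rw [← hy]
    exact y.2
  have h1 := (mem_iff_ord_nonneg v hf0).1 (hmem f hf)
  have h2 := (mem_iff_ord_nonneg v (inv_ne_zero hf0)).1 (hmem f⁻¹ hf.inv)
  rw [v.ord_inv] at h2
  omega

end generic

section dedekind

variable {K B F : Type*} [Field K] [CommRing B] [IsDedekindDomain B] [Field F]
  [Algebra B F] [IsFractionRing B F] [Algebra K B] [Algebra K F] [IsScalarTower K B F]

theorem algebraMap_residueField_surjective [IsAlgClosed K] [Algebra.FiniteType K B]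
    (P : HeightOneSpectrum B) :
    Function.Surjective (algebraMap K (placeOfPrime K P (F := F)).ResidueField) := by
  haveI : P.asIdeal.IsMaximal := P.isMaximal
  letI : Field (B ⧸ P.asIdeal) := Ideal.Quotient.field _
  haveI : Algebra.FiniteType K (B ⧸ P.asIdeal) := inferInstance
  haveI : Module.Finite K (B ⧸ P.asIdeal) := finite_of_finite_type_of_isJacobsonRing K _
  haveI : Algebra.IsIntegral K (B ⧸ P.asIdeal) := inferInstance
  have hb := IsAlgClosed.algebraMap_bijective_of_isIntegral (k := K) (K := B ⧸ P.asIdeal)
  intro x
  obtain ⟨y, rfl⟩ := (quotEquivResidue K P (F := F)).surjective x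
  obtain ⟨c, rfl⟩ := hb.2 y
  exact ⟨c, ((quotEquivResidue K P (F := F)).commutes c).symm⟩

end dedekind

section funField

universe u uK

variable {K : Type uK} {F : Type u} [Field K] [CharZero K] [Field F] [Algebra K F]

/-- Every place containing `h` (transcendental, `F` finite over `K(h)`) is the place of a
maximal ideal of a Dedekind `K`-algebra of finite type with fraction field `F`. -/
theorem place_induction_of_mem {motive : Place K F → Prop}
    (H : ∀ (B : Type u) [CommRing B] [IsDedekindDomain B] [Algebra B F] [IsFractionRing B F]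
      [Algebra K B] [IsScalarTower K B F] [Algebra.FiniteType K B] (P : HeightOneSpectrum B),
      motive (placeOfPrime K P))
    (h : F) (hh : Transcendental K h) [FiniteDimensional K⟮h⟯ F]
    (v : Place K F) (hv : h ∈ v.toValuationSubring) : motive v := by
  classical
  letI a1 : Algebra K[X] F := (aeval h).toRingHom.toAlgebra
  letI a2 : Algebra K[X] K⟮h⟯ := (aeval (AdjoinSimple.gen K h)).toRingHom.toAlgebra
  haveI t1 : IsScalarTower K[X] K⟮h⟯ F := IsScalarTower.of_algebraMap_eq (fun g => by
    show aeval h g = ((aeval (AdjoinSimple.gen K h) g : K⟮h⟯) : F)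
    rw [← IntermediateField.algebraMap_apply, ← aeval_algebraMap_apply]
    rfl)
  haveI t2 : IsScalarTower K K[X] F := IsScalarTower.of_algebraMap_eq (fun a => by
    show algebraMap K F a = aeval h (C a)
    rw [aeval_C])
  haveI fr : IsFractionRing K[X] K⟮h⟯ := isFractionRing_adjoin h hh
  haveI : CharZero K⟮h⟯ := charZero_of_injective_algebraMap (algebraMap K K⟮h⟯).injective
  haveI sep : Algebra.IsSeparable K⟮h⟯ F := inferInstance
  let B := integralClosure K[X] F
  haveI dd : IsDedekindDomain B := IsIntegralClosure.isDedekindDomain K[X] K⟮h⟯ F B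
  haveI frB : IsFractionRing B F :=
    IsIntegralClosure.isFractionRing_of_finite_extension K[X] K⟮h⟯ F B
  haveI fin : Module.Finite K[X] B := IsIntegralClosure.finite K[X] K⟮h⟯ F B
  haveI t3 : IsScalarTower K B F := inferInstance
  haveI t4 : IsScalarTower K K[X] B := inferInstance
  haveI ft : Algebra.FiniteType K B :=
    Algebra.FiniteType.trans (S := K[X]) inferInstance inferInstance
  obtain ⟨P, rfl⟩ := exists_prime_of_le (B := B) v
    (fun b => integralClosure_le_place h v hv _ (show IsIntegral K[X] (b : F) from b.2))
  exact H B P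

/-- **Induction principle for places** of a function field of one variable: to prove a
property of all places it suffices to prove it for the places `placeOfPrime K P` of maximal
ideals of Dedekind `K`-algebras of finite type with fraction field `F`. -/
theorem place_induction {motive : Place K F → Prop}
    (H : ∀ (B : Type u) [CommRing B] [IsDedekindDomain B] [Algebra B F] [IsFractionRing B F]
      [Algebra K B] [IsScalarTower K B F] [Algebra.FiniteType K B] (P : HeightOneSpectrum B),
      motive (placeOfPrime K P))
    (x : F) (hx : Transcendental K x) [FiniteDimensional K⟮x⟯ F]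
    (v : Place K F) : motive v := by
  rcases v.toValuationSubring.mem_or_inv_mem x with hv | hv
  · exact place_induction_of_mem H x hx v hv
  · haveI : FiniteDimensional K⟮x⁻¹⟯ F :=
      finiteDimensional_adjoin_of_transcendental hx (transcendental_inv hx)
    exact place_induction_of_mem H x⁻¹ (transcendental_inv hx) v hv

variable [IsAlgClosed K]

/-- Over an algebraically closed field every residue field is `K`. -/
theorem algebraMap_residueField_surjective_of_funField (x : F) (hx : Transcendental K x)
    [FiniteDimensional K⟮x⟯ F] (v : Place K F) :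
    Function.Surjective (algebraMap K v.ResidueField) :=
  place_induction (motive := fun v => Function.Surjective (algebraMap K v.ResidueField))
    (fun _ _ _ _ _ _ _ _ P => algebraMap_residueField_surjective P) x hx v

/-- **(A3)** Over an algebraically closed field every place has degree one. -/
theorem deg_eq_one (x : F) (hx : Transcendental K x) [FiniteDimensional K⟮x⟯ F]
    (v : Place K F) : v.deg = 1 :=
  deg_eq_one_of_surjective v (algebraMap_residueField_surjective_of_funField x hx v)

/-- **(A3)** Over an algebraically closed field every place has residue field `K`. -/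
theorem residueTrivial (x : F) (hx : Transcendental K x) [FiniteDimensional K⟮x⟯ F]
    (v : Place K F) : RH.ResidueTrivial v :=
  residueTrivial_of_surjective v (algebraMap_residueField_surjective_of_funField x hx v)

/-- **(A2)** The fundamental identity in the shape consumed by the Riemann-Hurwitz count. -/
theorem fundId (h : F) (hh : Transcendental K h) [FiniteDimensional K⟮h⟯ F] :
    RH.FundId (K := K) h (Module.finrank K⟮h⟯ F) := by
  obtain ⟨Z, hZ, hsum⟩ := exists_zeros h hh
  refine ⟨Z, hZ, ?_⟩
  rw [← hsum]
  refine Finset.sum_congr rfl fun v _ => ?_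
  rw [deg_eq_one h hh v]
  simp

theorem fundId_sub (x : F) (hx : Transcendental K x) [FiniteDimensional K⟮x⟯ F] (c : K) :
    RH.FundId (K := K) (x - algebraMap K F c) (Module.finrank K⟮x⟯ F) := by
  haveI : FiniteDimensional K⟮x - algebraMap K F c⟯ F :=
    finiteDimensional_congr_intermediateField (adjoin_sub_algebraMap x c).symm
  rw [← finrank_congr_intermediateField (adjoin_sub_algebraMap x c)]
  exact fundId _ (transcendental_sub_algebraMap hx c)

theorem fundId_inv (x : F) (hx : Transcendental K x) [FiniteDimensional K⟮x⟯ F] :
    RH.FundId (K := K) x⁻¹ (Module.finrank K⟮x⟯ F) := by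
  haveI : FiniteDimensional K⟮x⁻¹⟯ F :=
    finiteDimensional_congr_intermediateField (adjoin_inv x).symm
  rw [← finrank_congr_intermediateField (adjoin_inv (K := K) x)]
  exact fundId _ (transcendental_inv hx)

end funField

section dedekind2

variable {K B F : Type*} [Field K] [CommRing B] [IsDedekindDomain B] [Field F]
  [Algebra B F] [IsFractionRing B F] [Algebra K B] [Algebra K F] [IsScalarTower K B F]

/-- The valuation ring of `placeOfPrime K P` is essentially of finite type over `K`. -/
theorem essFiniteType_placeOfPrime [Algebra.FiniteType K B] (P : HeightOneSpectrum B) :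
    Algebra.EssFiniteType K (placeOfPrime K P (F := F)).toValuationSubring := by
  classical
  rw [Algebra.essFiniteType_iff]
  obtain ⟨σ₀, hσ₀⟩ := (Algebra.FiniteType.out : (⊤ : Subalgebra K B).FG)
  have himg : ∀ b : B, toPlaceRing K P (F := F) b ∈
      Algebra.adjoin K ((σ₀.image (toPlaceRing K P (F := F)) : Finset _) : Set _) := by
    intro b
    rw [Finset.coe_image, ← AlgHom.map_adjoin, hσ₀]
    exact ⟨b, trivial, rfl⟩
  refine ⟨σ₀.image (toPlaceRing K P (F := F)), fun s => ?_⟩
  obtain ⟨n, d, hnd⟩ := P.exists_primeCompl_mul_eq_of_integer s.1 s.2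
  refine ⟨toPlaceRing K P d, himg d, ?_, ?_⟩
  · rw [isUnit_placeOfPrime_iff, coe_toPlaceRing]
    have h1 : P.valuation F (algebraMap B F d) ≤ 1 := P.valuation_le_one _
    have h2 : ¬ P.valuation F (algebraMap B F d) < 1 := by
      rw [P.valuation_lt_one_iff_mem]
      exact d.2
    exact le_antisymm h1 (not_lt.1 h2)
  · have : s * toPlaceRing K P (F := F) d = toPlaceRing K P (F := F) n :=
      Subtype.ext (by
        show s.1 * algebraMap B F (d : B) = algebraMap B F n
        exact hnd)
    rw [this]
    exact himg n

end dedekind2

section funField2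

universe u uK

variable {K : Type uK} {F : Type u} [Field K] [CharZero K] [Field F] [Algebra K F]

/-- **(A1)** Valuation rings of places of a function field are essentially of finite type. -/
theorem essFiniteType_place (x : F) (hx : Transcendental K x) [FiniteDimensional K⟮x⟯ F]
    (v : Place K F) : Algebra.EssFiniteType K v.toValuationSubring :=
  place_induction (motive := fun v => Algebra.EssFiniteType K v.toValuationSubring)
    (fun _ _ _ _ _ _ _ _ P => essFiniteType_placeOfPrime P) x hx v

theorem finite_kaehler_place (x : F) (hx : Transcendental K x) [FiniteDimensional K⟮x⟯ F]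
    (v : Place K F) : Module.Finite v.toValuationSubring Ω[v.toValuationSubring⁄K] := by
  haveI := essFiniteType_place x hx v
  infer_instance

open scoped algebraAdjoinAdjoin in
/-- A function field of one variable is essentially of finite type. -/
theorem essFiniteType_funField (x : F) [FiniteDimensional K⟮x⟯ F] :
    Algebra.EssFiniteType K F := by
  have h1 : Algebra.FiniteType K (Algebra.adjoin K ({x} : Set F)) :=
    .adjoin_of_finite (Set.finite_singleton x)
  have h2 : Algebra.EssFiniteType (Algebra.adjoin K ({x} : Set F)) K⟮x⟯ :=
    .of_isLocalization _ (nonZeroDivisors _)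
  have h3 : Algebra.EssFiniteType K K⟮x⟯ := .comp _ (Algebra.adjoin K ({x} : Set F)) _
  have h4 : Algebra.EssFiniteType K⟮x⟯ F := inferInstance
  exact .comp K K⟮x⟯ F

theorem nontrivial_kaehler (x : F) [FiniteDimensional K⟮x⟯ F]
    (v : Place K F) : Nontrivial Ω[F⁄K] := by
  haveI := essFiniteType_funField (K := K) x
  exact RH.nontrivial_kaehler_of_place v

/-- **(A4)** Principal divisors have degree zero. -/
theorem degree_principal (x : F) (hx : Transcendental K x) [FiniteDimensional K⟮x⟯ F]
    (f : F) (_hf : f ≠ 0) (E : Divisor K F) (hE : ∀ v : Place K F, E v = v.ord f) :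
    Divisor.degree E = 0 := by
  classical
  by_cases hfa : IsAlgebraic K f
  · have : E = 0 := Finsupp.ext fun v => by
      rw [hE, ord_eq_zero_of_isAlgebraic v hfa]; rfl
    rw [this, map_zero]
  · have hft : Transcendental K f := hfa
    haveI := finiteDimensional_adjoin_of_transcendental hx hft
    haveI : FiniteDimensional K⟮f⁻¹⟯ F :=
      finiteDimensional_congr_intermediateField (adjoin_inv f).symm
    obtain ⟨Z, hZ, hsum⟩ := exists_zeros f hft
    obtain ⟨P, hP, hPsum⟩ := exists_zeros f⁻¹ (transcendental_inv hft)
    rw [finrank_congr_intermediateField (adjoin_inv (K := K) f)] at hPsum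
    have h1 : Divisor.degree E = E.sum fun v k => k * (v.deg : ℤ) := by
      simp [Divisor.degree, Finsupp.liftAddHom_apply]
    have hsupp : E.support ⊆ Z ∪ P := by
      intro v hv
      rw [Finsupp.mem_support_iff, hE] at hv
      rw [Finset.mem_union, hZ, hP, v.ord_inv]
      omega
    have hdisj : Disjoint Z P := by
      rw [Finset.disjoint_left]
      intro v hv hv'
      rw [hZ] at hv
      rw [hP, v.ord_inv] at hv'
      omega
    rw [h1, Finsupp.sum_of_support_subset E hsupp _ (fun v _ => by simp),
      Finset.sum_union hdisj]
    have e1 : ∑ v ∈ Z, E v * (v.deg : ℤ) = ∑ v ∈ Z, v.ord f * (v.deg : ℤ) :=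
      Finset.sum_congr rfl fun v _ => by rw [hE]
    have e2 : ∑ v ∈ P, E v * (v.deg : ℤ) = - ∑ v ∈ P, v.ord f⁻¹ * (v.deg : ℤ) := by
      rw [← Finset.sum_neg_distrib]
      exact Finset.sum_congr rfl fun v _ => by rw [hE, v.ord_inv]; ring
    rw [e1, e2, hsum, hPsum]
    ring

variable [IsAlgClosed K]

/-- **The hypotheses of the Riemann-Hurwitz count** for a function field of one variable over an
algebraically closed field of characteristic zero. -/
theorem countData (x : F) (hx : Transcendental K x) [FiniteDimensional K⟮x⟯ F] :
    RH.CountData (K := K) x (Module.finrank K⟮x⟯ F) where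
  not_const := not_mem_range_of_transcendental hx
  res := residueTrivial x hx
  fin := finite_kaehler_place x hx
  deg := deg_eq_one x hx
  zero := fundId_sub x hx
  pole := fundId_inv x hx


/-- **Generic genus computation** for a function field of one variable `F / K` (`K`
algebraically closed of characteristic zero) from the ramification of a non-constant `x`:
if `x` is unramified outside the finite set `B` of values and the Riemann-Hurwitz count equals
`2 g - 2`, then the (prelude) genus of `F / K` is `g`. -/
theorem genus_eq_of_ramification [HasCanonicalDivisor (K := K) (F := F)]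
    (x : F) (hx : Transcendental K x) [FiniteDimensional K⟮x⟯ F]
    (B : Finset K)
    (hB : ∀ c : K, c ∉ B → ∀ v : Place K F, 0 < v.ord (x - algebraMap K F c) →
      v.ord (x - algebraMap K F c) = 1)
    (g : ℕ)
    (hg : ∑ c ∈ B, ((Module.finrank K⟮x⟯ F : ℤ) -
          (Nat.card {v : Place K F // 0 < v.ord (x - algebraMap K F c)} : ℤ))
        - ((Module.finrank K⟮x⟯ F : ℤ) + (Nat.card {v : Place K F // 0 < v.ord x⁻¹} : ℤ))
        = 2 * (g : ℤ) - 2) :
    AlgebraicCurve.genus K F = g := by
  have hn : 0 < Module.finrank K⟮x⟯ F := Module.finrank_pos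
  have hcd := countData x hx
  obtain ⟨v⟩ := hcd.exists_place hn
  haveI := nontrivial_kaehler (K := K) x v
  exact RH.genus_eq_of_count hcd hn (degree_principal x hx) B hB g hg

end funField2

end Fermat.Agent.S24.Alg
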