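import Fermat.Agent.S24.H7_Cusp
import Fermat.Agent.S23.H23_JFun

/-!
# S24, package CUSP (helper7): the order at `i∞` of `j` and of polynomials in `j`
-/

set_option autoImplicit false

namespace Fermat.Agent.S24.Cusp

open UpperHalfPlane Filter Topology Function ModularForm EisensteinSeries Polynomial
open Fermat.Agent.S23
open scoped MatrixGroups ModularForm Manifold Real

lemma jInv_mul_discriminant (z : ℍ) : R4.jInv z * ModularForm.discriminant z = E₄ z ^ 3 := by
  rw [R4.jInv_def, div_mul_cancel₀ _ (ModularForm.discriminant_ne_zero z)]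

lemma periodic_jInv : Function.Periodic (R4.jInv ∘ ofComplex) 1 := by
  refine periodic_comp_ofComplex_of_vadd fun z => ?_
  have h1 : ((1 : ℝ) +ᵥ z : ℍ) = ModularGroup.T • z := by
    have := modular_T_zpow_smul z 1
    simpa using this.symm
  rw [h1]
  exact R4.jInv_smul ModularGroup.T z

lemma tendsto_E4_pow_three : Tendsto (fun z : ℍ => E₄ z ^ 3) atImInfty (𝓝 1) := by
  simpa using R4.tendsto_E4_atImInfty.pow 3

lemma meroAtInf_jInv : MeroAtInf 1 R4.jInv := by
  refine MeroAtInf.of_mul_isBounded (g := ModularForm.discriminant) periodic_jInv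
    R4.mdifferentiable_jInv meroAtInf_discriminant one_pos discriminant_ne_zero_fun ?_
  have : (R4.jInv * ModularForm.discriminant : ℍ → ℂ) = fun z => E₄ z ^ 3 := by
    funext z; exact jInv_mul_discriminant z
  rw [this]
  exact tendsto_E4_pow_three.isBigO_one ℝ

lemma jInv_ne_zero_fun : (R4.jInv : ℍ → ℂ) ≠ 0 := by
  intro h0
  have h1 : (fun z : ℍ => E₄ z ^ 3) = 0 := by
    funext z
    rw [← jInv_mul_discriminant z, h0]
    simp
  have h2 : Tendsto (fun z : ℍ => E₄ z ^ 3) atImInfty (𝓝 0) := by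
    rw [h1]; exact tendsto_const_nhds
  exact one_ne_zero (tendsto_nhds_unique tendsto_E4_pow_three h2)

lemma ordInf_jInv : ordInf 1 R4.jInv = -1 := by
  have hmul := MeroAtInf.ordInf_mul meroAtInf_jInv meroAtInf_discriminant one_pos
    jInv_ne_zero_fun discriminant_ne_zero_fun
  have hE : ordInf 1 (R4.jInv * ModularForm.discriminant : ℍ → ℂ) = 0 := by
    refine MeroAtInf.ordInf_eq_zero_of_tendsto (meroAtInf_jInv.mul meroAtInf_discriminant)
      one_pos one_ne_zero ?_
    have : (R4.jInv * ModularForm.discriminant : ℍ → ℂ) = fun z => E₄ z ^ 3 := by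
      funext z; exact jInv_mul_discriminant z
    rw [this]
    exact tendsto_E4_pow_three
  rw [hE, ordInf_discriminant] at hmul
  linarith

lemma meroAtInf_jInv_nat {N : ℕ} (hN : N ≠ 0) : MeroAtInf (N : ℝ) R4.jInv := by
  simpa using meroAtInf_jInv.period_mul one_ne_zero N hN

lemma ordInf_jInv_nat {N : ℕ} (hN : N ≠ 0) : ordInf (N : ℝ) R4.jInv = -(N : ℤ) := by
  have := meroAtInf_jInv.ordInf_period_mul one_ne_zero N hN
  simpa [ordInf_jInv] using this

/-! ### Polynomials in `j` -/

lemma tendsto_discriminant : Tendsto (fun z : ℍ => ModularForm.discriminant z) atImInfty (𝓝 0) :=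
  discriminant_isZeroAtImInfty

/-- `P(j) Δ^n` as a polynomial expression in `E₄` and `Δ`. -/
lemma eval_jInv_mul_discriminant_pow (P : ℂ[X]) (z : ℍ) :
    P.eval (R4.jInv z) * ModularForm.discriminant z ^ P.natDegree =
      ∑ i ∈ Finset.range (P.natDegree + 1),
        P.coeff i * (E₄ z ^ 3) ^ i * ModularForm.discriminant z ^ (P.natDegree - i) := by
  rw [Polynomial.eval_eq_sum_range, Finset.sum_mul]
  refine Finset.sum_congr rfl fun i hi => ?_
  have hi' : i ≤ P.natDegree := Nat.lt_succ_iff.mp (Finset.mem_range.mp hi)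
  have hΔ := ModularForm.discriminant_ne_zero z
  rw [← jInv_mul_discriminant z, mul_pow]
  have : ModularForm.discriminant z ^ P.natDegree
      = ModularForm.discriminant z ^ i * ModularForm.discriminant z ^ (P.natDegree - i) := by
    rw [← pow_add, Nat.add_sub_cancel' hi']
  rw [this]
  ring

lemma tendsto_eval_jInv_mul_discriminant_pow (P : ℂ[X]) :
    Tendsto (fun z : ℍ => P.eval (R4.jInv z) * ModularForm.discriminant z ^ P.natDegree)
      atImInfty (𝓝 P.leadingCoeff) := by
  have h1 : ∀ i ∈ Finset.range (P.natDegree + 1),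
      Tendsto (fun z : ℍ => P.coeff i * (E₄ z ^ 3) ^ i *
        ModularForm.discriminant z ^ (P.natDegree - i)) atImInfty
        (𝓝 (P.coeff i * 1 ^ i * (0 : ℂ) ^ (P.natDegree - i))) := by
    intro i _
    exact (tendsto_const_nhds.mul (tendsto_E4_pow_three.pow i)).mul
      (tendsto_discriminant.pow (P.natDegree - i))
  have h2 := tendsto_finsetSum (Finset.range (P.natDegree + 1)) h1
  have h3 : ∑ i ∈ Finset.range (P.natDegree + 1),
      P.coeff i * 1 ^ i * (0 : ℂ) ^ (P.natDegree - i) = P.leadingCoeff := by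
    rw [Finset.sum_eq_single P.natDegree]
    · simp
    · intro i hi hne
      have hi' : i < P.natDegree :=
        lt_of_le_of_ne (Nat.lt_succ_iff.mp (Finset.mem_range.mp hi)) hne
      have : P.natDegree - i ≠ 0 := by omega
      simp [zero_pow this]
    · intro hn
      exact absurd (Finset.mem_range.mpr (Nat.lt_succ_self _)) hn
  rw [h3] at h2
  refine h2.congr fun z => ?_
  exact (eval_jInv_mul_discriminant_pow P z).symm

lemma periodic_eval_jInv (P : ℂ[X]) :
    Function.Periodic ((fun z : ℍ => P.eval (R4.jInv z)) ∘ ofComplex) 1 := by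
  intro w
  have := periodic_jInv w
  simp only [Function.comp_apply] at this ⊢
  rw [this]

lemma mdiff_eval_jInv (P : ℂ[X]) : MDiff (fun z : ℍ => P.eval (R4.jInv z)) := by
  have hj := R4.mdifferentiable_jInv
  rw [UpperHalfPlane.mdifferentiable_iff] at hj ⊢
  have : ((fun z : ℍ => P.eval (R4.jInv z)) ∘ ofComplex)
      = (fun x : ℂ => P.eval x) ∘ (R4.jInv ∘ ofComplex) := rfl
  rw [this]
  exact (P.differentiable.differentiableOn).comp hj (Set.mapsTo_univ _ _)

lemma meroAtInf_eval_jInv (P : ℂ[X]) : MeroAtInf 1 (fun z : ℍ => P.eval (R4.jInv z)) := by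
  refine MeroAtInf.of_mul_isBounded (g := ModularForm.discriminant ^ P.natDegree)
    (periodic_eval_jInv P) (mdiff_eval_jInv P) (meroAtInf_discriminant.pow _) one_pos
    (pow_ne_zero _ discriminant_ne_zero_fun) ?_
  exact (tendsto_eval_jInv_mul_discriminant_pow P).isBigO_one ℝ

lemma eval_jInv_ne_zero {P : ℂ[X]} (hP : P ≠ 0) : (fun z : ℍ => P.eval (R4.jInv z)) ≠ 0 := by
  intro h0
  have h1 := tendsto_eval_jInv_mul_discriminant_pow P
  have h2 : (fun z : ℍ => P.eval (R4.jInv z) * ModularForm.discriminant z ^ P.natDegree)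
      = fun _ => 0 := by
    funext z
    have := congrFun h0 z
    simp only [Pi.zero_apply] at this
    rw [this, zero_mul]
  rw [h2] at h1
  have := tendsto_nhds_unique h1 tendsto_const_nhds
  exact hP (Polynomial.leadingCoeff_eq_zero.mp this)

/-- The order at `i∞` of a polynomial in `j` is minus its degree. -/
lemma ordInf_eval_jInv {P : ℂ[X]} (hP : P ≠ 0) :
    ordInf 1 (fun z : ℍ => P.eval (R4.jInv z)) = -(P.natDegree : ℤ) := by
  have hf := meroAtInf_eval_jInv P
  have hf0 := eval_jInv_ne_zero hP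
  have hΔ := meroAtInf_discriminant.pow P.natDegree
  have hΔ0 : (ModularForm.discriminant : ℍ → ℂ) ^ P.natDegree ≠ 0 :=
    pow_ne_zero _ discriminant_ne_zero_fun
  have hmul := MeroAtInf.ordInf_mul hf hΔ one_pos hf0 hΔ0
  have h0 : ordInf 1 ((fun z : ℍ => P.eval (R4.jInv z)) * ModularForm.discriminant ^ P.natDegree)
      = 0 :=
    MeroAtInf.ordInf_eq_zero_of_tendsto (hf.mul hΔ) one_pos
      (Polynomial.leadingCoeff_ne_zero.mpr hP) (tendsto_eval_jInv_mul_discriminant_pow P)
  rw [h0, MeroAtInf.ordInf_pow meroAtInf_discriminant one_pos discriminant_ne_zero_fun,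
    ordInf_discriminant] at hmul
  linarith

lemma meroAtInf_eval_jInv_nat {N : ℕ} (hN : N ≠ 0) (P : ℂ[X]) :
    MeroAtInf (N : ℝ) (fun z : ℍ => P.eval (R4.jInv z)) := by
  simpa using (meroAtInf_eval_jInv P).period_mul one_ne_zero N hN

lemma ordInf_eval_jInv_nat {N : ℕ} (hN : N ≠ 0) {P : ℂ[X]} (hP : P ≠ 0) :
    ordInf (N : ℝ) (fun z : ℍ => P.eval (R4.jInv z)) = -((N : ℤ) * P.natDegree) := by
  have := (meroAtInf_eval_jInv P).ordInf_period_mul one_ne_zero N hN
  simp only [mul_one] at this
  rw [this, ordInf_eval_jInv hP]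
  ring

end Fermat.Agent.S24.Cusp
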