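import Fermat.Agent.S24.H21_PlaceOfVal

/-!
# S24, G3/G4 core (helper21): every place over `x = c` is one of the given places

The norm-polynomial argument: let `R` be a subring of `F` which is integral at every place over
`x = c`.  Suppose that every `h ∈ R` has a "norm polynomial" `Q₀ ∈ K[X]` with `Q₀(x) ∈ h R`
and such that `Q₀(c) = 0` forces `h` to vanish at one of the given places `P k`.
If a place `Q` over `x = c` can be separated from the `P k` by an element of `R`
(Chinese remainder theorem), then `Q` is one of the `P k`.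
-/

set_option autoImplicit false

open AlgebraicCurve

namespace Fermat.Agent.S24.Orb

variable {K F : Type*} [Field K] [Field F] [Algebra K F]

theorem ord_nonneg_iff_val_le_one (P : Place K F) {h : F} (hh : h ≠ 0) :
    0 ≤ P.ord h ↔ P.toValuationSubring.valuation h ≤ 1 := by
  rw [← mem_place_iff_ord_nonneg P hh, ValuationSubring.valuation_le_one_iff]

theorem ord_pos_iff_val_lt_one (P : Place K F) {h : F} (hh : h ≠ 0) :
    0 < P.ord h ↔ P.toValuationSubring.valuation h < 1 := by
  have h1 := ord_nonneg_iff_val_le_one P (inv_ne_zero hh)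
  rw [P.ord_inv, map_inv₀] at h1
  have hv : P.toValuationSubring.valuation h ≠ 0 := (map_ne_zero _).mpr hh
  constructor
  · intro hpos
    by_contra hcon
    push Not at hcon
    have : (P.toValuationSubring.valuation h)⁻¹ ≤ 1 := inv_le_one_of_one_le₀ hcon
    have := h1.mpr this
    omega
  · intro hlt
    by_contra hcon
    push Not at hcon
    have h2 : 0 ≤ -P.ord h := by omega
    have h3 := h1.mp h2
    have h4 : 1 ≤ P.toValuationSubring.valuation h := (inv_le_one₀ (zero_lt_iff.mpr hv)).mp h3
    exact absurd hlt (not_lt.mpr h4)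

theorem ord_eq_zero_iff_val_eq_one (P : Place K F) {h : F} (hh : h ≠ 0) :
    P.ord h = 0 ↔ P.toValuationSubring.valuation h = 1 := by
  have h1 := ord_nonneg_iff_val_le_one P hh
  have h2 := ord_pos_iff_val_lt_one P hh
  constructor
  · intro h0
    have hle := h1.mp (by omega)
    rcases hle.lt_or_eq with hlt | heq
    · have := h2.mpr hlt
      omega
    · exact heq
  · intro h0
    have hle := h1.mpr h0.le
    have hnlt : ¬ 0 < P.ord h := fun hp => absurd (h2.mp hp) (by rw [h0]; exact lt_irrefl _)
    omega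

/-- Nonzero constants have order `0`. -/
theorem ord_algebraMap (P : Place K F) {a : K} (ha : algebraMap K F a ≠ 0) :
    P.ord (algebraMap K F a) = 0 := by
  have h1 : 0 ≤ P.ord (algebraMap K F a) :=
    (mem_place_iff_ord_nonneg P ha).mp (P.algebraMap_mem' a)
  have ha' : a ≠ 0 := fun h => ha (by rw [h, map_zero])
  have h2 : 0 ≤ P.ord (algebraMap K F a)⁻¹ := by
    rw [← map_inv₀]
    refine (mem_place_iff_ord_nonneg P ?_).mp (P.algebraMap_mem' a⁻¹)
    rw [map_inv₀]; exact inv_ne_zero ha
  rw [P.ord_inv] at h2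
  omega

/-- The ultrametric inequality for `ord`. -/
theorem le_ord_add (P : Place K F) {f g : F} (hf : f ≠ 0) (hg : g ≠ 0) (hfg : f + g ≠ 0) :
    min (P.ord f) (P.ord g) ≤ P.ord (f + g) := by
  -- wlog `ord f ≤ ord g`; then `(f + g) / f = 1 + g / f` is integral
  wlog hle : P.ord f ≤ P.ord g generalizing f g
  · have := this hg hf (by rwa [add_comm]) (by omega)
    rwa [min_comm, add_comm]
  rw [min_eq_left hle]
  have hq : g / f ∈ P.toValuationSubring := by
    rw [mem_place_iff_ord_nonneg P (div_ne_zero hg hf), div_eq_mul_inv,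
      P.ord_mul hg (inv_ne_zero hf), P.ord_inv]
    omega
  have h1 : 1 + g / f ∈ P.toValuationSubring := add_mem (one_mem _) hq
  have hne : 1 + g / f ≠ 0 := by
    intro h0
    apply hfg
    have : f + g = f * (1 + g / f) := by field_simp
    rw [this, h0, mul_zero]
  have h2 := (mem_place_iff_ord_nonneg P hne).mp h1
  have : f + g = f * (1 + g / f) := by field_simp
  rw [this, P.ord_mul hf hne]
  omega

/-- `K`-polynomials in an element integral at `P` are integral at `P`. -/
theorem aeval_mem_place (P : Place K F) {x : F} (hx : x ∈ P.toValuationSubring)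
    (G : Polynomial K) : Polynomial.aeval x G ∈ P.toValuationSubring := by
  induction G using Polynomial.induction_on' with
  | add p q hp hq => rw [map_add]; exact add_mem hp hq
  | monomial n a =>
    rw [Polynomial.aeval_monomial]
    exact mul_mem (P.algebraMap_mem' a) (pow_mem hx n)

/-- **Surjectivity from the norm polynomial.** -/
theorem surj_of_norm {X : Type*} (P : X → Place K F) (R : Subring F) (x : F) (c : K)
    (hR : ∀ Q : Place K F, 0 < Q.ord (x - algebraMap K F c) →
      ∀ g ∈ R, g ∈ Q.toValuationSubring)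
    (hCRT : ∀ Q : Place K F, 0 < Q.ord (x - algebraMap K F c) → (∀ k, P k ≠ Q) →
      ∃ h ∈ R, h ≠ 0 ∧ 0 < Q.ord h ∧ ∀ k, (P k).ord h = 0)
    (hNORM : ∀ h ∈ R, h ≠ 0 → ∃ Q₀ : Polynomial K,
      (∃ g ∈ R, Polynomial.aeval x Q₀ = h * g) ∧
        (Q₀.eval c = 0 → ∃ k, 0 < (P k).ord h)) :
    ∀ Q : Place K F, 0 < Q.ord (x - algebraMap K F c) → ∃ k, P k = Q := by
  intro Q hQ
  by_contra hcon
  push Not at hcon
  obtain ⟨h, hhR, hh0, hhQ, hhP⟩ := hCRT Q hQ hcon
  obtain ⟨Q₀, ⟨g, hgR, hg⟩, hzero⟩ := hNORM h hhR hh0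
  have hxc0 : x - algebraMap K F c ≠ 0 := by
    intro h0
    rw [h0, Place.ord_zero] at hQ
    exact lt_irrefl _ hQ
  set A := Q.toValuationSubring with hA
  have hxcA : x - algebraMap K F c ∈ A := (mem_place_iff_ord_nonneg Q hxc0).mpr hQ.le
  have hxA : x ∈ A := by
    have := add_mem hxcA (Q.algebraMap_mem' c)
    rwa [sub_add_cancel] at this
  -- `Q₀(c) = 0`
  have hQ0 : Q₀.eval c = 0 := by
    by_contra hne
    -- `Q₀ = C (Q₀(c)) + (X - C c) * G`
    obtain ⟨G, hG⟩ : ∃ G : Polynomial K, Q₀ - Polynomial.C (Q₀.eval c)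
        = (Polynomial.X - Polynomial.C c) * G := by
      have hroot : (Q₀ - Polynomial.C (Q₀.eval c)).IsRoot c := by
        simp [Polynomial.IsRoot]
      exact Polynomial.dvd_iff_isRoot.mpr hroot
    have hval : algebraMap K F (Q₀.eval c)
        = h * g - (x - algebraMap K F c) * Polynomial.aeval x G := by
      have h1 := congrArg (Polynomial.aeval x) hG
      simp only [map_sub, map_mul, Polynomial.aeval_C, Polynomial.aeval_X] at h1
      rw [← hg]
      linear_combination -h1
    have hconst : algebraMap K F (Q₀.eval c) ≠ 0 := by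
      rw [Ne, map_eq_zero_iff _ (algebraMap K F).injective]
      exact hne
    have h0 := (ord_eq_zero_iff_val_eq_one Q hconst).mp (ord_algebraMap Q hconst)
    have hlt1 : A.valuation (h * g) < 1 := by
      rw [map_mul]
      have hh1 := (ord_pos_iff_val_lt_one Q hh0).mp hhQ
      have hg1 : A.valuation g ≤ 1 :=
        (ValuationSubring.valuation_le_one_iff A g).mpr (hR Q hQ g hgR)
      exact mul_lt_one_of_lt_of_le hh1 hg1
    have hlt2 : A.valuation ((x - algebraMap K F c) * Polynomial.aeval x G) < 1 := by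
      rw [map_mul]
      have hx1 := (ord_pos_iff_val_lt_one Q hxc0).mp hQ
      have hG1 : A.valuation (Polynomial.aeval x G) ≤ 1 :=
        (ValuationSubring.valuation_le_one_iff A _).mpr (aeval_mem_place Q hxA G)
      exact mul_lt_one_of_lt_of_le hx1 hG1
    have hlt : A.valuation (algebraMap K F (Q₀.eval c)) < 1 := by
      rw [hval]
      exact Valuation.map_sub_lt _ hlt1 hlt2
    rw [h0] at hlt
    exact lt_irrefl _ hlt
  obtain ⟨k, hk⟩ := hzero hQ0
  rw [hhP k] at hk
  exact lt_irrefl _ hk

end Fermat.Agent.S24.Orb
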