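import Fermat.Agent.S24.H15_BridgeRes

/-!
# S24 (helper15): [FIN] + [NT] for function fields in one variable

For a field `F` finite over `K⟮x⟯` (characteristic zero): every place `v` of `F / K` has a
valuation ring essentially of finite type over `K` (so `Ω[O_v⁄K]` is a finite `O_v`-module),
`F` is essentially of finite type over `K`, and (for `K` algebraically closed) every place has
residue field `K` and degree one.
-/

set_option autoImplicit false
set_option linter.unusedSectionVars false

noncomputable section

namespace Fermat.Agent.S24.RH

open AlgebraicCurve IsDedekindDomain IsLocalRing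
open scoped IntermediateField.algebraAdjoinAdjoin

variable {K F : Type*} [Field K] [Field F] [Algebra K F]

/-- `K[h]` is a principal ideal ring. -/
theorem adjoin_singleton_isPrincipalIdealRing (h : F) :
    IsPrincipalIdealRing (Algebra.adjoin K {h}) := by
  let f : Polynomial K →ₐ[K] Algebra.adjoin K {h} :=
    Polynomial.aeval ⟨h, Algebra.self_mem_adjoin_singleton K h⟩
  refine IsPrincipalIdealRing.of_surjective f.toRingHom ?_
  rintro ⟨y, hy⟩
  rw [Algebra.adjoin_singleton_eq_range_aeval] at hy
  obtain ⟨p, rfl⟩ := hy
  refine ⟨p, Subtype.ext ?_⟩
  simp [f]

section Model

variable (h : F) [CharZero K] [FiniteDimensional (IntermediateField.adjoin K {h}) F]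

theorem isSeparable_adjoin : Algebra.IsSeparable (IntermediateField.adjoin K {h}) F := by
  have : CharZero (IntermediateField.adjoin K {h}) :=
    charZero_of_injective_algebraMap (algebraMap K _).injective
  infer_instance

/-- The integral closure of `K[h]` in `F` is a Dedekind domain. -/
theorem integralClosure_isDedekindDomain :
    IsDedekindDomain (integralClosure (Algebra.adjoin K {h}) F) := by
  have := adjoin_singleton_isPrincipalIdealRing (K := K) h
  have := isSeparable_adjoin (K := K) h
  exact integralClosure.isDedekindDomain (Algebra.adjoin K {h}) (IntermediateField.adjoin K {h}) F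

theorem integralClosure_finite :
    Module.Finite (Algebra.adjoin K {h}) (integralClosure (Algebra.adjoin K {h}) F) := by
  have := adjoin_singleton_isPrincipalIdealRing (K := K) h
  have := isSeparable_adjoin (K := K) h
  exact IsIntegralClosure.finite (Algebra.adjoin K {h}) (IntermediateField.adjoin K {h}) F _

theorem integralClosure_isFractionRing :
    IsFractionRing (integralClosure (Algebra.adjoin K {h}) F) F :=
  integralClosure.isFractionRing_of_finite_extension (IntermediateField.adjoin K {h}) F

theorem adjoin_singleton_finiteType : Algebra.FiniteType K (Algebra.adjoin K {h}) :=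
  ⟨(Subalgebra.fg_top _).mpr ⟨{h}, by simp⟩⟩

/-- The integral closure of `K[h]` in `F` is a finitely generated `K`-algebra. -/
theorem integralClosure_finiteType :
    Algebra.FiniteType K (integralClosure (Algebra.adjoin K {h}) F) := by
  have := integralClosure_finite (K := K) h
  have := adjoin_singleton_finiteType (K := K) h
  have h2 : Algebra.FiniteType (Algebra.adjoin K {h}) (integralClosure (Algebra.adjoin K {h}) F) :=
    inferInstance
  exact Algebra.FiniteType.trans ‹Algebra.FiniteType K (Algebra.adjoin K {h})› h2

omit [CharZero K] [FiniteDimensional (IntermediateField.adjoin K {h}) F] in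
theorem adjoin_singleton_mem_place (v : Place K F) (hv : h ∈ v.toValuationSubring)
    (r : Algebra.adjoin K {h}) : (r : F) ∈ v.toValuationSubring := by
  obtain ⟨r, hr⟩ := r
  induction hr using Algebra.adjoin_induction with
  | mem x hx =>
    rw [Set.mem_singleton_iff] at hx
    subst hx
    exact hv
  | algebraMap c => exact v.algebraMap_mem' c
  | add x y _ _ hx hy => exact add_mem hx hy
  | mul x y _ _ hx hy => exact mul_mem hx hy

omit [CharZero K] [FiniteDimensional (IntermediateField.adjoin K {h}) F] in
/-- If `h` lies in the valuation ring of `v`, so does the integral closure of `K[h]`. -/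
theorem integralClosure_mem_place (v : Place K F) (hv : h ∈ v.toValuationSubring)
    (a : integralClosure (Algebra.adjoin K {h}) F) :
    algebraMap (integralClosure (Algebra.adjoin K {h}) F) F a ∈ v.toValuationSubring := by
  obtain ⟨a, p, hp, hpa⟩ := a
  let incl : Algebra.adjoin K {h} →+* v.toValuationSubring :=
    (algebraMap (Algebra.adjoin K {h}) F).codRestrict v.toValuationSubring.toSubring
      (adjoin_singleton_mem_place h v hv)
  have hcomp : (algebraMap v.toValuationSubring F).comp incl =
      algebraMap (Algebra.adjoin K {h}) F := rfl
  have hint : IsIntegral v.toValuationSubring a := by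
    refine ⟨p.map incl, hp.map incl, ?_⟩
    rw [Polynomial.eval₂_map, hcomp]
    exact hpa
  obtain ⟨y, hy⟩ := IsIntegrallyClosed.isIntegral_iff.mp hint
  show a ∈ v.toValuationSubring
  rw [← hy]
  exact y.2

end Model

theorem adjoin_inv_eq (x : F) :
    IntermediateField.adjoin K {x⁻¹} = IntermediateField.adjoin K {x} := by
  apply le_antisymm
  · rw [IntermediateField.adjoin_simple_le_iff]
    exact inv_mem (IntermediateField.mem_adjoin_simple_self K x)
  · rw [IntermediateField.adjoin_simple_le_iff]
    have := inv_mem (IntermediateField.mem_adjoin_simple_self K x⁻¹)
    rwa [inv_inv] at this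

section Places

/-- Every place contains `x` or `x⁻¹`; both generate `F` up to a finite extension. -/
theorem exists_model (x : F) [FiniteDimensional (IntermediateField.adjoin K {x}) F]
    (v : Place K F) :
    ∃ h : F, h ∈ v.toValuationSubring ∧ FiniteDimensional (IntermediateField.adjoin K {h}) F := by
  rcases v.toValuationSubring.mem_or_inv_mem x with hx | hx
  · exact ⟨x, hx, inferInstance⟩
  · refine ⟨x⁻¹, hx, ?_⟩
    rw [adjoin_inv_eq]
    infer_instance

/-- **[FIN]** The valuation ring of every place is essentially of finite type over `K`. -/
theorem essFiniteType_place [CharZero K] (x : F)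
    [FiniteDimensional (IntermediateField.adjoin K {x}) F] (v : Place K F) :
    Algebra.EssFiniteType K v.toValuationSubring := by
  obtain ⟨h, hv, hfd⟩ := exists_model x v
  have := integralClosure_isDedekindDomain (K := K) h
  have := integralClosure_isFractionRing (K := K) h
  have := integralClosure_finiteType (K := K) h
  exact essFiniteType_of_centre (A := integralClosure (Algebra.adjoin K {h}) F) v
    (integralClosure_mem_place h v hv)

/-- **[FIN]** `Ω[O_v⁄K]` is a finite `O_v`-module for every place `v`. -/
theorem finite_kaehler_place [CharZero K] (x : F)
    [FiniteDimensional (IntermediateField.adjoin K {x}) F] (v : Place K F) :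
    Module.Finite v.toValuationSubring Ω[v.toValuationSubring⁄K] := by
  have := essFiniteType_place x v
  infer_instance

/-- Every place of `F / K` has residue field `K` (for `K` algebraically closed). -/
theorem residueTrivial_place [CharZero K] [IsAlgClosed K] (x : F)
    [FiniteDimensional (IntermediateField.adjoin K {x}) F] (v : Place K F) :
    ResidueTrivial v := by
  obtain ⟨h, hv, hfd⟩ := exists_model x v
  have := integralClosure_isDedekindDomain (K := K) h
  have := integralClosure_isFractionRing (K := K) h
  have := integralClosure_finiteType (K := K) h
  exact residueTrivial_of_centre (A := integralClosure (Algebra.adjoin K {h}) F) v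
    (integralClosure_mem_place h v hv)

/-- Every place of `F / K` has degree one (for `K` algebraically closed). -/
theorem deg_place [CharZero K] [IsAlgClosed K] (x : F)
    [FiniteDimensional (IntermediateField.adjoin K {x}) F] (v : Place K F) : v.deg = 1 :=
  deg_eq_one_of_residueTrivial v (residueTrivial_place x v)

/-- **[NT]** `F` is essentially of finite type over `K`. -/
theorem essFiniteType_field (x : F) [FiniteDimensional (IntermediateField.adjoin K {x}) F] :
    Algebra.EssFiniteType K F := by
  have h1 : Algebra.EssFiniteType K (IntermediateField.adjoin K {x}) := by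
    rw [IntermediateField.essFiniteType_iff]
    exact ⟨{x}, by simp⟩
  have h2 : Algebra.EssFiniteType (IntermediateField.adjoin K {x}) F := inferInstance
  exact Algebra.EssFiniteType.comp K (IntermediateField.adjoin K {x}) F

/-- **[NT]** The module of differentials of `F / K` is nontrivial as soon as there is a place. -/
theorem nontrivial_kaehler_place [CharZero K] (x : F)
    [FiniteDimensional (IntermediateField.adjoin K {x}) F] (v : Place K F) :
    Nontrivial Ω[F⁄K] := by
  have := essFiniteType_field (K := K) x
  exact nontrivial_kaehler_of_place v

end Places

end Fermat.Agent.S24.RH
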