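import Fermat.Agent.S24.H23_DegField
import Fermat.Agent.S24.H6_Frac

/-!
# S24, package DEG (lower bound for the modular function field; owner of this leaf: helper23)

For every field `K ⊇ ℚ` with an embedding `e : K →+* ℂ` the field
`F_K = K(j_d : d ∣ N) ⊆ K((q))` (the prelude field, `Real.FK K N`) satisfies
`[F_K : K(j)] ≥ [SL(2, ℤ) : Γ₀(N)]`, and `j` is transcendental over `K`.
-/

set_option autoImplicit false

open UpperHalfPlane CongruenceSubgroup Polynomial IntermediateField

open scoped MatrixGroups

namespace Fermat.Agent.S24.DegLB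

open Fermat.Agent.S23.R4 Fermat.Agent.S24.Real

variable (K : Type*) [Field K] [Algebra ℚ K] (N : ℕ) [NeZero N]

/-- The element `j` of the modular function field `F_K`. -/
noncomputable def jFK : FK K N := inclAK K N (jAK K N)

/-- The element `j_N` of the modular function field `F_K`. -/
noncomputable def jNFK : FK K N := inclAK K N (jdAK K N N dvd_rfl)

omit [NeZero N] in
@[simp] lemma coe_jFK : ((jFK K N : FK K N) : LaurentSeries K) =
    ModularCurve.coeffEmb K ModularCurve.jq := rfl

@[simp] lemma coe_jNFK : ((jNFK K N : FK K N) : LaurentSeries K) =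
    ModularCurve.coeffEmb K (ModularCurve.qExpand ℚ N ModularCurve.jq) := rfl

variable {K}

/-- Every polynomial relation between `j` and `j_N` in `F_K` holds for the functions. -/
theorem hreal_FK (e : K →+* ℂ) (P : Polynomial (Polynomial K))
    (hP : evalF (jFK K N) (jNFK K N) P = 0) (z : ℍ) : evalJ e N P z = 0 :=
  hreal_of_ringHom e N (inclAK K N) (inclAK_injective K N) (rho e) (rho_algebraMap e)
    (jAK K N) (jdAK K N N dvd_rfl) (rho_jAK e) (rho_jdAK e N dvd_rfl) P hP z

/-- `j` is transcendental over `K`. -/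
theorem transcendental_jFK (e : K →+* ℂ) : Transcendental K (jFK K N) :=
  transcendental_of_hreal e N (jFK K N) (jNFK K N) (hreal_FK N e)

/-- **DEG, lower bound**: `[F_K : K(j)] ≥ [SL(2, ℤ) : Γ₀(N)]`. -/
theorem card_le_finrank_FK (e : K →+* ℂ) [FiniteDimensional K⟮jFK K N⟯ (FK K N)] :
    Nat.card (SL(2, ℤ) ⧸ Gamma0 N) ≤ Module.finrank K⟮jFK K N⟯ (FK K N) :=
  card_le_finrank' e N (jFK K N) (jNFK K N) (hreal_FK N e)

/-- The same for any element `x` of `F_K` whose underlying Laurent series is the formal `j`. -/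
theorem card_le_finrank_FK_of_coe (e : K →+* ℂ) (x : FK K N)
    (hx : (x : LaurentSeries K) = ModularCurve.coeffEmb K ModularCurve.jq)
    [FiniteDimensional K⟮x⟯ (FK K N)] :
    Nat.card (SL(2, ℤ) ⧸ Gamma0 N) ≤ Module.finrank K⟮x⟯ (FK K N) := by
  have hx' : x = jFK K N := Subtype.ext hx
  subst hx'
  exact card_le_finrank_FK N e

end Fermat.Agent.S24.DegLB
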