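import Fermat.Agent.S24.H24_DegReal
import Fermat.Agent.S24.H23_DegFK
import Fermat.Agent.S24.H25_Wiring

/-!
# S24 / DEG (T1): `[F : K(j)] = [SL(2, ℤ) : Γ₀(N)]`

The two DEG fields of `Final.Inputs` (helper25's wiring): upper bound from `H24_DegReal`
(invariant polynomial + descent), lower bound from `H23_DegFK` (helper23).
-/

set_option autoImplicit false

namespace Fermat.Agent.S24.G3

open CongruenceSubgroup IntermediateField
open scoped MatrixGroups

noncomputable section

variable (K : Type*) [Field K] [Algebra ℚ K] (N : ℕ) [NeZero N]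

omit [NeZero N] in
theorem jF_eq_final : jF K N = Fermat.Agent.S24.Final.jF K N := rfl

/-- **DEG**: `F` is finite over `K(j)`. -/
theorem finDim_final (e : K →+* ℂ) :
    FiniteDimensional K⟮Fermat.Agent.S24.Final.jF K N⟯ (Fermat.Agent.S24.Real.FK K N) :=
  (finrank_adjoin_jF_le K N e).1

/-- **DEG (T1)**: `[F : K(j)] = [SL(2, ℤ) : Γ₀(N)]`. -/
theorem finrank_eq_final (e : K →+* ℂ) :
    Module.finrank K⟮Fermat.Agent.S24.Final.jF K N⟯ (Fermat.Agent.S24.Real.FK K N)
      = Nat.card (Fermat.Agent.S24.Comb.X N) := by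
  have hfd := finDim_final K N e
  refine le_antisymm (finrank_adjoin_jF_le K N e).2 ?_
  exact Fermat.Agent.S24.DegLB.card_le_finrank_FK_of_coe N e (Fermat.Agent.S24.Final.jF K N) rfl

end

end Fermat.Agent.S24.G3
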