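import Mathlib
import Fermat.Prelude.Def_AlgebraicCurve_DivisorClassGroup

/-!
# S24, G3/G4 core (helper21): the place of an integer-valued valuation

An integer-valued map `w : F → ℤ` satisfying the axioms of a (not necessarily normalised)
valuation that is trivial on `K` and nontrivial on `F` defines a place `P` of `F / K`, and
`w = m * ord_P` for a positive integer `m`.
-/

set_option autoImplicit false

open AlgebraicCurve

namespace Fermat.Agent.S24.Orb

variable {K F : Type*} [Field K] [Field F] [Algebra K F]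

/-- Membership in the valuation ring of a place in terms of `ord`. -/
theorem mem_place_iff_ord_nonneg (P : Place K F) {h : F} (hh : h ≠ 0) :
    h ∈ P.toValuationSubring ↔ 0 ≤ P.ord h := by
  obtain ⟨π, hπ⟩ := IsDiscreteValuationRing.exists_irreducible P.toValuationSubring
  obtain ⟨u, hu⟩ := P.exists_unit_mul_zpow hh hπ
  have hπF : (π : F) ≠ 0 := by
    simpa [ne_eq, ZeroMemClass.coe_eq_zero] using hπ.ne_zero
  constructor
  · intro hmem
    by_contra hneg
    push Not at hneg
    -- `π ^ (-ord h) * h = u` would make `π` a unit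
    have hn : 0 < -P.ord h := by omega
    obtain ⟨n, hn'⟩ : ∃ n : ℕ, -P.ord h = (n : ℤ) + 1 :=
      ⟨(-P.ord h - 1).toNat, by rw [Int.toNat_of_nonneg (by omega)]; ring⟩
    have hprod : (π : F) * ((π : F) ^ n * h) = ((u : P.toValuationSubring) : F) := by
      conv_lhs => rw [hu]
      have : P.ord h = -((n : ℤ) + 1) := by omega
      rw [this, zpow_neg, zpow_add₀ hπF, zpow_one, zpow_natCast]
      field_simp
    have hmem' : (π : F) ^ n * h ∈ P.toValuationSubring :=
      mul_mem (pow_mem π.2 n) hmem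
    have hunit : IsUnit (π * ⟨(π : F) ^ n * h, hmem'⟩ : P.toValuationSubring) := by
      have : (π * ⟨(π : F) ^ n * h, hmem'⟩ : P.toValuationSubring) = u := by
        apply Subtype.ext
        exact hprod
      rw [this]
      exact u.isUnit
    exact hπ.not_isUnit (isUnit_of_mul_isUnit_left hunit)
  · intro hnn
    obtain ⟨n, hn⟩ : ∃ n : ℕ, P.ord h = (n : ℤ) := ⟨(P.ord h).toNat, by
      rw [Int.toNat_of_nonneg hnn]⟩
    rw [hu, hn, zpow_natCast]
    exact mul_mem u.1.2 (pow_mem π.2 n)

/-- Two places with the same nonnegativity locus of `ord` are equal. -/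
theorem place_ext_of_ord {P Q : Place K F}
    (h : ∀ f : F, f ≠ 0 → (0 ≤ P.ord f ↔ 0 ≤ Q.ord f)) : P = Q := by
  apply Place.ext
  ext f
  rcases eq_or_ne f 0 with rfl | hf
  · simp
  · rw [mem_place_iff_ord_nonneg P hf, mem_place_iff_ord_nonneg Q hf]
    exact h f hf

section Construction

variable (w : F → ℤ)
  (hmul : ∀ f g : F, f ≠ 0 → g ≠ 0 → w (f * g) = w f + w g)
  (hadd : ∀ f g : F, f ≠ 0 → g ≠ 0 → f + g ≠ 0 → min (w f) (w g) ≤ w (f + g))

include hmul in
lemma h21_w_one : w 1 = 0 := by
  have := hmul 1 1 one_ne_zero one_ne_zero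
  rw [mul_one] at this
  omega

include hmul in
lemma h21_w_inv {f : F} (hf : f ≠ 0) : w f⁻¹ = -w f := by
  have := hmul f f⁻¹ hf (inv_ne_zero hf)
  rw [mul_inv_cancel₀ hf, h21_w_one w hmul] at this
  omega

include hmul in
lemma h21_w_neg_one : w (-1) = 0 := by
  have := hmul (-1) (-1) (by norm_num) (by norm_num)
  rw [neg_one_mul, neg_neg, h21_w_one w hmul] at this
  omega

include hmul in
lemma h21_w_neg {f : F} (hf : f ≠ 0) : w (-f) = w f := by
  have := hmul (-1) f (by norm_num) hf
  rw [neg_one_mul, h21_w_neg_one w hmul] at this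
  omega

include hmul in
lemma h21_w_pow {f : F} (hf : f ≠ 0) (n : ℕ) : w (f ^ n) = n * w f := by
  induction n with
  | zero => simp [h21_w_one w hmul]
  | succ n ih =>
    rw [pow_succ, hmul _ _ (pow_ne_zero n hf) hf, ih]
    push_cast
    ring

include hmul in
lemma h21_w_zpow {f : F} (hf : f ≠ 0) (n : ℤ) : w (f ^ n) = n * w f := by
  rcases Int.eq_nat_or_neg n with ⟨k, rfl | rfl⟩
  · rw [zpow_natCast, h21_w_pow w hmul hf]
  · rw [zpow_neg, zpow_natCast, h21_w_inv w hmul (pow_ne_zero k hf), h21_w_pow w hmul hf]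
    ring

/-- The valuation subring `{f | f = 0 ∨ 0 ≤ w f}`. -/
def valSubring : ValuationSubring F where
  carrier := {f | f = 0 ∨ 0 ≤ w f}
  mul_mem' := by
    rintro a b (rfl | ha) hb
    · left; simp
    rcases hb with rfl | hb
    · left; simp
    by_cases ha0 : a = 0
    · left; simp [ha0]
    by_cases hb0 : b = 0
    · left; simp [hb0]
    right
    rw [hmul a b ha0 hb0]
    omega
  one_mem' := Or.inr (by rw [h21_w_one w hmul])
  add_mem' := by
    rintro a b ha hb
    by_cases ha0 : a = 0
    · simpa [ha0] using hb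
    by_cases hb0 : b = 0
    · simpa [hb0] using ha
    by_cases hab : a + b = 0
    · left; exact hab
    right
    have ha' : 0 ≤ w a := ha.resolve_left ha0
    have hb' : 0 ≤ w b := hb.resolve_left hb0
    exact le_trans (le_min ha' hb') (hadd a b ha0 hb0 hab)
  zero_mem' := Or.inl rfl
  neg_mem' := by
    rintro a (rfl | ha)
    · left; simp
    by_cases ha0 : a = 0
    · left; simp [ha0]
    right
    rw [h21_w_neg w hmul ha0]
    exact ha
  mem_or_inv_mem' := by
    intro a
    by_cases ha0 : a = 0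
    · left; left; exact ha0
    rcases le_total 0 (w a) with h | h
    · left; right; exact h
    · right; right
      rw [h21_w_inv w hmul ha0]
      omega

lemma mem_valSubring {f : F} :
    f ∈ valSubring w hmul hadd ↔ f = 0 ∨ 0 ≤ w f := Iff.rfl

lemma mem_valSubring_of_ne {f : F} (hf : f ≠ 0) :
    f ∈ valSubring w hmul hadd ↔ 0 ≤ w f :=
  ⟨fun h => h.resolve_left hf, Or.inr⟩

include hmul hadd in
/-- The valuation ring of an integer-valued valuation is a principal ideal ring. -/
lemma valSubring_isPrincipalIdealRing : IsPrincipalIdealRing (valSubring w hmul hadd) := by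
  refine ⟨fun I => ?_⟩
  by_cases hI : I = ⊥
  · rw [hI]; exact bot_isPrincipal
  obtain ⟨a, haI, ha0⟩ := Submodule.exists_mem_ne_zero_of_ne_bot hI
  -- minimal value on `I \ {0}`
  let T : Set ℕ := {n | ∃ b : valSubring w hmul hadd, b ∈ I ∧ b ≠ 0 ∧ w (b : F) = n}
  have haF : (a : F) ≠ 0 := by simpa [ne_eq, ZeroMemClass.coe_eq_zero] using ha0
  have hTne : T.Nonempty := by
    refine ⟨(w (a : F)).toNat, a, haI, ha0, ?_⟩
    rw [Int.toNat_of_nonneg ((mem_valSubring_of_ne w hmul hadd haF).mp a.2)]
  classical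
  have hmin := Nat.find_spec hTne
  obtain ⟨b, hbI, hb0, hbw⟩ := hmin
  have hbF : (b : F) ≠ 0 := by simpa [ne_eq, ZeroMemClass.coe_eq_zero] using hb0
  refine ⟨⟨b, ?_⟩⟩
  apply le_antisymm
  · intro c hc
    rw [Submodule.mem_span_singleton]
    by_cases hc0 : c = 0
    · exact ⟨0, by simp [hc0]⟩
    have hcF : (c : F) ≠ 0 := by simpa [ne_eq, ZeroMemClass.coe_eq_zero] using hc0
    have hcw : Nat.find hTne ≤ (w (c : F)).toNat :=
      Nat.find_min' hTne ⟨c, hc, hc0, by
        rw [Int.toNat_of_nonneg ((mem_valSubring_of_ne w hmul hadd hcF).mp c.2)]⟩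
    have hcnn : 0 ≤ w (c : F) := (mem_valSubring_of_ne w hmul hadd hcF).mp c.2
    have hle : w (b : F) ≤ w (c : F) := by
      rw [hbw]
      have : ((Nat.find hTne : ℕ) : ℤ) ≤ ((w (c : F)).toNat : ℤ) := by exact_mod_cast hcw
      rwa [Int.toNat_of_nonneg hcnn] at this
    have hq : (c : F) / (b : F) ∈ valSubring w hmul hadd := by
      rw [mem_valSubring_of_ne w hmul hadd (div_ne_zero hcF hbF), div_eq_mul_inv,
        hmul _ _ hcF (inv_ne_zero hbF), h21_w_inv w hmul hbF]
      omega
    refine ⟨⟨(c : F) / (b : F), hq⟩, ?_⟩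
    apply Subtype.ext
    show (c : F) / (b : F) * (b : F) = c
    field_simp
  · rw [Submodule.span_le]
    intro c hc
    rw [Set.mem_singleton_iff] at hc
    rw [hc]
    exact hbI

variable (hK : ∀ a : K, algebraMap K F a ≠ 0 → 0 ≤ w (algebraMap K F a))
  (hnt : ∃ t : F, t ≠ 0 ∧ w t ≠ 0)

include hnt in
lemma valSubring_ne_top : valSubring w hmul hadd ≠ ⊤ := by
  obtain ⟨t, ht0, htw⟩ := hnt
  intro htop
  have h1 : t ∈ valSubring w hmul hadd := by rw [htop]; exact ValuationSubring.mem_top t
  have h2 : t⁻¹ ∈ valSubring w hmul hadd := by rw [htop]; exact ValuationSubring.mem_top _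
  rw [mem_valSubring_of_ne w hmul hadd ht0] at h1
  rw [mem_valSubring_of_ne w hmul hadd (inv_ne_zero ht0), h21_w_inv w hmul ht0] at h2
  omega

/-- The place defined by `w`. -/
def placeOfVal : Place K F where
  toValuationSubring := valSubring w hmul hadd
  algebraMap_mem' := by
    intro a
    by_cases ha : algebraMap K F a = 0
    · left; exact ha
    · right; exact hK a ha
  ne_top' := valSubring_ne_top w hmul hadd hnt
  isPrincipalIdealRing' := valSubring_isPrincipalIdealRing w hmul hadd

lemma placeOfVal_toValuationSubring :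
    (placeOfVal w hmul hadd hK hnt).toValuationSubring = valSubring w hmul hadd := rfl

include hmul hadd hK hnt in
/-- **The place of a valuation**: `w = m * ord_P` with `m > 0`. -/
theorem exists_place_of_valuation :
    ∃ (P : Place K F) (m : ℕ), 0 < m ∧ (∀ h : F, h ≠ 0 → w h = m * P.ord h) ∧
      ∀ h : F, h ∈ P.toValuationSubring ↔ (h = 0 ∨ 0 ≤ w h) := by
  set P := placeOfVal w hmul hadd hK hnt with hP
  obtain ⟨π, hπ⟩ := IsDiscreteValuationRing.exists_irreducible P.toValuationSubring
  have hπF : (π : F) ≠ 0 := by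
    simpa [ne_eq, ZeroMemClass.coe_eq_zero] using hπ.ne_zero
  have hπnn : 0 ≤ w (π : F) := (mem_valSubring_of_ne w hmul hadd hπF).mp π.2
  have hunit : ∀ u : P.toValuationSubringˣ, w ((u : P.toValuationSubring) : F) = 0 := by
    intro u
    have hu0 : ((u : P.toValuationSubring) : F) ≠ 0 := by
      simp [ne_eq, ZeroMemClass.coe_eq_zero]
    have h1 : 0 ≤ w ((u : P.toValuationSubring) : F) :=
      (mem_valSubring_of_ne w hmul hadd hu0).mp (u : P.toValuationSubring).2
    have hinv : (((u⁻¹ : P.toValuationSubringˣ) : P.toValuationSubring) : F)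
        = (((u : P.toValuationSubring) : F))⁻¹ := by
      have h := congrArg (Subtype.val) (u.inv_mul)
      have h' : (((u⁻¹ : P.toValuationSubringˣ) : P.toValuationSubring) : F)
          * ((u : P.toValuationSubring) : F) = 1 := h
      exact eq_inv_of_mul_eq_one_left h'
    have h2 : 0 ≤ w (((u : P.toValuationSubring) : F))⁻¹ := by
      rw [← hinv]
      refine (mem_valSubring_of_ne w hmul hadd ?_).mp
        ((u⁻¹ : P.toValuationSubringˣ) : P.toValuationSubring).2
      rw [hinv]; exact inv_ne_zero hu0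
    rw [h21_w_inv w hmul hu0] at h2
    omega
  have hπpos : 0 < w (π : F) := by
    rcases hπnn.lt_or_eq with h | h
    · exact h
    · exfalso
      -- then `π⁻¹` is in the valuation ring, so `π` is a unit
      have hinv : (π : F)⁻¹ ∈ valSubring w hmul hadd := by
        rw [mem_valSubring_of_ne w hmul hadd (inv_ne_zero hπF), h21_w_inv w hmul hπF, ← h]
        simp
      apply hπ.not_isUnit
      refine IsUnit.of_mul_eq_one (⟨(π : F)⁻¹, hinv⟩ : P.toValuationSubring) ?_
      apply Subtype.ext
      show (π : F) * (π : F)⁻¹ = 1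
      exact mul_inv_cancel₀ hπF
  refine ⟨P, (w (π : F)).toNat, by omega, ?_, fun h => Iff.rfl⟩
  intro h hh
  obtain ⟨u, hu⟩ := P.exists_unit_mul_zpow hh hπ
  have hu0 : ((u : P.toValuationSubring) : F) ≠ 0 := by
    simp [ne_eq, ZeroMemClass.coe_eq_zero]
  have : w h = P.ord h * w (π : F) := by
    conv_lhs => rw [hu]
    rw [hmul _ _ hu0 (zpow_ne_zero _ hπF), hunit u, zero_add, h21_w_zpow w hmul hπF]
  rw [this, Int.toNat_of_nonneg hπnn, mul_comm]

end Construction

end Fermat.Agent.S24.Orb
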