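import Fermat.Agent.S23.H23_JFun

/-!
# S24, package DEG (lower bound, function level; owner of this leaf: helper23)

For a left coset `k = g Γ₀(N)` of `SL(2, ℤ)` put `jCoset N k z := j (N (g⁻¹ • z))`.  These
`μ = [SL(2, ℤ) : Γ₀(N)]` functions are holomorphic, pairwise different (package R4 of S23) and
all of them are roots of every polynomial relation between `j` and `j_N`.  Hence a nonzero
polynomial `P ∈ ℂ[j][Y]` with `P (j z, j (N z)) = 0` for all `z` has `Y`-degree at least `μ`.
-/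

set_option autoImplicit false

open UpperHalfPlane Complex ModularForm CongruenceSubgroup Filter Topology Polynomial

open scoped MatrixGroups ModularForm Real Manifold

namespace Fermat.Agent.S24.DegLB

open Fermat.Agent.S23.R4

/-- The translate of `j_N` attached to the left coset `g Γ₀(N)`: `z ↦ j_N (g⁻¹ • z)`. -/
noncomputable def jCoset (N : ℕ) [NeZero N] (k : SL(2, ℤ) ⧸ Gamma0 N) (z : ℍ) : ℂ :=
  Quotient.liftOn' k (fun g : SL(2, ℤ) => jN N (g⁻¹ • z)) (by
    intro g₁ g₂ h
    rw [QuotientGroup.leftRel_apply] at h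
    have h' : g₂⁻¹ * g₁ ∈ Gamma0 N := by
      have := inv_mem h
      simpa [mul_inv_rev] using this
    show jN N (g₁⁻¹ • z) = jN N (g₂⁻¹ • z)
    have e : g₂⁻¹ • z = (g₂⁻¹ * g₁) • (g₁⁻¹ • z) := by
      rw [← mul_smul]; congr 1; group
    rw [e, jN_smul_of_mem_Gamma0 N _ h'])

@[simp] lemma jCoset_mk (N : ℕ) [NeZero N] (g : SL(2, ℤ)) (z : ℍ) :
    jCoset N (QuotientGroup.mk g) z = jN N (g⁻¹ • z) := rfl

lemma jCoset_one (N : ℕ) [NeZero N] (z : ℍ) :
    jCoset N (QuotientGroup.mk (1 : SL(2, ℤ))) z = jN N z := by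
  simp

/-- Every translate is holomorphic. -/
theorem mdifferentiable_jCoset (N : ℕ) [NeZero N] (k : SL(2, ℤ) ⧸ Gamma0 N) :
    MDifferentiable 𝓘(ℂ) 𝓘(ℂ) (jCoset N k) := by
  induction k using QuotientGroup.induction_on with
  | H g => exact mdifferentiable_jN_smul N g⁻¹

/-- Translating the argument permutes the translates: `jCoset k (γ • z) = jCoset (γ⁻¹ k) z`. -/
theorem jCoset_smul (N : ℕ) [NeZero N] (k : SL(2, ℤ) ⧸ Gamma0 N) (γ : SL(2, ℤ)) (z : ℍ) :
    jCoset N k (γ • z) = jCoset N (γ⁻¹ • k) z := by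
  induction k using QuotientGroup.induction_on with
  | H g =>
    show jN N (g⁻¹ • γ • z) = jN N ((γ⁻¹ * g)⁻¹ • z)
    rw [← mul_smul]; congr 2; group

/-- Different cosets give different functions. -/
theorem jCoset_ne (N : ℕ) [NeZero N] {k l : SL(2, ℤ) ⧸ Gamma0 N} (hkl : k ≠ l) :
    ∃ z : ℍ, jCoset N k z ≠ jCoset N l z := by
  induction k using QuotientGroup.induction_on with
  | H g₁ =>
  induction l using QuotientGroup.induction_on with
  | H g₂ =>
    have h : g₁⁻¹ * (g₂⁻¹)⁻¹ ∉ Gamma0 N := by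
      intro hmem
      apply hkl
      rw [QuotientGroup.eq]
      simpa using hmem
    exact exists_jN_smul_ne_smul N g₁⁻¹ g₂⁻¹ h

/-- `j` is not constant: it avoids no value identically. -/
theorem exists_jInv_ne (c : ℂ) : ∃ z : ℍ, jInv z ≠ c := by
  obtain ⟨A, hA, hgrow⟩ := jInv_growth
  -- choose `y ≥ A` with `exp (2 π y) / 16 > ‖c‖`
  set y : ℝ := max A (16 * ‖c‖ + 1) with hy
  have hy0 : 0 < y := lt_max_of_lt_left hA
  refine ⟨⟨⟨0, y⟩, hy0⟩, fun hcz => ?_⟩
  have h1 := (hgrow ⟨⟨0, y⟩, hy0⟩ (le_max_left _ _)).1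
  rw [hcz] at h1
  have him : (⟨⟨0, y⟩, hy0⟩ : ℍ).im = y := rfl
  rw [him] at h1
  have h2 : 2 * π * y + 1 ≤ Real.exp (2 * π * y) := Real.add_one_le_exp _
  have h3 : y ≤ 2 * π * y := by
    have : (1 : ℝ) ≤ 2 * π := by linarith [Real.pi_gt_three]
    nlinarith
  have h4 : 16 * ‖c‖ + 1 ≤ y := le_max_right _ _
  linarith

/-- There is a point where `j` avoids a given finite set of values and where the `μ` translates
of `j_N` take pairwise different values. -/
theorem exists_point_injective (N : ℕ) [NeZero N] (s : Finset ℂ) :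
    ∃ z : ℍ, jInv z ∉ s ∧ Function.Injective (fun k : SL(2, ℤ) ⧸ Gamma0 N => jCoset N k z) := by
  classical
  have : Fintype (SL(2, ℤ) ⧸ Gamma0 N) := Fintype.ofFinite _
  -- the finite family of holomorphic functions that must not vanish
  let X := SL(2, ℤ) ⧸ Gamma0 N
  let F : (ℂ ⊕ (X × X)) → ℍ → ℂ := fun i =>
    match i with
    | Sum.inl c => fun z => jInv z - c
    | Sum.inr p => fun z => jCoset N p.1 z - jCoset N p.2 z
  let S : Finset (ℂ ⊕ (X × X)) :=
    s.map ⟨Sum.inl, Sum.inl_injective⟩ ∪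
      ((Finset.univ : Finset (X × X)).filter fun p => p.1 ≠ p.2).map ⟨Sum.inr, Sum.inr_injective⟩
  have hF : ∀ i ∈ S, MDifferentiable 𝓘(ℂ) 𝓘(ℂ) (F i) := by
    intro i _
    rcases i with c | p
    · exact mdifferentiable_jInv.sub mdifferentiable_const
    · exact (mdifferentiable_jCoset N p.1).sub (mdifferentiable_jCoset N p.2)
  have hne : ¬ (∏ i ∈ S, F i = 0) := by
    rw [UpperHalfPlane.prod_eq_zero_iff hF]
    rintro ⟨i, hi, h0⟩
    rcases i with c | p
    · obtain ⟨z, hz⟩ := exists_jInv_ne c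
      exact hz (sub_eq_zero.mp (congrFun h0 z))
    · have hp : p.1 ≠ p.2 := by
        simp only [S, Finset.mem_union, Finset.mem_map, Function.Embedding.coeFn_mk,
          reduceCtorEq, and_false, exists_false, false_or, Finset.mem_filter,
          Finset.mem_univ, true_and, Sum.inr.injEq, exists_eq_right] at hi
        exact hi
      obtain ⟨z, hz⟩ := jCoset_ne N hp
      exact hz (sub_eq_zero.mp (congrFun h0 z))
  have : ∃ z : ℍ, (∏ i ∈ S, F i) z ≠ 0 := by
    by_contra hcon
    push Not at hcon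
    exact hne (funext hcon)
  obtain ⟨z, hz⟩ := this
  rw [Finset.prod_apply, Finset.prod_ne_zero_iff] at hz
  refine ⟨z, fun hmem => ?_, fun k l hkl => ?_⟩
  · have := hz (Sum.inl (jInv z)) (by simp [S, hmem])
    simp [F] at this
  · by_contra hkl'
    have := hz (Sum.inr (k, l)) (by simp [S, hkl'])
    exact this (sub_eq_zero.mpr hkl)

/-- **Lower bound for the degree (function level).**  A nonzero polynomial relation
`P (j, j_N) = 0`, `P ∈ ℂ[j][Y]`, has `Y`-degree at least `μ = [SL(2, ℤ) : Γ₀(N)]`. -/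
theorem card_le_natDegree (N : ℕ) [NeZero N] (P : Polynomial (Polynomial ℂ)) (hP : P ≠ 0)
    (h : ∀ z : ℍ, (P.map (Polynomial.evalRingHom (jInv z))).eval (jN N z) = 0) :
    Nat.card (SL(2, ℤ) ⧸ Gamma0 N) ≤ P.natDegree := by
  classical
  have : Fintype (SL(2, ℤ) ⧸ Gamma0 N) := Fintype.ofFinite _
  obtain ⟨z, hz, hinj⟩ := exists_point_injective N P.leadingCoeff.roots.toFinset
  have hlc : P.leadingCoeff ≠ 0 := leadingCoeff_ne_zero.mpr hP
  have hlcz : (Polynomial.evalRingHom (jInv z)) P.leadingCoeff ≠ 0 := by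
    intro h0
    apply hz
    rw [Multiset.mem_toFinset, Polynomial.mem_roots hlc]
    exact h0
  set Q : Polynomial ℂ := P.map (Polynomial.evalRingHom (jInv z)) with hQ
  have hdeg : Q.natDegree = P.natDegree := Polynomial.natDegree_map_of_leadingCoeff_ne_zero _ hlcz
  have hQ0 : Q ≠ 0 := by
    intro h0
    have : Q.leadingCoeff = 0 := by rw [h0, leadingCoeff_zero]
    rw [hQ, Polynomial.leadingCoeff_map_of_leadingCoeff_ne_zero _ hlcz] at this
    exact hlcz this
  -- every translate is a root of `Q`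
  have hroot : ∀ k : SL(2, ℤ) ⧸ Gamma0 N, jCoset N k z ∈ Q.roots.toFinset := by
    intro k
    induction k using QuotientGroup.induction_on with
    | H g =>
      rw [Multiset.mem_toFinset, Polynomial.mem_roots hQ0, Polynomial.IsRoot.def, jCoset_mk]
      have := h (g⁻¹ • z)
      rwa [jInv_smul] at this
  have hcard : Fintype.card (SL(2, ℤ) ⧸ Gamma0 N) ≤ Q.roots.toFinset.card := by
    have hinj' : Function.Injective
        (fun k : SL(2, ℤ) ⧸ Gamma0 N => (⟨jCoset N k z, hroot k⟩ : Q.roots.toFinset)) := by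
      intro k l hkl
      exact hinj (congrArg Subtype.val hkl)
    simpa using Fintype.card_le_of_injective _ hinj'
  rw [Nat.card_eq_fintype_card]
  calc Fintype.card (SL(2, ℤ) ⧸ Gamma0 N) ≤ Q.roots.toFinset.card := hcard
    _ ≤ Multiset.card Q.roots := Multiset.toFinset_card_le _
    _ ≤ Q.natDegree := Polynomial.card_roots' Q
    _ = P.natDegree := hdeg

/-- The same with `eval₂`. -/
theorem card_le_natDegree' (N : ℕ) [NeZero N] (P : Polynomial (Polynomial ℂ)) (hP : P ≠ 0)
    (h : ∀ z : ℍ, P.eval₂ (Polynomial.evalRingHom (jInv z)) (jN N z) = 0) :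
    Nat.card (SL(2, ℤ) ⧸ Gamma0 N) ≤ P.natDegree :=
  card_le_natDegree N P hP fun z => by rw [Polynomial.eval_map]; exact h z

end Fermat.Agent.S24.DegLB
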