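import Fermat.Agent.S24.H6_Ord
import Fermat.Agent.S24.H21_PlaceOfVal
import Fermat.Agent.S24.H23_DegLower

/-!
# S24 / S20: the place of a point of the upper half plane

For `z : ℍ` with `j(z)` in the image of `e : K →+* ℂ` (automatic for `K = ℂ`), the valuation
`ordAt e z` on the function field `F = FK K N` defines a place `v` of `F / K`, and
`ordAt e z = m * v.ord` for some `m > 0`.
-/

set_option autoImplicit false

namespace Fermat.Agent.S24.PP

open UpperHalfPlane AlgebraicCurve CongruenceSubgroup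
open Fermat.Agent.S24.Real Fermat.Agent.S23 Fermat.Agent.S23.R4
open scoped MatrixGroups Manifold

variable {K : Type*} [Field K] [Algebra ℚ K] {N : ℕ}

lemma jAK_sub_ne_zero (e : K →+* ℂ) (c : K) : jAK K N - algebraMap K (AK K N) c ≠ 0 := by
  intro h
  have h1 := rho_jAK_sub e (N := N) c
  rw [h, map_zero] at h1
  obtain ⟨z, hz⟩ := DegLB.exists_jInv_ne (e c)
  apply hz
  have h2 := congrFun h1 z
  simp only [Pi.zero_apply] at h2
  exact (sub_eq_zero.mp h2.symm)

lemma jF_sub_ne_zero (e : K →+* ℂ) (c : K) : jF K N - algebraMap K (FK K N) c ≠ 0 := by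
  rw [jF_sub_eq]
  intro h
  exact jAK_sub_ne_zero e c (inclAK_injective K N (by rw [h, map_zero]))

/-- **The place of a point.** -/
theorem exists_pointPlace (e : K →+* ℂ) (z : ℍ) (c : K) (hc : jInv z = e c) :
    ∃ (v : Place K (FK K N)) (m : ℕ), 0 < m ∧
      (∀ h : FK K N, h ≠ 0 → ordAt e z h = m * v.ord h) ∧
      ∀ h : FK K N, h ∈ v.toValuationSubring ↔ (h = 0 ∨ 0 ≤ ordAt e z h) := by
  refine Orb.exists_place_of_valuation (ordAt e z) (fun f g hf hg => ordAt_mul e z hf hg)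
    (fun f g hf hg hfg => ordAt_add_ge e z hf hg hfg)
    (fun a _ => (ordAt_algebraMap e z a).ge)
    ⟨jF K N - algebraMap K (FK K N) c, jF_sub_ne_zero e c, ?_⟩
  have h : 0 < ordAt e z (jF K N - algebraMap K (FK K N) c) :=
    (ordAt_jF_sub_pos_iff e z c (jAK_sub_ne_zero e c)).mpr hc
  omega


/-- The place of a point, with the order of a fraction `u = a / b` computed from any
representation. -/
theorem exists_pointPlace_frac (e : K →+* ℂ) (z : ℍ) (c : K) (hc : jInv z = e c) :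
    ∃ (v : Place K (FK K N)) (m : ℕ), 0 < m ∧
      ∀ (a b : AK K N) (u : FK K N), a ≠ 0 → b ≠ 0 → u * inclAK K N b = inclAK K N a →
        (m : ℤ) * v.ord u = (ordH (rho e a) z : ℤ) - (ordH (rho e b) z : ℤ) := by
  obtain ⟨v, m, hm, hv, -⟩ := exists_pointPlace (N := N) e z c hc
  refine ⟨v, m, hm, fun a b u ha hb hu => ?_⟩
  have hu0 : u ≠ 0 := by
    intro h
    rw [h, zero_mul] at hu
    exact ha (inclAK_injective K N (by rw [← hu, map_zero]))
  rw [← hv u hu0]
  refine ordAt_eq_sub e z hu0 hb ?_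
  have := congrArg (Subtype.val) hu
  simpa using this

/-- **Point places at `K = ℂ`**: every point of `ℍ` gives a place of `F / ℂ`. -/
theorem pointPlaces (N : ℕ) (z : ℍ) :
    ∃ (v : Place ℂ (FK ℂ N)) (m : ℕ), 0 < m ∧
      ∀ (a b : AK ℂ N) (u : FK ℂ N), a ≠ 0 → b ≠ 0 → u * inclAK ℂ N b = inclAK ℂ N a →
        (m : ℤ) * v.ord u =
          (ordH (rho (RingHom.id ℂ) a) z : ℤ) - (ordH (rho (RingHom.id ℂ) b) z : ℤ) :=
  exists_pointPlace_frac (RingHom.id ℂ) z (jInv z) rfl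

/-- Point places at `K = ℂ`, valuation form. -/
theorem pointPlaces' (N : ℕ) (z : ℍ) :
    ∃ (v : Place ℂ (FK ℂ N)) (m : ℕ), 0 < m ∧
      (∀ h : FK ℂ N, h ≠ 0 → ordAt (RingHom.id ℂ) z h = m * v.ord h) ∧
      ∀ h : FK ℂ N, h ∈ v.toValuationSubring ↔ (h = 0 ∨ 0 ≤ ordAt (RingHom.id ℂ) z h) :=
  exists_pointPlace (RingHom.id ℂ) z (jInv z) rfl


/-- Point places at `K = ℂ`, in the shape consumed by S20 (M4-inj): orders written as
`(analyticOrderAt (f ∘ ofComplex) z).toNat`. -/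
theorem pointPlaces_toNat (N : ℕ) :
    ∀ z : ℍ, ∃ (v : Place ℂ (FK ℂ N)) (m : ℕ), 0 < m ∧
      ∀ (a b : AK ℂ N) (u : FK ℂ N), a ≠ 0 → b ≠ 0 → u * inclAK ℂ N b = inclAK ℂ N a →
        (m : ℤ) * v.ord u =
          (((analyticOrderAt (rho (K := ℂ) (N := N) (RingHom.id ℂ) a ∘ ofComplex) (z : ℂ)).toNat
              : ℕ) : ℤ)
            - (((analyticOrderAt (rho (K := ℂ) (N := N) (RingHom.id ℂ) b ∘ ofComplex)
              (z : ℂ)).toNat : ℕ) : ℤ) :=
  fun z => pointPlaces N z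

end Fermat.Agent.S24.PP
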