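import Fermat.Agent.S24.H15_Fin
import Fermat.Agent.S24.H21_Surj

/-!
# S24, leaf [CRT] (helper13): separating a place from finitely many others

`A` is a Dedekind domain with fraction field `F`, containing the constants `K`.  If `Q` and
finitely many `P k` are places of `F / K` whose valuation rings contain `A`, and `P k ≠ Q` for
all `k`, then there is a nonzero `a ∈ A` vanishing at `Q` and a unit at every `P k`
(prime avoidance for the centres).

Function-field model: `R K t` is the integral closure of `K[t]` in `F`, as a subring of `F`.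
The theorems `hR` / `hCRT` are in the exact shape of the hypotheses of `Orb.surj_of_norm`.
-/

set_option autoImplicit false
set_option linter.unusedSectionVars false
set_option linter.style.haveILetI false

noncomputable section

namespace Fermat.Agent.S24.CRT

open AlgebraicCurve IsDedekindDomain IsLocalRing
open scoped IntermediateField.algebraAdjoinAdjoin

variable {K F : Type*} [Field K] [Field F] [Algebra K F]

/-! ### The Dedekind statement -/

section Dedekind

variable {A : Type*} [CommRing A] [IsDedekindDomain A] [Algebra A F] [IsFractionRing A F]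
  [Algebra K A] [IsScalarTower K A F]

/-- The centre of a place on a Dedekind model is a maximal ideal. -/
theorem centre_isMaximal (v : Place K F)
    (hA : ∀ a : A, algebraMap A F a ∈ v.toValuationSubring) :
    (RH.centre v hA).IsMaximal :=
  Ideal.IsPrime.isMaximal (RH.centre_isPrime v hA) (RH.centre_ne_bot v hA)

/-- A place containing `A` is determined by its centre. -/
theorem eq_of_centre_eq (v w : Place K F)
    (hv : ∀ a : A, algebraMap A F a ∈ v.toValuationSubring)
    (hw : ∀ a : A, algebraMap A F a ∈ w.toValuationSubring)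
    (h : RH.centre v hv = RH.centre w hw) : v = w := by
  have h1 := RH.eq_placeQ_centre v hv
  have h2 := RH.eq_placeQ_centre w hw
  have h3 : RH.centreH v hv = RH.centreH w hw := HeightOneSpectrum.ext h
  rw [h1, h3]
  exact h2.symm

/-- The order at `v` of an element of `A` outside the centre of `v` is zero. -/
theorem ord_eq_zero_of_not_mem_centre (v : Place K F)
    (hA : ∀ a : A, algebraMap A F a ∈ v.toValuationSubring) {a : A}
    (ha : a ∉ RH.centre v hA) : v.ord (algebraMap A F a) = 0 := by
  have ha0 : a ≠ 0 := by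
    rintro rfl
    exact ha (zero_mem _)
  have h1 : 0 ≤ v.ord (algebraMap A F a) := RH.ord_nonneg_of_mem v (hA a)
  have h2 : ¬ 0 < v.ord (algebraMap A F a) := fun h =>
    ha ((RH.mem_centre_iff_ord_pos v hA ha0).mpr h)
  omega

/-- **CRT / prime avoidance.**  A place can be separated from finitely many other places by an
element of a common Dedekind model. -/
theorem exists_separating_dedekind {X : Type*} [Finite X] (Q : Place K F) (P : X → Place K F)
    (hQ : ∀ a : A, algebraMap A F a ∈ Q.toValuationSubring)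
    (hP : ∀ k, ∀ a : A, algebraMap A F a ∈ (P k).toValuationSubring)
    (hne : ∀ k, P k ≠ Q) :
    ∃ a : A, a ≠ 0 ∧ 0 < Q.ord (algebraMap A F a) ∧
      ∀ k, (P k).ord (algebraMap A F a) = 0 := by
  classical
  haveI := Fintype.ofFinite X
  rcases isEmpty_or_nonempty X with hX | ⟨⟨k₀⟩⟩
  · -- no `P k`: any nonzero element of the centre of `Q`
    obtain ⟨a, ha, ha0⟩ := Submodule.exists_mem_ne_zero_of_ne_bot (RH.centre_ne_bot Q hQ)
    exact ⟨a, ha0, (RH.mem_centre_iff_ord_pos Q hQ ha0).mp ha, fun k => (hX.false k).elim⟩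
  · have hnot : ¬ ((RH.centre Q hQ : Set A) ⊆
        ⋃ k ∈ ((Finset.univ : Finset X) : Set X), (RH.centre (P k) (hP k) : Set A)) := by
      intro hsub
      rw [Ideal.subset_union_prime (R := A) (s := (Finset.univ : Finset X))
        (f := fun k => RH.centre (P k) (hP k)) k₀ k₀
        (fun k _ _ _ => RH.centre_isPrime (P k) (hP k))] at hsub
      obtain ⟨k, -, hle⟩ := hsub
      have hmax := centre_isMaximal Q hQ
      have hprime : (RH.centre (P k) (hP k)).IsPrime := RH.centre_isPrime (P k) (hP k)
      have heq : RH.centre Q hQ = RH.centre (P k) (hP k) :=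
        hmax.eq_of_le hprime.ne_top hle
      exact hne k (eq_of_centre_eq (P k) Q (hP k) hQ heq.symm)
    rw [Set.not_subset] at hnot
    obtain ⟨a, haQ, haP⟩ := hnot
    have haP' : ∀ k, a ∉ RH.centre (P k) (hP k) := by
      intro k hk
      apply haP
      simp only [Finset.coe_univ, Set.mem_univ, Set.iUnion_true, Set.mem_iUnion, SetLike.mem_coe]
      exact ⟨k, hk⟩
    have ha0 : a ≠ 0 := by
      rintro rfl
      exact haP' k₀ (zero_mem _)
    exact ⟨a, ha0, (RH.mem_centre_iff_ord_pos Q hQ ha0).mp haQ,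
      fun k => ord_eq_zero_of_not_mem_centre (P k) (hP k) (haP' k)⟩

end Dedekind

/-! ### The function-field model -/

section Model

variable (K)

/-- The integral closure of `K[t]` in `F`, as a subring of `F`. -/
def R (t : F) : Subring F := (integralClosure (Algebra.adjoin K {t}) F).toSubring

variable {K}

theorem mem_R_iff (t g : F) : g ∈ R K t ↔ IsIntegral (Algebra.adjoin K {t}) g := Iff.rfl

theorem mem_R_iff_mem_integralClosure (t g : F) :
    g ∈ R K t ↔ g ∈ integralClosure (Algebra.adjoin K {t}) F := Iff.rfl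

/-- Elements of `K[t]` lie in `R K t`. -/
theorem mem_R_of_mem_adjoin (t : F) {g : F} (hg : g ∈ Algebra.adjoin K {t}) : g ∈ R K t :=
  (mem_R_iff t g).mpr (isIntegral_algebraMap (R := Algebra.adjoin K {t}) (x := ⟨g, hg⟩))

theorem self_mem_R (t : F) : t ∈ R K t :=
  mem_R_of_mem_adjoin t (Algebra.self_mem_adjoin_singleton K t)

theorem algebraMap_mem_R (t : F) (a : K) : algebraMap K F a ∈ R K t :=
  mem_R_of_mem_adjoin t (Subalgebra.algebraMap_mem _ a)

theorem aeval_mem_R (t : F) (p : Polynomial K) : Polynomial.aeval t p ∈ R K t := by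
  apply mem_R_of_mem_adjoin
  rw [Algebra.adjoin_singleton_eq_range_aeval]
  exact ⟨p, rfl⟩

/-- Membership in `R K t` in terms of the `K[X]`-algebra structure `X ↦ t` on `F`
(the model used in `Alg.integralClosure_le_place`). -/
theorem mem_R_iff_isIntegral_polynomial (t g : F) :
    g ∈ R K t ↔
      (letI : Algebra (Polynomial K) F := (Polynomial.aeval t).toRingHom.toAlgebra
       IsIntegral (Polynomial K) g) := by
  letI : Algebra (Polynomial K) F := (Polynomial.aeval t).toRingHom.toAlgebra
  rw [mem_R_iff]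
  let f : Polynomial K →+* Algebra.adjoin K {t} :=
    (Polynomial.aeval (⟨t, Algebra.self_mem_adjoin_singleton K t⟩ : Algebra.adjoin K {t})).toRingHom
  have hf : Function.Surjective f := by
    rintro ⟨y, hy⟩
    rw [Algebra.adjoin_singleton_eq_range_aeval] at hy
    obtain ⟨p, rfl⟩ := hy
    refine ⟨p, Subtype.ext ?_⟩
    simp [f]
  have hcomp : (algebraMap (Algebra.adjoin K {t}) F).comp f = algebraMap (Polynomial K) F := by
    ext p
    · simp [f, RingHom.algebraMap_toAlgebra]
    · simp [f, RingHom.algebraMap_toAlgebra]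
  constructor
  · rintro ⟨p, hp, hpg⟩
    -- lift the coefficients along the surjection `f`
    obtain ⟨q, hq, hqdeg, hqm⟩ := Polynomial.lifts_and_degree_eq_and_monic
      ((Polynomial.mem_lifts p).mpr ((Polynomial.map_surjective f hf) p)) hp
    refine ⟨q, hqm, ?_⟩
    rw [← hcomp, ← Polynomial.eval₂_map, hq]
    exact hpg
  · rintro ⟨q, hq, hqg⟩
    refine ⟨q.map f, hq.map f, ?_⟩
    rw [Polynomial.eval₂_map, hcomp]
    exact hqg

/-- **(hR)** If `t` is integral at `v`, so is every element of `R K t`. -/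
theorem mem_place_of_mem_R (t : F) (v : Place K F) (hv : t ∈ v.toValuationSubring) {g : F}
    (hg : g ∈ R K t) : g ∈ v.toValuationSubring :=
  RH.integralClosure_mem_place t v hv ⟨g, hg⟩

/-- `x` is integral at every place over `x = c`. -/
theorem mem_place_of_ord_sub_pos (x : F) (c : K) (v : Place K F)
    (hv : 0 < v.ord (x - algebraMap K F c)) : x ∈ v.toValuationSubring := by
  have h0 : x - algebraMap K F c ≠ 0 := by
    intro h0
    rw [h0, Place.ord_zero] at hv
    exact lt_irrefl _ hv
  have h1 : x - algebraMap K F c ∈ v.toValuationSubring :=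
    (Orb.mem_place_iff_ord_nonneg v h0).mpr hv.le
  have := add_mem h1 (v.algebraMap_mem' c)
  rwa [sub_add_cancel] at this

/-- **(CRT)** A place `Q` at which `t` is integral can be separated from finitely many other
such places by a nonzero element of the integral closure of `K[t]`. -/
theorem exists_separating [CharZero K] (t : F) [FiniteDimensional (IntermediateField.adjoin K {t}) F]
    {X : Type*} [Finite X] (Q : Place K F) (P : X → Place K F)
    (hQ : t ∈ Q.toValuationSubring) (hP : ∀ k, t ∈ (P k).toValuationSubring)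
    (hne : ∀ k, P k ≠ Q) :
    ∃ h ∈ R K t, h ≠ 0 ∧ 0 < Q.ord h ∧ ∀ k, (P k).ord h = 0 := by
  haveI := RH.integralClosure_isDedekindDomain (K := K) t
  haveI := RH.integralClosure_isFractionRing (K := K) t
  obtain ⟨a, ha0, haQ, haP⟩ := exists_separating_dedekind
    (A := integralClosure (Algebra.adjoin K {t}) F) Q P
    (RH.integralClosure_mem_place t Q hQ) (fun k => RH.integralClosure_mem_place t (P k) (hP k))
    hne
  refine ⟨(a : F), a.2, ?_, haQ, haP⟩
  intro h0
  exact ha0 (Subtype.ext h0)

/-! ### The exact hypothesis shapes of `Orb.surj_of_norm` -/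

/-- **hR** of `Orb.surj_of_norm P (R K x) x c`. -/
theorem hR (x : F) (c : K) :
    ∀ Q : Place K F, 0 < Q.ord (x - algebraMap K F c) →
      ∀ g ∈ R K x, g ∈ Q.toValuationSubring :=
  fun Q hQ _ hg => mem_place_of_mem_R x Q (mem_place_of_ord_sub_pos x c Q hQ) hg

/-- **hCRT** of `Orb.surj_of_norm P (R K x) x c`, for finitely many places `P k` at which `x`
is integral. -/
theorem hCRT [CharZero K] (x : F) [FiniteDimensional (IntermediateField.adjoin K {x}) F] (c : K)
    {X : Type*} [Finite X] (P : X → Place K F) (hP : ∀ k, x ∈ (P k).toValuationSubring) :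
    ∀ Q : Place K F, 0 < Q.ord (x - algebraMap K F c) → (∀ k, P k ≠ Q) →
      ∃ h ∈ R K x, h ≠ 0 ∧ 0 < Q.ord h ∧ ∀ k, (P k).ord h = 0 :=
  fun Q hQ hne => exists_separating x Q P (mem_place_of_ord_sub_pos x c Q hQ) hP hne

/-- `Orb.surj_of_norm` with `R := R K x` and the hypotheses hR, hCRT discharged:
only the norm polynomial is left.  (Finite `c`.) -/
theorem surj_of_norm_R [CharZero K] {X : Type*} [Finite X] (P : X → Place K F) (x : F)
    [FiniteDimensional (IntermediateField.adjoin K {x}) F] (c : K)
    (hP : ∀ k, x ∈ (P k).toValuationSubring)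
    (hNORM : ∀ h ∈ R K x, h ≠ 0 → ∃ Q₀ : Polynomial K,
      (∃ g ∈ R K x, Polynomial.aeval x Q₀ = h * g) ∧
        (Q₀.eval c = 0 → ∃ k, 0 < (P k).ord h)) :
    ∀ Q : Place K F, 0 < Q.ord (x - algebraMap K F c) → ∃ k, P k = Q :=
  Orb.surj_of_norm P (R K x) x c (hR x c) (hCRT x c P hP) hNORM

/-- The same at infinity: `t = x⁻¹`, `c = 0`, `R := R K x⁻¹`; the places over infinity are
those with `0 < Q.ord x⁻¹`. -/
theorem surj_of_norm_R_inv [CharZero K] {X : Type*} [Finite X] (P : X → Place K F) (x : F)
    [FiniteDimensional (IntermediateField.adjoin K {x}) F]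
    (hP : ∀ k, x⁻¹ ∈ (P k).toValuationSubring)
    (hNORM : ∀ h ∈ R K x⁻¹, h ≠ 0 → ∃ Q₀ : Polynomial K,
      (∃ g ∈ R K x⁻¹, Polynomial.aeval x⁻¹ Q₀ = h * g) ∧
        (Q₀.eval 0 = 0 → ∃ k, 0 < (P k).ord h)) :
    ∀ Q : Place K F, 0 < Q.ord x⁻¹ → ∃ k, P k = Q := by
  haveI : FiniteDimensional (IntermediateField.adjoin K {x⁻¹}) F := by
    rw [RH.adjoin_inv_eq]
    infer_instance
  intro Q hQ
  refine surj_of_norm_R P x⁻¹ 0 hP hNORM Q ?_
  rwa [map_zero, sub_zero]

/-- Variant of `surj_of_norm_R` with the `P k` given as places over `x = c`. -/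
theorem surj_of_norm_R_of_ord_pos [CharZero K] {X : Type*} [Finite X] (P : X → Place K F) (x : F)
    [FiniteDimensional (IntermediateField.adjoin K {x}) F] (c : K)
    (hP : ∀ k, 0 < (P k).ord (x - algebraMap K F c))
    (hNORM : ∀ h ∈ R K x, h ≠ 0 → ∃ Q₀ : Polynomial K,
      (∃ g ∈ R K x, Polynomial.aeval x Q₀ = h * g) ∧
        (Q₀.eval c = 0 → ∃ k, 0 < (P k).ord h)) :
    ∀ Q : Place K F, 0 < Q.ord (x - algebraMap K F c) → ∃ k, P k = Q :=
  surj_of_norm_R P x c (fun k => mem_place_of_ord_sub_pos x c (P k) (hP k)) hNORM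

/-- Variant of `surj_of_norm_R_inv` with the `P k` given as places over infinity. -/
theorem surj_of_norm_R_inv_of_ord_pos [CharZero K] {X : Type*} [Finite X] (P : X → Place K F)
    (x : F) [FiniteDimensional (IntermediateField.adjoin K {x}) F]
    (hP : ∀ k, 0 < (P k).ord x⁻¹)
    (hNORM : ∀ h ∈ R K x⁻¹, h ≠ 0 → ∃ Q₀ : Polynomial K,
      (∃ g ∈ R K x⁻¹, Polynomial.aeval x⁻¹ Q₀ = h * g) ∧
        (Q₀.eval 0 = 0 → ∃ k, 0 < (P k).ord h)) :
    ∀ Q : Place K F, 0 < Q.ord x⁻¹ → ∃ k, P k = Q :=
  surj_of_norm_R_inv P x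
    (fun k => mem_place_of_ord_sub_pos x⁻¹ 0 (P k) (by rw [map_zero, sub_zero]; exact hP k)) hNORM

end Model

end Fermat.Agent.S24.CRT
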