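import Mathlib
import Fermat.Prelude.Def_ModularCurve_LaurentCoeff

/-!
# S24 (helper13): linear disjointness of Laurent series under extension of the coefficients

For a field homomorphism `φ : K →+* L`, Laurent series over `K` which are linearly independent
over `K` remain linearly independent over `L` after applying `ModularCurve.coeffMap φ`.
Consequences: linear combinations, polynomial expressions and monic algebraic relations with
coefficients in `L` between series coming from `K` descend to `K`.
-/

open ModularCurve

namespace Fermat.Agent.S24.LD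

variable {K L : Type*} [Field K] [Field L]

theorem coeff_sum' {R : Type*} [Semiring R] {ι : Type*} (s : Finset ι)
    (f : ι → LaurentSeries R) (n : ℤ) :
    (∑ i ∈ s, f i).coeff n = ∑ i ∈ s, (f i).coeff n := by
  classical
  induction s using Finset.induction_on with
  | empty => simp
  | insert a s ha ih => rw [Finset.sum_insert ha, Finset.sum_insert ha, HahnSeries.coeff_add, ih]

theorem coeffMap_smul (φ : K →+* L) (c : K) (x : LaurentSeries K) :
    coeffMap φ (c • x) = φ c • coeffMap φ x := by
  ext n
  simp [HahnSeries.coeff_smul]

theorem coeffMap_injective (φ : K →+* L) : Function.Injective (coeffMap φ) := by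
  intro x y h
  ext n
  have := congrArg (fun z => z.coeff n) h
  simp only [coeffMap_coeff] at this
  exact φ.injective this

/-! ### The two module structures on Laurent series

`LaurentSeries K` carries the coefficientwise `K`-module structure `HahnSeries.instModule` and
the one coming from the `K`-algebra structure (through power series); they agree, but not
definitionally. Statements below use the coefficientwise one unless marked `algebra`. -/

theorem algebraMap_mul_eq_smul (c : K) (x : LaurentSeries K) :
    algebraMap K (LaurentSeries K) c * x = c • x := by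
  rw [algebraMap_laurentSeries_eq_single, ← HahnSeries.C_mul_eq_smul]
  rfl

theorem algebra_smul_eq_smul (c : K) (x : LaurentSeries K) :
    @HSMul.hSMul K (LaurentSeries K) (LaurentSeries K)
      (@instHSMul K (LaurentSeries K) (Algebra.toSMul)) c x = c • x := by
  rw [← algebraMap_mul_eq_smul]
  exact Algebra.smul_def c x

theorem linearIndependent_algebra_iff {ι : Type*} (f : ι → LaurentSeries K) :
    @LinearIndependent ι K (LaurentSeries K) f _ _ Algebra.toModule ↔ LinearIndependent K f := by
  rw [@linearIndependent_iff' ι K (LaurentSeries K) _ _ HahnSeries.instModule f,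
    @linearIndependent_iff' ι K (LaurentSeries K) _ _ Algebra.toModule f]
  simp only [algebra_smul_eq_smul]

theorem mem_span_algebra_iff (S : Set (LaurentSeries K)) (y : LaurentSeries K) :
    y ∈ @Submodule.span K (LaurentSeries K) _ _ Algebra.toModule S ↔ y ∈ Submodule.span K S := by
  constructor
  · intro h
    induction h using Submodule.span_induction with
    | mem x hx => exact Submodule.subset_span hx
    | zero => exact Submodule.zero_mem _
    | add x y _ _ hx hy => exact Submodule.add_mem _ hx hy
    | smul c x _ hx => rw [algebra_smul_eq_smul]; exact Submodule.smul_mem _ _ hx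
  · intro h
    induction h using Submodule.span_induction with
    | mem x hx => exact @Submodule.subset_span K (LaurentSeries K) _ _ Algebra.toModule S x hx
    | zero => exact @Submodule.zero_mem K (LaurentSeries K) _ _ Algebra.toModule _
    | add x y _ _ hx hy =>
      exact @Submodule.add_mem K (LaurentSeries K) _ _ Algebra.toModule _ _ _ hx hy
    | smul c x _ hx =>
      rw [← algebra_smul_eq_smul]
      exact @Submodule.smul_mem K (LaurentSeries K) _ _ Algebra.toModule _ _ c hx

theorem coeffMap_algebraMap' (φ : K →+* L) (c : K) :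
    coeffMap φ (algebraMap K (LaurentSeries K) c) = algebraMap L (LaurentSeries L) (φ c) := by
  rw [algebraMap_laurentSeries_eq_single, algebraMap_laurentSeries_eq_single, coeffMap_single]

theorem smul_mul_assoc' (c : K) (x y : LaurentSeries K) : c • x * y = c • (x * y) := by
  rw [← algebraMap_mul_eq_smul, ← algebraMap_mul_eq_smul, mul_assoc]

theorem linearIndependent_pow_of_transcendental {x : LaurentSeries K} (hx : Transcendental K x)
    (n : ℕ) : LinearIndependent K (fun d : Fin n => x ^ (d : ℕ)) := by
  classical
  rw [Fintype.linearIndependent_iff]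
  intro g hg d
  have h1 : Polynomial.aeval x (∑ d : Fin n, Polynomial.monomial (d : ℕ) (g d)) = 0 := by
    rw [map_sum, ← hg]
    refine Finset.sum_congr rfl fun d _ => ?_
    rw [Polynomial.aeval_monomial, algebraMap_mul_eq_smul]
  have h2 := transcendental_iff_injective.mp hx (h1.trans (map_zero _).symm)
  have h3 := congrArg (fun P => Polynomial.coeff P (d : ℕ)) h2
  simp only [Polynomial.finsetSum_coeff, Polynomial.coeff_monomial, Polynomial.coeff_zero] at h3
  rw [Finset.sum_eq_single d] at h3
  · simpa using h3
  · intro e _ hed
    rw [if_neg (fun h => hed (Fin.ext h))]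
  · intro h; exact absurd (Finset.mem_univ d) h

theorem aeval_eq_sum_smul (x : LaurentSeries K) (P : Polynomial K) {n : ℕ}
    (hn : P.natDegree < n) :
    Polynomial.aeval x P = ∑ d : Fin n, P.coeff d • x ^ (d : ℕ) := by
  rw [Polynomial.aeval_eq_sum_range' hn, Finset.sum_range]
  refine Finset.sum_congr rfl fun d _ => ?_
  exact algebra_smul_eq_smul _ _

/-- **Linear disjointness**: Laurent series over `K` which are linearly independent over `K`
stay linearly independent over `L` after extension of the coefficient field. -/
theorem linearIndependent_coeffMap (φ : K →+* L) {ι : Type*} (f : ι → LaurentSeries K)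
    (hf : LinearIndependent K f) :
    LinearIndependent L (fun i => coeffMap φ (f i)) := by
  classical
  let _ : Algebra K L := φ.toAlgebra
  let b := Module.Basis.ofVectorSpace K L
  rw [linearIndependent_iff'] at hf ⊢
  intro s g hg i hi
  have key : ∀ j, ∑ i ∈ s, (b.repr (g i) j) • f i = 0 := by
    intro j
    ext n
    rw [coeff_sum', HahnSeries.coeff_zero]
    have h1 : ∑ i ∈ s, (f i).coeff n • g i = 0 := by
      have := congrArg (fun x => x.coeff n) hg
      simp only [coeff_sum', HahnSeries.coeff_smul, coeffMap_coeff, HahnSeries.coeff_zero,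
        smul_eq_mul] at this
      rw [← this]
      refine Finset.sum_congr rfl fun i _ => ?_
      rw [Algebra.smul_def, mul_comm]
      rfl
    have h2 := congrArg (fun l => b.repr l j) h1
    simp only [map_sum, map_smul, Finsupp.coe_finsetSum, Finset.sum_apply, Finsupp.smul_apply,
      map_zero, Finsupp.coe_zero, Pi.zero_apply, smul_eq_mul] at h2
    rw [← h2]
    refine Finset.sum_congr rfl fun i _ => ?_
    rw [HahnSeries.coeff_smul, smul_eq_mul, mul_comm]
  have h0 : ∀ j, b.repr (g i) j = 0 := fun j => hf s (fun i => b.repr (g i) j) (key j) i hi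
  have : b.repr (g i) = 0 := Finsupp.ext h0
  exact (b.repr.map_eq_zero_iff).mp this

/-- **Descent of linear combinations**: if `y` and the linearly independent family `f` are
defined over `K` and `y` is an `L`-linear combination of the `f i` after extension of the
coefficients, then the combination is defined over `K`. -/
theorem exists_eq_sum_of_coeffMap_eq_sum (φ : K →+* L) {ι : Type*} [Fintype ι]
    (f : ι → LaurentSeries K) (hf : LinearIndependent K f) (y : LaurentSeries K) (c : ι → L)
    (h : coeffMap φ y = ∑ i, c i • coeffMap φ (f i)) :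
    ∃ q : ι → K, (∀ i, φ (q i) = c i) ∧ y = ∑ i, q i • f i := by
  classical
  have hfL := linearIndependent_coeffMap φ f hf
  have hy : y ∈ Submodule.span K (Set.range f) := by
    by_contra hy
    have hopt : LinearIndependent K (fun o : Option ι => o.casesOn' y f) :=
      (linearIndependent_option' ).mpr ⟨hf, hy⟩
    have hoptL := linearIndependent_coeffMap φ _ hopt
    rw [Fintype.linearIndependent_iff] at hoptL
    have := hoptL (fun o => o.casesOn' (-1) c) (by
      rw [Fintype.sum_option]
      simp only [Option.casesOn'_none, Option.casesOn'_some, neg_smul, one_smul, h]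
      exact neg_add_cancel _) none
    simp at this
  obtain ⟨q, hq⟩ := (Submodule.mem_span_range_iff_exists_fun K).mp hy
  refine ⟨q, ?_, hq.symm⟩
  have h2 : ∑ i, (φ (q i) - c i) • coeffMap φ (f i) = 0 := by
    simp only [sub_smul, Finset.sum_sub_distrib]
    rw [← h, ← hq, map_sum]
    simp only [coeffMap_smul, sub_self]
  rw [Fintype.linearIndependent_iff] at hfL
  intro i
  exact sub_eq_zero.mp (hfL _ h2 i)

theorem coeffMap_mem_span (φ : K →+* L) {S : Set (LaurentSeries K)} {y : LaurentSeries K}
    (hy : y ∈ Submodule.span K S) :
    coeffMap φ y ∈ Submodule.span L (coeffMap φ '' S) := by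
  induction hy using Submodule.span_induction with
  | mem x hx => exact Submodule.subset_span ⟨x, hx, rfl⟩
  | zero => rw [map_zero]; exact Submodule.zero_mem _
  | add x y _ _ hx hy => rw [map_add]; exact Submodule.add_mem _ hx hy
  | smul c x _ hx => rw [coeffMap_smul]; exact Submodule.smul_mem _ _ hx

/-- **Descent of span membership**: if `y` and `S` are defined over `K` and `y` lies in the
`L`-span of `S` after extension of the coefficients, then `y` lies in the `K`-span of `S`. -/
theorem mem_span_of_coeffMap_mem_span (φ : K →+* L) {S : Set (LaurentSeries K)}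
    {y : LaurentSeries K} (h : coeffMap φ y ∈ Submodule.span L (coeffMap φ '' S)) :
    y ∈ Submodule.span K S := by
  classical
  obtain ⟨b, hbS, hbspan, hbind⟩ := exists_linearIndependent K S
  rw [← hbspan]
  by_contra hy
  have hopt : LinearIndependent K (fun o : Option b => o.casesOn' y (fun i => (i : LaurentSeries K))) :=
    (linearIndependent_option' ).mpr ⟨hbind, by rwa [Subtype.range_coe]⟩
  have hoptL := linearIndependent_coeffMap φ _ hopt
  have hle : Submodule.span L (coeffMap φ '' S) ≤ Submodule.span L (coeffMap φ '' b) := by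
    rw [Submodule.span_le]
    rintro _ ⟨x, hx, rfl⟩
    refine coeffMap_mem_span φ ?_
    rw [hbspan]
    exact Submodule.subset_span hx
  have h' := hle h
  have hfun : (fun o : Option b => coeffMap φ
      (o.casesOn' y (fun i => (i : LaurentSeries K)))) =
      fun o : Option b => o.casesOn' (coeffMap φ y) (fun i => coeffMap φ (i : LaurentSeries K)) := by
    funext o
    cases o <;> rfl
  rw [hfun, linearIndependent_option'] at hoptL
  refine hoptL.2 ?_
  have hrange : (Set.range fun i : b => coeffMap φ (i : LaurentSeries K)) = coeffMap φ '' b := by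
    apply Set.ext
    intro z
    constructor
    · rintro ⟨w, rfl⟩; exact ⟨w, w.2, rfl⟩
    · rintro ⟨w, hw, rfl⟩; exact ⟨⟨w, hw⟩, rfl⟩
  rw [hrange]
  exact h'

theorem coeffMap_aeval (φ : K →+* L) (x : LaurentSeries K) (Q : Polynomial K) :
    coeffMap φ (Polynomial.aeval x Q) = Polynomial.aeval (coeffMap φ x) (Q.map φ) := by
  induction Q using Polynomial.induction_on' with
  | add p q hp hq => simp only [map_add, Polynomial.map_add, hp, hq]
  | monomial n c =>
    rw [Polynomial.map_monomial, Polynomial.aeval_monomial, Polynomial.aeval_monomial, map_mul,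
      map_pow]
    rw [coeffMap_algebraMap']

/-- **Descent of polynomial expressions**: if `x`, `y` are defined over `K`, `x` is
transcendental over `K`, and `y = P(x)` with `P ∈ L[X]` after extension of the coefficients,
then `P` has coefficients in `K`. -/
theorem exists_polynomial_of_aeval_eq (φ : K →+* L) {x y : LaurentSeries K}
    (hx : Transcendental K x) (P : Polynomial L)
    (h : Polynomial.aeval (coeffMap φ x) P = coeffMap φ y) :
    ∃ Q : Polynomial K, Q.map φ = P ∧ Polynomial.aeval x Q = y := by
  classical
  have hind := linearIndependent_pow_of_transcendental hx (P.natDegree + 1)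
  have hP : coeffMap φ y = ∑ d : Fin (P.natDegree + 1), P.coeff d • coeffMap φ (x ^ (d : ℕ)) := by
    rw [← h, aeval_eq_sum_smul _ P (Nat.lt_succ_self _)]
    simp only [map_pow]
  obtain ⟨q, hq, hy⟩ := exists_eq_sum_of_coeffMap_eq_sum φ _ hind y _ hP
  refine ⟨∑ d : Fin (P.natDegree + 1), Polynomial.monomial (d : ℕ) (q d), ?_, ?_⟩
  · rw [Polynomial.map_sum]
    simp only [Polynomial.map_monomial, hq]
    conv_rhs => rw [P.as_sum_range, Finset.sum_range]
  · rw [hy, map_sum]
    refine Finset.sum_congr rfl fun d _ => ?_
    rw [Polynomial.aeval_monomial, algebraMap_mul_eq_smul]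

/-- **Descent of monic relations**: if `a`, `x` are defined over `K` and `a` satisfies a monic
relation of degree `μ` with coefficients in `L[x]` after extension of the coefficients, then
it satisfies a monic relation of degree `μ` with coefficients in `K[x]`, with the same bound on
the degrees of the coefficients. -/
theorem exists_monic_relation (φ : K →+* L) (x a : LaurentSeries K) (μ D : ℕ)
    (P : Fin μ → Polynomial L) (hD : ∀ i, (P i).natDegree ≤ D)
    (h : coeffMap φ a ^ μ +
      ∑ i : Fin μ, Polynomial.aeval (coeffMap φ x) (P i) * coeffMap φ a ^ (i : ℕ) = 0) :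
    ∃ Q : Fin μ → Polynomial K, (∀ i, (Q i).natDegree ≤ D) ∧
      a ^ μ + ∑ i : Fin μ, Polynomial.aeval x (Q i) * a ^ (i : ℕ) = 0 := by
  classical
  set S : Set (LaurentSeries K) :=
    Set.range (fun p : Fin μ × Fin (D + 1) => x ^ (p.2 : ℕ) * a ^ (p.1 : ℕ)) with hS
  have hmem : coeffMap φ (a ^ μ) ∈ Submodule.span L (coeffMap φ '' S) := by
    have : coeffMap φ (a ^ μ) =
        -∑ i : Fin μ, Polynomial.aeval (coeffMap φ x) (P i) * coeffMap φ a ^ (i : ℕ) := by
      rw [map_pow]; exact eq_neg_of_add_eq_zero_left h
    rw [this]
    refine Submodule.neg_mem _ (Submodule.sum_mem _ fun i _ => ?_)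
    rw [aeval_eq_sum_smul _ (P i) (Nat.lt_succ_of_le (hD i)), Finset.sum_mul]
    refine Submodule.sum_mem _ fun d _ => ?_
    rw [smul_mul_assoc']
    refine Submodule.smul_mem _ _ (Submodule.subset_span ?_)
    refine ⟨x ^ (d : ℕ) * a ^ (i : ℕ), ⟨(i, d), rfl⟩, ?_⟩
    simp only [map_mul, map_pow]
  have hmem' := mem_span_of_coeffMap_mem_span φ hmem
  obtain ⟨q, hq⟩ := (Submodule.mem_span_range_iff_exists_fun K).mp hmem'
  refine ⟨fun i => -∑ d : Fin (D + 1), Polynomial.monomial (d : ℕ) (q (i, d)), ?_, ?_⟩
  · intro i
    rw [Polynomial.natDegree_neg]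
    refine Polynomial.natDegree_sum_le_of_forall_le _ _ fun d _ => ?_
    exact (Polynomial.natDegree_monomial_le _).trans (Nat.lt_succ_iff.mp d.2)
  · rw [← hq, Fintype.sum_prod_type, ← Finset.sum_add_distrib]
    refine Finset.sum_eq_zero fun i _ => ?_
    rw [map_neg, map_sum, neg_mul, Finset.sum_mul, ← sub_eq_add_neg, sub_eq_zero]
    refine Finset.sum_congr rfl fun d _ => ?_
    rw [Polynomial.aeval_monomial, algebraMap_mul_eq_smul, smul_mul_assoc']

/-- **Descent of monic relations, with uniqueness**: if moreover the monomials `x ^ d * a ^ i`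
(`i < μ`, `d ≤ D`) are linearly independent over `K`, then the coefficients `P i ∈ L[X]` of
the monic relation are themselves defined over `K`. -/
theorem exists_monic_relation_map (φ : K →+* L) (x a : LaurentSeries K) (μ D : ℕ)
    (P : Fin μ → Polynomial L) (hD : ∀ i, (P i).natDegree ≤ D)
    (hind : LinearIndependent K
      (fun p : Fin μ × Fin (D + 1) => x ^ (p.2 : ℕ) * a ^ (p.1 : ℕ)))
    (h : coeffMap φ a ^ μ +
      ∑ i : Fin μ, Polynomial.aeval (coeffMap φ x) (P i) * coeffMap φ a ^ (i : ℕ) = 0) :
    ∃ Q : Fin μ → Polynomial K, (∀ i, (Q i).map φ = P i) ∧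
      a ^ μ + ∑ i : Fin μ, Polynomial.aeval x (Q i) * a ^ (i : ℕ) = 0 := by
  classical
  have hrel : coeffMap φ (a ^ μ) = ∑ p : Fin μ × Fin (D + 1),
      (-(P p.1).coeff (p.2 : ℕ)) • coeffMap φ (x ^ (p.2 : ℕ) * a ^ (p.1 : ℕ)) := by
    rw [map_pow, eq_neg_of_add_eq_zero_left h, Fintype.sum_prod_type, ← Finset.sum_neg_distrib]
    refine Finset.sum_congr rfl fun i _ => ?_
    rw [aeval_eq_sum_smul _ (P i) (Nat.lt_succ_of_le (hD i)), Finset.sum_mul,
      ← Finset.sum_neg_distrib]
    refine Finset.sum_congr rfl fun d _ => ?_
    rw [smul_mul_assoc', neg_smul, map_mul, map_pow, map_pow]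
  obtain ⟨q, hq, hy⟩ := exists_eq_sum_of_coeffMap_eq_sum φ _ hind _ _ hrel
  refine ⟨fun i => -∑ d : Fin (D + 1), Polynomial.monomial (d : ℕ) (q (i, d)), ?_, ?_⟩
  · intro i
    rw [Polynomial.map_neg, Polynomial.map_sum]
    simp only [Polynomial.map_monomial, hq, map_neg]
    rw [Finset.sum_neg_distrib, neg_neg]
    conv_rhs => rw [(P i).as_sum_range' (D + 1) (Nat.lt_succ_of_le (hD i)), Finset.sum_range]
  · rw [hy, Fintype.sum_prod_type, ← Finset.sum_add_distrib]
    refine Finset.sum_eq_zero fun i _ => ?_
    rw [map_neg, map_sum, neg_mul, Finset.sum_mul, ← sub_eq_add_neg, sub_eq_zero]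
    refine Finset.sum_congr rfl fun d _ => ?_
    rw [Polynomial.aeval_monomial, algebraMap_mul_eq_smul, smul_mul_assoc']

/-- Transcendence is preserved by extension of the coefficient field. -/
theorem transcendental_coeffMap (φ : K →+* L) {x : LaurentSeries K} (hx : Transcendental K x) :
    Transcendental L (coeffMap φ x) := by
  classical
  rw [transcendental_iff_injective, injective_iff_map_eq_zero]
  intro P hP
  have hind := linearIndependent_coeffMap φ _
    (linearIndependent_pow_of_transcendental hx (P.natDegree + 1))
  rw [Fintype.linearIndependent_iff] at hind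
  have h0 : ∑ d : Fin (P.natDegree + 1), P.coeff d • coeffMap φ (x ^ (d : ℕ)) = 0 := by
    rw [← hP, aeval_eq_sum_smul _ P (Nat.lt_succ_self _)]
    simp only [map_pow]
  ext n
  rw [Polynomial.coeff_zero]
  by_cases hn : n < P.natDegree + 1
  · exact hind _ h0 ⟨n, hn⟩
  · exact Polynomial.coeff_eq_zero_of_natDegree_lt (by omega)

/-- **Linear disjointness**, stated for the module structures coming from the algebra
structures `Algebra K (LaurentSeries K)`, `Algebra L (LaurentSeries L)`. -/
theorem linearIndependent_coeffMap_algebra (φ : K →+* L) {ι : Type*} (f : ι → LaurentSeries K)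
    (hf : @LinearIndependent ι K (LaurentSeries K) f _ _ Algebra.toModule) :
    @LinearIndependent ι L (LaurentSeries L) (fun i => coeffMap φ (f i)) _ _ Algebra.toModule :=
  (linearIndependent_algebra_iff _).mpr
    (linearIndependent_coeffMap φ f ((linearIndependent_algebra_iff f).mp hf))

end Fermat.Agent.S24.LD
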