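import Mathlib

/-!
# S24 / G3 (DEG): generic field theory for the degree bound

In characteristic zero, a field extension in which every element is a root of a nonzero
polynomial of degree at most `μ` is finite of degree at most `μ` (primitive element theorem).
-/

set_option autoImplicit false

namespace Fermat.Agent.S24.G3

open Polynomial IntermediateField

/-- Finite case: the degree of a finite extension in characteristic zero is the degree of a
primitive element. -/
theorem finrank_le_of_forall_exists_poly_of_finite {K0 E : Type*} [Field K0] [Field E]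
    [Algebra K0 E] [CharZero K0] [FiniteDimensional K0 E] (μ : ℕ)
    (h : ∀ a : E, ∃ p : K0[X], p ≠ 0 ∧ p.natDegree ≤ μ ∧ aeval a p = 0) :
    Module.finrank K0 E ≤ μ := by
  obtain ⟨α, hα⟩ := Field.exists_primitive_element K0 E
  obtain ⟨p, hp0, hpμ, hpa⟩ := h α
  have h1 : (minpoly K0 α).natDegree = Module.finrank K0 E :=
    (Field.primitive_element_iff_minpoly_natDegree_eq K0 α).mp hα
  rw [← h1]
  exact (Polynomial.natDegree_le_of_dvd (minpoly.dvd K0 α hpa) hp0).trans hpμ

/-- **Bounded degree implies finite.** In characteristic zero, a field extension in which every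
element is a root of a nonzero polynomial of degree at most `μ` is finite of degree at most
`μ`. -/
theorem finrank_le_of_forall_exists_poly {K0 F : Type*} [Field K0] [Field F] [Algebra K0 F]
    [CharZero K0] (μ : ℕ)
    (h : ∀ a : F, ∃ p : K0[X], p ≠ 0 ∧ p.natDegree ≤ μ ∧ aeval a p = 0) :
    FiniteDimensional K0 F ∧ Module.finrank K0 F ≤ μ := by
  have halg : Algebra.IsAlgebraic K0 F :=
    ⟨fun a => by obtain ⟨p, hp0, -, hpa⟩ := h a; exact ⟨p, hp0, hpa⟩⟩
  have hfd : FiniteDimensional K0 F := by
    by_contra hnfd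
    obtain ⟨L, hL, hlt⟩ := exists_lt_finrank_of_infinite_dimensional hnfd μ
    have hle : Module.finrank K0 L ≤ μ := by
      refine finrank_le_of_forall_exists_poly_of_finite μ fun a => ?_
      obtain ⟨p, hp0, hpμ, hpa⟩ := h (a : F)
      refine ⟨p, hp0, hpμ, ?_⟩
      have : ((aeval a p : L) : F) = aeval (a : F) p := by
        rw [← IntermediateField.algebraMap_apply, ← aeval_algebraMap_apply]
        rfl
      apply Subtype.ext
      rw [this, hpa]
      rfl
    omega
  exact ⟨hfd, finrank_le_of_forall_exists_poly_of_finite μ h⟩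

/-- In a domain, a nonzero root `b` of a monic relation `b ^ μ + ∑ c i * b ^ i = 0` divides one
of the nonzero coefficients `c i`. -/
theorem exists_mul_eq_coeff {R : Type*} [CommRing R] [IsDomain R] {b : R} (hb : b ≠ 0) :
    ∀ (μ : ℕ) (c : Fin μ → R), b ^ μ + ∑ i, c i * b ^ (i : ℕ) = 0 →
      ∃ (b' : R) (i : Fin μ), c i ≠ 0 ∧ b * b' = c i
  | 0, c, h => by simp at h
  | μ + 1, c, h => by
    rw [Fin.sum_univ_succ] at h
    have hsum : ∑ i : Fin μ, c i.succ * b ^ ((i.succ : Fin (μ + 1)) : ℕ)
        = b * ∑ i : Fin μ, c i.succ * b ^ (i : ℕ) := by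
      rw [Finset.mul_sum]
      refine Finset.sum_congr rfl fun i _ => ?_
      rw [Fin.val_succ, pow_succ]
      ring
    rw [hsum] at h
    simp only [Fin.val_zero, pow_zero, mul_one] at h
    by_cases h0 : c 0 = 0
    · have h1 : b * (b ^ μ + ∑ i : Fin μ, c i.succ * b ^ (i : ℕ)) = 0 := by
        rw [← h, h0]; ring
      obtain ⟨b', i, hi, hbi⟩ := exists_mul_eq_coeff hb μ (fun i => c i.succ)
        ((mul_eq_zero.mp h1).resolve_left hb)
      exact ⟨b', i.succ, hi, hbi⟩
    · refine ⟨-(b ^ μ + ∑ i : Fin μ, c i.succ * b ^ (i : ℕ)), 0, h0, ?_⟩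
      linear_combination -h

end Fermat.Agent.S24.G3
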