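import Fermat.Agent.S24.H24_InvPoly
import Fermat.Agent.S24.H24_DegAlg
import Fermat.Agent.S24.H13_LinDisjoint

/-!
# S24 / G3 (DEG): the degree of the modular function field over `K(j)` is at most `μ`

`RealData` packages what this file consumes from the analytic realisation (REAL) of a
`K`-algebra `A` of Laurent series by holomorphic functions on the upper half plane.
-/

set_option autoImplicit false

namespace Fermat.Agent.S24.G3

open UpperHalfPlane ModularForm CongruenceSubgroup Polynomial ModularCurve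
open Fermat.Agent.S23
open scoped MatrixGroups ModularForm Manifold

noncomputable section

/-- The analytic realisation of a `K`-algebra `A` of Laurent series by holomorphic
`Γ₀(N)`-invariant functions of moderate growth, with the `ℂ`-linear `q`-expansion principle. -/
structure RealData (N : ℕ) {K : Type*} [Field K] (e : K →+* ℂ)
    (A : Subalgebra K (LaurentSeries K)) (x : A) where
  /-- the realisation -/
  ρ : A →+* (ℍ → ℂ)
  ρ_x : ρ x = R1.jInv
  ρ_algebraMap : ∀ c : K, ρ (algebraMap K A c) = fun _ => e c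
  hol : ∀ a, MDifferentiable 𝓘(ℂ) 𝓘(ℂ) (ρ a)
  inv : ∀ a, ∀ γ ∈ Gamma0 N, ∀ z : ℍ, ρ a (γ • z) = ρ a z
  growth : ∀ a (δ : SL(2, ℤ)), ModGrowth (fun z => ρ a (δ • z))
  qexp : ∀ (n : ℕ) (u : Fin n → A) (b : Fin n → ℂ),
    (∀ z : ℍ, ∑ i, b i * ρ (u i) z = 0) →
      ∀ m : ℤ, ∑ i, b i * e ((u i : LaurentSeries K).coeff m) = 0

/-- The index of `Γ ⊆ SL(2, ℤ)` in the model used for the translates. -/
theorem card_quotient_mapGL (Γ : Subgroup SL(2, ℤ)) :
    Nat.card (𝒮ℒ ⧸ (Subgroup.map (Matrix.SpecialLinearGroup.mapGL ℝ) Γ).subgroupOf 𝒮ℒ) =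
      Nat.card (SL(2, ℤ) ⧸ Γ) := by
  rw [← Subgroup.index_eq_card, ← Subgroup.index_eq_card, ← Subgroup.relIndex,
    MonoidHom.range_eq_map,
    Subgroup.relIndex_map_map_of_injective Γ ⊤ Matrix.SpecialLinearGroup.mapGL_injective,
    Subgroup.relIndex_top_right]

/-- A pointwise `Γ`-invariant function as a slash invariant form of weight `0`. -/
def sifOfInv (Γ : Subgroup SL(2, ℤ)) (h : ℍ → ℂ)
    (hinv : ∀ γ ∈ Γ, ∀ z : ℍ, h (γ • z) = h z) : SlashInvariantForm Γ 0 where
  toFun := h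
  slash_action_eq' := by
    rintro _ ⟨γ, hγ, rfl⟩
    funext z
    have := SL_slash_apply (k := 0) h γ z
    rw [neg_zero, zpow_zero, mul_one] at this
    exact this.trans (hinv γ hγ z)

@[simp] theorem coe_sifOfInv (Γ : Subgroup SL(2, ℤ)) (h : ℍ → ℂ)
    (hinv : ∀ γ ∈ Γ, ∀ z : ℍ, h (γ • z) = h z) : (⇑(sifOfInv Γ h hinv) : ℍ → ℂ) = h := rfl

/-- **Monic relation, function level.** -/
theorem exists_monic_relation_of_inv (Γ : Subgroup SL(2, ℤ)) [Γ.FiniteIndex] (h : ℍ → ℂ)
    (hhol : MDifferentiable 𝓘(ℂ) 𝓘(ℂ) h)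
    (hinv : ∀ γ ∈ Γ, ∀ z : ℍ, h (γ • z) = h z)
    (hgrowth : ∀ δ : SL(2, ℤ), ModGrowth (fun z => h (δ • z))) :
    ∃ P : ℕ → ℂ[X], P 0 = 1 ∧
      (∀ (γ : SL(2, ℤ)) (z : ℍ),
        ∑ j ∈ Finset.range (Nat.card (SL(2, ℤ) ⧸ Γ) + 1),
          (P j).eval (R1.jInv z) * h (γ • z) ^ (Nat.card (SL(2, ℤ) ⧸ Γ) - j) = 0) ∧
      ∀ z : ℍ, (P (Nat.card (SL(2, ℤ) ⧸ Γ))).eval (R1.jInv z) = 0 →
        ∃ δ : SL(2, ℤ), h (δ • z) = 0 := by
  have := exists_monic_relation (sifOfInv Γ h hinv) hhol hgrowth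
  rwa [card_quotient_mapGL] at this

variable {N : ℕ} {K : Type*} [Field K] {e : K →+* ℂ} {A : Subalgebra K (LaurentSeries K)}
  {x : A}

/-- The `q`-expansion principle for families indexed by a finite type. -/
theorem RealData.qexp_fintype (R : RealData N e A x) {ι : Type*} [Fintype ι] (u : ι → A)
    (b : ι → ℂ) (h : ∀ z : ℍ, ∑ i, b i * R.ρ (u i) z = 0) (m : ℤ) :
    ∑ i, b i * e ((u i : LaurentSeries K).coeff m) = 0 := by
  have h1 := R.qexp (Fintype.card ι) (u ∘ (Fintype.equivFin ι).symm)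
    (b ∘ (Fintype.equivFin ι).symm)
    (fun z => by
      rw [← h z]
      exact Equiv.sum_comp (Fintype.equivFin ι).symm (fun i => b i * R.ρ (u i) z)) m
  rw [← h1]
  exact (Equiv.sum_comp (Fintype.equivFin ι).symm
    (fun i => b i * e ((u i : LaurentSeries K).coeff m))).symm

/-- A monic relation between the functions `ρ a` and `j` with coefficients in `ℂ[j]` holds
between the `q`-expansions. -/
theorem RealData.series_relation (R : RealData N e A x) (a : A) (μ : ℕ) (P : Fin μ → ℂ[X])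
    (h : ∀ z : ℍ, R.ρ a z ^ μ + ∑ i, (P i).eval (R1.jInv z) * R.ρ a z ^ (i : ℕ) = 0) :
    coeffMap e (a : LaurentSeries K) ^ μ +
      ∑ i, aeval (coeffMap e (x : LaurentSeries K)) (P i) *
        coeffMap e (a : LaurentSeries K) ^ (i : ℕ) = 0 := by
  classical
  set D := Finset.univ.sup (fun i => (P i).natDegree) with hD
  have hdeg : ∀ i, (P i).natDegree < D + 1 := fun i =>
    Nat.lt_succ_of_le (Finset.le_sup (f := fun i => (P i).natDegree) (Finset.mem_univ i))
  let u : Option (Fin μ × Fin (D + 1)) → A :=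
    fun o => o.elim (a ^ μ) (fun p => x ^ (p.2 : ℕ) * a ^ (p.1 : ℕ))
  let b : Option (Fin μ × Fin (D + 1)) → ℂ :=
    fun o => o.elim 1 (fun p => (P p.1).coeff p.2)
  have hz : ∀ z, ∑ o, b o * R.ρ (u o) z = 0 := by
    intro z
    rw [Fintype.sum_option, Fintype.sum_prod_type, ← h z]
    congr 1
    · simp [u, b, map_pow]
    · refine Finset.sum_congr rfl fun i _ => ?_
      rw [Polynomial.eval_eq_sum_range' (hdeg i), Finset.sum_range, Finset.sum_mul]
      refine Finset.sum_congr rfl fun d _ => ?_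
      simp only [u, b, Option.elim, map_mul, map_pow, R.ρ_x, Pi.mul_apply, Pi.pow_apply]
      ring
  have hm := R.qexp_fintype u b hz
  have hL : coeffMap e (a : LaurentSeries K) ^ μ +
      ∑ i, aeval (coeffMap e (x : LaurentSeries K)) (P i) *
        coeffMap e (a : LaurentSeries K) ^ (i : ℕ)
      = coeffMap e ((a ^ μ : A) : LaurentSeries K) +
        ∑ i : Fin μ, ∑ d : Fin (D + 1), (P i).coeff d •
          coeffMap e ((x ^ (d : ℕ) * a ^ (i : ℕ) : A) : LaurentSeries K) := by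
    congr 1
    · simp [map_pow]
    · refine Finset.sum_congr rfl fun i _ => ?_
      rw [LD.aeval_eq_sum_smul _ _ (hdeg i), Finset.sum_mul]
      refine Finset.sum_congr rfl fun d _ => ?_
      rw [LD.smul_mul_assoc']
      simp [map_mul, map_pow]
  rw [hL]
  ext m
  have h2 := hm m
  rw [Fintype.sum_option, Fintype.sum_prod_type] at h2
  rw [HahnSeries.coeff_add, LD.coeff_sum', HahnSeries.coeff_zero, ← h2]
  congr 1
  · show (coeffMap e ((a ^ μ : A) : LaurentSeries K)).coeff m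
      = 1 * e (((a ^ μ : A) : LaurentSeries K).coeff m)
    rw [one_mul, coeffMap_coeff]
  · refine Finset.sum_congr rfl fun i _ => ?_
    rw [LD.coeff_sum']
    refine Finset.sum_congr rfl fun d _ => ?_
    show ((P i).coeff d • coeffMap e ((x ^ (d : ℕ) * a ^ (i : ℕ) : A) : LaurentSeries K)).coeff m
      = (P i).coeff d * e (((x ^ (d : ℕ) * a ^ (i : ℕ) : A) : LaurentSeries K).coeff m)
    rw [HahnSeries.coeff_smul, coeffMap_coeff, smul_eq_mul]

/-- **Integrality with degree `μ`.** Every element of `A` is a root of a monic polynomial of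
degree `μ = [SL(2, ℤ) : Γ₀(N)]` with coefficients in `K[x]`. -/
theorem RealData.exists_monic_rel [NeZero N] (R : RealData N e A x) (a : A) :
    ∃ Q : Fin (Nat.card (SL(2, ℤ) ⧸ Gamma0 N)) → K[X],
      a ^ Nat.card (SL(2, ℤ) ⧸ Gamma0 N) + ∑ i, aeval x (Q i) * a ^ (i : ℕ) = 0 := by
  obtain ⟨P, hP0, hPrel, -⟩ := exists_monic_relation_of_inv (Gamma0 N) (R.ρ a) (R.hol a)
    (R.inv a) (R.growth a)
  set μ := Nat.card (SL(2, ℤ) ⧸ Gamma0 N) with hμ
  have hfun : ∀ z : ℍ, R.ρ a z ^ μ +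
      ∑ i : Fin μ, (P (μ - i)).eval (R1.jInv z) * R.ρ a z ^ (i : ℕ) = 0 := by
    intro z
    have h1 := hPrel 1 z
    rw [one_smul, Finset.sum_range_succ', hP0] at h1
    simp only [eval_one, one_mul, Nat.sub_zero] at h1
    rw [← h1, add_comm]
    congr 1
    rw [← Finset.sum_range_reflect, Finset.sum_range]
    refine Finset.sum_congr rfl fun i _ => ?_
    have hi := i.2
    have e1 : μ - 1 - (i : ℕ) + 1 = μ - i := by omega
    have e2 : μ - (μ - (i : ℕ)) = i := by omega
    rw [e1, e2]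
  obtain ⟨Q, -, hQ⟩ := LD.exists_monic_relation e (x : LaurentSeries K) (a : LaurentSeries K) μ
    (Finset.univ.sup (fun i : Fin μ => (P (μ - i)).natDegree)) (fun i => P (μ - i))
    (fun i => Finset.le_sup (f := fun i : Fin μ => (P (μ - i)).natDegree) (Finset.mem_univ i))
    (R.series_relation a μ (fun i => P (μ - i)) hfun)
  refine ⟨Q, Subtype.ext ?_⟩
  rw [ZeroMemClass.coe_zero, ← hQ]
  simp [Subalgebra.aeval_coe]

/-- Every element of the fraction field `F` of `A` is a root of a nonzero polynomial of degree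
at most `μ` with coefficients in (any model `K0` of) `K(x)`. -/
theorem RealData.exists_poly [NeZero N] (R : RealData N e A x)
    (F : IntermediateField K (LaurentSeries K)) (hxF : (x : LaurentSeries K) ∈ F)
    (hFrac : ∀ h ∈ F, ∃ a b : A, (b : LaurentSeries K) ≠ 0 ∧ h * b = a)
    (K0 : Type*) [Field K0] [Algebra K K0] [Algebra K0 F] [IsScalarTower K K0 F]
    (j0 : K0) (hj0 : algebraMap K0 F j0 = ⟨x, hxF⟩) (h : F) :
    ∃ p : K0[X], p ≠ 0 ∧ p.natDegree ≤ Nat.card (SL(2, ℤ) ⧸ Gamma0 N) ∧ aeval h p = 0 := by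
  classical
  set μ := Nat.card (SL(2, ℤ) ⧸ Gamma0 N) with hμ
  obtain ⟨a, b, hb, hab⟩ := hFrac h h.2
  have hb' : b ≠ 0 := fun hb0 => hb (by rw [hb0]; rfl)
  obtain ⟨Qb, hQb⟩ := R.exists_monic_rel b
  obtain ⟨b', i, hci, hbb'⟩ := exists_mul_eq_coeff hb' μ (fun i => aeval x (Qb i)) hQb
  obtain ⟨Qa, hQa⟩ := R.exists_monic_rel (a * b')
  -- the coercion of polynomial expressions in `j0`
  have hcoe : ∀ q : K[X], ((algebraMap K0 F (aeval j0 q) : F) : LaurentSeries K)
      = aeval (x : LaurentSeries K) q := by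
    intro q
    rw [← Polynomial.aeval_algebraMap_apply, hj0]
    exact (Polynomial.aeval_algHom_apply F.val (⟨x, hxF⟩ : F) q).symm
  set D0 : K0 := aeval j0 (Qb i) with hD0
  have hD0ne : D0 ≠ 0 := by
    intro h0
    apply hci
    apply Subtype.ext
    have := hcoe (Qb i)
    rw [← hD0, h0, map_zero] at this
    rw [← Subalgebra.aeval_coe, ← this]
    rfl
  have key : ((algebraMap K0 F D0 * h : F) : LaurentSeries K) = ((a * b' : A) : LaurentSeries K) := by
    have h1 : ((algebraMap K0 F D0 * h : F) : LaurentSeries K)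
        = aeval (x : LaurentSeries K) (Qb i) * (h : LaurentSeries K) := by
      rw [← hcoe (Qb i)]; rfl
    rw [h1, Subalgebra.aeval_coe, ← hbb']
    push_cast
    rw [← hab]
    ring
  set Φ : K0[X] := X ^ μ + ∑ i : Fin μ, C (aeval j0 (Qa i)) * X ^ (i : ℕ) with hΦ
  have hΦmonic : Φ.Monic := Polynomial.monic_X_pow_add (Polynomial.degree_sum_fin_lt _)
  have hΦdeg : Φ.natDegree ≤ μ := by
    refine Polynomial.natDegree_add_le_of_degree_le (Polynomial.natDegree_X_pow_le μ) ?_
    refine Polynomial.natDegree_sum_le_of_forall_le _ _ fun i _ => ?_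
    exact (Polynomial.natDegree_C_mul_X_pow_le _ _).trans i.2.le
  have hΦroot : aeval (algebraMap K0 F D0 * h) Φ = 0 := by
    apply Subtype.ext
    have h2 := congrArg (fun t : A => (t : LaurentSeries K)) hQa
    simp only [ZeroMemClass.coe_zero] at h2
    rw [ZeroMemClass.coe_zero, ← h2]
    simp only [hΦ, map_add, map_pow, aeval_X, map_sum, map_mul, aeval_C]
    push_cast
    have key' := key
    push_cast at key'
    rw [key']
    congr 1
    refine Finset.sum_congr rfl fun i _ => ?_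
    rw [hcoe]
  refine ⟨Φ.comp (C D0 * X), ?_, ?_, ?_⟩
  · rw [Ne, Polynomial.comp_eq_zero_iff]
    rintro (h0 | ⟨-, h0⟩)
    · exact hΦmonic.ne_zero h0
    · have h1 := congrArg (fun q : K0[X] => q.coeff 1) h0
      simp at h1
      exact hD0ne h1
  · refine Polynomial.natDegree_comp_le.trans ?_
    have h1 : (C D0 * X : K0[X]).natDegree ≤ 1 := by
      rw [Polynomial.natDegree_C_mul_X _ hD0ne]
    calc Φ.natDegree * (C D0 * X : K0[X]).natDegree ≤ μ * 1 := Nat.mul_le_mul hΦdeg h1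
      _ = μ := mul_one μ
  · rw [Polynomial.aeval_comp]
    simpa using hΦroot

/-- **DEG, upper bound.** The field `F` has degree at most `μ = [SL(2, ℤ) : Γ₀(N)]` over (any
model `K0` of) `K(x)`. -/
theorem RealData.finrank_le_card [NeZero N] [CharZero K] (R : RealData N e A x)
    (F : IntermediateField K (LaurentSeries K)) (hxF : (x : LaurentSeries K) ∈ F)
    (hFrac : ∀ h ∈ F, ∃ a b : A, (b : LaurentSeries K) ≠ 0 ∧ h * b = a)
    (K0 : Type*) [Field K0] [Algebra K K0] [Algebra K0 F] [IsScalarTower K K0 F]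
    (j0 : K0) (hj0 : algebraMap K0 F j0 = ⟨x, hxF⟩) :
    FiniteDimensional K0 F ∧ Module.finrank K0 F ≤ Nat.card (SL(2, ℤ) ⧸ Gamma0 N) := by
  have : CharZero K0 := charZero_of_injective_algebraMap (algebraMap K K0).injective
  exact finrank_le_of_forall_exists_poly _ (R.exists_poly F hxF hFrac K0 j0 hj0)

end

end Fermat.Agent.S24.G3
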