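import Fermat.Agent.S24.H25_Wiring
import Fermat.Agent.S24.H24_Deg
import Fermat.Agent.S24.H23_DegFK
import Fermat.Agent.S24.H2_Adapter

/-!
# S24 (helper25): the DEG and ALG fields of `Final.Inputs`

* `realData e` : helper24's `RealData` structure built from helper6's realisation `rho`;
* `finiteDimensional_jF`, `finrank_jF` : `[F : K(j)] = #(SL(2, ℤ) ⧸ Γ₀(N))`;
* `countData_jF`, `princ_jF`, `nontrivial_jF` : the hypotheses of the Riemann-Hurwitz count.
-/

set_option autoImplicit false

noncomputable section

namespace Fermat.Agent.S24.Final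

open AlgebraicCurve KaehlerDifferential MulAction IntermediateField UpperHalfPlane
open scoped MatrixGroups
open CongruenceSubgroup ModularCurve
open Fermat.Agent.S24.RH Fermat.Agent.S24.Comb Fermat.Agent.S24.Real

variable {K : Type*} [Field K] [Algebra ℚ K] (e : K →+* ℂ) (N : ℕ) [NeZero N]

/-- helper24's `RealData` for helper6's realisation `rho`. -/
def realData : G3.RealData N e (AK K N) (jAK K N) where
  ρ := rho e
  ρ_x := rho_jAK e
  ρ_algebraMap := rho_algebraMap e
  hol := mdifferentiable_rho e
  inv := fun a γ hγ z => rho_smul_of_mem_Gamma0 e a hγ z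
  growth := fun a δ => by
    obtain ⟨m, hm⟩ := rho_modGrowth e a δ
    exact ⟨m, hm⟩
  qexp := fun n u b h m => linear_qExpansion_principle e Finset.univ u b h m

omit [NeZero N] in
theorem exists_frac (h : LaurentSeries K) (hh : h ∈ FK K N) :
    ∃ a b : AK K N, (b : LaurentSeries K) ≠ 0 ∧ h * b = a := by
  obtain ⟨a, ha, b, hb, hb0, hab⟩ := exists_div_of_mem_FK hh
  exact ⟨⟨a, ha⟩, ⟨b, hb⟩, hb0, hab⟩

include e

theorem deg_upper [CharZero K] :
    FiniteDimensional K⟮jF K N⟯ (FK K N) ∧
      Module.finrank K⟮jF K N⟯ (FK K N) ≤ Nat.card (X N) :=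
  (realData e N).finrank_le_card (FK K N) (jF K N).2 (exists_frac N) K⟮jF K N⟯
    ⟨jF K N, mem_adjoin_simple_self K (jF K N)⟩ rfl

theorem finiteDimensional_jF [CharZero K] : FiniteDimensional K⟮jF K N⟯ (FK K N) :=
  (deg_upper e N).1

theorem finrank_jF [CharZero K] : Module.finrank K⟮jF K N⟯ (FK K N) = Nat.card (X N) := by
  haveI := finiteDimensional_jF e N
  exact le_antisymm (deg_upper e N).2 (DegLB.card_le_finrank_FK_of_coe N e (jF K N) rfl)

variable [CharZero K] [IsAlgClosed K]

theorem countData_jF :
    CountData (K := K) (jF K N) (Module.finrank K⟮jF K N⟯ (FK K N)) := by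
  haveI := finiteDimensional_jF e N
  exact Alg.countData (jF K N) (transcendental_jF K N)

theorem princ_jF : ∀ f : FK K N, f ≠ 0 → ∀ E : Divisor K (FK K N),
    (∀ v : Place K (FK K N), E v = v.ord f) → Divisor.degree E = 0 := by
  haveI := finiteDimensional_jF e N
  exact Alg.degree_principal (jF K N) (transcendental_jF K N)

theorem nontrivial_jF : Nontrivial Ω[FK K N⁄K] := by
  haveI := finiteDimensional_jF e N
  have hcd := countData_jF e N
  have hn : 0 < Module.finrank K⟮jF K N⟯ (FK K N) := Module.finrank_pos
  obtain ⟨v⟩ := hcd.exists_place hn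
  exact Alg.nontrivial_kaehler (K := K) (jF K N) v

/-- `Final.Inputs` from the three numbers of places (finite values) and the number of places
over infinity. -/
theorem inputs_of_places
    (gen : ∀ c : K, c ≠ 0 → c ≠ 1728 →
      Nat.card {v : Place K (FK K N) // 0 < v.ord (jF K N - algebraMap K (FK K N) c)} =
        Nat.card (X N))
    (zero : Nat.card {v : Place K (FK K N) // 0 < v.ord (jF K N - algebraMap K (FK K N) 0)} =
      Nat.card (orbitRel.Quotient (Subgroup.zpowers (ModularGroup.S * ModularGroup.T)) (X N)))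
    (one : Nat.card {v : Place K (FK K N) // 0 < v.ord (jF K N - algebraMap K (FK K N) 1728)} =
      Nat.card (orbitRel.Quotient (Subgroup.zpowers ModularGroup.S) (X N)))
    (inf : Nat.card {v : Place K (FK K N) // 0 < v.ord (jF K N)⁻¹} =
      Nat.card (orbitRel.Quotient (Subgroup.zpowers ModularGroup.T) (X N))) :
    Inputs K N where
  finDim := finiteDimensional_jF e N
  finrank_eq := finrank_jF e N
  count := countData_jF e N
  princ := princ_jF e N
  nontrivial := nontrivial_jF e N
  gen := gen
  zero := zero
  one := one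
  inf := inf

end Fermat.Agent.S24.Final
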