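import Mathlib
import Fermat.Prelude.Def_AlgebraicCurve_DivisorClassGroup

/-!
# S24, G3/G4 core (helper21): the abstract orbit ↔ place correspondence

`X` is a finite set (the cosets), `r` an equivalence relation on it (the orbits of the stabiliser
of a point, resp. of the translation `T`), and every `k : X` comes with a place `P k` of `F`
and a multiplicity `m k` (think of a valuation `w_k = m k * ord_{P k}` on `F`).

If all `w_k` take the same value `s > 0` on `t`, `w` is constant on the classes of `r`,
`s ∣ (size of the class of k) * m k`, every place over `t` is some `P k`, and the fundamental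
identity `∑_{Q | t} ord_Q t = card X` holds, then the places over `t` correspond bijectively to
the classes of `r`, and the ramification index `ord_Q t` is the size of the class.
-/

set_option autoImplicit false

open AlgebraicCurve

namespace Fermat.Agent.S24.Orb

variable {K F : Type*} [Field K] [Field F] [Algebra K F]

/-- The number of elements of the class of `k`. -/
noncomputable def classCard {X : Type*} (r : Setoid X) (k : X) : ℕ :=
  Nat.card {k' : X // r k k'}

lemma classCard_pos {X : Type*} [Finite X] (r : Setoid X) (k : X) : 0 < classCard r k := by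
  haveI : Nonempty {k' : X // r k k'} := ⟨⟨k, r.refl k⟩⟩
  exact Nat.card_pos

open Classical in
lemma classCard_eq_card_filter {X : Type*} [Fintype X] (r : Setoid X) (k : X) :
    classCard r k = (Finset.univ.filter fun k' : X => r k k').card := by
  rw [classCard, Nat.card_eq_fintype_card, Fintype.card_subtype]

open Classical in
/-- **Orbit–place correspondence** (abstract form). -/
theorem orbit_place {X : Type*} [Fintype X] (r : Setoid X) (P : X → Place K F) (m : X → ℕ)
    (t : F) (s : ℕ) (hs : 0 < s)
    (ha : ∀ k, (m k : ℤ) * (P k).ord t = s)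
    (hb : ∀ k k', r k k' → P k = P k')
    (hc : ∀ k, s ∣ classCard r k * m k)
    (hd : ∀ Q : Place K F, 0 < Q.ord t → ∃ k, P k = Q)
    (S : Finset (Place K F)) (hS : ∀ Q, Q ∈ S ↔ 0 < Q.ord t)
    (hFI : ∑ Q ∈ S, Q.ord t = (Fintype.card X : ℤ)) :
    (∀ k k', P k = P k' ↔ r k k') ∧ ∀ k, (P k).ord t = (classCard r k : ℤ) := by
  -- positivity
  have hmpos : ∀ k, 0 < m k := by
    intro k
    rcases Nat.eq_zero_or_pos (m k) with h0 | h0
    · have := ha k
      rw [h0] at this
      simp at this
      omega
    · exact h0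
  have hepos : ∀ k, 0 < (P k).ord t := by
    intro k
    have h1 : (0 : ℤ) < (m k : ℤ) * (P k).ord t := by rw [ha k]; exact_mod_cast hs
    have h2 : (0 : ℤ) < (m k : ℤ) := by exact_mod_cast hmpos k
    exact (mul_pos_iff_of_pos_left h2).mp h1
  have hPS : ∀ k, P k ∈ S := fun k => (hS _).mpr (hepos k)
  -- `e_k ∣ c_k`, so `e_k ≤ c_k`
  have hec : ∀ k, (P k).ord t ≤ (classCard r k : ℤ) := by
    intro k
    obtain ⟨e, he⟩ : ∃ e : ℕ, (P k).ord t = (e : ℤ) :=
      ⟨((P k).ord t).toNat, (Int.toNat_of_nonneg (hepos k).le).symm⟩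
    have hs' : s = m k * e := by
      have := ha k
      rw [he] at this
      exact_mod_cast this.symm
    have hdvd : m k * e ∣ m k * classCard r k := by
      rw [← hs', mul_comm (m k)]; exact hc k
    have hdvd' : e ∣ classCard r k := (Nat.mul_dvd_mul_iff_left (hmpos k)).mp hdvd
    rw [he]
    exact_mod_cast Nat.le_of_dvd (classCard_pos r k) hdvd'
  -- fibres
  set n : Place K F → ℕ := fun Q => (Finset.univ.filter fun k : X => P k = Q).card with hn
  have hsum : (Fintype.card X : ℤ) = ∑ Q ∈ S, (n Q : ℤ) := by
    have := Finset.card_eq_sum_card_fiberwise (s := (Finset.univ : Finset X)) (t := S) (f := P)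
      (fun k _ => hPS k)
    rw [Finset.card_univ] at this
    rw [this]
    push_cast
    rfl
  have hcn : ∀ k, classCard r k ≤ n (P k) := by
    intro k
    rw [classCard_eq_card_filter]
    apply Finset.card_le_card
    intro k' hk'
    simp only [Finset.mem_filter, Finset.mem_univ, true_and] at hk' ⊢
    exact (hb k k' hk').symm
  have hle : ∀ Q ∈ S, Q.ord t ≤ (n Q : ℤ) := by
    intro Q hQ
    obtain ⟨k, rfl⟩ := hd Q ((hS Q).mp hQ)
    exact le_trans (hec k) (by exact_mod_cast hcn k)
  have heq : ∀ Q ∈ S, Q.ord t = (n Q : ℤ) :=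
    (Finset.sum_eq_sum_iff_of_le hle).mp (by rw [hFI, hsum])
  have hce : ∀ k, (P k).ord t = (classCard r k : ℤ) := by
    intro k
    apply le_antisymm (hec k)
    rw [heq _ (hPS k)]
    exact_mod_cast hcn k
  refine ⟨fun k k' => ⟨fun h => ?_, hb k k'⟩, hce⟩
  -- the class of `k` is the whole fibre
  have hcard : (Finset.univ.filter fun k' : X => r k k').card
      = (Finset.univ.filter fun k' : X => P k' = P k).card := by
    have h1 := hce k
    rw [heq _ (hPS k)] at h1
    have h2 : classCard r k = n (P k) := by exact_mod_cast h1.symm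
    rw [← classCard_eq_card_filter]
    exact h2
  have hsub : (Finset.univ.filter fun k' : X => r k k')
      ⊆ (Finset.univ.filter fun k' : X => P k' = P k) := by
    intro k' hk'
    simp only [Finset.mem_filter, Finset.mem_univ, true_and] at hk' ⊢
    exact (hb k k' hk').symm
  have hEq := Finset.eq_of_subset_of_card_le hsub (le_of_eq hcard.symm)
  have hk' : k' ∈ (Finset.univ.filter fun k' : X => P k' = P k) := by
    simp only [Finset.mem_filter, Finset.mem_univ, true_and]
    exact h.symm
  rw [← hEq] at hk'
  simpa using hk'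

open Classical in
/-- Under the hypotheses of `orbit_place`, the places over `t` are in bijection with the
classes of `r`. -/
theorem card_places_eq_card_classes {X : Type*} [Fintype X] (r : Setoid X) (P : X → Place K F)
    (m : X → ℕ) (t : F) (s : ℕ) (hs : 0 < s)
    (ha : ∀ k, (m k : ℤ) * (P k).ord t = s)
    (hb : ∀ k k', r k k' → P k = P k')
    (hc : ∀ k, s ∣ classCard r k * m k)
    (hd : ∀ Q : Place K F, 0 < Q.ord t → ∃ k, P k = Q)
    (S : Finset (Place K F)) (hS : ∀ Q, Q ∈ S ↔ 0 < Q.ord t)
    (hFI : ∑ Q ∈ S, Q.ord t = (Fintype.card X : ℤ)) :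
    Nat.card {Q : Place K F // 0 < Q.ord t} = Nat.card (Quotient r) ∧
      S.card = Nat.card (Quotient r) := by
  obtain ⟨h1, h2⟩ := orbit_place r P m t s hs ha hb hc hd S hS hFI
  have hpos : ∀ k, 0 < (P k).ord t := by
    intro k
    rw [h2 k]
    exact_mod_cast classCard_pos r k
  let φ : Quotient r → {Q : Place K F // 0 < Q.ord t} :=
    Quotient.lift (fun k => (⟨P k, hpos k⟩ : {Q : Place K F // 0 < Q.ord t}))
      (fun k k' hkk' => Subtype.ext (hb k k' hkk'))
  have hφ : Function.Bijective φ := by
    constructor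
    · intro a b
      induction a using Quotient.inductionOn with
      | _ k =>
        induction b using Quotient.inductionOn with
        | _ k' =>
          intro hab
          have : P k = P k' := congrArg Subtype.val hab
          exact Quotient.sound ((h1 k k').mp this)
    · rintro ⟨Q, hQ⟩
      obtain ⟨k, rfl⟩ := hd Q hQ
      exact ⟨Quotient.mk r k, rfl⟩
  have hcard : Nat.card {Q : Place K F // 0 < Q.ord t} = Nat.card (Quotient r) :=
    (Nat.card_congr (Equiv.ofBijective φ hφ)).symm
  refine ⟨hcard, ?_⟩
  rw [← hcard]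
  have : {Q : Place K F // 0 < Q.ord t} ≃ {Q : Place K F // Q ∈ S} :=
    Equiv.subtypeEquivRight (fun Q => (hS Q).symm)
  rw [Nat.card_congr this, Nat.card_eq_fintype_card, Fintype.card_coe]

/-- Under the hypotheses of `orbit_place`: the contribution of `t` to the Riemann–Hurwitz
count, `∑_{Q | t} (ord_Q t - 1) = card X - #classes`. -/
theorem sum_ord_sub_one {X : Type*} [Fintype X] (r : Setoid X) (P : X → Place K F)
    (m : X → ℕ) (t : F) (s : ℕ) (hs : 0 < s)
    (ha : ∀ k, (m k : ℤ) * (P k).ord t = s)
    (hb : ∀ k k', r k k' → P k = P k')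
    (hc : ∀ k, s ∣ classCard r k * m k)
    (hd : ∀ Q : Place K F, 0 < Q.ord t → ∃ k, P k = Q)
    (S : Finset (Place K F)) (hS : ∀ Q, Q ∈ S ↔ 0 < Q.ord t)
    (hFI : ∑ Q ∈ S, Q.ord t = (Fintype.card X : ℤ)) :
    ∑ Q ∈ S, (Q.ord t - 1) = (Fintype.card X : ℤ) - (Nat.card (Quotient r) : ℤ) := by
  obtain ⟨-, h2⟩ := card_places_eq_card_classes r P m t s hs ha hb hc hd S hS hFI
  rw [Finset.sum_sub_distrib, hFI, ← h2]
  simp

end Fermat.Agent.S24.Orb
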