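import Fermat.Agent.S24.H9_CombFinal
import Fermat.Agent.S24.H21_OrbitPlace

/-!
# S24 COMB (helper9): sizes of the classes of `orbitRel (zpowers g)`

Bridge between the orbit relations `MulAction.orbitRel (Subgroup.zpowers g) X` used by COMB and
helper21's `Orb.classCard` (hypothesis (c) of `Orb.orbit_place`).

Generic part (any group action):
* `h9_classCard_eq_card_orbit`, `h9_classCard_eq_minimalPeriod`,
* `h9_pow_classCard_smul : g ^ classCard • x = x`,
* `h9_classCard_dvd_iff : classCard ∣ n ↔ g ^ n • x = x`,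
* `h9_classCard_eq_one_iff`, `h9_classCard_eq_prime`,
* `h9_dvd_classCard_mul` (hypothesis (c) for an element of prime order).

For `X N = SL(2,ℤ) ⧸ Γ₀(N)`:
* `h9_smul_mk_eq_iff : γ • mk g = mk g ↔ g⁻¹ * γ * g ∈ Γ₀(N)`,
* `h9_classCard_S`, `h9_classCard_ST`, `h9_T_pow_smul`, `h9_classCard_T_dvd`,
* `h9_conj_pow_classCard_mem`, `h9_out_of_orbitRel`.
-/

set_option autoImplicit false

open scoped MatrixGroups
open CongruenceSubgroup ModularCurve MulAction

namespace Fermat.Agent.S24.Comb

open Fermat.Agent.S24.Orb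

section Generic

variable {G X : Type*} [Group G] [MulAction G X]

/-- The class of `x` for `orbitRel (zpowers g)` is the orbit of `x`. -/
theorem h9_classCard_eq_card_orbit (g : G) (x : X) :
    classCard (orbitRel (Subgroup.zpowers g) X) x = Nat.card (orbit (Subgroup.zpowers g) x) := by
  rw [classCard]
  refine Nat.card_congr (Equiv.subtypeEquivRight fun y => ?_)
  rw [orbitRel_apply]
  exact ⟨fun h => (orbit_eq_iff.2 h ▸ mem_orbit_self y : y ∈ orbit _ x),
    fun h => (orbit_eq_iff.2 h ▸ mem_orbit_self x : x ∈ orbit _ y)⟩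

/-- The size of the class of `x` is the minimal period of `x` under `g`. -/
theorem h9_classCard_eq_minimalPeriod [Finite X] (g : G) (x : X) :
    classCard (orbitRel (Subgroup.zpowers g) X) x = Function.minimalPeriod (g • ·) x := by
  classical
  letI : Fintype (orbit (Subgroup.zpowers g) x) := Fintype.ofFinite _
  rw [h9_classCard_eq_card_orbit, Nat.card_eq_fintype_card, minimalPeriod_eq_card]

theorem h9_classCard_dvd_iff [Finite X] (g : G) (x : X) (n : ℕ) :
    classCard (orbitRel (Subgroup.zpowers g) X) x ∣ n ↔ g ^ n • x = x := by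
  rw [h9_classCard_eq_minimalPeriod, pow_smul_eq_iff_minimalPeriod_dvd]

theorem h9_pow_classCard_smul [Finite X] (g : G) (x : X) :
    g ^ classCard (orbitRel (Subgroup.zpowers g) X) x • x = x :=
  (h9_classCard_dvd_iff g x _).1 dvd_rfl

theorem h9_classCard_eq_one_iff [Finite X] (g : G) (x : X) :
    classCard (orbitRel (Subgroup.zpowers g) X) x = 1 ↔ g • x = x := by
  rw [← Nat.dvd_one, h9_classCard_dvd_iff, pow_one]

/-- If `g ^ m` fixes `x` (`m` prime) and `g` does not, the class of `x` has `m` elements. -/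
theorem h9_classCard_eq_prime [Finite X] (g : G) (x : X) {m : ℕ} (hm : m.Prime)
    (hg : g ^ m • x = x) (hx : g • x ≠ x) :
    classCard (orbitRel (Subgroup.zpowers g) X) x = m := by
  have h1 := (h9_classCard_dvd_iff g x m).2 hg
  rcases (Nat.dvd_prime hm).1 h1 with h | h
  · exact absurd ((h9_classCard_eq_one_iff g x).1 h) hx
  · exact h

theorem h9_classCard_eq_ite [Finite X] [DecidableEq X] (g : G) (x : X) {m : ℕ} (hm : m.Prime)
    (hg : g ^ m • x = x) :
    classCard (orbitRel (Subgroup.zpowers g) X) x = if g • x = x then 1 else m := by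
  split_ifs with h
  · exact (h9_classCard_eq_one_iff g x).2 h
  · exact h9_classCard_eq_prime g x hm hg h

/-- Hypothesis (c) of `Orb.orbit_place` for an element of prime order `m`: it suffices that the
multiplicity `k` is divisible by `m` at the fixed points of `g`. -/
theorem h9_dvd_classCard_mul [Finite X] (g : G) (x : X) {m : ℕ} (hm : m.Prime)
    (hg : g ^ m • x = x) (k : ℕ) (hk : g • x = x → m ∣ k) :
    m ∣ classCard (orbitRel (Subgroup.zpowers g) X) x * k := by
  by_cases hx : g • x = x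
  · exact Dvd.dvd.mul_left (hk hx) _
  · rw [h9_classCard_eq_prime g x hm hg hx]
    exact dvd_mul_right _ _

/-- Hypothesis (c) of `Orb.orbit_place` in the cusp case: if `g ^ n` acts trivially and the
multiplicity `k` is divisible by `n / w` whenever `g ^ w` fixes `x` (`w ∣ n`), then
`n ∣ classCard * k`. -/
theorem h9_dvd_classCard_mul_of_width [Finite X] (g : G) (x : X) {n : ℕ}
    (hg : g ^ n • x = x) (k : ℕ)
    (hk : ∀ w : ℕ, w ∣ n → g ^ w • x = x → n ∣ w * k) :
    n ∣ classCard (orbitRel (Subgroup.zpowers g) X) x * k :=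
  hk _ ((h9_classCard_dvd_iff g x n).2 hg) (h9_pow_classCard_smul g x)

/-- Two points in the same class: one is a power of `g` applied to the other. -/
theorem h9_exists_zpow_of_orbitRel (g : G) {x y : X}
    (h : (orbitRel (Subgroup.zpowers g) X) x y) : ∃ n : ℤ, g ^ n • y = x :=
  (orbitRel_zpowers_iff g x y).1 h

end Generic

section Gamma0

variable {N : ℕ}

/-- `γ` fixes the coset of `g` iff `g⁻¹ γ g ∈ Γ₀(N)`. -/
theorem h9_smul_mk_eq_iff (γ g : SL(2, ℤ)) :
    γ • (QuotientGroup.mk g : X N) = QuotientGroup.mk g ↔ g⁻¹ * γ * g ∈ Gamma0 N := by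
  rw [smul_mk, eq_comm, QuotientGroup.eq, mul_assoc]

/-- `γ` fixes `k` iff `(out k)⁻¹ γ (out k) ∈ Γ₀(N)`. -/
theorem h9_smul_eq_iff_out (γ : SL(2, ℤ)) (k : X N) :
    γ • k = k ↔ (Quotient.out k)⁻¹ * γ * Quotient.out k ∈ Gamma0 N := by
  conv_lhs => rw [← QuotientGroup.out_eq' k]
  exact h9_smul_mk_eq_iff γ (Quotient.out k)

/-- Representatives of two cosets in the same `⟨γ⟩`-orbit. -/
theorem h9_out_of_orbitRel (γ : SL(2, ℤ)) {k k' : X N}
    (h : (orbitRel (Subgroup.zpowers γ) (X N)) k k') :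
    ∃ (n : ℤ) (δ : SL(2, ℤ)), δ ∈ Gamma0 N ∧ Quotient.out k = γ ^ n * Quotient.out k' * δ := by
  obtain ⟨n, hn⟩ := h9_exists_zpow_of_orbitRel γ h
  have h1 : (QuotientGroup.mk (γ ^ n * Quotient.out k') : X N) = QuotientGroup.mk (Quotient.out k) := by
    rw [← smul_mk, QuotientGroup.out_eq', QuotientGroup.out_eq', hn]
  rw [QuotientGroup.eq] at h1
  exact ⟨n, _, h1, by group⟩

/-- `T ^ N` acts trivially on `SL(2,ℤ) ⧸ Γ₀(N)`. -/
theorem h9_T_pow_smul (x : X N) : ModularGroup.T ^ N • x = x := by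
  induction x using QuotientGroup.induction_on with
  | H g =>
    rw [smul_mk, mk_eq_mk_iff]
    have h := Fermat.Agent.S24.Comb.h12_T_zpow_mul_col (N : ℤ) g
    rw [zpow_natCast] at h
    rw [h.1, h.2]
    push_cast
    rw [ZMod.natCast_self]
    ring

variable [NeZero N]

theorem h9_classCard_S (k : X N) [Decidable (ModularGroup.S • k = k)] :
    classCard (orbitRel (Subgroup.zpowers ModularGroup.S) (X N)) k =
      if ModularGroup.S • k = k then 1 else 2 := by
  split_ifs with h
  · exact (h9_classCard_eq_one_iff _ k).2 h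
  · exact h9_classCard_eq_prime _ k Nat.prime_two (S_sq_smul k) h

theorem h9_classCard_ST (k : X N) [Decidable ((ModularGroup.S * ModularGroup.T) • k = k)] :
    classCard (orbitRel (Subgroup.zpowers (ModularGroup.S * ModularGroup.T)) (X N)) k =
      if (ModularGroup.S * ModularGroup.T) • k = k then 1 else 3 := by
  split_ifs with h
  · exact (h9_classCard_eq_one_iff _ k).2 h
  · exact h9_classCard_eq_prime _ k Nat.prime_three (ST_cube_smul k) h

/-- The width of a cusp divides `N`. -/
theorem h9_classCard_T_dvd (k : X N) :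
    classCard (orbitRel (Subgroup.zpowers ModularGroup.T) (X N)) k ∣ N :=
  (h9_classCard_dvd_iff _ k N).2 (h9_T_pow_smul k)

/-- `(out k)⁻¹ γ ^ w (out k) ∈ Γ₀(N)` for `w` the size of the `⟨γ⟩`-orbit of `k`. -/
theorem h9_conj_pow_classCard_mem (γ : SL(2, ℤ)) (k : X N) :
    (Quotient.out k)⁻¹ * γ ^ classCard (orbitRel (Subgroup.zpowers γ) (X N)) k * Quotient.out k
      ∈ Gamma0 N :=
  (h9_smul_eq_iff_out _ k).1 (h9_pow_classCard_smul γ k)

/-- Hypothesis (c) of `Orb.orbit_place` for `S` (`s = 2`). -/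
theorem h9_two_dvd_classCard_mul (k : X N) (m : ℕ)
    (hm : (Quotient.out k)⁻¹ * ModularGroup.S * Quotient.out k ∈ Gamma0 N → 2 ∣ m) :
    2 ∣ classCard (orbitRel (Subgroup.zpowers ModularGroup.S) (X N)) k * m :=
  h9_dvd_classCard_mul _ k Nat.prime_two (S_sq_smul k) m
    fun h => hm ((h9_smul_eq_iff_out _ k).1 h)

/-- Hypothesis (c) of `Orb.orbit_place` for `S * T` (`s = 3`). -/
theorem h9_three_dvd_classCard_mul (k : X N) (m : ℕ)
    (hm : (Quotient.out k)⁻¹ * (ModularGroup.S * ModularGroup.T) * Quotient.out k ∈ Gamma0 N →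
      3 ∣ m) :
    3 ∣ classCard (orbitRel (Subgroup.zpowers (ModularGroup.S * ModularGroup.T)) (X N)) k * m :=
  h9_dvd_classCard_mul _ k Nat.prime_three (ST_cube_smul k) m
    fun h => hm ((h9_smul_eq_iff_out _ k).1 h)

/-- Hypothesis (c) of `Orb.orbit_place` for `T` (`s = N`): it suffices that `N ∣ w * m` for every
`w ∣ N` such that `(out k)⁻¹ T ^ w (out k) ∈ Γ₀(N)`. -/
theorem h9_N_dvd_classCard_mul (k : X N) (m : ℕ)
    (hm : ∀ w : ℕ, w ∣ N →
      (Quotient.out k)⁻¹ * ModularGroup.T ^ w * Quotient.out k ∈ Gamma0 N → N ∣ w * m) :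
    N ∣ classCard (orbitRel (Subgroup.zpowers ModularGroup.T) (X N)) k * m :=
  h9_dvd_classCard_mul_of_width _ k (h9_T_pow_smul k) m
    fun w hw h => hm w hw ((h9_smul_eq_iff_out _ k).1 h)

end Gamma0

end Fermat.Agent.S24.Comb
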