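import Fermat.Agent.S24.H12_CuspPlace
import Fermat.Agent.S24.H9_CombClass
import Fermat.Agent.S24.H25_Inputs
import Fermat.Agent.S24.H13_CRT

/-!
# S24, G4.4 (helper12): the number of places over `j = ∞`

The cusp places `cosetPlace e N k := cuspPlace e N (Quotient.out k)⁻¹`, `k : SL(2, ℤ) ⧸ Γ₀(N)`,
satisfy the hypotheses (a), (b), (c) of `Orb.orbit_place` for the orbit relation of `⟨T⟩` with
`t = 1 / j`, `s = N`.  Together with the fundamental identity for `1 / j` and the surjectivity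
(every place over `j = ∞` is a cusp place) this gives

`#{places over j = ∞} = #(⟨T⟩ \ SL(2, ℤ) ⧸ Γ₀(N))`.
-/

set_option autoImplicit false

open UpperHalfPlane Filter Topology
open CongruenceSubgroup AlgebraicCurve MulAction IntermediateField
open scoped MatrixGroups ModularForm Manifold

namespace Fermat.Agent.S24.G4

open Fermat.Agent.S24.Real Fermat.Agent.S24.Cusp Fermat.Agent.S24.Orb Fermat.Agent.S24.Comb

section Count

variable {K : Type*} [Field K] [Algebra ℚ K] (e : K →+* ℂ) (N : ℕ) [NeZero N]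

/-- The cusp place attached to a coset `k : SL(2, ℤ) ⧸ Γ₀(N)`. -/
noncomputable def cosetPlace (k : X N) : Place K (FK K N) := cuspPlace e N (Quotient.out k)⁻¹

/-- The multiplicity of the cusp valuation attached to a coset. -/
noncomputable def cosetMult (k : X N) : ℕ := cuspMult e N (Quotient.out k)⁻¹

theorem cosetPlace_def (k : X N) : cosetPlace e N k = cuspPlace e N (Quotient.out k)⁻¹ := rfl

theorem cosetMult_def (k : X N) : cosetMult e N k = cuspMult e N (Quotient.out k)⁻¹ := rfl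

/-- The cusp place of the coset of `g` is the cusp place of `g⁻¹`. -/
theorem cosetPlace_mk (g : SL(2, ℤ)) :
    cosetPlace e N (QuotientGroup.mk g : X N) = cuspPlace e N g⁻¹ := by
  obtain ⟨δ, hδ⟩ := QuotientGroup.mk_out_eq_mul (Gamma0 N) g
  rw [cosetPlace, hδ, mul_inv_rev]
  exact cuspPlace_Gamma0_mul e (inv_mem δ.2) g⁻¹

/-- Hypothesis (a) of `Orb.orbit_place` (`t = 1 / j`, `s = N`). -/
theorem cosetMult_mul_ord (k : X N) :
    (cosetMult e N k : ℤ) * (cosetPlace e N k).ord (jF K N)⁻¹ = (N : ℤ) :=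
  cuspMult_mul_ord_jF_inv e _

/-- The cusp places lie over `j = ∞`. -/
theorem ord_cosetPlace_pos (k : X N) : 0 < (cosetPlace e N k).ord (jF K N)⁻¹ :=
  ord_cuspPlace_jF_inv_pos e _

/-- Hypothesis (b) of `Orb.orbit_place`: cosets in the same `⟨T⟩`-orbit have the same cusp
place. -/
theorem cosetPlace_eq_of_orbitRel (k k' : X N)
    (h : (orbitRel (Subgroup.zpowers ModularGroup.T) (X N)) k k') :
    cosetPlace e N k = cosetPlace (K := K) e N k' := by
  obtain ⟨n, δ, hδ, hout⟩ := h9_out_of_orbitRel ModularGroup.T h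
  have h1 : (Quotient.out k)⁻¹ = δ⁻¹ * ((Quotient.out k')⁻¹ * ModularGroup.T ^ (-n)) := by
    rw [hout]
    group
  rw [cosetPlace, cosetPlace, h1, cuspPlace_Gamma0_mul e (inv_mem hδ), cuspPlace_mul_T_zpow]

/-- Hypothesis (c) of `Orb.orbit_place`: `N ∣ (size of the orbit) * multiplicity`. -/
theorem dvd_classCard_mul_cosetMult (k : X N) :
    N ∣ classCard (orbitRel (Subgroup.zpowers ModularGroup.T) (X N)) k * cosetMult e N k := by
  refine h9_N_dvd_classCard_mul k _ ?_
  intro w hwN hw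
  obtain ⟨d, hd⟩ := hwN
  have hN : N = d * w := by rw [hd, mul_comm]
  have hw' : (Quotient.out k)⁻¹ * ModularGroup.T ^ (w : ℤ) * ((Quotient.out k)⁻¹)⁻¹
      ∈ Gamma0 N := by
    rw [inv_inv, zpow_natCast]
    exact hw
  have h2 : d ∣ cosetMult e N k := dvd_cuspMult_of_width e _ hN hw'
  obtain ⟨c, hc⟩ := h2
  exact ⟨c, by rw [hc, hN]; ring⟩

open Classical in
/-- **G4.4, abstract form.**  If every place over `j = ∞` is a cusp place and the fundamental
identity holds for `1 / j`, the places over `j = ∞` are in bijection with the `⟨T⟩`-orbits on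
`SL(2, ℤ) ⧸ Γ₀(N)`, and the ramification indices are the orbit sizes. -/
theorem card_places_inf_of_surj_of_fundId
    (hd : ∀ Q : Place K (FK K N), 0 < Q.ord (jF K N)⁻¹ → ∃ k : X N, cosetPlace e N k = Q)
    (hFI : RH.FundId (K := K) (jF K N)⁻¹ (Nat.card (X N))) :
    Nat.card {v : Place K (FK K N) // 0 < v.ord (jF K N)⁻¹} =
      Nat.card (orbitRel.Quotient (Subgroup.zpowers ModularGroup.T) (X N)) := by
  let _ : Fintype (X N) := Fintype.ofFinite _
  obtain ⟨S, hS, hsum⟩ := hFI
  have hsum' : ∑ Q ∈ S, Q.ord (jF K N)⁻¹ = (Fintype.card (X N) : ℤ) := by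
    rw [hsum, Nat.card_eq_fintype_card]
  exact (card_places_eq_card_classes (orbitRel (Subgroup.zpowers ModularGroup.T) (X N))
    (cosetPlace e N) (cosetMult e N) (jF K N)⁻¹ N (Nat.pos_of_ne_zero (NeZero.ne N))
    (cosetMult_mul_ord e N) (cosetPlace_eq_of_orbitRel e N) (dvd_classCard_mul_cosetMult e N)
    hd S hS hsum').1

open Classical in
/-- Under the same hypotheses: two cosets have the same cusp place iff they are in the same
`⟨T⟩`-orbit, and the ramification index of `1 / j` at a cusp place is the size of the orbit. -/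
theorem cosetPlace_eq_iff_of_surj_of_fundId
    (hd : ∀ Q : Place K (FK K N), 0 < Q.ord (jF K N)⁻¹ → ∃ k : X N, cosetPlace e N k = Q)
    (hFI : RH.FundId (K := K) (jF K N)⁻¹ (Nat.card (X N))) :
    (∀ k k' : X N, cosetPlace e N k = cosetPlace e N k' ↔
        (orbitRel (Subgroup.zpowers ModularGroup.T) (X N)) k k') ∧
      ∀ k : X N, (cosetPlace e N k).ord (jF K N)⁻¹ =
        (classCard (orbitRel (Subgroup.zpowers ModularGroup.T) (X N)) k : ℤ) := by
  let _ : Fintype (X N) := Fintype.ofFinite _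
  obtain ⟨S, hS, hsum⟩ := hFI
  have hsum' : ∑ Q ∈ S, Q.ord (jF K N)⁻¹ = (Fintype.card (X N) : ℤ) := by
    rw [hsum, Nat.card_eq_fintype_card]
  exact orbit_place (orbitRel (Subgroup.zpowers ModularGroup.T) (X N))
    (cosetPlace e N) (cosetMult e N) (jF K N)⁻¹ N (Nat.pos_of_ne_zero (NeZero.ne N))
    (cosetMult_mul_ord e N) (cosetPlace_eq_of_orbitRel e N) (dvd_classCard_mul_cosetMult e N)
    hd S hS hsum'

variable [CharZero K] [IsAlgClosed K]

include e in
/-- The fundamental identity for `1 / j`: `∑_{Q | ∞} ord_Q (1 / j) = #(SL(2, ℤ) ⧸ Γ₀(N))`. -/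
theorem fundId_jF_inv : RH.FundId (K := K) (jF K N)⁻¹ (Nat.card (X N)) := by
  have : FiniteDimensional K⟮Final.jF K N⟯ (FK K N) := Final.finiteDimensional_jF e N
  have h := Alg.fundId_inv (K := K) (Final.jF K N) (Final.transcendental_jF K N)
  rw [Final.finrank_jF e N] at h
  exact h

/-- **G4.4.**  If every place over `j = ∞` is a cusp place, then
`#{places over j = ∞} = #(⟨T⟩ \ SL(2, ℤ) ⧸ Γ₀(N))` (the field `inf` of `Final.Inputs`). -/
theorem card_places_inf_of_surj
    (hd : ∀ Q : Place K (FK K N), 0 < Q.ord (jF K N)⁻¹ → ∃ k : X N, cosetPlace e N k = Q) :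
    Nat.card {v : Place K (FK K N) // 0 < v.ord (Final.jF K N)⁻¹} =
      Nat.card (orbitRel.Quotient (Subgroup.zpowers ModularGroup.T) (X N)) :=
  card_places_inf_of_surj_of_fundId e N hd (fundId_jF_inv e N)

/-- **G4.4 from the norm hypothesis at infinity** (shape of `CRT.surj_of_norm_R_inv_of_ord_pos`).
-/
theorem card_places_inf_of_norm
    (hNORM : ∀ h ∈ CRT.R K (jF K N)⁻¹, h ≠ 0 → ∃ Q₀ : Polynomial K,
      (∃ g ∈ CRT.R K (jF K N)⁻¹, Polynomial.aeval (jF K N)⁻¹ Q₀ = h * g) ∧
        (Q₀.eval 0 = 0 → ∃ k : X N, 0 < (cosetPlace e N k).ord h)) :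
    Nat.card {v : Place K (FK K N) // 0 < v.ord (Final.jF K N)⁻¹} =
      Nat.card (orbitRel.Quotient (Subgroup.zpowers ModularGroup.T) (X N)) := by
  have : FiniteDimensional K⟮jF K N⟯ (FK K N) := Final.finiteDimensional_jF e N
  exact card_places_inf_of_surj e N
    (CRT.surj_of_norm_R_inv_of_ord_pos (cosetPlace e N) (jF K N) (ord_cosetPlace_pos e N) hNORM)

end Count

end Fermat.Agent.S24.G4
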