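import Fermat.Agent.S24.H2_FundId

/-!
# S24, package ALG (helper2), part 3: zeros and poles of a function, principal divisors

`F` is a field containing a field `K` of characteristic zero.  For `h : F` transcendental over
`K` with `F` finite over `K⟮h⟯`:
* `exists_zeros` : the places where `h` has positive order form a finite set `Z` and
  `∑ v ∈ Z, ord_v h * deg v = [F : K⟮h⟯]`.
-/

set_option autoImplicit false
set_option linter.style.haveILetI false
set_option linter.unusedSectionVars false

namespace Fermat.Agent.S24.Alg

open IsDedekindDomain AlgebraicCurve WithZero Polynomial IntermediateField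

variable {K F : Type*} [Field K] [CharZero K] [Field F] [Algebra K F]

/-- `K[X]` has fraction field `K⟮h⟯` when `h` is transcendental. -/
theorem isFractionRing_adjoin (h : F) (hh : Transcendental K h) :
    letI : Algebra K[X] K⟮h⟯ := (aeval (AdjoinSimple.gen K h)).toRingHom.toAlgebra
    IsFractionRing K[X] K⟮h⟯ := by
  letI : Algebra K[X] K⟮h⟯ := (aeval (AdjoinSimple.gen K h)).toRingHom.toAlgebra
  let e : RatFunc K ≃ₐ[K[X]] K⟮h⟯ :=
    AlgEquiv.ofRingEquiv (f := (RatFunc.algEquivOfTranscendental h hh).toRingEquiv) (fun g => by
      show RatFunc.algEquivOfTranscendental h hh (algebraMap K[X] (RatFunc K) g) = _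
      rw [RatFunc.algEquivOfTranscendental_algebraMap]
      rfl)
  exact IsLocalization.isLocalization_of_algEquiv _ e

/-- A valuation ring of `F` containing `K` and `h` contains the integral closure of `K[h]`. -/
theorem integralClosure_le_place (h : F) (v : Place K F) (hv : h ∈ v.toValuationSubring)
    (x : F)
    (hx : letI : Algebra K[X] F := (aeval h).toRingHom.toAlgebra; IsIntegral K[X] x) :
    x ∈ v.toValuationSubring := by
  letI : Algebra K[X] F := (aeval h).toRingHom.toAlgebra
  have hmem : ∀ g : K[X], algebraMap K[X] F g ∈ v.toValuationSubring := by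
    intro g
    show aeval h g ∈ v.toValuationSubring
    rw [aeval_def, eval₂_eq_sum_range]
    refine sum_mem fun i _ => mul_mem (v.algebraMap_mem' _) (pow_mem hv _)
  letI : Algebra K[X] v.toValuationSubring :=
    ((algebraMap K[X] F).codRestrict v.toValuationSubring.toSubring hmem).toAlgebra
  haveI : IsScalarTower K[X] v.toValuationSubring F :=
    IsScalarTower.of_algebraMap_eq (fun _ => rfl)
  have hx' : IsIntegral v.toValuationSubring x := hx.tower_top
  obtain ⟨y, hy⟩ := IsIntegrallyClosed.isIntegral_iff.1 hx'
  rw [← hy]
  exact y.2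

/-- **Zeros of a function.** The places where `h` has positive order form a finite set, and
the sum of `ord * deg` over this set is the degree `[F : K(h)]`. -/
theorem exists_zeros (h : F) (hh : Transcendental K h) [FiniteDimensional K⟮h⟯ F] :
    ∃ Z : Finset (Place K F), (∀ v, v ∈ Z ↔ 0 < v.ord h) ∧
      ∑ v ∈ Z, v.ord h * (v.deg : ℤ) = (Module.finrank K⟮h⟯ F : ℤ) := by
  classical
  letI a1 : Algebra K[X] F := (aeval h).toRingHom.toAlgebra
  letI a2 : Algebra K[X] K⟮h⟯ := (aeval (AdjoinSimple.gen K h)).toRingHom.toAlgebra
  haveI t1 : IsScalarTower K[X] K⟮h⟯ F := IsScalarTower.of_algebraMap_eq (fun g => by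
    show aeval h g = ((aeval (AdjoinSimple.gen K h) g : K⟮h⟯) : F)
    rw [← IntermediateField.algebraMap_apply, ← aeval_algebraMap_apply]
    rfl)
  haveI t2 : IsScalarTower K K[X] F := IsScalarTower.of_algebraMap_eq (fun a => by
    show algebraMap K F a = aeval h (C a)
    rw [aeval_C])
  haveI fr : IsFractionRing K[X] K⟮h⟯ := isFractionRing_adjoin h hh
  haveI : CharZero K⟮h⟯ := charZero_of_injective_algebraMap (algebraMap K K⟮h⟯).injective
  haveI sep : Algebra.IsSeparable K⟮h⟯ F := inferInstance
  let B := integralClosure K[X] F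
  haveI dd : IsDedekindDomain B := IsIntegralClosure.isDedekindDomain K[X] K⟮h⟯ F B
  haveI frB : IsFractionRing B F :=
    IsIntegralClosure.isFractionRing_of_finite_extension K[X] K⟮h⟯ F B
  haveI fin : Module.Finite K[X] B := IsIntegralClosure.finite K[X] K⟮h⟯ F B
  have hinj : Function.Injective (algebraMap K[X] F) := by
    show Function.Injective (aeval h)
    exact transcendental_iff_injective.1 hh
  haveI fa : FaithfulSMul K[X] B := by
    rw [faithfulSMul_iff_algebraMap_injective]
    intro x y hxy
    apply hinj
    have := congrArg (algebraMap B F) hxy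
    rwa [← IsScalarTower.algebraMap_apply, ← IsScalarTower.algebraMap_apply] at this
  haveI t3 : IsScalarTower K B F := inferInstance
  haveI t4 : IsScalarTower K K[X] B := inferInstance
  have key := fundamental_identity (K := K) (B := B) (F := F) (0 : K)
  have hX : algebraMap B F (algebraMap K[X] B (X - C (0 : K))) = h := by
    rw [← IsScalarTower.algebraMap_apply]
    show aeval h (X - C (0 : K)) = h
    simp
  rw [hX] at key
  have hh0 : h ≠ 0 := fun h0 => hh (h0 ▸ isAlgebraic_zero)
  have hXB : algebraMap K[X] B (X - C (0 : K)) ≠ 0 := algebraMap_X_sub_C_ne_zero (B := B) 0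
  let φ : (idealAt (0 : K)).primesOver B → Place K F := fun q => placeOfPrime K (primeOver 0 q)
  have hφ : Function.Injective φ := by
    intro q₁ q₂ h12
    have := placeOfPrime_injective (K := K) (F := F) h12
    apply Subtype.ext
    have h3 := congrArg HeightOneSpectrum.asIdeal this
    simpa using h3
  refine ⟨Finset.univ.image φ, fun v => ?_, ?_⟩
  · rw [Finset.mem_image]
    constructor
    · rintro ⟨q, -, rfl⟩
      show 0 < (placeOfPrime K (primeOver 0 q) (F := F)).ord h
      rw [← hX, ord_placeOfPrime_pos_iff _ hXB, primeOver_asIdeal]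
      haveI : q.1.LiesOver (idealAt (0 : K)) := q.2.2
      have : X - C (0 : K) ∈ q.1.under K[X] := by
        rw [← q.1.over_def (idealAt (0 : K)), idealAt]
        exact Ideal.mem_span_singleton_self _
      exact this
    · intro hv
      have hmem : h ∈ v.toValuationSubring := mem_of_ord_pos v hv
      obtain ⟨P, rfl⟩ := exists_prime_of_le (B := B) v
        (fun b => integralClosure_le_place h v hmem _ (show IsIntegral K[X] (b : F) from b.2))
      have hP : algebraMap K[X] B (X - C (0 : K)) ∈ P.asIdeal := by
        rw [← ord_placeOfPrime_pos_iff (K := K) (F := F) P hXB, hX]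
        exact hv
      have hle : idealAt (0 : K) ≤ P.asIdeal.under K[X] := by
        rw [idealAt, Ideal.span_le, Set.singleton_subset_iff]
        exact hP
      have hlo : P.asIdeal.LiesOver (idealAt (0 : K)) := by
        constructor
        haveI : (P.asIdeal.under K[X]).IsPrime := Ideal.IsPrime.under K[X] P.asIdeal
        exact (idealAt_isMaximal (0 : K)).eq_of_le (Ideal.IsPrime.ne_top inferInstance) hle
      exact ⟨⟨P.asIdeal, P.isPrime, hlo⟩, Finset.mem_univ _, rfl⟩
  · rw [Finset.sum_image (fun q₁ _ q₂ _ h12 => hφ h12), key,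
      IsFractionRing.finrank_eq K[X] K⟮h⟯ B F]

end Fermat.Agent.S24.Alg
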