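import Fermat.Agent.S24.H13_CRT
import Fermat.Agent.S24.H13_Transc
import Fermat.Agent.S24.H2_FunField

/-!
# S24, package NORM, algebraic half (leaf by helper23)

`F / K` a field extension, `K` of characteristic zero, `x : F` transcendental over `K` with `F`
finite over `K(x)`.  For `h` in the integral closure `R` of `K[x]` in `F`:

* the norm `N_{F/K(x)} h` is a polynomial `Q₀ (x)`, `Q₀ ∈ K[X]`;
* `h` divides `Q₀ (x)` in `R`.

This is the algebraic input of the hypothesis `hNORM` of `Orb.surj_of_norm`.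
-/

set_option autoImplicit false
set_option linter.style.haveILetI false
set_option linter.unusedSectionVars false

namespace Fermat.Agent.S24.NormAlg

open Polynomial IntermediateField

variable {K F : Type*} [Field K] [CharZero K] [Field F] [Algebra K F]

/-- **Norm polynomial.**  For `h` integral over `K[x]` the norm of `h` over `K(x)` is `Q₀ (x)`
for a polynomial `Q₀`, and `Q₀ (x) = h * g` with `g` integral over `K[x]`. -/
theorem exists_norm_poly (x : F) (hx : Transcendental K x) [FiniteDimensional K⟮x⟯ F]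
    (h : F) (hh : h ∈ CRT.R K x) :
    ∃ Q₀ : K[X], algebraMap K⟮x⟯ F (Algebra.norm K⟮x⟯ h) = aeval x Q₀ ∧
      ∃ g ∈ CRT.R K x, aeval x Q₀ = h * g := by
  classical
  letI a1 : Algebra K[X] F := (aeval x).toRingHom.toAlgebra
  letI a2 : Algebra K[X] K⟮x⟯ := (aeval (AdjoinSimple.gen K x)).toRingHom.toAlgebra
  haveI t1 : IsScalarTower K[X] K⟮x⟯ F := IsScalarTower.of_algebraMap_eq (fun g => by
    show aeval x g = ((aeval (AdjoinSimple.gen K x) g : K⟮x⟯) : F)
    rw [← IntermediateField.algebraMap_apply, ← aeval_algebraMap_apply]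
    rfl)
  haveI fr : IsFractionRing K[X] K⟮x⟯ := Alg.isFractionRing_adjoin x hx
  haveI : CharZero K⟮x⟯ := charZero_of_injective_algebraMap (algebraMap K K⟮x⟯).injective
  haveI sep : Algebra.IsSeparable K⟮x⟯ F := inferInstance
  let B := integralClosure K[X] F
  haveI dd : IsDedekindDomain B := IsIntegralClosure.isDedekindDomain K[X] K⟮x⟯ F B
  haveI frB : IsFractionRing B F :=
    IsIntegralClosure.isFractionRing_of_finite_extension K[X] K⟮x⟯ F B
  haveI fin : Module.Finite K[X] B := IsIntegralClosure.finite K[X] K⟮x⟯ F B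
  have hinj : Function.Injective (algebraMap K[X] F) := by
    show Function.Injective (aeval x)
    exact transcendental_iff_injective.1 hx
  haveI fa : FaithfulSMul K[X] B := by
    rw [faithfulSMul_iff_algebraMap_injective]
    intro p q hpq
    apply hinj
    have := congrArg (algebraMap B F) hpq
    rwa [← IsScalarTower.algebraMap_apply, ← IsScalarTower.algebraMap_apply] at this
  -- `h` as an element of `B`
  have hint : IsIntegral K[X] h := (CRT.mem_R_iff_isIntegral_polynomial x h).1 hh
  let hB : B := ⟨h, hint⟩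
  refine ⟨Algebra.intNorm K[X] B hB, ?_, ?_⟩
  · have key := Algebra.algebraMap_intNorm (A := K[X]) (K := K⟮x⟯) (L := F) (B := B) hB
    have h1 : algebraMap K[X] F (Algebra.intNorm K[X] B hB) =
        algebraMap K⟮x⟯ F (algebraMap K[X] K⟮x⟯ (Algebra.intNorm K[X] B hB)) :=
      IsScalarTower.algebraMap_apply K[X] K⟮x⟯ F _
    show algebraMap K⟮x⟯ F (Algebra.norm K⟮x⟯ h) = algebraMap K[X] F (Algebra.intNorm K[X] B hB)
    rw [h1, key]
    rfl
  · obtain ⟨g, hg⟩ := Algebra.dvd_algebraMap_intNorm_self (A := K[X]) (B := B) hB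
    refine ⟨(g : F), (CRT.mem_R_iff_isIntegral_polynomial x (g : F)).2 g.2, ?_⟩
    have := congrArg (algebraMap B F) hg
    rw [← IsScalarTower.algebraMap_apply] at this
    show algebraMap K[X] F (Algebra.intNorm K[X] B hB) = h * (g : F)
    rw [this, map_mul]
    rfl

/-- The norm (as an element of `F`) only depends on the intermediate field as a set. -/
theorem algebraMap_norm_congr {E₁ E₂ : IntermediateField K F} (hE : E₁ = E₂) (h : F) :
    algebraMap E₁ F (Algebra.norm E₁ h) = algebraMap E₂ F (Algebra.norm E₂ h) := by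
  subst hE
  rfl

/-- **Norm polynomial at infinity.**  For `h` integral over `K[x⁻¹]` the norm of `h` over `K(x)`
is `Q₀ (x⁻¹)` for a polynomial `Q₀`, and `Q₀ (x⁻¹) = h * g` with `g` integral over `K[x⁻¹]`. -/
theorem exists_norm_poly_inv (x : F) (hx : Transcendental K x) [FiniteDimensional K⟮x⟯ F]
    (h : F) (hh : h ∈ CRT.R K x⁻¹) :
    ∃ Q₀ : K[X], algebraMap K⟮x⟯ F (Algebra.norm K⟮x⟯ h) = aeval x⁻¹ Q₀ ∧
      ∃ g ∈ CRT.R K x⁻¹, aeval x⁻¹ Q₀ = h * g := by
  haveI : FiniteDimensional K⟮x⁻¹⟯ F := LD.finiteDimensional_adjoin_inv x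
  obtain ⟨Q₀, h1, h2⟩ := exists_norm_poly x⁻¹ (LD.transcendental_inv hx) h hh
  exact ⟨Q₀, (algebraMap_norm_congr (LD.adjoin_inv x).symm h).trans h1, h2⟩

/-- **Norm polynomial over a finite value.**  The same as `exists_norm_poly`, with the polynomial
written in the variable `x - c`. -/
theorem exists_norm_poly_sub (x : F) (hx : Transcendental K x) [FiniteDimensional K⟮x⟯ F]
    (c : K) (h : F) (hh : h ∈ CRT.R K x) :
    ∃ Q₀ : K[X], algebraMap K⟮x⟯ F (Algebra.norm K⟮x⟯ h) = aeval (x - algebraMap K F c) Q₀ ∧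
      ∃ g ∈ CRT.R K x, aeval (x - algebraMap K F c) Q₀ = h * g := by
  obtain ⟨Q₀, h1, g, hg, h2⟩ := exists_norm_poly x hx h hh
  have key : aeval (x - algebraMap K F c) (Q₀.comp (X + C c)) = aeval x Q₀ := by
    rw [aeval_comp]
    congr 1
    simp
  exact ⟨Q₀.comp (X + C c), h1.trans key.symm, g, hg, key.trans h2⟩

end Fermat.Agent.S24.NormAlg
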