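import Fermat.Agent.S24.H7_CuspJ

/-!
# S24, package CUSP (helper7): the sum formula behind the norm argument at `i∞`
-/

set_option autoImplicit false

namespace Fermat.Agent.S24.Cusp

open UpperHalfPlane Filter Topology Function ModularForm EisensteinSeries Polynomial
open Fermat.Agent.S23
open scoped MatrixGroups ModularForm Manifold Real

variable {X : Type*} [Fintype X] {N : ℕ}

/-- If `∏ a_k = P(j)` then the orders at `i∞` of the `a_k` add up to `-N deg P`. -/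
theorem sum_ordInf_eq_of_prod_eq (hN : N ≠ 0) (a : X → ℍ → ℂ)
    (ha : ∀ k, MeroAtInf (N : ℝ) (a k)) (ha0 : ∀ k, a k ≠ 0) (A : ℂ[X])
    (h : ∀ z, ∏ k, a k z = A.eval (R4.jInv z)) :
    ∑ k, ordInf (N : ℝ) (a k) = -((N : ℤ) * A.natDegree) := by
  have hN' : (0 : ℝ) < N := Nat.cast_pos.mpr (Nat.pos_of_ne_zero hN)
  have hprod : (∏ k, a k) = fun z => A.eval (R4.jInv z) := by
    funext z
    rw [Finset.prod_apply]
    exact h z
  have hA : A ≠ 0 := by
    rintro rfl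
    have h0 : (∏ k, a k) = 0 := by
      rw [hprod]; funext z; simp
    exact MeroAtInf.prod_ne_zero (h := (N : ℝ)) Finset.univ (fun k _ => ha k)
      (fun k _ => ha0 k) h0
  rw [← MeroAtInf.ordInf_prod Finset.univ hN' (fun k _ => ha k) (fun k _ => ha0 k), hprod,
    ordInf_eval_jInv_nat hN hA]

/-- **Sum formula at the cusp.** If `A(j) ∏ b_k = B(j) ∏ a_k`, the orders at `i∞` of the
quotients `a_k / b_k` add up to `-N (deg A - deg B)`. -/
theorem sum_ordInf_sub_eq (hN : N ≠ 0) (a b : X → ℍ → ℂ)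
    (ha : ∀ k, MeroAtInf (N : ℝ) (a k)) (hb : ∀ k, MeroAtInf (N : ℝ) (b k))
    (ha0 : ∀ k, a k ≠ 0) (hb0 : ∀ k, b k ≠ 0) (A B : ℂ[X]) (hA : A ≠ 0) (hB : B ≠ 0)
    (h : ∀ z, A.eval (R4.jInv z) * ∏ k, b k z = B.eval (R4.jInv z) * ∏ k, a k z) :
    ∑ k, (ordInf (N : ℝ) (a k) - ordInf (N : ℝ) (b k)) =
      -((N : ℤ) * ((A.natDegree : ℤ) - B.natDegree)) := by
  have hN' : (0 : ℝ) < N := Nat.cast_pos.mpr (Nat.pos_of_ne_zero hN)
  have hAm := meroAtInf_eval_jInv_nat hN A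
  have hBm := meroAtInf_eval_jInv_nat hN B
  have hA0 := eval_jInv_ne_zero hA
  have hB0 := eval_jInv_ne_zero hB
  have hpa := MeroAtInf.prod (h := (N : ℝ)) Finset.univ (fun k _ => ha k)
  have hpb := MeroAtInf.prod (h := (N : ℝ)) Finset.univ (fun k _ => hb k)
  have hpa0 := MeroAtInf.prod_ne_zero (h := (N : ℝ)) Finset.univ (fun k _ => ha k)
    (fun k _ => ha0 k)
  have hpb0 := MeroAtInf.prod_ne_zero (h := (N : ℝ)) Finset.univ (fun k _ => hb k)
    (fun k _ => hb0 k)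
  have heq : (fun z => A.eval (R4.jInv z)) * (∏ k, b k) =
      (fun z => B.eval (R4.jInv z)) * (∏ k, a k) := by
    funext z
    simp only [Pi.mul_apply, Finset.prod_apply]
    exact h z
  have h1 := MeroAtInf.ordInf_mul hAm hpb hN' hA0 hpb0
  have h2 := MeroAtInf.ordInf_mul hBm hpa hN' hB0 hpa0
  rw [heq] at h1
  rw [h1, ordInf_eval_jInv_nat hN hA, ordInf_eval_jInv_nat hN hB,
    MeroAtInf.ordInf_prod Finset.univ hN' (fun k _ => ha k) (fun k _ => ha0 k),
    MeroAtInf.ordInf_prod Finset.univ hN' (fun k _ => hb k) (fun k _ => hb0 k)] at h2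
  rw [Finset.sum_sub_distrib]
  linarith

/-- If the sum of finitely many integers is positive, one of them is positive. -/
lemma exists_pos_of_sum_pos {f : X → ℤ} (h : 0 < ∑ k, f k) : ∃ k, 0 < f k := by
  by_contra hcon
  have hcon' : ∀ k, f k ≤ 0 := fun k => not_lt.mp fun hk => hcon ⟨k, hk⟩
  have : ∑ k, f k ≤ 0 := Finset.sum_nonpos fun k _ => hcon' k
  linarith

/-- **Norm argument at the cusp.** If `A(j) ∏ b_k = B(j) ∏ a_k` with `deg A < deg B`
(the norm vanishes at `j = ∞`), some quotient `a_k / b_k` has positive order at `i∞`. -/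
theorem exists_ordInf_sub_pos (hN : N ≠ 0) (a b : X → ℍ → ℂ)
    (ha : ∀ k, MeroAtInf (N : ℝ) (a k)) (hb : ∀ k, MeroAtInf (N : ℝ) (b k))
    (ha0 : ∀ k, a k ≠ 0) (hb0 : ∀ k, b k ≠ 0) (A B : ℂ[X]) (hA : A ≠ 0) (hB : B ≠ 0)
    (h : ∀ z, A.eval (R4.jInv z) * ∏ k, b k z = B.eval (R4.jInv z) * ∏ k, a k z)
    (hdeg : A.natDegree < B.natDegree) :
    ∃ k, 0 < ordInf (N : ℝ) (a k) - ordInf (N : ℝ) (b k) := by
  apply exists_pos_of_sum_pos
  rw [sum_ordInf_sub_eq hN a b ha hb ha0 hb0 A B hA hB h]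
  have hN' : (0 : ℤ) < N := by exact_mod_cast Nat.pos_of_ne_zero hN
  have : (A.natDegree : ℤ) - B.natDegree < 0 := by
    have : (A.natDegree : ℤ) < B.natDegree := by exact_mod_cast hdeg
    linarith
  nlinarith

end Fermat.Agent.S24.Cusp
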