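import Fermat.Agent.S24.H21_OrdAt
import Fermat.Agent.S24.H12_CuspCount
import Fermat.Agent.S24.H23_NormAlg
import Fermat.Agent.S24.H7_CuspNorm
import Fermat.Agent.S24.H24_T1

/-!
# S24, layer NORM (helper21): the norm argument at infinity

`hNORM_inf` is the hypothesis `hNORM` of helper12's `G4.card_places_inf_of_norm`, hence
`card_places_inf` is the field `inf` of `Final.Inputs`: the number of places of the modular
function field over `j = ∞` is the number of `⟨T⟩`-orbits on `SL(2, ℤ) ⧸ Γ₀(N)`.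
-/

set_option autoImplicit false
set_option linter.style.haveILetI false
set_option linter.unusedSectionVars false

open UpperHalfPlane CongruenceSubgroup IntermediateField Polynomial AlgebraicCurve MulAction
open scoped MatrixGroups Manifold

namespace Fermat.Agent.S24.Mer

open Fermat.Agent.S24.Real Fermat.Agent.S23.R4

variable {K : Type*} [Field K] [Algebra ℚ K] (e : K →+* ℂ) (N : ℕ) [NeZero N]

/-- A polynomial in `x⁻¹` vanishing at `0` is `A(x) / x ^ d` with `deg A < d`. -/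
lemma exists_reflect {F : Type*} [Field F] [Algebra K F] (x : F) (hx : x ≠ 0) (Q₀ : K[X])
    (hQ : Q₀ ≠ 0) (h0 : Q₀.eval 0 = 0) :
    ∃ (A : K[X]) (d : ℕ), A ≠ 0 ∧ A.natDegree < d ∧
      aeval x⁻¹ Q₀ * aeval x (X ^ d : K[X]) = aeval x A := by
  refine ⟨reflect Q₀.natDegree Q₀, Q₀.natDegree, reflect_eq_zero_iff.not.mpr hQ, ?_, ?_⟩
  · have hd : 0 < Q₀.natDegree := by
      rw [Nat.pos_iff_ne_zero]
      intro hd0
      have hc := Polynomial.eq_C_of_natDegree_eq_zero hd0
      rw [hc, eval_C] at h0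
      rw [hc, h0, map_zero] at hQ
      exact hQ rfl
    have hle : (reflect Q₀.natDegree Q₀).natDegree ≤ Q₀.natDegree - 1 := by
      rw [Polynomial.natDegree_le_iff_coeff_eq_zero]
      intro i hi
      rw [coeff_reflect]
      rcases Nat.lt_or_ge Q₀.natDegree i with hlt | hge
      · rw [revAt_eq_self_of_lt hlt]
        exact coeff_eq_zero_of_natDegree_lt hlt
      · have hi' : i = Q₀.natDegree := by omega
        rw [hi', revAt_le le_rfl, Nat.sub_self, coeff_zero_eq_eval_zero, h0]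
    omega
  · have hxi : x⁻¹ ≠ 0 := inv_ne_zero hx
    letI : Invertible x⁻¹ := invertibleOfNonzero hxi
    have h1 := eval₂_reflect_mul_pow (algebraMap K F) x⁻¹ Q₀.natDegree Q₀ le_rfl
    rw [invOf_eq_inv, inv_inv] at h1
    rw [aeval_def, aeval_def, aeval_def, ← h1, eval₂_pow, eval₂_X, mul_assoc, ← mul_pow,
      inv_mul_cancel₀ hx, one_pow, mul_one]

variable [CharZero K] [IsAlgClosed K]

set_option synthInstance.maxHeartbeats 400000 in
/-- **hNORM at infinity**, in the shape of `G4.card_places_inf_of_norm`. -/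
theorem hNORM_inf :
    ∀ h ∈ CRT.R K (G4.jF K N)⁻¹, h ≠ 0 → ∃ Q₀ : Polynomial K,
      (∃ g ∈ CRT.R K (G4.jF K N)⁻¹, Polynomial.aeval (G4.jF K N)⁻¹ Q₀ = h * g) ∧
        (Q₀.eval 0 = 0 → ∃ k : Comb.X N, 0 < (G4.cosetPlace e N k).ord h) := by
  intro h hh hh0
  haveI hfd : FiniteDimensional K⟮jF K N⟯ (FK K N) := Final.finiteDimensional_jF e N
  have hcard : Module.finrank K⟮jF K N⟯ (FK K N) ≤ Nat.card (SL(2, ℤ) ⧸ Gamma0 N) :=
    (Final.finrank_jF e N).le
  have htr : Transcendental K (jF K N) := Final.transcendental_jF K N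
  obtain ⟨Q₀, hQ1, hQ2⟩ := NormAlg.exists_norm_poly_inv (jF K N) htr h hh
  refine ⟨Q₀, hQ2, fun h0 => ?_⟩
  -- the norm is nonzero
  have hnorm : algebraMap K⟮jF K N⟯ (FK K N) (Algebra.norm K⟮jF K N⟯ h) ≠ 0 := by
    rw [Ne, map_eq_zero_iff _ (algebraMap K⟮jF K N⟯ (FK K N)).injective,
      Algebra.norm_eq_zero_iff]
    exact hh0
  have hQ0 : Q₀ ≠ 0 := by
    rintro rfl
    rw [map_zero] at hQ1
    exact hnorm hQ1
  have hj0 : jF K N ≠ 0 := fun h0 => htr (h0 ▸ isAlgebraic_zero)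
  obtain ⟨A, d, hA0, hAd, hAB⟩ := exists_reflect (jF K N) hj0 Q₀ hQ0 h0
  rw [← hQ1] at hAB
  obtain ⟨a, b, hb, hab⟩ := exists_frac h
  have ha : a ≠ 0 := by
    rintro rfl
    rw [map_zero] at hab
    rcases mul_eq_zero.mp hab with h1 | h1
    · exact hh0 h1
    · exact hb (inclAK_injective K N (h1.trans (map_zero _).symm))
  letI : Fintype (SL(2, ℤ) ⧸ Gamma0 N) := Fintype.ofFinite _
  have hfun := norm_fun_identity e hcard h a b hb hab A (X ^ d) hAB
  have hAe : A.map e ≠ 0 := (Polynomial.map_ne_zero_iff e.injective).mpr hA0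
  have hBe : ((X ^ d : K[X]).map e) ≠ 0 :=
    (Polynomial.map_ne_zero_iff e.injective).mpr (pow_ne_zero d X_ne_zero)
  have hdeg : (A.map e).natDegree < ((X ^ d : K[X]).map e).natDegree := by
    rw [Polynomial.natDegree_map, Polynomial.natDegree_map, natDegree_X_pow]
    exact hAd
  obtain ⟨k, hk⟩ := Cusp.exists_ordInf_sub_pos (X := SL(2, ℤ) ⧸ Gamma0 N) (N := N)
    (NeZero.ne N)
    (fun k => G4.cuspTrans e (Quotient.out k)⁻¹ a) (fun k => G4.cuspTrans e (Quotient.out k)⁻¹ b)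
    (fun k => G4.meroAtInf_cuspTrans e _ a) (fun k => G4.meroAtInf_cuspTrans e _ b)
    (fun k => G4.cuspTrans_ne_zero e _ ha) (fun k => G4.cuspTrans_ne_zero e _ hb)
    (A.map e) ((X ^ d : K[X]).map e) hAe hBe hfun hdeg
  refine ⟨k, ?_⟩
  rw [G4.cosetPlace_def, G4.ord_cuspPlace_pos_iff e _ hh0, G4.cuspVal_eq e _ hh0 hb hab]
  exact hk

include e in
/-- **The number of places over `j = ∞`** (field `inf` of `Final.Inputs`). -/
theorem card_places_inf :
    Nat.card {v : Place K (FK K N) // 0 < v.ord (Final.jF K N)⁻¹} =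
      Nat.card (orbitRel.Quotient (Subgroup.zpowers ModularGroup.T) (Comb.X N)) :=
  G4.card_places_inf_of_norm e N (hNORM_inf e N)

end Fermat.Agent.S24.Mer
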