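/-
S24, work package G2 (helper17): invariant germs at elliptic points.

If `h = a / b` (`a`, `b` analytic at `z₀`) is invariant under a local analytic map `φ` fixing `z₀`
with multiplier `ζ = φ'(z₀)`, then `ζ ^ ord a = ζ ^ ord b`.  Consequently the order of a
`γ`-invariant quotient of holomorphic functions on `ℍ` at a fixed point of `γ` is divisible by
`2` for conjugates of `S` and by `3` for conjugates of `S * T`.
-/
import Mathlib
import Fermat.Agent.S24.H17_JLocal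

set_option autoImplicit false

namespace Fermat.Agent.S24.G2

open Filter Topology Set UpperHalfPlane
open scoped MatrixGroups Manifold

/-! ### The local statement -/

/-- Local form: if `a ∘ φ = V ^ n * A ∘ φ`-type factorisations hold. This is the computation of the
order of `a ∘ φ` in terms of the multiplier. -/
theorem multiplier_pow_eq {a b φ : ℂ → ℂ} {z₀ : ℂ} {n m : ℕ}
    (ha : AnalyticAt ℂ a z₀) (hb : AnalyticAt ℂ b z₀) (hφ : AnalyticAt ℂ φ z₀)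
    (hφ0 : φ z₀ = z₀) (hn : analyticOrderAt a z₀ = n) (hm : analyticOrderAt b z₀ = m)
    (hinv : ∀ᶠ z in 𝓝 z₀, a (φ z) * b z = a z * b (φ z)) :
    deriv φ z₀ ^ n = deriv φ z₀ ^ m := by
  obtain ⟨A, hA, hA0, hAeq⟩ := (ha.analyticOrderAt_eq_natCast).mp hn
  obtain ⟨B, hB, hB0, hBeq⟩ := (hb.analyticOrderAt_eq_natCast).mp hm
  have hφc : ContinuousAt φ z₀ := hφ.continuousAt
  have hφt : Tendsto φ (𝓝 z₀) (𝓝 z₀) := by
    have := hφc.tendsto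
    rwa [hφ0] at this
  -- factorisations along `φ`
  have hAφ : ∀ᶠ z in 𝓝 z₀, a (φ z) = (φ z - z₀) ^ n • A (φ z) := hφt.eventually hAeq
  have hBφ : ∀ᶠ z in 𝓝 z₀, b (φ z) = (φ z - z₀) ^ m • B (φ z) := hφt.eventually hBeq
  set v : ℂ → ℂ := dslope φ z₀ with hv
  have hvc : ContinuousAt v z₀ := continuousAt_dslope_same.mpr hφ.differentiableAt
  have hvφ : ∀ z, φ z - z₀ = (z - z₀) * v z := by
    intro z
    have := sub_smul_dslope φ z₀ z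
    rw [hφ0, smul_eq_mul] at this
    exact this.symm
  -- the key identity away from `z₀`
  have hkey : ∀ᶠ z in 𝓝[≠] z₀, v z ^ n * A (φ z) * B z = A z * (v z ^ m * B (φ z)) := by
    have h1 : ∀ᶠ z in 𝓝 z₀, z ≠ z₀ → v z ^ n * A (φ z) * B z = A z * (v z ^ m * B (φ z)) := by
      filter_upwards [hinv, hAeq, hBeq, hAφ, hBφ] with z h1 h2 h3 h4 h5 hz
      rw [h2, h3, h4, h5, hvφ z] at h1
      simp only [smul_eq_mul, mul_pow] at h1
      have hz' : (z - z₀) ≠ 0 := sub_ne_zero.mpr hz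
      have hz'' : (z - z₀) ^ n * (z - z₀) ^ m ≠ 0 :=
        mul_ne_zero (pow_ne_zero _ hz') (pow_ne_zero _ hz')
      apply mul_left_cancel₀ hz''
      linear_combination h1
    exact eventually_nhdsWithin_iff.mpr h1
  -- pass to the limit
  have hAφc : ContinuousAt (fun z => A (φ z)) z₀ := by
    have : ContinuousAt A (φ z₀) := by rw [hφ0]; exact hA.continuousAt
    exact ContinuousAt.comp (f := φ) (g := A) this hφc
  have hBφc : ContinuousAt (fun z => B (φ z)) z₀ := by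
    have : ContinuousAt B (φ z₀) := by rw [hφ0]; exact hB.continuousAt
    exact ContinuousAt.comp (f := φ) (g := B) this hφc
  have hL : ContinuousAt (fun z => v z ^ n * A (φ z) * B z) z₀ :=
    ((hvc.pow n).mul hAφc).mul hB.continuousAt
  have hR : ContinuousAt (fun z => A z * (v z ^ m * B (φ z))) z₀ :=
    hA.continuousAt.mul ((hvc.pow m).mul hBφc)
  have hlim := tendsto_nhds_unique_of_eventuallyEq
    (hL.tendsto.mono_left nhdsWithin_le_nhds) (hR.tendsto.mono_left nhdsWithin_le_nhds) hkey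
  simp only [hφ0] at hlim
  have hvz : v z₀ = deriv φ z₀ := dslope_same φ z₀
  rw [hvz] at hlim
  have hAB : A z₀ * B z₀ ≠ 0 := mul_ne_zero hA0 hB0
  apply mul_right_cancel₀ hAB
  linear_combination hlim

/-- If the multiplier is `-1`, the orders of `a` and `b` have the same parity. -/
theorem two_dvd_sub_of_multiplier_neg_one {a b φ : ℂ → ℂ} {z₀ : ℂ} {n m : ℕ}
    (ha : AnalyticAt ℂ a z₀) (hb : AnalyticAt ℂ b z₀) (hφ : AnalyticAt ℂ φ z₀)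
    (hφ0 : φ z₀ = z₀) (hζ : deriv φ z₀ = -1)
    (hn : analyticOrderAt a z₀ = n) (hm : analyticOrderAt b z₀ = m)
    (hinv : ∀ᶠ z in 𝓝 z₀, a (φ z) * b z = a z * b (φ z)) :
    (2 : ℤ) ∣ (n : ℤ) - (m : ℤ) := by
  have h := multiplier_pow_eq ha hb hφ hφ0 hn hm hinv
  rw [hζ] at h
  have hprim : IsPrimitiveRoot (-1 : ℂ) 2 := IsPrimitiveRoot.neg_one 0 (by norm_num)
  have h2 : (-1 : ℂ) ^ ((n : ℤ) - (m : ℤ)) = 1 := by
    rw [zpow_sub₀ (by norm_num : (-1 : ℂ) ≠ 0), zpow_natCast, zpow_natCast, h]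
    exact div_self (pow_ne_zero _ (by norm_num))
  exact_mod_cast (hprim.zpow_eq_one_iff_dvd _).mp h2


/-- A root of `X ^ 2 + X + 1` is a primitive cube root of unity. -/
theorem isPrimitiveRoot_three_of_sq_add {ζ : ℂ} (hζ : ζ ^ 2 + ζ + 1 = 0) : IsPrimitiveRoot ζ 3 := by
  refine IsPrimitiveRoot.mk_of_lt ζ (by norm_num) ?_ ?_
  · linear_combination (ζ - 1) * hζ
  · intro l hl0 hl3 hl
    interval_cases l
    · -- `ζ = 1`
      rw [pow_one] at hl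
      rw [hl] at hζ
      norm_num at hζ
    · -- `ζ ^ 2 = 1`
      have h2 : ζ = -2 := by linear_combination hζ - hl
      rw [h2] at hl
      norm_num at hl

/-- If the multiplier is a root of `X ^ 2 + X + 1`, the orders of `a` and `b` are congruent
modulo `3`. -/
theorem three_dvd_sub_of_multiplier {a b φ : ℂ → ℂ} {z₀ : ℂ} {n m : ℕ}
    (ha : AnalyticAt ℂ a z₀) (hb : AnalyticAt ℂ b z₀) (hφ : AnalyticAt ℂ φ z₀)
    (hφ0 : φ z₀ = z₀) (hζ : deriv φ z₀ ^ 2 + deriv φ z₀ + 1 = 0)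
    (hn : analyticOrderAt a z₀ = n) (hm : analyticOrderAt b z₀ = m)
    (hinv : ∀ᶠ z in 𝓝 z₀, a (φ z) * b z = a z * b (φ z)) :
    (3 : ℤ) ∣ (n : ℤ) - (m : ℤ) := by
  have h := multiplier_pow_eq ha hb hφ hφ0 hn hm hinv
  have hprim := isPrimitiveRoot_three_of_sq_add hζ
  have hne : deriv φ z₀ ≠ 0 := hprim.ne_zero (by norm_num)
  have h2 : deriv φ z₀ ^ ((n : ℤ) - (m : ℤ)) = 1 := by
    rw [zpow_sub₀ hne, zpow_natCast, zpow_natCast, h]
    exact div_self (pow_ne_zero _ hne)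
  exact_mod_cast (hprim.zpow_eq_one_iff_dvd _).mp h2

/-! ### On the upper half plane -/

/-- The Möbius action of `γ ∈ SL(2, ℤ)` as a map `ℂ → ℂ`. -/
noncomputable def moebC (γ : SL(2, ℤ)) (w : ℂ) : ℂ := ((γ • ofComplex w : ℍ) : ℂ)

theorem moebC_coe (γ : SL(2, ℤ)) (z : ℍ) : moebC γ (z : ℂ) = ((γ • z : ℍ) : ℂ) := by
  rw [moebC, ofComplex_apply]

theorem det_coe_pos (γ : SL(2, ℤ)) : 0 < ((γ : GL (Fin 2) ℝ)).val.det := by
  have : ((γ : GL (Fin 2) ℝ)).val.det = 1 := by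
    rw [← Matrix.GeneralLinearGroup.val_det_apply]
    simp
  rw [this]
  exact zero_lt_one

theorem det_coe (γ : SL(2, ℤ)) : ((γ : GL (Fin 2) ℝ)).val.det = 1 := by
  rw [← Matrix.GeneralLinearGroup.val_det_apply]
  simp

theorem analyticAt_moebC (γ : SL(2, ℤ)) (z : ℍ) : AnalyticAt ℂ (moebC γ) (z : ℂ) :=
  UpperHalfPlane.analyticAt_smul (det_coe_pos γ) z

theorem deriv_moebC (γ : SL(2, ℤ)) (z : ℍ) :
    deriv (moebC γ) (z : ℂ) = (denom (γ : GL (Fin 2) ℝ) z ^ 2)⁻¹ := by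
  have h := UpperHalfPlane.deriv_smul (det_coe_pos γ) z
  rw [det_coe γ] at h
  simp only [Complex.ofReal_one, one_div] at h
  exact h

/-- **Invariant germs (multiplier form).** Let `γ ∈ SL(2, ℤ)` fix `z₀ ∈ ℍ` and let `a, b` be
holomorphic on `ℍ` such that `a / b` is `γ`-invariant. Then `ζ ^ ord a = ζ ^ ord b` for
the multiplier `ζ = (c z₀ + d)⁻²`. -/
theorem multiplier_pow_eq_of_fixed (γ : SL(2, ℤ)) (z₀ : ℍ) (hfix : γ • z₀ = z₀)
    {a b : ℍ → ℂ} (ha : MDifferentiable 𝓘(ℂ) 𝓘(ℂ) a) (hb : MDifferentiable 𝓘(ℂ) 𝓘(ℂ) b)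
    (hinv : ∀ z : ℍ, a (γ • z) * b z = a z * b (γ • z)) {n m : ℕ}
    (hn : analyticOrderAt (a ∘ ofComplex) (z₀ : ℂ) = n)
    (hm : analyticOrderAt (b ∘ ofComplex) (z₀ : ℂ) = m) :
    ((denom (γ : GL (Fin 2) ℝ) z₀ ^ 2)⁻¹) ^ n = ((denom (γ : GL (Fin 2) ℝ) z₀ ^ 2)⁻¹) ^ m := by
  rw [← deriv_moebC γ z₀]
  refine multiplier_pow_eq (G1.analyticAt_comp_ofComplex ha z₀)
    (G1.analyticAt_comp_ofComplex hb z₀) (analyticAt_moebC γ z₀) ?_ hn hm ?_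
  · rw [moebC_coe, hfix]
  · filter_upwards [isOpen_upperHalfPlaneSet.mem_nhds z₀.im_pos] with w hw
    have := hinv ⟨w, hw⟩
    simp only [Function.comp_apply, moebC, ofComplex_apply]
    rw [ofComplex_apply_of_im_pos hw]
    exact this

/-- Invariant germs, order `2`: if `(c z₀ + d) ^ 2 = -1`. -/
theorem two_dvd_sub_of_fixed (γ : SL(2, ℤ)) (z₀ : ℍ) (hfix : γ • z₀ = z₀)
    (hd : denom (γ : GL (Fin 2) ℝ) z₀ ^ 2 = -1)
    {a b : ℍ → ℂ} (ha : MDifferentiable 𝓘(ℂ) 𝓘(ℂ) a) (hb : MDifferentiable 𝓘(ℂ) 𝓘(ℂ) b)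
    (hinv : ∀ z : ℍ, a (γ • z) * b z = a z * b (γ • z)) {n m : ℕ}
    (hn : analyticOrderAt (a ∘ ofComplex) (z₀ : ℂ) = n)
    (hm : analyticOrderAt (b ∘ ofComplex) (z₀ : ℂ) = m) :
    (2 : ℤ) ∣ (n : ℤ) - (m : ℤ) := by
  refine two_dvd_sub_of_multiplier_neg_one (G1.analyticAt_comp_ofComplex ha z₀)
    (G1.analyticAt_comp_ofComplex hb z₀) (analyticAt_moebC γ z₀) ?_ ?_ hn hm ?_
  · rw [moebC_coe, hfix]
  · rw [deriv_moebC, hd]
    norm_num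
  · filter_upwards [isOpen_upperHalfPlaneSet.mem_nhds z₀.im_pos] with w hw
    have := hinv ⟨w, hw⟩
    simp only [Function.comp_apply, moebC, ofComplex_apply]
    rw [ofComplex_apply_of_im_pos hw]
    exact this

/-- Invariant germs, order `3`: if `ζ = (c z₀ + d)⁻²` satisfies `ζ² + ζ + 1 = 0`. -/
theorem three_dvd_sub_of_fixed (γ : SL(2, ℤ)) (z₀ : ℍ) (hfix : γ • z₀ = z₀)
    (hd : ((denom (γ : GL (Fin 2) ℝ) z₀ ^ 2)⁻¹) ^ 2 + (denom (γ : GL (Fin 2) ℝ) z₀ ^ 2)⁻¹ + 1 = 0)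
    {a b : ℍ → ℂ} (ha : MDifferentiable 𝓘(ℂ) 𝓘(ℂ) a) (hb : MDifferentiable 𝓘(ℂ) 𝓘(ℂ) b)
    (hinv : ∀ z : ℍ, a (γ • z) * b z = a z * b (γ • z)) {n m : ℕ}
    (hn : analyticOrderAt (a ∘ ofComplex) (z₀ : ℂ) = n)
    (hm : analyticOrderAt (b ∘ ofComplex) (z₀ : ℂ) = m) :
    (3 : ℤ) ∣ (n : ℤ) - (m : ℤ) := by
  refine three_dvd_sub_of_multiplier (G1.analyticAt_comp_ofComplex ha z₀)
    (G1.analyticAt_comp_ofComplex hb z₀) (analyticAt_moebC γ z₀) ?_ ?_ hn hm ?_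
  · rw [moebC_coe, hfix]
  · rw [deriv_moebC]
    exact hd
  · filter_upwards [isOpen_upperHalfPlaneSet.mem_nhds z₀.im_pos] with w hw
    have := hinv ⟨w, hw⟩
    simp only [Function.comp_apply, moebC, ofComplex_apply]
    rw [ofComplex_apply_of_im_pos hw]
    exact this


/-! ### Conjugates of `S` and `S * T` -/

/-- Cocycle relation for the denominators of elements of `SL(2, ℤ)`. -/
theorem denom_SL_mul (g h : SL(2, ℤ)) (z : ℍ) :
    denom ((g * h : SL(2, ℤ)) : GL (Fin 2) ℝ) z =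
      denom (g : GL (Fin 2) ℝ) ((h • z : ℍ) : ℂ) * denom (h : GL (Fin 2) ℝ) z := by
  have h1 := UpperHalfPlane.denom_cocycle_σ (g : GL (Fin 2) ℝ) (h : GL (Fin 2) ℝ) z
  have h2 : ((g * h : SL(2, ℤ)) : GL (Fin 2) ℝ) = (g : GL (Fin 2) ℝ) * (h : GL (Fin 2) ℝ) :=
    (Matrix.SpecialLinearGroup.mapGL ℝ).map_mul g h
  have h3 : ∀ x : ℂ, σ (h : GL (Fin 2) ℝ) x = x := by
    intro x
    simp [σ]
  rw [h2, h1, h3]
  rfl

/-- The denominator of a conjugate at the translated fixed point. -/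
theorem denom_conj (g γ : SL(2, ℤ)) (z₀ : ℍ) (hfix : γ • z₀ = z₀) :
    denom ((g⁻¹ * γ * g : SL(2, ℤ)) : GL (Fin 2) ℝ) ((g⁻¹ • z₀ : ℍ) : ℂ) =
      denom (γ : GL (Fin 2) ℝ) z₀ := by
  have hg : g • (g⁻¹ • z₀) = z₀ := smul_inv_smul g z₀
  have h1 := denom_SL_mul (g⁻¹ * γ) g (g⁻¹ • z₀)
  rw [hg] at h1
  have h2 := denom_SL_mul g⁻¹ γ z₀
  rw [hfix] at h2
  have h3 := denom_SL_mul g⁻¹ g (g⁻¹ • z₀)
  rw [hg, inv_mul_cancel] at h3
  have h4 : denom ((1 : SL(2, ℤ)) : GL (Fin 2) ℝ) ((g⁻¹ • z₀ : ℍ) : ℂ) = 1 := by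
    simp [denom]
  rw [h4] at h3
  rw [h1, h2]
  linear_combination (denom (γ : GL (Fin 2) ℝ) z₀) * (-h3)

theorem conj_smul_fixed (g γ : SL(2, ℤ)) (z₀ : ℍ) (hfix : γ • z₀ = z₀) :
    (g⁻¹ * γ * g) • (g⁻¹ • z₀) = g⁻¹ • z₀ := by
  rw [mul_smul, mul_smul, smul_inv_smul, hfix]

theorem denom_S_I_sq : denom (ModularGroup.S : GL (Fin 2) ℝ) UpperHalfPlane.I ^ 2 = -1 := by
  rw [ModularGroup.denom_S]
  show Complex.I ^ 2 = -1
  exact Complex.I_sq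

theorem denom_coe_eq (γ : SL(2, ℤ)) (z : ℍ) :
    denom (γ : GL (Fin 2) ℝ) z = ((γ 1 0 : ℤ) : ℂ) * (z : ℂ) + ((γ 1 1 : ℤ) : ℂ) := by
  simp [denom]

theorem denom_ST_rho :
    denom ((ModularGroup.S * ModularGroup.T : SL(2, ℤ)) : GL (Fin 2) ℝ) G1.rho =
      (G1.rho : ℂ) + 1 := by
  obtain ⟨-, -, h10, h11⟩ := G1.ST_entries
  rw [denom_coe_eq, h10, h11]
  simp

theorem multiplier_ST_rho :
    ((denom ((ModularGroup.S * ModularGroup.T : SL(2, ℤ)) : GL (Fin 2) ℝ) G1.rho ^ 2)⁻¹) ^ 2 +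
      (denom ((ModularGroup.S * ModularGroup.T : SL(2, ℤ)) : GL (Fin 2) ℝ) G1.rho ^ 2)⁻¹ + 1 = 0 := by
  rw [denom_ST_rho]
  have hr := G1.rho_sq_add
  have h1 : ((G1.rho : ℂ) + 1) ^ 2 = (G1.rho : ℂ) := by linear_combination hr
  rw [h1]
  have hne : (G1.rho : ℂ) ≠ 0 := by
    intro h0
    rw [h0] at hr
    norm_num at hr
  field_simp
  linear_combination hr

/-- **G2 at `i` and its translates.** If `a / b` is invariant under `g⁻¹ S g`, then the orders of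
`a` and `b` at `g⁻¹ • i` have the same parity. -/
theorem two_dvd_sub_conj_S (g : SL(2, ℤ)) {a b : ℍ → ℂ}
    (ha : MDifferentiable 𝓘(ℂ) 𝓘(ℂ) a) (hb : MDifferentiable 𝓘(ℂ) 𝓘(ℂ) b)
    (hinv : ∀ z : ℍ, a ((g⁻¹ * ModularGroup.S * g) • z) * b z =
      a z * b ((g⁻¹ * ModularGroup.S * g) • z)) {n m : ℕ}
    (hn : analyticOrderAt (a ∘ ofComplex) ((g⁻¹ • UpperHalfPlane.I : ℍ) : ℂ) = n)
    (hm : analyticOrderAt (b ∘ ofComplex) ((g⁻¹ • UpperHalfPlane.I : ℍ) : ℂ) = m) :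
    (2 : ℤ) ∣ (n : ℤ) - (m : ℤ) := by
  refine two_dvd_sub_of_fixed (g⁻¹ * ModularGroup.S * g) (g⁻¹ • UpperHalfPlane.I)
    (conj_smul_fixed g _ _ G1.S_smul_I) ?_ ha hb hinv hn hm
  rw [denom_conj g _ _ G1.S_smul_I]
  exact denom_S_I_sq

/-- **G2 at `ρ` and its translates.** If `a / b` is invariant under `g⁻¹ (S T) g`, then the orders
of `a` and `b` at `g⁻¹ • ρ` are congruent modulo `3`. -/
theorem three_dvd_sub_conj_ST (g : SL(2, ℤ)) {a b : ℍ → ℂ}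
    (ha : MDifferentiable 𝓘(ℂ) 𝓘(ℂ) a) (hb : MDifferentiable 𝓘(ℂ) 𝓘(ℂ) b)
    (hinv : ∀ z : ℍ, a ((g⁻¹ * (ModularGroup.S * ModularGroup.T) * g) • z) * b z =
      a z * b ((g⁻¹ * (ModularGroup.S * ModularGroup.T) * g) • z)) {n m : ℕ}
    (hn : analyticOrderAt (a ∘ ofComplex) ((g⁻¹ • G1.rho : ℍ) : ℂ) = n)
    (hm : analyticOrderAt (b ∘ ofComplex) ((g⁻¹ • G1.rho : ℍ) : ℂ) = m) :
    (3 : ℤ) ∣ (n : ℤ) - (m : ℤ) := by
  refine three_dvd_sub_of_fixed (g⁻¹ * (ModularGroup.S * ModularGroup.T) * g) (g⁻¹ • G1.rho)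
    (conj_smul_fixed g _ _ G1.ST_smul_rho) ?_ ha hb hinv hn hm
  rw [denom_conj g _ _ G1.ST_smul_rho]
  exact multiplier_ST_rho

/-- Single function version at translates of `i`: an invariant holomorphic function has even
order. -/
theorem two_dvd_order_conj_S (g : SL(2, ℤ)) {a : ℍ → ℂ}
    (ha : MDifferentiable 𝓘(ℂ) 𝓘(ℂ) a)
    (hinv : ∀ z : ℍ, a ((g⁻¹ * ModularGroup.S * g) • z) = a z) {n : ℕ}
    (hn : analyticOrderAt (a ∘ ofComplex) ((g⁻¹ • UpperHalfPlane.I : ℍ) : ℂ) = n) :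
    2 ∣ n := by
  have h1 : MDifferentiable 𝓘(ℂ) 𝓘(ℂ) (fun _ : ℍ => (1 : ℂ)) := mdifferentiable_const
  have h0 : analyticOrderAt ((fun _ : ℍ => (1 : ℂ)) ∘ ofComplex)
      ((g⁻¹ • UpperHalfPlane.I : ℍ) : ℂ) = (0 : ℕ) := by
    have : AnalyticAt ℂ ((fun _ : ℍ => (1 : ℂ)) ∘ ofComplex)
        ((g⁻¹ • UpperHalfPlane.I : ℍ) : ℂ) := analyticAt_const
    rw [Nat.cast_zero, this.analyticOrderAt_eq_zero]
    simp
  have := two_dvd_sub_conj_S g ha h1 (fun z => by rw [hinv z]) hn h0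
  have h2 : ((2 : ℕ) : ℤ) ∣ (n : ℤ) := by simpa using this
  exact Int.natCast_dvd_natCast.mp h2

/-- Single function version at translates of `ρ`: an invariant holomorphic function has order
divisible by `3`. -/
theorem three_dvd_order_conj_ST (g : SL(2, ℤ)) {a : ℍ → ℂ}
    (ha : MDifferentiable 𝓘(ℂ) 𝓘(ℂ) a)
    (hinv : ∀ z : ℍ, a ((g⁻¹ * (ModularGroup.S * ModularGroup.T) * g) • z) = a z) {n : ℕ}
    (hn : analyticOrderAt (a ∘ ofComplex) ((g⁻¹ • G1.rho : ℍ) : ℂ) = n) :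
    3 ∣ n := by
  have h1 : MDifferentiable 𝓘(ℂ) 𝓘(ℂ) (fun _ : ℍ => (1 : ℂ)) := mdifferentiable_const
  have h0 : analyticOrderAt ((fun _ : ℍ => (1 : ℂ)) ∘ ofComplex)
      ((g⁻¹ • G1.rho : ℍ) : ℂ) = (0 : ℕ) := by
    have : AnalyticAt ℂ ((fun _ : ℍ => (1 : ℂ)) ∘ ofComplex)
        ((g⁻¹ • G1.rho : ℍ) : ℂ) := analyticAt_const
    rw [Nat.cast_zero, this.analyticOrderAt_eq_zero]
    simp
  have := three_dvd_sub_conj_ST g ha h1 (fun z => by rw [hinv z]) hn h0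
  have h2 : ((3 : ℕ) : ℤ) ∣ (n : ℤ) := by simpa using this
  exact Int.natCast_dvd_natCast.mp h2

end Fermat.Agent.S24.G2
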