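import Fermat.Agent.S24.H6_Ord
import Fermat.Agent.S24.H21_OrbitPlace
import Fermat.Agent.S24.H21_PlaceOfVal
import Fermat.Agent.S24.H9_CombClass
import Fermat.Agent.S24.H17_Germs
import Fermat.Agent.S24.H2_Adapter
import Fermat.Agent.S24.H24_T1

/-!
# S24 / G3: places over a finite value of `j` and orbits of the stabiliser

For `c : K` and a point `z₀` of the upper half plane with `j z₀ = e c`, the places of the
modular function field `F = FK K N` over `j = c` are the places of the points
`(Quotient.out k)⁻¹ • z₀`, `k ∈ X = SL(2, ℤ) ⧸ Γ₀(N)`, and they correspond bijectively to the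
orbits of the stabiliser of `z₀` on `X` (orbit-place correspondence of helper21), provided every
place over `c` is the place of such a point (`hsurj`, the norm argument).
-/

set_option autoImplicit false

namespace Fermat.Agent.S24.G3

open UpperHalfPlane ModularForm CongruenceSubgroup MulAction AlgebraicCurve IntermediateField
open Fermat.Agent.S23 Fermat.Agent.S24.Real Fermat.Agent.S24.Comb
open scoped MatrixGroups ModularForm Manifold

noncomputable section

/-! ### The local degree of `j` -/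

/-- The local degree of `j` at a point with value `c`. -/
def locDeg (c : ℂ) : ℕ := if c = 0 then 3 else if c = 1728 then 2 else 1

theorem locDeg_pos (c : ℂ) : 0 < locDeg c := by
  unfold locDeg
  split_ifs <;> norm_num

theorem locDeg_zero : locDeg 0 = 3 := by simp [locDeg]

theorem locDeg_1728 : locDeg 1728 = 2 := by
  unfold locDeg
  rw [if_neg (by norm_num), if_pos rfl]

theorem locDeg_of_ne {c : ℂ} (h0 : c ≠ 0) (h1 : c ≠ 1728) : locDeg c = 1 := by
  unfold locDeg
  rw [if_neg h0, if_neg h1]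

/-- The analytic order of `j - j z` at `z` is the local degree. -/
theorem analyticOrderNatAt_jInv_sub (z : ℍ) :
    analyticOrderNatAt (fun w : ℂ => R4.jInv (ofComplex w) - R4.jInv z) (z : ℂ)
      = locDeg (R4.jInv z) := by
  have hfun : (fun w : ℂ => R4.jInv (ofComplex w) - R4.jInv z)
      = fun w => G1.jC w - G1.jC z := by
    funext w
    rw [G1.jC_coe]
    rfl
  rw [hfun, analyticOrderNatAt]
  by_cases h0 : R4.jInv z = 0
  · rw [h0, locDeg_zero, (G1.analyticOrderAt_of_E4_eq_zero z ((G1.jInv_eq_zero_iff z).mp h0)).2]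
    rfl
  · by_cases h1 : R4.jInv z = 1728
    · rw [h1, locDeg_1728,
        (G1.analyticOrderAt_of_E6_eq_zero z ((G1.jInv_eq_1728_iff z).mp h1)).2]
      rfl
    · rw [locDeg_of_ne h0 h1, G1.analyticOrderAt_jC_of_ne z h0 h1]
      rfl

/-! ### The place of a point -/

variable {K : Type*} [Field K] [Algebra ℚ K] (e : K →+* ℂ) {N : ℕ}

theorem jF_sub_ne_zero [NeZero N] (c : K) :
    Final.jF K N - algebraMap K (FK K N) c ≠ 0 := by
  intro h
  have htr := Final.transcendental_jF K N
  apply htr
  rw [sub_eq_zero.mp h]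
  exact isAlgebraic_algebraMap c

/-- The order of `j - c` at a point over `c` is the local degree. -/
theorem ordAt_jF_sub_eq (z : ℍ) (c : K) (hc : R4.jInv z = e c) :
    ordAt e z (Final.jF K N - algebraMap K (FK K N) c) = (locDeg (e c) : ℤ) := by
  have h := ordAt_jF_sub e (N := N) z c
  rw [← hc, analyticOrderNatAt_jInv_sub z] at h
  rw [← hc]
  exact h

/-- **The place of a point** `z` with `j z = e c`: the valuation `ordAt e z` is a positive
multiple of the order function of a place. -/
theorem exists_ptPlace [NeZero N] (z : ℍ) (c : K) (hc : R4.jInv z = e c) :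
    ∃ (P : Place K (FK K N)) (m : ℕ), 0 < m ∧
      (∀ h : FK K N, h ≠ 0 → ordAt e z h = m * P.ord h) ∧
      ∀ h : FK K N, h ∈ P.toValuationSubring ↔ (h = 0 ∨ 0 ≤ ordAt e z h) :=
  Orb.exists_place_of_valuation (ordAt e z)
    (fun _ _ hf hg => ordAt_mul e z hf hg)
    (fun _ _ hf hg hfg => ordAt_add_ge e z hf hg hfg)
    (fun a _ => (ordAt_algebraMap e z a).ge)
    ⟨Final.jF K N - algebraMap K (FK K N) c, jF_sub_ne_zero c, by
      rw [ordAt_jF_sub_eq e z c hc]
      exact_mod_cast (locDeg_pos (e c)).ne'⟩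

/-- The place of the point `z` (with `j z = e c`). -/
def ptPlace (N : ℕ) [NeZero N] (z : ℍ) (c : K) (hc : R4.jInv z = e c) : Place K (FK K N) :=
  (exists_ptPlace (N := N) e z c hc).choose

/-- The index of the value group of `ordAt e z` in `ℤ`. -/
def ptMult (N : ℕ) [NeZero N] (z : ℍ) (c : K) (hc : R4.jInv z = e c) : ℕ :=
  (exists_ptPlace (N := N) e z c hc).choose_spec.choose

theorem ptMult_pos [NeZero N] (z : ℍ) (c : K) (hc : R4.jInv z = e c) :
    0 < ptMult e N z c hc :=
  (exists_ptPlace (N := N) e z c hc).choose_spec.choose_spec.1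

theorem ordAt_eq_ptMult_mul [NeZero N] (z : ℍ) (c : K) (hc : R4.jInv z = e c)
    {h : FK K N} (hh : h ≠ 0) :
    ordAt e z h = (ptMult e N z c hc : ℤ) * (ptPlace e N z c hc).ord h :=
  (exists_ptPlace (N := N) e z c hc).choose_spec.choose_spec.2.1 h hh

theorem mem_ptPlace_iff [NeZero N] (z : ℍ) (c : K) (hc : R4.jInv z = e c) (h : FK K N) :
    h ∈ (ptPlace e N z c hc).toValuationSubring ↔ (h = 0 ∨ 0 ≤ ordAt e z h) :=
  (exists_ptPlace (N := N) e z c hc).choose_spec.choose_spec.2.2 h

/-- Points with the same order function have the same place. -/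
theorem ptPlace_eq_of_ordAt_eq [NeZero N] {z z' : ℍ} (c : K) (hc : R4.jInv z = e c)
    (hc' : R4.jInv z' = e c) (h : ∀ x : FK K N, ordAt e z x = ordAt e z' x) :
    ptPlace e N z c hc = ptPlace e N z' c hc' := by
  apply Place.ext
  ext x
  rw [mem_ptPlace_iff e z c hc x, mem_ptPlace_iff e z' c hc' x, h x]

/-- Positivity of the order at the place of a point. -/
theorem ptPlace_ord_pos_iff [NeZero N] (z : ℍ) (c : K) (hc : R4.jInv z = e c)
    {h : FK K N} (hh : h ≠ 0) :
    0 < (ptPlace e N z c hc).ord h ↔ 0 < ordAt e z h := by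
  rw [ordAt_eq_ptMult_mul e z c hc hh]
  have hm : (0 : ℤ) < (ptMult e N z c hc : ℤ) := by exact_mod_cast ptMult_pos e z c hc
  constructor
  · intro h1; exact mul_pos hm h1
  · intro h1; exact (mul_pos_iff_of_pos_left hm).mp h1

/-- The place of a point over `c` lies over `c`, with ramification index times multiplicity
equal to the local degree. -/
theorem ptMult_mul_ord [NeZero N] (z : ℍ) (c : K) (hc : R4.jInv z = e c) :
    (ptMult e N z c hc : ℤ) *
      (ptPlace e N z c hc).ord (Final.jF K N - algebraMap K (FK K N) c) = (locDeg (e c) : ℤ) := by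
  rw [← ordAt_eq_ptMult_mul e z c hc (jF_sub_ne_zero c), ordAt_jF_sub_eq e z c hc]

/-- Every place has a uniformiser. -/
theorem exists_ord_eq_one {K F : Type*} [Field K] [Field F] [Algebra K F] (P : Place K F) :
    ∃ π : F, π ≠ 0 ∧ P.ord π = 1 := by
  obtain ⟨π, hπ⟩ := IsDiscreteValuationRing.exists_irreducible P.toValuationSubring
  refine ⟨π, ?_, P.ord_coe_irreducible hπ⟩
  simpa [ne_eq, ZeroMemClass.coe_eq_zero] using hπ.ne_zero

/-- If all values of `ordAt e z` are divisible by `s`, then so is the multiplicity. -/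
theorem dvd_ptMult [NeZero N] (z : ℍ) (c : K) (hc : R4.jInv z = e c) (s : ℕ)
    (h : ∀ x : FK K N, x ≠ 0 → (s : ℤ) ∣ ordAt e z x) : s ∣ ptMult e N z c hc := by
  obtain ⟨π, hπ0, hπ⟩ := exists_ord_eq_one (ptPlace e N z c hc)
  have h1 := h π hπ0
  rw [ordAt_eq_ptMult_mul e z c hc hπ0, hπ, mul_one] at h1
  exact_mod_cast h1

/-! ### The points over `c` attached to the cosets -/

variable [NeZero N]

/-- The point attached to the coset `k` and the base point `z₀`. -/
def zk (z0 : ℍ) (k : X N) : ℍ := (Quotient.out k : SL(2, ℤ))⁻¹ • z0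

omit [Algebra ℚ K] [NeZero N] in
theorem jInv_zk (z0 : ℍ) (c : K) (hz0 : R4.jInv z0 = e c) (k : X N) :
    R4.jInv (zk z0 k) = e c := by
  rw [zk, R4.jInv_smul, hz0]

omit [NeZero N] in
/-- Hypothesis (b): cosets in the same orbit of the stabiliser give `Γ₀(N)`-equivalent
points. -/
theorem zk_eq_smul_of_orbitRel (γ : SL(2, ℤ)) (z0 : ℍ) (hγ : γ • z0 = z0) {k k' : X N}
    (h : (orbitRel (Subgroup.zpowers γ) (X N)) k k') :
    ∃ δ ∈ Gamma0 N, zk z0 k = δ • zk z0 k' := by
  obtain ⟨n, δ, hδ, hout⟩ := h9_out_of_orbitRel γ h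
  refine ⟨δ⁻¹, inv_mem hδ, ?_⟩
  have hfix : (γ ^ n)⁻¹ • z0 = z0 := by
    have h1 : γ ∈ MulAction.stabilizer SL(2, ℤ) z0 := hγ
    exact inv_mem (Subgroup.zpow_mem _ h1 n)
  unfold zk
  rw [hout, mul_inv_rev, mul_inv_rev, mul_smul, mul_smul, hfix]

/-- **Places over `c` and classes** (general form): if `r` is an equivalence relation on the
cosets whose classes give `Γ₀(N)`-equivalent points, satisfying the divisibility hypothesis (c)
and the surjectivity hypothesis, then the places over `j = c` are counted by the classes of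
`r`. -/
theorem card_places_eq_card_quotient [IsAlgClosed K] (c : K) (z0 : ℍ)
    (hz0 : R4.jInv z0 = e c) (r : Setoid (X N))
    (hr : ∀ k k', r k k' → ∃ δ ∈ Gamma0 N, zk z0 k = δ • zk z0 k')
    (hc : ∀ k, locDeg (e c) ∣
      Orb.classCard r k * ptMult e N (zk z0 k) c (jInv_zk e z0 c hz0 k))
    (hsurj : ∀ Q : Place K (FK K N),
      0 < Q.ord (Final.jF K N - algebraMap K (FK K N) c) →
        ∃ k : X N, ptPlace e N (zk z0 k) c (jInv_zk e z0 c hz0 k) = Q) :
    Nat.card {Q : Place K (FK K N) // 0 < Q.ord (Final.jF K N - algebraMap K (FK K N) c)}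
      = Nat.card (Quotient r) := by
  classical
  have : Finite (X N) := finite_X
  let _ : Fintype (X N) := Fintype.ofFinite _
  have : CharZero K := algebraRat.charZero K
  have hfd := finDim_final K N e
  obtain ⟨S, hS, hsum⟩ := Alg.fundId_sub (Final.jF K N) (Final.transcendental_jF K N) c
  rw [finrank_eq_final K N e, Nat.card_eq_fintype_card] at hsum
  refine (Orb.card_places_eq_card_classes r
    (fun k => ptPlace e N (zk z0 k) c (jInv_zk e z0 c hz0 k))
    (fun k => ptMult e N (zk z0 k) c (jInv_zk e z0 c hz0 k))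
    (Final.jF K N - algebraMap K (FK K N) c) (locDeg (e c)) (locDeg_pos _)
    (fun k => ptMult_mul_ord e (zk z0 k) c (jInv_zk e z0 c hz0 k)) ?_ hc hsurj S hS hsum).1
  intro k k' hkk'
  obtain ⟨δ, hδ, h⟩ := hr k k' hkk'
  refine ptPlace_eq_of_ordAt_eq e c _ _ fun x => ?_
  rw [h, ordAt_smul_of_mem_Gamma0 e hδ]

/-! ### The three cases -/

omit [Algebra ℚ K] in
theorem jInv_I_eq : R4.jInv UpperHalfPlane.I = e 1728 := by
  rw [G1.jInv_I, map_ofNat]

omit [Algebra ℚ K] in
theorem jInv_rho_eq : R4.jInv G1.rho = e 0 := by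
  rw [G1.jInv_rho, map_zero]

/-- **Generic value**: over `c ∉ {0, 1728}` there are `μ = #X` places. -/
theorem card_places_gen [IsAlgClosed K] (c : K) (h0 : c ≠ 0) (h1 : c ≠ 1728)
    (hsurj : ∀ (z0 : ℍ) (hz0 : R4.jInv z0 = e c) (Q : Place K (FK K N)),
      0 < Q.ord (Final.jF K N - algebraMap K (FK K N) c) →
        ∃ k : X N, ptPlace e N (zk z0 k) c (jInv_zk e z0 c hz0 k) = Q) :
    Nat.card {Q : Place K (FK K N) // 0 < Q.ord (Final.jF K N - algebraMap K (FK K N) c)}
      = Nat.card (X N) := by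
  obtain ⟨z0, hz0⟩ := G1.jInv_surjective (e c)
  have he0 : e c ≠ 0 := fun h => h0 (e.injective (by rw [h, map_zero]))
  have he1 : e c ≠ 1728 := fun h => h1 (e.injective (by rw [h, map_ofNat]))
  rw [card_places_eq_card_quotient e c z0 hz0 ⊥ ?_ ?_ (hsurj z0 hz0)]
  · exact Nat.card_congr Setoid.quotientBotEquiv
  · intro k k' hkk'
    have : k = k' := hkk'
    subst this
    exact ⟨1, one_mem _, (one_smul _ _).symm⟩
  · intro k
    rw [locDeg_of_ne he0 he1]
    exact one_dvd _

/-- The divisibility input of hypothesis (c) at the translates of `i`. -/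
theorem two_dvd_ptMult (k : X N)
    (hk : (Quotient.out k : SL(2, ℤ))⁻¹ * ModularGroup.S * Quotient.out k ∈ Gamma0 N) :
    2 ∣ ptMult e N (zk UpperHalfPlane.I k) 1728 (jInv_zk e _ _ (jInv_I_eq e) k) := by
  refine dvd_ptMult e _ _ _ 2 fun x hx => ?_
  rw [ordAt_eq_sub e _ hx (denAK_ne_zero x) (mul_denAK x)]
  have ha0 := rho_ne_zero e (numAK_ne_zero hx)
  have hb0 := rho_ne_zero e (denAK_ne_zero x)
  refine G2.two_dvd_sub_conj_S (Quotient.out k) (mdifferentiable_rho e (numAK x))
    (mdifferentiable_rho e (denAK x)) (fun z => ?_)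
    (coe_ordH (mdifferentiable_rho e _) ha0 _).symm
    (coe_ordH (mdifferentiable_rho e _) hb0 _).symm
  rw [rho_smul_of_mem_Gamma0 e _ hk, rho_smul_of_mem_Gamma0 e _ hk]

/-- The divisibility input of hypothesis (c) at the translates of `ρ`. -/
theorem three_dvd_ptMult (k : X N)
    (hk : (Quotient.out k : SL(2, ℤ))⁻¹ * (ModularGroup.S * ModularGroup.T) * Quotient.out k
      ∈ Gamma0 N) :
    3 ∣ ptMult e N (zk G1.rho k) 0 (jInv_zk e _ _ (jInv_rho_eq e) k) := by
  refine dvd_ptMult e _ _ _ 3 fun x hx => ?_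
  rw [ordAt_eq_sub e _ hx (denAK_ne_zero x) (mul_denAK x)]
  have ha0 := rho_ne_zero e (numAK_ne_zero hx)
  have hb0 := rho_ne_zero e (denAK_ne_zero x)
  refine G2.three_dvd_sub_conj_ST (Quotient.out k) (mdifferentiable_rho e (numAK x))
    (mdifferentiable_rho e (denAK x)) (fun z => ?_)
    (coe_ordH (mdifferentiable_rho e _) ha0 _).symm
    (coe_ordH (mdifferentiable_rho e _) hb0 _).symm
  rw [rho_smul_of_mem_Gamma0 e _ hk, rho_smul_of_mem_Gamma0 e _ hk]

/-- **The value `1728`**: the places over `j = 1728` are counted by the orbits of `S`. -/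
theorem card_places_1728 [IsAlgClosed K]
    (hsurj : ∀ Q : Place K (FK K N),
      0 < Q.ord (Final.jF K N - algebraMap K (FK K N) 1728) →
        ∃ k : X N, ptPlace e N (zk UpperHalfPlane.I k) 1728
          (jInv_zk e _ _ (jInv_I_eq e) k) = Q) :
    Nat.card {Q : Place K (FK K N) //
        0 < Q.ord (Final.jF K N - algebraMap K (FK K N) 1728)}
      = Nat.card (orbitRel.Quotient (Subgroup.zpowers ModularGroup.S) (X N)) := by
  refine card_places_eq_card_quotient e 1728 UpperHalfPlane.I (jInv_I_eq e)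
    (orbitRel (Subgroup.zpowers ModularGroup.S) (X N))
    (fun k k' h => zk_eq_smul_of_orbitRel _ _ G1.S_smul_I h) (fun k => ?_) hsurj
  rw [map_ofNat, locDeg_1728]
  exact h9_two_dvd_classCard_mul k _ (two_dvd_ptMult e k)

/-- **The value `0`**: the places over `j = 0` are counted by the orbits of `S * T`. -/
theorem card_places_zero [IsAlgClosed K]
    (hsurj : ∀ Q : Place K (FK K N),
      0 < Q.ord (Final.jF K N - algebraMap K (FK K N) 0) →
        ∃ k : X N, ptPlace e N (zk G1.rho k) 0 (jInv_zk e _ _ (jInv_rho_eq e) k) = Q) :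
    Nat.card {Q : Place K (FK K N) // 0 < Q.ord (Final.jF K N - algebraMap K (FK K N) 0)}
      = Nat.card (orbitRel.Quotient
          (Subgroup.zpowers (ModularGroup.S * ModularGroup.T)) (X N)) := by
  refine card_places_eq_card_quotient e 0 G1.rho (jInv_rho_eq e)
    (orbitRel (Subgroup.zpowers (ModularGroup.S * ModularGroup.T)) (X N))
    (fun k k' h => zk_eq_smul_of_orbitRel _ _ G1.ST_smul_rho h) (fun k => ?_) hsurj
  rw [map_zero, locDeg_zero]
  exact h9_three_dvd_classCard_mul k _ (three_dvd_ptMult e k)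

end

end Fermat.Agent.S24.G3
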