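import Fermat.Agent.S24.H25_G3
import Fermat.Agent.S24.H17_Germs

/-!
# S24 (helper25): the numbers of places over `j = c`, given surjectivity (SURJ)

The three fields `gen`, `zero`, `one` of `Final.Inputs`, from the single hypothesis that every
place over a finite value `c` is the place of a point `g⁻¹ • z₀` of the fibre.
-/

set_option autoImplicit false

noncomputable section

namespace Fermat.Agent.S24.H25G3

open AlgebraicCurve MulAction IntermediateField UpperHalfPlane
open scoped MatrixGroups Manifold ModularForm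
open CongruenceSubgroup ModularCurve
open Fermat.Agent.S24.RH Fermat.Agent.S24.Comb Fermat.Agent.S24.Real Fermat.Agent.S24.Orb
open Fermat.Agent.S23.R4

variable {K : Type*} [Field K] [Algebra ℚ K] (e : K →+* ℂ) (N : ℕ) [NeZero N]

/-- The local degree in the form used by `card_places_of_point`. -/
theorem ordH_eq_of_analyticOrderAt (z₀ : ℍ) (a : ℂ) (hz₀ : jInv z₀ = a) (s : ℕ)
    (h : analyticOrderAt (fun w => G1.jC w - G1.jC z₀) (z₀ : ℂ) = s) :
    ordH (fun w => jInv w - a) z₀ = s := by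
  have hfun : ((fun w : ℍ => jInv w - a) ∘ ofComplex) = fun w => G1.jC w - G1.jC z₀ := by
    funext w
    simp only [Function.comp_apply, G1.jC_coe, hz₀]
    rfl
  rw [ordH, hfun, analyticOrderNatAt, h]
  rfl

omit [NeZero N] in
/-- At a coset fixed by `σ`, the conjugate `g⁻¹ σ g` lies in `Γ₀(N)`. -/
theorem conj_mem_Gamma0 (σ : SL(2, ℤ)) (k : X N) (hk : σ • k = k) :
    (Quotient.out k)⁻¹ * σ * Quotient.out k ∈ Gamma0 N := by
  have hmk : (QuotientGroup.mk (σ * Quotient.out k) : X N) = QuotientGroup.mk (Quotient.out k) := by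
    rw [← smul_mk, QuotientGroup.out_eq', hk]
  have h1 : (σ * Quotient.out k)⁻¹ * Quotient.out k ∈ Gamma0 N := QuotientGroup.eq.mp hmk
  have h2 := inv_mem h1
  have h3 : ((σ * Quotient.out k)⁻¹ * Quotient.out k)⁻¹ = (Quotient.out k)⁻¹ * σ * Quotient.out k := by
    group
  rwa [h3] at h2

omit [NeZero N] in
/-- (G2) at the cosets fixed by `S`. -/
theorem two_dvd_ordAt (k : X N) (hk : ModularGroup.S • k = k) (h : FK K N) (hh : h ≠ 0) :
    ((2 : ℕ) : ℤ) ∣ ordAt e (pt N UpperHalfPlane.I k) h := by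
  have hγ := conj_mem_Gamma0 N ModularGroup.S k hk
  have ha0 : rho e (numAK h) ≠ 0 := rho_ne_zero e (numAK_ne_zero hh)
  have hb0 : rho e (denAK h) ≠ 0 := rho_ne_zero e (denAK_ne_zero h)
  have key := G2.two_dvd_sub_conj_S (Quotient.out k) (mdifferentiable_rho e (numAK h))
    (mdifferentiable_rho e (denAK h))
    (fun z => by
      rw [rho_smul_of_mem_Gamma0 e _ hγ, rho_smul_of_mem_Gamma0 e _ hγ])
    (coe_ordH (mdifferentiable_rho e _) ha0 _).symm
    (coe_ordH (mdifferentiable_rho e _) hb0 _).symm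
  rw [ordAt_eq_sub e _ hh (denAK_ne_zero h) (mul_denAK h)]
  exact key

omit [NeZero N] in
/-- (G2) at the cosets fixed by `S * T`. -/
theorem three_dvd_ordAt (k : X N) (hk : (ModularGroup.S * ModularGroup.T) • k = k)
    (h : FK K N) (hh : h ≠ 0) :
    ((3 : ℕ) : ℤ) ∣ ordAt e (pt N G1.rho k) h := by
  have hγ := conj_mem_Gamma0 N (ModularGroup.S * ModularGroup.T) k hk
  have ha0 : rho e (numAK h) ≠ 0 := rho_ne_zero e (numAK_ne_zero hh)
  have hb0 : rho e (denAK h) ≠ 0 := rho_ne_zero e (denAK_ne_zero h)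
  have key := G2.three_dvd_sub_conj_ST (Quotient.out k) (mdifferentiable_rho e (numAK h))
    (mdifferentiable_rho e (denAK h))
    (fun z => by
      rw [rho_smul_of_mem_Gamma0 e _ hγ, rho_smul_of_mem_Gamma0 e _ hγ])
    (coe_ordH (mdifferentiable_rho e _) ha0 _).symm
    (coe_ordH (mdifferentiable_rho e _) hb0 _).symm
  rw [ordAt_eq_sub e _ hh (denAK_ne_zero h) (mul_denAK h)]
  exact key

/-- The orbits of the trivial group are the points. -/
theorem card_orbits_one (X : Type*) [MulAction SL(2, ℤ) X] :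
    Nat.card (orbitRel.Quotient (Subgroup.zpowers (1 : SL(2, ℤ))) X) = Nat.card X := by
  refine (Nat.card_congr (Equiv.ofBijective
    (fun x : X => (Quotient.mk'' x : orbitRel.Quotient (Subgroup.zpowers (1 : SL(2, ℤ))) X))
    ⟨?_, ?_⟩)).symm
  · intro x y hxy
    have h1 : orbitRel (Subgroup.zpowers (1 : SL(2, ℤ))) X x y := Quotient.exact hxy
    rw [orbitRel_apply] at h1
    obtain ⟨⟨g, hg⟩, hgy⟩ := h1
    rw [Subgroup.zpowers_one_eq_bot, Subgroup.mem_bot] at hg
    subst hg
    have : (1 : SL(2, ℤ)) • y = x := hgy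
    rw [one_smul] at this
    exact this.symm
  · intro q
    induction q using Quotient.inductionOn with
    | _ x => exact ⟨x, rfl⟩

/-- The surjectivity hypothesis (SURJ) at the base point `z₀` over `c`. -/
def Surj (z₀ : ℍ) (c : K) : Prop :=
  ∀ Q : Place K (FK K N), 0 < Q.ord (tF N c) →
    ∃ k : X N, ∀ h : FK K N,
      h ∈ Q.toValuationSubring ↔ (h = 0 ∨ 0 ≤ ordAt e (pt N z₀ k) h)

variable [CharZero K] [IsAlgClosed K]

theorem card_places_gen (c : K) (hc0 : c ≠ 0) (hc1 : c ≠ 1728) (z₀ : ℍ) (hz₀ : jInv z₀ = e c)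
    (hd : Surj e N z₀ c) :
    Nat.card {v : Place K (FK K N) //
      0 < v.ord (Final.jF K N - algebraMap K (FK K N) c)} = Nat.card (X N) := by
  have h0 : jInv z₀ ≠ 0 := by
    rw [hz₀]
    exact fun h => hc0 (e.injective (by rw [h, map_zero]))
  have h1 : jInv z₀ ≠ 1728 := by
    rw [hz₀]
    exact fun h => hc1 (e.injective (by rw [h]; exact (map_ofNat e 1728).symm))
  have hs := ordH_eq_of_analyticOrderAt z₀ (e c) hz₀ 1
    (by exact_mod_cast G1.analyticOrderAt_jC_of_ne z₀ h0 h1)
  have key := card_places_of_point e N z₀ c hz₀ 1 (one_smul _ _) 1 hs (Or.inl rfl)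
    (fun k _ h _ => by simp) hd
  have h2 : Nat.card (orbitRel.Quotient (Subgroup.zpowers (1 : SL(2, ℤ))) (X N)) =
      Nat.card (X N) := card_orbits_one (X N)
  exact key.trans h2

theorem card_places_zero (hd : Surj e N G1.rho (0 : K)) :
    Nat.card {v : Place K (FK K N) //
      0 < v.ord (Final.jF K N - algebraMap K (FK K N) 0)} =
      Nat.card (orbitRel.Quotient (Subgroup.zpowers (ModularGroup.S * ModularGroup.T)) (X N)) := by
  have hz₀ : jInv G1.rho = e 0 := by rw [map_zero]; exact G1.jInv_rho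
  have hs := ordH_eq_of_analyticOrderAt G1.rho (e 0) hz₀ 3
    (by exact_mod_cast G1.analyticOrderAt_jC_rho)
  exact card_places_of_point e N G1.rho 0 hz₀ (ModularGroup.S * ModularGroup.T)
    G1.ST_smul_rho 3 hs (Or.inr ⟨Nat.prime_three, ST_cube_smul⟩)
    (fun k hk h hh => three_dvd_ordAt e N k hk h hh) hd

theorem card_places_one (hd : Surj e N UpperHalfPlane.I (1728 : K)) :
    Nat.card {v : Place K (FK K N) //
      0 < v.ord (Final.jF K N - algebraMap K (FK K N) 1728)} =
      Nat.card (orbitRel.Quotient (Subgroup.zpowers ModularGroup.S) (X N)) := by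
  have hz₀ : jInv UpperHalfPlane.I = e 1728 := by
    rw [G1.jInv_I]; exact (map_ofNat e 1728).symm
  have hs := ordH_eq_of_analyticOrderAt UpperHalfPlane.I (e 1728) hz₀ 2
    (by exact_mod_cast G1.analyticOrderAt_jC_I)
  exact card_places_of_point e N UpperHalfPlane.I 1728 hz₀ ModularGroup.S
    G1.S_smul_I 2 hs (Or.inr ⟨Nat.prime_two, S_sq_smul⟩)
    (fun k hk h hh => two_dvd_ordAt e N k hk h hh) hd

end Fermat.Agent.S24.H25G3
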