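import Fermat.Agent.S24.H21_Iota

/-!
# S24, layers MER + NORM (helper21): the point valuations `ordAt` on the modular function field

* `ordAt e z : FK K N → ℤ`, `ordAt e z h := ordE z (iota e h)`: the order of (the realisation
  of) `h` at the point `z : ℍ`; valuation rules in the shape of `Orb.exists_place_of_valuation`;
* invariance under `Γ₀(N)`; values on `AK`, on constants, on `j - c`;
* `evalH`, `iota_aeval_jF`: polynomials in `j`;
* NORM in valuation form: `ordAt_norm`; NORM at function level: `norm_fun_identity`.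
-/

set_option autoImplicit false
set_option linter.style.haveILetI false
set_option linter.unusedSectionVars false

open UpperHalfPlane CongruenceSubgroup IntermediateField Polynomial
open scoped MatrixGroups Manifold

namespace Fermat.Agent.S24.Mer

open Fermat.Agent.S24.Real Fermat.Agent.S23.R4

variable {K : Type*} [Field K] [Algebra ℚ K] (e : K →+* ℂ) {N : ℕ}

/-- The order of a modular function at a point of the upper half plane. -/
noncomputable def ordAt (z : ℍ) (h : FK K N) : ℤ := ordE z (iota e h)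

lemma ordAt_def (z : ℍ) (h : FK K N) : ordAt e z h = ordE z (iota e h) := rfl

lemma iota_ne_zero {h : FK K N} (hh : h ≠ 0) : iota e h ≠ 0 :=
  (map_ne_zero_iff _ (iota_injective e)).mpr hh

@[simp] lemma ordAt_zero (z : ℍ) : ordAt e z (0 : FK K N) = 0 := by
  simp [ordAt]

@[simp] lemma ordAt_one (z : ℍ) : ordAt e z (1 : FK K N) = 0 := by
  simp [ordAt]

lemma ordAt_mul (z : ℍ) (f g : FK K N) (hf : f ≠ 0) (hg : g ≠ 0) :
    ordAt e z (f * g) = ordAt e z f + ordAt e z g := by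
  rw [ordAt, map_mul, ordE_mul z (iota_ne_zero e hf) (iota_ne_zero e hg)]
  rfl

lemma ordAt_add (z : ℍ) (f g : FK K N) (hf : f ≠ 0) (hg : g ≠ 0) (hfg : f + g ≠ 0) :
    min (ordAt e z f) (ordAt e z g) ≤ ordAt e z (f + g) := by
  have h := min_ordE_le_ordE_add z (iota_ne_zero e hf) (iota_ne_zero e hg)
    (by rw [← map_add]; exact iota_ne_zero e hfg)
  rw [← map_add] at h
  exact h

lemma ordAt_inv (z : ℍ) (f : FK K N) : ordAt e z f⁻¹ = - ordAt e z f := by
  rw [ordAt, map_inv₀, ordE_inv]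
  rfl

lemma ordAt_algebraMap (z : ℍ) (c : K) : ordAt e z (algebraMap K (FK K N) c) = 0 := by
  rw [ordAt, iota_algebraMap, ordE_constH]

lemma ordAt_algebraMap_nonneg (z : ℍ) (c : K) (_hc : algebraMap K (FK K N) c ≠ 0) :
    0 ≤ ordAt e z (algebraMap K (FK K N) c) :=
  (ordAt_algebraMap e z c).ge

lemma ordAt_prod (z : ℍ) {ι : Type*} (s : Finset ι) (x : ι → FK K N) (h : ∀ i ∈ s, x i ≠ 0) :
    ordAt e z (∏ i ∈ s, x i) = ∑ i ∈ s, ordAt e z (x i) := by
  rw [ordAt, map_prod, ordE_prod z s _ (fun i hi => iota_ne_zero e (h i hi))]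
  rfl

/-- The order on `AK` is the order of vanishing of the realisation. -/
lemma ordAt_incl (z : ℍ) (a : AK K N) :
    ordAt e z (inclAK K N a) = ordN z (rhoH e a) := by
  rw [ordAt, iota_incl, ordE_algebraMap]

lemma ordAt_incl_eq (z : ℍ) (a : AK K N) :
    ordAt e z (inclAK K N a) = (analyticOrderNatAt (rho e a ∘ ofComplex) (z : ℂ) : ℤ) :=
  ordAt_incl e z a

lemma ordAt_incl_nonneg (z : ℍ) (a : AK K N) : 0 ≤ ordAt e z (inclAK K N a) := by
  rw [ordAt_incl]
  exact Int.natCast_nonneg _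

lemma ordAt_incl_pos_iff (z : ℍ) {a : AK K N} (ha : a ≠ 0) :
    0 < ordAt e z (inclAK K N a) ↔ rho e a z = 0 := by
  rw [ordAt, iota_incl, ordE_algebraMap_pos_iff z (rhoH_ne_zero e ha)]
  rfl

/-- The order of a fraction. -/
lemma ordAt_eq_sub (z : ℍ) (h : FK K N) (a b : AK K N) (ha : a ≠ 0) (hb : b ≠ 0)
    (hab : h * inclAK K N b = inclAK K N a) :
    ordAt e z h = (analyticOrderNatAt (rho e a ∘ ofComplex) (z : ℂ) : ℤ)
      - (analyticOrderNatAt (rho e b ∘ ofComplex) (z : ℂ) : ℤ) := by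
  rw [ordAt, iota_eq_div e h a b hb hab, ordE_div z (rhoH_ne_zero e ha) (rhoH_ne_zero e hb)]
  rfl

/-- Invariance under `Γ₀(N)`. -/
lemma ordAt_smul_of_mem {γ : SL(2, ℤ)} (hγ : γ ∈ Gamma0 N) (z : ℍ) (h : FK K N) :
    ordAt e (γ • z) h = ordAt e z h := by
  have h1 := ordE_tauE γ⁻¹ z (iota e h)
  rw [inv_inv, tauE_iota_of_mem e (inv_mem hγ)] at h1
  exact h1.symm

/-- The order of a conjugate. -/
lemma ordE_sig (z : ℍ) (k : SL(2, ℤ) ⧸ Gamma0 N) (h : FK K N) :
    ordE z (sig e k h) = ordAt e ((Quotient.out k)⁻¹ • z) h := by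
  rw [sig_apply, ordE_tauE]
  rfl

/-- The point valuation attached to the coset `[g]` and the base point `z` only depends on
the coset. -/
lemma ordAt_inv_smul_eq_of_mk_eq (z : ℍ) {g g' : SL(2, ℤ)}
    (hgg : (QuotientGroup.mk g : SL(2, ℤ) ⧸ Gamma0 N) = QuotientGroup.mk g') (h : FK K N) :
    ordAt e (g⁻¹ • z) h = ordAt e (g'⁻¹ • z) h := by
  have hmem : g⁻¹ * g' ∈ Gamma0 N := QuotientGroup.eq.mp hgg
  have hz : g⁻¹ • z = (g⁻¹ * g') • (g'⁻¹ • z) := by
    rw [← mul_smul]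
    congr 1
    group
  rw [hz, ordAt_smul_of_mem e hmem]

/-! ### Polynomials in `j` -/

/-- The holomorphic function `P(j)` for a polynomial `P` over `K`. -/
noncomputable def evalH (P : K[X]) : HolH := Polynomial.eval₂ (constH.comp e) jH P

lemma evalH_apply (P : K[X]) (z : ℍ) : ((evalH e P : HolH) : ℍ → ℂ) z = (P.map e).eval (jInv z) := by
  let ev : HolH →+* ℂ := (Pi.evalRingHom (fun _ : ℍ => ℂ) z).comp HolH.subtype
  have h1 : ev (evalH e P) = Polynomial.eval₂ (ev.comp (constH.comp e)) (ev jH) P :=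
    Polynomial.hom_eval₂ P (constH.comp e) ev jH
  have h2 : ev.comp (constH.comp e) = e := by
    ext c
    rfl
  have h3 : ev jH = jInv z := rfl
  rw [h2, h3] at h1
  rw [Polynomial.eval_map]
  exact h1

lemma iota_aeval_jF (P : K[X]) :
    iota e (Polynomial.aeval (jF K N) P) = algebraMap HolH MerH (evalH e P) := by
  rw [Polynomial.aeval_def, Polynomial.hom_eval₂, evalH, Polynomial.hom_eval₂, iota_jF]
  congr 1
  ext c
  simp only [RingHom.coe_comp, Function.comp_apply]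
  exact iota_algebraMap e c

/-- `j - c` has positive order exactly at the points above `c`. -/
lemma ordAt_jF_sub_pos_iff (z : ℍ) (c : K) :
    0 < ordAt e z (jF K N - algebraMap K (FK K N) c) ↔ jInv z = e c := by
  have h1 : jF K N - algebraMap K (FK K N) c = Polynomial.aeval (jF K N) (X - C c : K[X]) := by
    simp
  have hne : evalH e (X - C c : K[X]) ≠ 0 := by
    intro h0
    obtain ⟨w, hw⟩ := Fermat.Agent.S24.DegLB.exists_jInv_ne (e c)
    apply hw
    have := congrFun (congrArg Subtype.val h0) w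
    rw [evalH_apply] at this
    simpa [sub_eq_zero] using this
  rw [h1, ordAt, iota_aeval_jF, ordE_algebraMap_pos_iff z hne, evalH_apply]
  simp [sub_eq_zero]

lemma ordAt_aeval_jF_nonneg (z : ℍ) (P : K[X]) :
    0 ≤ ordAt e z (Polynomial.aeval (jF K N) P) := by
  rw [ordAt, iota_aeval_jF]
  exact ordE_algebraMap_nonneg z _

/-! ### NORM -/

section Norm

variable [NeZero N] [FiniteDimensional K⟮jF K N⟯ (FK K N)] [Fintype (SL(2, ℤ) ⧸ Gamma0 N)]

/-- **NORM, valuation form**: the order at `z` of the norm of `h` is the sum of the orders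
of `h` at the points `g_k⁻¹ • z`, `k ∈ SL(2, ℤ) ⧸ Γ₀(N)`. -/
theorem ordAt_norm
    (hcard : Module.finrank K⟮jF K N⟯ (FK K N) ≤ Nat.card (SL(2, ℤ) ⧸ Gamma0 N))
    (z : ℍ) {h : FK K N} (hh : h ≠ 0) :
    ordAt e z (algebraMap K⟮jF K N⟯ (FK K N) (Algebra.norm K⟮jF K N⟯ h))
      = ∑ k : SL(2, ℤ) ⧸ Gamma0 N, ordAt e ((Quotient.out k)⁻¹ • z) h := by
  rw [ordAt, iota_norm_eq_prod e hcard h]
  have h1 := ordE_prod z Finset.univ
    (fun k : SL(2, ℤ) ⧸ Gamma0 N => tauE (Quotient.out k) (iota e h))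
    (fun k _ => (map_ne_zero_iff _ (tauE (Quotient.out k)).injective).mpr (iota_ne_zero e hh))
  rw [h1]
  refine Finset.sum_congr rfl fun k _ => ?_
  rw [ordE_tauE]
  rfl

/-- **NORM, function level**: if `h = a / b` with `a b ∈ AK` and the norm of `h` is
`A(j) / B(j)`, then `A(j) ∏ₖ b ∘ gₖ⁻¹ = B(j) ∏ₖ a ∘ gₖ⁻¹` as functions on `ℍ`. -/
theorem norm_fun_identity
    (hcard : Module.finrank K⟮jF K N⟯ (FK K N) ≤ Nat.card (SL(2, ℤ) ⧸ Gamma0 N))
    (h : FK K N) (a b : AK K N) (hb : b ≠ 0) (hab : h * inclAK K N b = inclAK K N a)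
    (A B : K[X])
    (hAB : algebraMap K⟮jF K N⟯ (FK K N) (Algebra.norm K⟮jF K N⟯ h)
      * Polynomial.aeval (jF K N) B = Polynomial.aeval (jF K N) A) (z : ℍ) :
    (A.map e).eval (jInv z) * ∏ k : SL(2, ℤ) ⧸ Gamma0 N, rho e b ((Quotient.out k)⁻¹ • z)
      = (B.map e).eval (jInv z)
        * ∏ k : SL(2, ℤ) ⧸ Gamma0 N, rho e a ((Quotient.out k)⁻¹ • z) := by
  have h1 := congrArg (iota e) hAB
  rw [map_mul, iota_norm_eq_prod e hcard h, iota_aeval_jF, iota_aeval_jF] at h1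
  have h2 : ∀ k : SL(2, ℤ) ⧸ Gamma0 N, tauE (Quotient.out k) (iota e h)
      = algebraMap HolH MerH (tau (Quotient.out k) (rhoH e a))
        / algebraMap HolH MerH (tau (Quotient.out k) (rhoH e b)) := by
    intro k
    rw [iota_eq_div e h a b hb hab, map_div₀, tauE_algebraMap, tauE_algebraMap]
  have hbk : ∀ k : SL(2, ℤ) ⧸ Gamma0 N,
      algebraMap HolH MerH (tau (Quotient.out k) (rhoH e b)) ≠ 0 := fun k =>
    algebraMap_MerH_ne_zero
      ((map_ne_zero_iff _ (tau (Quotient.out k)).injective).mpr (rhoH_ne_zero e hb))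
  have hprodb : (∏ k : SL(2, ℤ) ⧸ Gamma0 N,
      algebraMap HolH MerH (tau (Quotient.out k) (rhoH e b))) ≠ 0 :=
    Finset.prod_ne_zero_iff.mpr fun k _ => hbk k
  simp only [h2, Finset.prod_div_distrib] at h1
  rw [div_mul_eq_mul_div, div_eq_iff hprodb, ← map_prod, ← map_prod, ← map_mul, ← map_mul] at h1
  have h3 := algebraMap_MerH_injective h1
  have h4 := congrFun (congrArg Subtype.val h3) z
  have hev : ∀ (c : AK K N),
      ((∏ k : SL(2, ℤ) ⧸ Gamma0 N, tau (Quotient.out k) (rhoH e c) : HolH) : ℍ → ℂ) z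
        = ∏ k : SL(2, ℤ) ⧸ Gamma0 N, rho e c ((Quotient.out k)⁻¹ • z) := by
    intro c
    let ev : HolH →+* ℂ := (Pi.evalRingHom (fun _ : ℍ => ℂ) z).comp HolH.subtype
    have := map_prod ev (fun k : SL(2, ℤ) ⧸ Gamma0 N => tau (Quotient.out k) (rhoH e c))
      Finset.univ
    exact this
  have h5 : ((∏ k : SL(2, ℤ) ⧸ Gamma0 N, tau (Quotient.out k) (rhoH e a)) * evalH e B : HolH).1 z
      = (evalH e A * ∏ k : SL(2, ℤ) ⧸ Gamma0 N, tau (Quotient.out k) (rhoH e b) : HolH).1 z := h4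
  have h6 : ((∏ k : SL(2, ℤ) ⧸ Gamma0 N, tau (Quotient.out k) (rhoH e a)) * evalH e B : HolH).1 z
      = ((∏ k : SL(2, ℤ) ⧸ Gamma0 N, tau (Quotient.out k) (rhoH e a) : HolH) : ℍ → ℂ) z
        * ((evalH e B : HolH) : ℍ → ℂ) z := rfl
  have h7 : (evalH e A * ∏ k : SL(2, ℤ) ⧸ Gamma0 N, tau (Quotient.out k) (rhoH e b) : HolH).1 z
      = ((evalH e A : HolH) : ℍ → ℂ) z
        * ((∏ k : SL(2, ℤ) ⧸ Gamma0 N, tau (Quotient.out k) (rhoH e b) : HolH) : ℍ → ℂ) z := rfl
  rw [h6, h7, hev a, hev b, evalH_apply, evalH_apply] at h5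
  rw [← h5]
  ring

end Norm

end Fermat.Agent.S24.Mer
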