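import Fermat.Agent.S24.H24_G3
import Fermat.Agent.S24.H21_OrdAt
import Fermat.Agent.S24.H23_NormAlg
import Fermat.Agent.S24.H13_CRT

/-!
# S24 / G3: the number of places over a finite value of `j` (final form)

The surjectivity hypothesis of `H24_G3` is discharged by the norm argument: the norm of an
integral element `h` is a polynomial `Q₀ (j)` divisible by `h` (helper23), and its order at `z₀`
is the sum of the orders of `h` at the points `g_k⁻¹ • z₀` (helper21); the Chinese remainder
theorem (helper13) then shows that every place over `c` is the place of one of these points.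
This gives the fields `gen`, `zero`, `one` of `Final.Inputs`.
-/

set_option autoImplicit false
set_option linter.style.haveILetI false
set_option linter.unusedSectionVars false

namespace Fermat.Agent.S24.G3

open UpperHalfPlane ModularForm CongruenceSubgroup MulAction AlgebraicCurve IntermediateField
open Polynomial
open Fermat.Agent.S23 Fermat.Agent.S24.Real Fermat.Agent.S24.Comb
open scoped MatrixGroups ModularForm Manifold

noncomputable section

variable {K : Type*} [Field K] [Algebra ℚ K] (e : K →+* ℂ) {N : ℕ}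

/-- The two order functions (helper6's `Real.ordAt` and helper21's `Mer.ordAt`) agree. -/
theorem mer_ordAt_eq (z : ℍ) (h : FK K N) :
    Fermat.Agent.S24.Mer.ordAt e z h = Fermat.Agent.S24.Real.ordAt e z h := by
  by_cases hh : h = 0
  · subst hh
    rw [Fermat.Agent.S24.Real.ordAt_zero, Fermat.Agent.S24.Mer.ordAt_def, map_zero,
      Fermat.Agent.S24.Mer.ordE_zero]
  · have hab : h * inclAK K N (denAK h) = inclAK K N (numAK h) := Subtype.ext (mul_denAK h)
    rw [Fermat.Agent.S24.Mer.ordAt_eq_sub e z h (numAK h) (denAK h) (numAK_ne_zero hh)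
        (denAK_ne_zero h) hab,
      Fermat.Agent.S24.Real.ordAt_eq_sub e z hh (denAK_ne_zero h) (mul_denAK h)]
    rfl

/-- A polynomial in `j` vanishing at `c` has positive order at every point over `c`. -/
theorem mer_ordAt_aeval_pos (z : ℍ) (c : K) (hz : R4.jInv z = e c) (Q₀ : K[X])
    (hQ : aeval (Final.jF K N) Q₀ ≠ 0) (hc : Q₀.eval c = 0) :
    0 < Fermat.Agent.S24.Mer.ordAt e z (aeval (Final.jF K N) Q₀) := by
  have hne : Fermat.Agent.S24.Mer.evalH e Q₀ ≠ 0 := by
    intro h0
    apply Fermat.Agent.S24.Mer.iota_ne_zero e hQ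
    have := Fermat.Agent.S24.Mer.iota_aeval_jF e (N := N) Q₀
    rw [h0, map_zero] at this
    exact this
  have h1 : Fermat.Agent.S24.Mer.ordAt e z (aeval (Final.jF K N) Q₀)
      = Fermat.Agent.S24.Mer.ordE z
          (algebraMap Fermat.Agent.S24.Mer.HolH Fermat.Agent.S24.Mer.MerH
            (Fermat.Agent.S24.Mer.evalH e Q₀)) := by
    rw [Fermat.Agent.S24.Mer.ordAt_def]
    exact congrArg _ (Fermat.Agent.S24.Mer.iota_aeval_jF e (N := N) Q₀)
  rw [h1, Fermat.Agent.S24.Mer.ordE_algebraMap_pos_iff z hne,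
    Fermat.Agent.S24.Mer.evalH_apply]
  have h2 : R4.jInv z = e c := hz
  rw [h2, Polynomial.eval_map, Polynomial.eval₂_at_apply, hc, map_zero]

variable [NeZero N]

set_option synthInstance.maxHeartbeats 400000 in
set_option maxHeartbeats 1000000 in
/-- **hNORM, finite `c`**: the norm polynomial of an integral element, in the shape of
`Orb.surj_of_norm` for the family of point places over `c`. -/
theorem hNORM_fin (c : K) (z0 : ℍ) (hz0 : R4.jInv z0 = e c) :
    ∀ h ∈ Fermat.Agent.S24.CRT.R K (Final.jF K N), h ≠ 0 → ∃ Q₀ : K[X],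
      (∃ g ∈ Fermat.Agent.S24.CRT.R K (Final.jF K N), aeval (Final.jF K N) Q₀ = h * g) ∧
        (Q₀.eval c = 0 →
          ∃ k : X N, 0 < (ptPlace e N (zk z0 k) c (jInv_zk e z0 c hz0 k)).ord h) := by
  classical
  intro h hh hh0
  haveI : CharZero K := algebraRat.charZero K
  haveI hfd : FiniteDimensional K⟮Final.jF K N⟯ (FK K N) := finDim_final K N e
  haveI : Finite (X N) := finite_X
  letI : Fintype (X N) := Fintype.ofFinite _
  have hcard : Module.finrank K⟮Final.jF K N⟯ (FK K N) ≤ Nat.card (X N) :=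
    (finrank_eq_final K N e).le
  obtain ⟨Q₀, hQ₀, g, hg, hQg⟩ := Fermat.Agent.S24.NormAlg.exists_norm_poly (Final.jF K N)
    (Final.transcendental_jF K N) h hh
  refine ⟨Q₀, ⟨g, hg, hQg⟩, fun hc0 => ?_⟩
  have hnorm0 : algebraMap K⟮Final.jF K N⟯ (FK K N) (Algebra.norm K⟮Final.jF K N⟯ h) ≠ 0 := by
    rw [Ne, map_eq_zero_iff _ (algebraMap K⟮Final.jF K N⟯ (FK K N)).injective,
      Algebra.norm_eq_zero_iff]
    exact hh0
  have hsum : Fermat.Agent.S24.Mer.ordAt e z0
        (algebraMap K⟮Final.jF K N⟯ (FK K N) (Algebra.norm K⟮Final.jF K N⟯ h))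
      = ∑ k : X N, Fermat.Agent.S24.Mer.ordAt e ((Quotient.out k)⁻¹ • z0) h := by
    haveI hfd2 : FiniteDimensional K⟮Fermat.Agent.S24.Mer.jF K N⟯ (FK K N) :=
      finDim_final K N e
    exact Fermat.Agent.S24.Mer.ordAt_norm e hcard z0 hh0
  have hpos : 0 < Fermat.Agent.S24.Mer.ordAt e z0
      (algebraMap K⟮Final.jF K N⟯ (FK K N) (Algebra.norm K⟮Final.jF K N⟯ h)) := by
    rw [hQ₀]
    exact mer_ordAt_aeval_pos e z0 c hz0 Q₀ (hQ₀ ▸ hnorm0) hc0
  have hpos' : 0 < ∑ k : X N, Fermat.Agent.S24.Mer.ordAt e ((Quotient.out k)⁻¹ • z0) h := by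
    rw [← hsum]
    exact hpos
  obtain ⟨k, hk⟩ : ∃ k : X N, 0 < Fermat.Agent.S24.Mer.ordAt e ((Quotient.out k)⁻¹ • z0) h := by
    by_contra hcon
    refine absurd hpos' (not_lt.mpr (Finset.sum_nonpos fun k _ => ?_))
    by_contra hk
    exact hcon ⟨k, not_le.mp hk⟩
  refine ⟨k, (ptPlace_ord_pos_iff e _ c _ hh0).mpr ?_⟩
  rw [← mer_ordAt_eq]
  exact hk

set_option synthInstance.maxHeartbeats 400000 in
set_option maxHeartbeats 1000000 in
/-- **SURJ, finite `c`**: every place over `j = c` is the place of one of the points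
`(Quotient.out k)⁻¹ • z₀`. -/
theorem surj_fin (c : K) (z0 : ℍ) (hz0 : R4.jInv z0 = e c) (Q : Place K (FK K N))
    (hQ : 0 < Q.ord (Final.jF K N - algebraMap K (FK K N) c)) :
    ∃ k : X N, ptPlace e N (zk z0 k) c (jInv_zk e z0 c hz0 k) = Q := by
  haveI : CharZero K := algebraRat.charZero K
  haveI hfd : FiniteDimensional K⟮Final.jF K N⟯ (FK K N) := finDim_final K N e
  haveI : Finite (X N) := finite_X
  refine Fermat.Agent.S24.CRT.surj_of_norm_R_of_ord_pos
    (fun k : X N => ptPlace e N (zk z0 k) c (jInv_zk e z0 c hz0 k)) (Final.jF K N) c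
    (fun k => ?_) (hNORM_fin e c z0 hz0) Q hQ
  rw [ptPlace_ord_pos_iff e _ c _ (jF_sub_ne_zero c), ordAt_jF_sub_eq e _ c (jInv_zk e z0 c hz0 k)]
  exact_mod_cast locDeg_pos (e c)

/-! ### The three fields `gen`, `zero`, `one` of `Final.Inputs` -/

/-- **Field `gen`**: over `c ∉ {0, 1728}` there are `μ = #X` places. -/
theorem gen_final [IsAlgClosed K] (e : K →+* ℂ) (c : K) (h0 : c ≠ 0) (h1 : c ≠ 1728) :
    Nat.card {v : Place K (FK K N) // 0 < v.ord (Final.jF K N - algebraMap K (FK K N) c)}
      = Nat.card (X N) :=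
  card_places_gen e c h0 h1 fun z0 hz0 Q hQ => surj_fin e c z0 hz0 Q hQ

/-- **Field `zero`**: the places over `j = 0` are counted by the orbits of `S * T`. -/
theorem zero_final [IsAlgClosed K] (e : K →+* ℂ) :
    Nat.card {v : Place K (FK K N) // 0 < v.ord (Final.jF K N - algebraMap K (FK K N) 0)}
      = Nat.card (orbitRel.Quotient
          (Subgroup.zpowers (ModularGroup.S * ModularGroup.T)) (X N)) :=
  card_places_zero e fun Q hQ => surj_fin e 0 G1.rho (jInv_rho_eq e) Q hQ

/-- **Field `one`**: the places over `j = 1728` are counted by the orbits of `S`. -/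
theorem one_final [IsAlgClosed K] (e : K →+* ℂ) :
    Nat.card {v : Place K (FK K N) //
        0 < v.ord (Final.jF K N - algebraMap K (FK K N) 1728)}
      = Nat.card (orbitRel.Quotient (Subgroup.zpowers ModularGroup.S) (X N)) :=
  card_places_1728 e fun Q hQ => surj_fin e 1728 UpperHalfPlane.I (jInv_I_eq e) Q hQ

end

end Fermat.Agent.S24.G3
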