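import Mathlib
import Fermat.Prelude.Def_ModularCurve_ArithmeticGalois

/-!
# S24 REAL (helper6), part 1: formal = analytic for `E₄` and `Δ`

* `qExpansion_E4` : the `q`-expansion of the analytic Eisenstein series `E₄` is the formal power
  series `ModularCurve.eisenstein4` of the prelude.
* `qExpansion_discriminant` : the `q`-expansion of the analytic discriminant is the formal
  series `X * etaProd ^ 24` of the prelude (`deltaZ`).
* `taylor0` : Taylor series at `0` as a formal power series, multiplicative on analytic functions.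
-/

set_option autoImplicit false

open UpperHalfPlane ModularForm EisensteinSeries ModularFormClass Filter Topology
open scoped MatrixGroups ModularForm PowerSeries.WithPiTopology

namespace Fermat.Agent.S24.Real

theorem h6_bernoulli_four : bernoulli 4 = -1/30 := by
  simp [bernoulli, bernoulli'_four]
  norm_num

/-- The `q`-expansion of the analytic `E₄` is the formal `eisenstein4` of the prelude. -/
theorem qExpansion_E4 :
    qExpansion 1 E₄ = ModularCurve.eisenstein4.map (Int.castRingHom ℂ) := by
  ext m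
  have h := EisensteinSeries.E_qExpansion_coeff (k := 4) (by norm_num) (by decide) m
  rw [PowerSeries.coeff_map]
  simp only [ModularCurve.eisenstein4, PowerSeries.coeff_mk]
  rw [show (qExpansion 1 (E₄ : ℍ → ℂ)) = qExpansion 1 ⇑(E (k := 4) (by norm_num)) from rfl, h]
  split_ifs with hm
  · simp
  · rw [h6_bernoulli_four]
    simp [ArithmeticFunction.sigma_apply]
    norm_num


/-- partial products of the eta product, as integer polynomials -/
noncomputable def etaPoly (M : ℕ) : Polynomial ℤ :=
  ∏ n ∈ Finset.range M, (1 - Polynomial.X ^ (n + 1))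

lemma etaPoly_succ (M : ℕ) : etaPoly (M + 1) = etaPoly M * (1 - Polynomial.X ^ (M + 1)) := by
  simp [etaPoly, Finset.prod_range_succ]

lemma coeff_etaPoly_succ {M k : ℕ} (hk : k ≤ M) :
    (etaPoly (M + 1)).coeff k = (etaPoly M).coeff k := by
  rw [etaPoly_succ, mul_sub, mul_one, Polynomial.coeff_sub, Polynomial.coeff_mul_X_pow']
  simp [show ¬ (M + 1 ≤ k) by omega]

lemma coeff_etaPoly_of_le {M k : ℕ} (h : k ≤ M) :
    (etaPoly M).coeff k = (etaPoly k).coeff k := by
  induction M with
  | zero => simp at h; subst h; rfl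
  | succ M ih =>
    rcases Nat.eq_or_lt_of_le h with h' | h'
    · subst h'; rfl
    · rw [coeff_etaPoly_succ (by omega), ih (by omega)]

lemma coe_etaPoly (M : ℕ) :
    ((etaPoly M : Polynomial ℤ) : PowerSeries ℤ) =
      ∏ n ∈ Finset.range M, (1 - PowerSeries.X ^ (n + 1)) := by
  rw [etaPoly, ← Polynomial.coeToPowerSeries.ringHom_apply, map_prod]
  simp

lemma coeff_etaProd (k : ℕ) :
    PowerSeries.coeff k ModularCurve.etaProd = (etaPoly k).coeff k := by
  have h1 := (PowerSeries.WithPiTopology.multipliable_one_sub_X_pow ℤ).hasProd.tendsto_prod_nat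
  have h2 := ((PowerSeries.WithPiTopology.continuous_coeff (R := ℤ) k).tendsto _).comp h1
  have h3 : Tendsto (fun _ : ℕ => (etaPoly k).coeff k) atTop
      (𝓝 (PowerSeries.coeff k ModularCurve.etaProd)) := by
    refine h2.congr' ?_
    filter_upwards [eventually_ge_atTop k] with M hM
    simp only [Function.comp]
    rw [← coe_etaPoly, Polynomial.coeff_coe, coeff_etaPoly_of_le hM]
  exact tendsto_nhds_unique h3 tendsto_const_nhds


/-- Taylor series at `0` of a function `ℂ → ℂ`, as a formal power series. -/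
noncomputable def taylor0 (g : ℂ → ℂ) : PowerSeries ℂ :=
  .mk fun m ↦ (↑m.factorial)⁻¹ * iteratedDeriv m g 0

lemma coeff_taylor0 (g : ℂ → ℂ) (m : ℕ) :
    (taylor0 g).coeff m = (↑m.factorial)⁻¹ * iteratedDeriv m g 0 := by
  simp [taylor0]

lemma qExpansion_eq_taylor0 (h : ℝ) (f : ℍ → ℂ) : qExpansion h f = taylor0 (cuspFunction h f) := rfl

lemma taylor0_congr {g₁ g₂ : ℂ → ℂ} (h : g₁ =ᶠ[𝓝 0] g₂) : taylor0 g₁ = taylor0 g₂ := by
  ext m
  rw [coeff_taylor0, coeff_taylor0, h.iteratedDeriv_eq m]

lemma taylor0_mul {f g : ℂ → ℂ} (hf : AnalyticAt ℂ f 0) (hg : AnalyticAt ℂ g 0) :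
    taylor0 (f * g) = taylor0 f * taylor0 g := by
  ext
  simp only [coeff_taylor0,
    iteratedDeriv_mul hf.contDiffAt hg.contDiffAt, Finset.mul_sum, PowerSeries.coeff_mul,
    Finset.Nat.sum_antidiagonal_eq_sum_range_succ_mk, Nat.succ_eq_add_one]
  refine Finset.sum_congr rfl fun i hi ↦ ?_
  rw [Nat.cast_choose _ (by grind)]
  field_simp [Nat.factorial_ne_zero]

lemma taylor0_pow {f : ℂ → ℂ} (hf : AnalyticAt ℂ f 0) (n : ℕ) :
    taylor0 (f ^ n) = taylor0 f ^ n := by
  induction n with
  | zero =>
    ext m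
    have h2 : iteratedDeriv m (1 : ℂ → ℂ) 0 = if m = 0 then 1 else 0 := by
      simpa [ite_apply] using! iteratedDeriv_const
    simp +contextual [coeff_taylor0, h2, PowerSeries.coeff_one]
  | succ n ih => rw [pow_succ, pow_succ, taylor0_mul (hf.pow n) hf, ih]

lemma iteratedDeriv_polynomial (p : Polynomial ℂ) (k : ℕ) :
    iteratedDeriv k (fun x => p.eval x) = fun x => (Polynomial.derivative^[k] p).eval x := by
  induction k with
  | zero => simp
  | succ k ih =>
    rw [iteratedDeriv_succ, ih]
    funext x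
    rw [Polynomial.deriv, Function.iterate_succ_apply']

lemma taylor0_polynomial (p : Polynomial ℂ) : taylor0 (fun x => p.eval x) = (p : PowerSeries ℂ) := by
  ext m
  rw [coeff_taylor0, iteratedDeriv_polynomial, Polynomial.coeff_coe]
  show (↑m.factorial)⁻¹ * Polynomial.eval 0 ((⇑Polynomial.derivative)^[m] p) = p.coeff m
  rw [← Polynomial.coeff_zero_eq_eval_zero, Polynomial.coeff_iterate_derivative]
  have hm : (m.factorial : ℂ) ≠ 0 := by exact_mod_cast Nat.factorial_ne_zero m
  simp [Nat.descFactorial_self]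
  field_simp


/-- The analytic Euler product `∏ (1 - q^(n+1))`. -/
noncomputable def eulerFun (q : ℂ) : ℂ := ∏' n : ℕ, (1 - q ^ (n + 1))

lemma eval_etaPoly (M : ℕ) (q : ℂ) :
    ((etaPoly M).map (Int.castRingHom ℂ)).eval q = ∏ i ∈ Finset.range M, (1 - q ^ (i + 1)) := by
  simp [etaPoly, Polynomial.eval_prod, Polynomial.map_prod]

lemma tendstoLocallyUniformlyOn_etaPoly :
    TendstoLocallyUniformlyOn (fun (M : ℕ) (q : ℂ) => ((etaPoly M).map (Int.castRingHom ℂ)).eval q)
      eulerFun atTop (Metric.ball (0 : ℂ) 1) := by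
  have h := multipliableLocallyUniformlyOn_one_sub_pow.hasProdLocallyUniformlyOn
  have h' : TendstoLocallyUniformlyOn (fun (s : Finset ℕ) (q : ℂ) => ∏ i ∈ s, (1 - q ^ (i + 1)))
      eulerFun atTop (Metric.ball (0 : ℂ) 1) := h
  intro u hu x hx
  obtain ⟨t, ht, hev⟩ := h' u hu x hx
  refine ⟨t, ht, ?_⟩
  have := Filter.tendsto_finset_range.eventually hev
  filter_upwards [this] with M hM y hy
  rw [eval_etaPoly]
  exact hM y hy

lemma tendstoLocallyUniformlyOn_iteratedDeriv_etaPoly (k : ℕ) :
    TendstoLocallyUniformlyOn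
      (fun (M : ℕ) => iteratedDeriv k (fun q : ℂ => ((etaPoly M).map (Int.castRingHom ℂ)).eval q))
      (iteratedDeriv k eulerFun) atTop (Metric.ball (0 : ℂ) 1) := by
  induction k with
  | zero => simpa using tendstoLocallyUniformlyOn_etaPoly
  | succ k ih =>
    have := ih.deriv (.of_forall fun M => ?_) Metric.isOpen_ball
    · simpa [iteratedDeriv_succ, Function.comp_def] using this
    · rw [iteratedDeriv_polynomial]
      exact (Polynomial.differentiable _).differentiableOn

lemma taylor0_eulerFun : taylor0 eulerFun = ModularCurve.etaProd.map (Int.castRingHom ℂ) := by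
  ext k
  rw [coeff_taylor0, PowerSeries.coeff_map, coeff_etaProd]
  have h0 : (0 : ℂ) ∈ Metric.ball (0 : ℂ) 1 := by simp
  have h1 := (tendstoLocallyUniformlyOn_iteratedDeriv_etaPoly k).tendsto_at h0
  have h2 : Tendsto (fun _ : ℕ => (k.factorial : ℂ) * ((etaPoly k).coeff k : ℂ)) atTop
      (𝓝 (iteratedDeriv k eulerFun 0)) := by
    refine h1.congr' ?_
    filter_upwards [eventually_ge_atTop k] with M hM
    have := congrArg (PowerSeries.coeff k) (taylor0_polynomial ((etaPoly M).map (Int.castRingHom ℂ)))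
    rw [coeff_taylor0, Polynomial.coeff_coe, Polynomial.coeff_map, coeff_etaPoly_of_le hM] at this
    have hk : (k.factorial : ℂ) ≠ 0 := by exact_mod_cast Nat.factorial_ne_zero k
    simp only [eq_intCast] at this
    rw [← this]
    field_simp
  have h3 := tendsto_nhds_unique h2 tendsto_const_nhds
  have hk : (k.factorial : ℂ) ≠ 0 := by exact_mod_cast Nat.factorial_ne_zero k
  rw [h3]
  simp
  field_simp


lemma analyticAt_eulerFun : AnalyticAt ℂ eulerFun 0 :=
  differentiableOn_tprod_one_sub_pow.analyticAt (Metric.ball_mem_nhds 0 one_pos)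

lemma taylor0_id : taylor0 (fun q : ℂ => q) = PowerSeries.X := by
  have := taylor0_polynomial (Polynomial.X)
  simpa using this

/-- The formal discriminant `q ∏ (1 - q^n)^24` over `ℤ`. -/
noncomputable def deltaZ : PowerSeries ℤ := PowerSeries.X * ModularCurve.dedekindEtaUnit

/-- The `q`-expansion of the analytic discriminant is the formal `q ∏ (1 - q^n)^24`. -/
theorem qExpansion_discriminant :
    qExpansion 1 ModularForm.discriminant = deltaZ.map (Int.castRingHom ℂ) := by
  rw [qExpansion_eq_taylor0]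
  have h1 : cuspFunction 1 ModularForm.discriminant =ᶠ[𝓝 0] ((fun q : ℂ => q) * eulerFun ^ 24) := by
    filter_upwards [Metric.ball_mem_nhds (0 : ℂ) one_pos] with q hq
    rw [discriminant_cuspFunction_eqOn hq]
    simp only [Pi.mul_apply, Pi.pow_apply, eulerFun]
    rw [(multipliable_one_sub_pow (by simpa using hq)).tprod_pow 24]
  rw [taylor0_congr h1, taylor0_mul (f := fun q : ℂ => q) analyticAt_id (analyticAt_eulerFun.pow 24),
    taylor0_pow analyticAt_eulerFun, taylor0_id, taylor0_eulerFun]
  simp [deltaZ, ModularCurve.dedekindEtaUnit]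

end Fermat.Agent.S24.Real
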