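import Mathlib
import Fermat.Prelude.Def_ModularCurve_ArithmeticGalois
import Fermat.Agent.S23.R5_QRel
import Fermat.Agent.S23.R5_Scale
import Fermat.Agent.S23.H23_JFun
import Fermat.Agent.S23.H23_DistinctDelta
import Fermat.Agent.S24.H6_Formal

/-!
# S24 REAL (helper6), part 2: realisation of formal `q`-series by functions on `ℍ`

`IsReal h f` : the formal Laurent series `h ∈ ℂ((q))` is realised by the holomorphic function
`f : ℍ → ℂ`, i.e. `f = A / B` with `A`, `B` holomorphic, `1`-periodic, bounded at `i∞`, `B`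
nowhere vanishing, and `h = qExp A / qExp B`.
-/

set_option autoImplicit false

open UpperHalfPlane ModularForm EisensteinSeries ModularFormClass Filter Topology
open CongruenceSubgroup
open scoped MatrixGroups ModularForm Manifold

namespace Fermat.Agent.S24.Real

open Fermat.Agent.S23 Fermat.Agent.S23.R5 Fermat.Agent.S23.R4

/-- Power series as Laurent series. -/
noncomputable abbrev toL : PowerSeries ℂ →+* LaurentSeries ℂ := HahnSeries.ofPowerSeries ℤ ℂ

lemma toL_injective : Function.Injective toL := HahnSeries.ofPowerSeries_injective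

/-- `h` is realised by `f`. -/
def IsReal (h : LaurentSeries ℂ) (f : ℍ → ℂ) : Prop :=
  ∃ A B : ℍ → ℂ, NiceAtInf A ∧ NiceAtInf B ∧ (∀ z, B z ≠ 0) ∧ (∀ z, f z * B z = A z) ∧
    toL (qExpansion 1 A) = h * toL (qExpansion 1 B)

lemma qExpansion_ne_zero_of_ne {B : ℍ → ℂ} (hB : NiceAtInf B) (h0 : ∀ z, B z ≠ 0) :
    qExpansion 1 B ≠ 0 := by
  intro h
  have := hB.eq_zero_of_qExpansion h
  exact h0 UpperHalfPlane.I (by rw [this]; rfl)

lemma toL_qExpansion_ne_zero {B : ℍ → ℂ} (hB : NiceAtInf B) (h0 : ∀ z, B z ≠ 0) :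
    toL (qExpansion 1 B) ≠ 0 := by
  intro h
  exact qExpansion_ne_zero_of_ne hB h0 (toL_injective (by simpa using h))

lemma qExpansion_const (c : ℂ) : qExpansion 1 (fun _ : ℍ => c) = PowerSeries.C c := by
  have h1 : (fun _ : ℍ => c) = c • (1 : ℍ → ℂ) := by
    funext z; simp
  rw [h1, qExpansion_smul NiceAtInf.one.analyticAt, qExpansion_one]
  ext n
  simp [PowerSeries.coeff_one, PowerSeries.coeff_C]

namespace IsReal

variable {h h' : LaurentSeries ℂ} {f f' : ℍ → ℂ}

lemma const (c : ℂ) : IsReal (algebraMap ℂ (LaurentSeries ℂ) c) (fun _ => c) := by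
  refine ⟨fun _ => c, 1, NiceAtInf.const c, NiceAtInf.one, fun _ => one_ne_zero, fun z => by simp,
    ?_⟩
  rw [qExpansion_one, qExpansion_const]
  simp only [map_one, mul_one]
  rw [HahnSeries.ofPowerSeries_C, ModularCurve.algebraMap_laurentSeries_eq_single]
  rfl

lemma zero : IsReal 0 (0 : ℍ → ℂ) := by
  have := const 0
  rw [map_zero] at this
  exact this

lemma one : IsReal 1 (1 : ℍ → ℂ) := by
  have := const 1
  rw [map_one] at this
  exact this

lemma add (hf : IsReal h f) (hf' : IsReal h' f') : IsReal (h + h') (f + f') := by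
  obtain ⟨A, B, hA, hB, hB0, hfAB, hq⟩ := hf
  obtain ⟨A', B', hA', hB', hB0', hfAB', hq'⟩ := hf'
  refine ⟨A * B' + A' * B, B * B', (hA.mul hB').add (hA'.mul hB), hB.mul hB',
    fun z => mul_ne_zero (hB0 z) (hB0' z), fun z => ?_, ?_⟩
  · simp only [Pi.add_apply, Pi.mul_apply]
    rw [← hfAB, ← hfAB']
    ring
  · rw [qExpansion_add (hA.mul hB').analyticAt (hA'.mul hB).analyticAt,
      qExpansion_mul hA.analyticAt hB'.analyticAt, qExpansion_mul hA'.analyticAt hB.analyticAt,
      qExpansion_mul hB.analyticAt hB'.analyticAt]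
    simp only [map_add, map_mul]
    rw [hq, hq']
    ring

lemma mul (hf : IsReal h f) (hf' : IsReal h' f') : IsReal (h * h') (f * f') := by
  obtain ⟨A, B, hA, hB, hB0, hfAB, hq⟩ := hf
  obtain ⟨A', B', hA', hB', hB0', hfAB', hq'⟩ := hf'
  refine ⟨A * A', B * B', hA.mul hA', hB.mul hB',
    fun z => mul_ne_zero (hB0 z) (hB0' z), fun z => ?_, ?_⟩
  · simp only [Pi.mul_apply]
    rw [← hfAB, ← hfAB']
    ring
  · rw [qExpansion_mul hA.analyticAt hA'.analyticAt, qExpansion_mul hB.analyticAt hB'.analyticAt]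
    simp only [map_mul]
    rw [hq, hq']
    ring

lemma neg (hf : IsReal h f) : IsReal (-h) (-f) := by
  have := (const (-1)).mul hf
  have e1 : algebraMap ℂ (LaurentSeries ℂ) (-1) * h = -h := by
    rw [map_neg, map_one]; ring
  have e2 : (fun _ : ℍ => (-1 : ℂ)) * f = -f := by funext z; simp
  rwa [e1, e2] at this

lemma sub (hf : IsReal h f) (hf' : IsReal h' f') : IsReal (h - h') (f - f') := by
  rw [sub_eq_add_neg, sub_eq_add_neg]
  exact hf.add hf'.neg

lemma smul (c : ℂ) (hf : IsReal h f) : IsReal (HahnSeries.C c * h) (c • f) := by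
  have := (const c).mul hf
  have e1 : algebraMap ℂ (LaurentSeries ℂ) c = HahnSeries.C c := by
    rw [ModularCurve.algebraMap_laurentSeries_eq_single]; rfl
  have e2 : (fun _ : ℍ => c) * f = c • f := by funext z; simp
  rwa [e1, e2] at this

lemma holo (hf : IsReal h f) : MDiff f := by
  obtain ⟨A, B, hA, hB, hB0, hfAB, -⟩ := hf
  have : f = fun z => A z / B z := by
    funext z
    rw [eq_div_iff (hB0 z)]
    exact hfAB z
  rw [this]
  exact hA.holo.div hB.holo hB0

lemma periodic (hf : IsReal h f) : Function.Periodic (f ∘ ofComplex) 1 := by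
  obtain ⟨A, B, hA, hB, hB0, hfAB, -⟩ := hf
  intro w
  have h1 := hA.periodic w
  have h2 := hB.periodic w
  simp only [Function.comp_apply] at h1 h2 ⊢
  have e1 := hfAB (ofComplex (w + 1))
  have e2 := hfAB (ofComplex w)
  rw [h1, h2] at e1
  have := hB0 (ofComplex w)
  exact mul_right_cancel₀ this (e1.trans e2.symm)

/-- The realising function is determined by the series. -/
lemma unique_fun (hf : IsReal h f) (hf' : IsReal h f') : f = f' := by
  obtain ⟨A, B, hA, hB, hB0, hfAB, hq⟩ := hf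
  obtain ⟨A', B', hA', hB', hB0', hfAB', hq'⟩ := hf'
  have e : A * B' = A' * B := by
    apply (hA.mul hB').eq_of_qExpansion (hA'.mul hB)
    apply toL_injective
    rw [qExpansion_mul hA.analyticAt hB'.analyticAt, qExpansion_mul hA'.analyticAt hB.analyticAt]
    simp only [map_mul]
    rw [hq, hq']
    ring
  funext z
  have e1 := congrFun e z
  simp only [Pi.mul_apply] at e1
  rw [← hfAB, ← hfAB'] at e1
  have h2 : (f z - f' z) * (B z * B' z) = 0 := by linear_combination e1
  rcases mul_eq_zero.mp h2 with h3 | h3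
  · exact sub_eq_zero.mp h3
  · exact absurd h3 (mul_ne_zero (hB0 z) (hB0' z))

/-- The series is determined by the realising function. -/
lemma unique_series (hf : IsReal h f) (hf' : IsReal h' f) : h = h' := by
  obtain ⟨A, B, hA, hB, hB0, hfAB, hq⟩ := hf
  obtain ⟨A', B', hA', hB', hB0', hfAB', hq'⟩ := hf'
  have e : A * B' = A' * B := by
    funext z
    simp only [Pi.mul_apply]
    rw [← hfAB, ← hfAB']
    ring
  have e2 : toL (qExpansion 1 (A * B')) = toL (qExpansion 1 (A' * B)) := by rw [e]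
  rw [qExpansion_mul hA.analyticAt hB'.analyticAt, qExpansion_mul hA'.analyticAt hB.analyticAt,
    map_mul, map_mul, hq, hq'] at e2
  have hb := toL_qExpansion_ne_zero hB hB0
  have hb' := toL_qExpansion_ne_zero hB' hB0'
  have h3 : (h - h') * (toL (qExpansion 1 B) * toL (qExpansion 1 B')) = 0 := by
    linear_combination e2
  rcases mul_eq_zero.mp h3 with h4 | h4
  · exact sub_eq_zero.mp h4
  · exact absurd h4 (mul_ne_zero hb hb')

lemma eq_zero_iff (hf : IsReal h f) : h = 0 ↔ f = 0 :=
  ⟨fun h0 => (h0 ▸ hf).unique_fun zero, fun h0 => (h0 ▸ hf).unique_series zero⟩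

end IsReal

/-! ### Substitution `q ↦ q ^ d` -/

lemma coeff_toL_nat (p : PowerSeries ℂ) (n : ℕ) : (toL p).coeff (n : ℤ) = p.coeff n :=
  HahnSeries.ofPowerSeries_apply_coeff p n

lemma coeff_toL_neg (p : PowerSeries ℂ) {k : ℤ} (hk : k < 0) : (toL p).coeff k = 0 :=
  ModularCurve.ofPowerSeries_coeff_of_neg p hk

lemma toL_qExpansion_comp_scaleN {A : ℍ → ℂ} (hA : NiceAtInf A) (d : ℕ) [NeZero d] :
    toL (qExpansion 1 (fun z => A (scaleN d z))) =
      ModularCurve.qExpand ℂ d (toL (qExpansion 1 A)) := by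
  have hd : (0 : ℤ) < d := by exact_mod_cast Nat.pos_of_ne_zero (NeZero.ne d)
  ext k
  by_cases hk : (d : ℤ) ∣ k
  · obtain ⟨m, rfl⟩ := hk
    rw [ModularCurve.qExpand_coeff_mul]
    rcases lt_or_ge m 0 with hm | hm
    · rw [coeff_toL_neg _ hm, coeff_toL_neg _ (by nlinarith)]
    · lift m to ℕ using hm
      rw [coeff_toL_nat, show ((d : ℤ) * (m : ℤ)) = ((d * m : ℕ) : ℤ) by push_cast; ring,
        coeff_toL_nat]
      have := qCoeff_comp_scaleN hA.periodic hA.holo hA.bdd d (d * m)
      unfold qCoeff at this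
      rw [this, if_pos (dvd_mul_right d m), Nat.mul_div_cancel_left _ (Nat.pos_of_ne_zero (NeZero.ne d))]
  · rw [ModularCurve.qExpand_coeff_of_not_dvd d _ hk]
    rcases lt_or_ge k 0 with hk0 | hk0
    · rw [coeff_toL_neg _ hk0]
    · lift k to ℕ using hk0
      rw [coeff_toL_nat]
      have := qCoeff_comp_scaleN hA.periodic hA.holo hA.bdd d k
      unfold qCoeff at this
      rw [this, if_neg]
      intro h
      exact hk (by exact_mod_cast h)

lemma niceAtInf_comp_scaleN {A : ℍ → ℂ} (hA : NiceAtInf A) (d : ℕ) [NeZero d] :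
    NiceAtInf (fun z => A (scaleN d z)) :=
  ⟨periodic_comp_scaleN hA.periodic d, mdifferentiable_comp_scaleN hA.holo d,
    isBoundedAtImInfty_comp_scaleN hA.bdd d⟩

lemma IsReal.scale {h : LaurentSeries ℂ} {f : ℍ → ℂ} (hf : IsReal h f) (d : ℕ) [NeZero d] :
    IsReal (ModularCurve.qExpand ℂ d h) (fun z => f (scaleN d z)) := by
  obtain ⟨A, B, hA, hB, hB0, hfAB, hq⟩ := hf
  refine ⟨fun z => A (scaleN d z), fun z => B (scaleN d z), niceAtInf_comp_scaleN hA d,
    niceAtInf_comp_scaleN hB d, fun z => hB0 _, fun z => hfAB _, ?_⟩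
  rw [toL_qExpansion_comp_scaleN hA, toL_qExpansion_comp_scaleN hB, hq, map_mul]

/-! ### The generator `j` -/

lemma coeffMap_ofPowerSeries {R S : Type*} [CommRing R] [CommRing S] (φ : R →+* S)
    (p : PowerSeries R) :
    ModularCurve.coeffMap φ (HahnSeries.ofPowerSeries ℤ R p) =
      HahnSeries.ofPowerSeries ℤ S (p.map φ) := by
  ext k
  rw [ModularCurve.coeffMap_coeff]
  rcases lt_or_ge k 0 with hk | hk
  · rw [ModularCurve.ofPowerSeries_coeff_of_neg _ hk, ModularCurve.ofPowerSeries_coeff_of_neg _ hk,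
      map_zero]
  · lift k to ℕ using hk
    rw [HahnSeries.ofPowerSeries_apply_coeff, HahnSeries.ofPowerSeries_apply_coeff,
      PowerSeries.coeff_map]

lemma jNumQ_map :
    ModularCurve.jNumQ.map (algebraMap ℚ ℂ) = ModularCurve.jNum.map (Int.castRingHom ℂ) := by
  ext n
  simp [ModularCurve.jNumQ, PowerSeries.coeff_map]

/-- The formal identity `j * Δ = E₄ ^ 3` over `ℂ`. -/
lemma coeffEmb_jq_mul :
    ModularCurve.coeffEmb ℂ ModularCurve.jq * toL (deltaZ.map (Int.castRingHom ℂ)) =
      toL ((ModularCurve.eisenstein4.map (Int.castRingHom ℂ)) ^ 3) := by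
  have h1 : ModularCurve.coeffEmb ℂ ModularCurve.jq =
      HahnSeries.single (-1 : ℤ) (1 : ℂ) * toL (ModularCurve.jNum.map (Int.castRingHom ℂ)) := by
    rw [ModularCurve.coeffEmb, ModularCurve.jq, map_mul, ModularCurve.coeffMap_single, map_one,
      coeffMap_ofPowerSeries, jNumQ_map]
  have h2 : toL (deltaZ.map (Int.castRingHom ℂ)) =
      HahnSeries.single (1 : ℤ) (1 : ℂ) * toL (ModularCurve.dedekindEtaUnit.map (Int.castRingHom ℂ)) := by
    rw [deltaZ, map_mul, map_mul, PowerSeries.map_X, HahnSeries.ofPowerSeries_X]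
  have h3 : ModularCurve.jNum.map (Int.castRingHom ℂ) *
      ModularCurve.dedekindEtaUnit.map (Int.castRingHom ℂ) =
      (ModularCurve.eisenstein4.map (Int.castRingHom ℂ)) ^ 3 := by
    rw [← map_mul, ModularCurve.jNum, mul_assoc, mul_comm ModularCurve.dedekindEtaUnitInv,
      ModularCurve.dedekindEtaUnit_mul_inv, mul_one, map_pow]
  rw [h1, h2, ← h3, map_mul]
  have h4 : HahnSeries.single (-1 : ℤ) (1 : ℂ) * HahnSeries.single (1 : ℤ) (1 : ℂ) = 1 := by
    rw [HahnSeries.single_mul_single]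
    simp
  calc HahnSeries.single (-1 : ℤ) (1 : ℂ) * toL (ModularCurve.jNum.map (Int.castRingHom ℂ)) *
      (HahnSeries.single (1 : ℤ) (1 : ℂ) *
        toL (ModularCurve.dedekindEtaUnit.map (Int.castRingHom ℂ)))
      = (HahnSeries.single (-1 : ℤ) (1 : ℂ) * HahnSeries.single (1 : ℤ) (1 : ℂ)) *
        (toL (ModularCurve.jNum.map (Int.castRingHom ℂ)) *
          toL (ModularCurve.dedekindEtaUnit.map (Int.castRingHom ℂ))) := by ring
    _ = _ := by rw [h4, one_mul]

lemma niceAtInf_E4 : NiceAtInf (⇑E₄ : ℍ → ℂ) :=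
  NiceAtInf.of_modularForm E₄ one_mem_strictPeriods_SL

lemma niceAtInf_discriminant : NiceAtInf ModularForm.discriminant :=
  NiceAtInf.of_modularForm CuspForm.discriminant one_mem_strictPeriods_SL

/-- The prelude's formal `j` is realised by the analytic `j`-invariant. -/
theorem isReal_jInv : IsReal (ModularCurve.coeffEmb ℂ ModularCurve.jq) jInv := by
  refine ⟨(⇑E₄ : ℍ → ℂ) ^ 3, ModularForm.discriminant, niceAtInf_E4.pow 3, niceAtInf_discriminant,
    discriminant_ne_zero, fun z => ?_, ?_⟩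
  · rw [jInv_def, div_mul_cancel₀ _ (discriminant_ne_zero z)]
    rfl
  · have hpow : qExpansion 1 ((⇑E₄ : ℍ → ℂ) ^ 3) = (qExpansion 1 (⇑E₄ : ℍ → ℂ)) ^ 3 := by
      rw [pow_succ, pow_succ, pow_one, qExpansion_mul (niceAtInf_E4.mul niceAtInf_E4).analyticAt
        niceAtInf_E4.analyticAt, qExpansion_mul niceAtInf_E4.analyticAt niceAtInf_E4.analyticAt]
      ring
    rw [hpow, qExpansion_E4, qExpansion_discriminant, coeffEmb_jq_mul]

/-! ### Invariance and moderate growth -/

/-- All `SL₂(ℤ)`-translates of `f` have moderate growth at `i∞`. -/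
def ModGrowth (f : ℍ → ℂ) : Prop :=
  ∀ γ : SL(2, ℤ), ∃ m : ℕ,
    IsBoundedAtImInfty (fun z : ℍ => f (γ • z) * ModularForm.discriminant z ^ m)

/-- `f` is invariant under `Γ₀(N)`. -/
def Gamma0Inv (N : ℕ) (f : ℍ → ℂ) : Prop := ∀ γ ∈ Gamma0 N, ∀ z : ℍ, f (γ • z) = f z

lemma isBoundedAtImInfty_discriminant_pow (m : ℕ) :
    IsBoundedAtImInfty (fun z : ℍ => ModularForm.discriminant z ^ m) := by
  have := (niceAtInf_discriminant.pow m).bdd
  exact this

namespace ModGrowth

variable {f g : ℍ → ℂ}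

lemma const (c : ℂ) : ModGrowth (fun _ => c) := fun _ =>
  ⟨0, by simpa using (NiceAtInf.const c).bdd⟩

lemma mul (hf : ModGrowth f) (hg : ModGrowth g) : ModGrowth (f * g) := by
  intro γ
  obtain ⟨m, hm⟩ := hf γ
  obtain ⟨n, hn⟩ := hg γ
  refine ⟨m + n, ?_⟩
  have e : (fun z : ℍ => (f * g) (γ • z) * ModularForm.discriminant z ^ (m + n)) =
      (fun z : ℍ => f (γ • z) * ModularForm.discriminant z ^ m) *
        (fun z : ℍ => g (γ • z) * ModularForm.discriminant z ^ n) := by
    funext z
    simp only [Pi.mul_apply, pow_add]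
    ring
  rw [e]
  exact hm.mul hn

lemma mono {m n : ℕ} (hmn : m ≤ n) {F : ℍ → ℂ}
    (h : IsBoundedAtImInfty (fun z : ℍ => F z * ModularForm.discriminant z ^ m)) :
    IsBoundedAtImInfty (fun z : ℍ => F z * ModularForm.discriminant z ^ n) := by
  have e : (fun z : ℍ => F z * ModularForm.discriminant z ^ n) =
      (fun z : ℍ => F z * ModularForm.discriminant z ^ m) *
        (fun z : ℍ => ModularForm.discriminant z ^ (n - m)) := by
    funext z
    simp only [Pi.mul_apply]
    rw [mul_assoc, ← pow_add, Nat.add_sub_cancel' hmn]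
  rw [e]
  exact h.mul (isBoundedAtImInfty_discriminant_pow _)

lemma add (hf : ModGrowth f) (hg : ModGrowth g) : ModGrowth (f + g) := by
  intro γ
  obtain ⟨m, hm⟩ := hf γ
  obtain ⟨n, hn⟩ := hg γ
  refine ⟨max m n, ?_⟩
  have e : (fun z : ℍ => (f + g) (γ • z) * ModularForm.discriminant z ^ (max m n)) =
      (fun z : ℍ => f (γ • z) * ModularForm.discriminant z ^ (max m n)) +
        (fun z : ℍ => g (γ • z) * ModularForm.discriminant z ^ (max m n)) := by
    funext z
    simp only [Pi.add_apply]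
    ring
  rw [e]
  exact (mono (le_max_left m n) hm).add (mono (le_max_right m n) hn)

lemma neg (hf : ModGrowth f) : ModGrowth (-f) := by
  have := (const (-1)).mul hf
  have e : (fun _ : ℍ => (-1 : ℂ)) * f = -f := by funext z; simp
  rwa [e] at this

end ModGrowth

namespace Gamma0Inv

variable {N : ℕ} {f g : ℍ → ℂ}

lemma const (c : ℂ) : Gamma0Inv N (fun _ => c) := fun _ _ _ => rfl

lemma mul (hf : Gamma0Inv N f) (hg : Gamma0Inv N g) : Gamma0Inv N (f * g) := fun γ hγ z => by
  simp only [Pi.mul_apply, hf γ hγ z, hg γ hγ z]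

lemma add (hf : Gamma0Inv N f) (hg : Gamma0Inv N g) : Gamma0Inv N (f + g) := fun γ hγ z => by
  simp only [Pi.add_apply, hf γ hγ z, hg γ hγ z]

lemma neg (hf : Gamma0Inv N f) : Gamma0Inv N (-f) := fun γ hγ z => by
  simp only [Pi.neg_apply, hf γ hγ z]

end Gamma0Inv

/-- `h` is realised by the `Γ₀(N)`-invariant function `f` of moderate growth at all cusps. -/
structure IsModReal (N : ℕ) (h : LaurentSeries ℂ) (f : ℍ → ℂ) : Prop where
  real : IsReal h f
  inv : Gamma0Inv N f
  growth : ModGrowth f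

namespace IsModReal

variable {N : ℕ} {h h' : LaurentSeries ℂ} {f f' : ℍ → ℂ}

lemma const (c : ℂ) : IsModReal N (algebraMap ℂ (LaurentSeries ℂ) c) (fun _ => c) :=
  ⟨.const c, .const c, .const c⟩

lemma zero : IsModReal N 0 (0 : ℍ → ℂ) := ⟨.zero, Gamma0Inv.const 0, ModGrowth.const 0⟩

lemma one : IsModReal N 1 (1 : ℍ → ℂ) := ⟨.one, Gamma0Inv.const 1, ModGrowth.const 1⟩

lemma add (hf : IsModReal N h f) (hf' : IsModReal N h' f') : IsModReal N (h + h') (f + f') :=
  ⟨hf.real.add hf'.real, hf.inv.add hf'.inv, hf.growth.add hf'.growth⟩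

lemma mul (hf : IsModReal N h f) (hf' : IsModReal N h' f') : IsModReal N (h * h') (f * f') :=
  ⟨hf.real.mul hf'.real, hf.inv.mul hf'.inv, hf.growth.mul hf'.growth⟩

lemma neg (hf : IsModReal N h f) : IsModReal N (-h) (-f) :=
  ⟨hf.real.neg, hf.inv.neg, hf.growth.neg⟩

lemma sub (hf : IsModReal N h f) (hf' : IsModReal N h' f') : IsModReal N (h - h') (f - f') := by
  rw [sub_eq_add_neg, sub_eq_add_neg]
  exact hf.add hf'.neg

lemma unique_fun (hf : IsModReal N h f) (hf' : IsModReal N h f') : f = f' :=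
  hf.real.unique_fun hf'.real

lemma unique_series (hf : IsModReal N h f) (hf' : IsModReal N h' f) : h = h' :=
  hf.real.unique_series hf'.real

lemma eq_zero_iff (hf : IsModReal N h f) : h = 0 ↔ f = 0 := hf.real.eq_zero_iff

lemma holo (hf : IsModReal N h f) : MDiff f := hf.real.holo

end IsModReal

/-! ### The generators `j_d`, `d ∣ N` -/

lemma coeffMap_qExpand {R S : Type*} [CommRing R] [CommRing S] (φ : R →+* S) (d : ℕ) [NeZero d]
    (x : LaurentSeries R) :
    ModularCurve.coeffMap φ (ModularCurve.qExpand R d x) =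
      ModularCurve.qExpand S d (ModularCurve.coeffMap φ x) := by
  ext k
  rw [ModularCurve.coeffMap_coeff]
  by_cases hk : (d : ℤ) ∣ k
  · obtain ⟨m, rfl⟩ := hk
    rw [ModularCurve.qExpand_coeff_mul, ModularCurve.qExpand_coeff_mul,
      ModularCurve.coeffMap_coeff]
  · rw [ModularCurve.qExpand_coeff_of_not_dvd d _ hk, ModularCurve.qExpand_coeff_of_not_dvd d _ hk,
      map_zero]

lemma gamma0_le_of_dvd {d N : ℕ} (hd : d ∣ N) {γ : SL(2, ℤ)} (hγ : γ ∈ Gamma0 N) :
    γ ∈ Gamma0 d := by
  rw [Gamma0_mem] at hγ ⊢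
  rw [ZMod.intCast_zmod_eq_zero_iff_dvd] at hγ ⊢
  exact (Int.natCast_dvd_natCast.mpr hd).trans hγ

/-- The generator `j_d(z) = j(d z)` of the function field of `X₀(N)`, `d ∣ N`. -/
theorem isModReal_jN (N d : ℕ) [NeZero d] (hd : d ∣ N) :
    IsModReal N (ModularCurve.coeffEmb ℂ (ModularCurve.qExpand ℚ d ModularCurve.jq)) (jN d) := by
  refine ⟨?_, ?_, ?_⟩
  · have := isReal_jInv.scale d
    have e1 : ModularCurve.coeffEmb ℂ (ModularCurve.qExpand ℚ d ModularCurve.jq) =
        ModularCurve.qExpand ℂ d (ModularCurve.coeffEmb ℂ ModularCurve.jq) :=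
      coeffMap_qExpand _ d _
    have e2 : (fun z => jInv (scaleN d z)) = jN d := by
      funext z
      rw [scaleN_eq_scaleH]
      rfl
    rwa [e1, ← e2]
  · intro γ hγ z
    exact jN_smul_of_mem_Gamma0 d γ (gamma0_le_of_dvd hd hγ) z
  · intro γ
    exact ⟨d, isBoundedAtImInfty_jN_smul_mul_discriminant_pow d γ⟩

/-! ### The ring `K[j_d : d ∣ N]` and the ring homomorphism `rho` -/

section K

variable (K : Type*) [Field K] [Algebra ℚ K] (e : K →+* ℂ) (N : ℕ)

/-- The `K`-algebra `K[j_d : d ∣ N]` inside `K((q))`. -/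
noncomputable def AK : Subalgebra K (LaurentSeries K) :=
  Algebra.adjoin K (⇑(ModularCurve.coeffEmb K) '' ModularCurve.divisorExpansions N)

lemma coeffMap_coeffEmb_eq (y : LaurentSeries ℚ) :
    ModularCurve.coeffMap e (ModularCurve.coeffEmb K y) = ModularCurve.coeffEmb ℂ y := by
  rw [ModularCurve.coeffEmb, ModularCurve.coeffMap_coeffMap]
  exact ModularCurve.coeffMap_congr (Subsingleton.elim _ _) y

omit [Algebra ℚ K] in
lemma coeffMap_algebraMap_eq (a : K) :
    ModularCurve.coeffMap e (algebraMap K (LaurentSeries K) a) =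
      algebraMap ℂ (LaurentSeries ℂ) (e a) := by
  rw [ModularCurve.algebraMap_laurentSeries_eq_single,
    ModularCurve.algebraMap_laurentSeries_eq_single, ModularCurve.coeffMap_single]

omit [Algebra ℚ K] in
lemma coeffMap_injective : Function.Injective (ModularCurve.coeffMap e) := by
  intro x y hxy
  ext k
  have := congrArg (fun s => HahnSeries.coeff s k) hxy
  simp only [ModularCurve.coeffMap_coeff] at this
  exact e.injective this

variable {K N}

theorem exists_isModReal_of_mem_AK {x : LaurentSeries K} (hx : x ∈ AK K N) :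
    ∃ f, IsModReal N (ModularCurve.coeffMap e x) f := by
  induction hx using Algebra.adjoin_induction with
  | mem x hx =>
    obtain ⟨y, ⟨d, hd0, hd, rfl⟩, rfl⟩ := hx
    have := hd0
    exact ⟨_, by rw [coeffMap_coeffEmb_eq]; exact isModReal_jN N d hd⟩
  | algebraMap a => exact ⟨_, by rw [coeffMap_algebraMap_eq]; exact IsModReal.const _⟩
  | add x y _ _ hx hy =>
    obtain ⟨f, hf⟩ := hx
    obtain ⟨g, hg⟩ := hy
    exact ⟨_, by rw [map_add]; exact hf.add hg⟩
  | mul x y _ _ hx hy =>
    obtain ⟨f, hf⟩ := hx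
    obtain ⟨g, hg⟩ := hy
    exact ⟨_, by rw [map_mul]; exact hf.mul hg⟩

/-- The function on `ℍ` attached to an element of `K[j_d : d ∣ N]`. -/
noncomputable def rhoFun (x : AK K N) : ℍ → ℂ := (exists_isModReal_of_mem_AK e x.2).choose

theorem isModReal_rhoFun (x : AK K N) :
    IsModReal N (ModularCurve.coeffMap e (x : LaurentSeries K)) (rhoFun e x) :=
  (exists_isModReal_of_mem_AK e x.2).choose_spec

/-- The realisation as a ring homomorphism `K[j_d : d ∣ N] → (ℍ → ℂ)`. -/
noncomputable def rho : AK K N →+* (ℍ → ℂ) where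
  toFun := rhoFun e
  map_one' := by
    have h1 := isModReal_rhoFun e (1 : AK K N)
    have h2 : IsModReal N (ModularCurve.coeffMap e ((1 : AK K N) : LaurentSeries K)) 1 := by
      rw [OneMemClass.coe_one, map_one]; exact .one
    exact h1.unique_fun h2
  map_mul' x y := by
    have h1 := isModReal_rhoFun e (x * y)
    have h2 : IsModReal N (ModularCurve.coeffMap e ((x * y : AK K N) : LaurentSeries K))
        (rhoFun e x * rhoFun e y) := by
      rw [MulMemClass.coe_mul, map_mul]
      exact (isModReal_rhoFun e x).mul (isModReal_rhoFun e y)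
    exact h1.unique_fun h2
  map_zero' := by
    have h1 := isModReal_rhoFun e (0 : AK K N)
    have h2 : IsModReal N (ModularCurve.coeffMap e ((0 : AK K N) : LaurentSeries K)) 0 := by
      rw [ZeroMemClass.coe_zero, map_zero]; exact .zero
    exact h1.unique_fun h2
  map_add' x y := by
    have h1 := isModReal_rhoFun e (x + y)
    have h2 : IsModReal N (ModularCurve.coeffMap e ((x + y : AK K N) : LaurentSeries K))
        (rhoFun e x + rhoFun e y) := by
      rw [AddMemClass.coe_add, map_add]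
      exact (isModReal_rhoFun e x).add (isModReal_rhoFun e y)
    exact h1.unique_fun h2

theorem isModReal_rho (x : AK K N) :
    IsModReal N (ModularCurve.coeffMap e (x : LaurentSeries K)) (rho e x) :=
  isModReal_rhoFun e x

theorem rho_injective : Function.Injective (rho (K := K) (N := N) e) := by
  rw [injective_iff_map_eq_zero]
  intro x hx
  have h1 := (isModReal_rho e x).eq_zero_iff.mpr hx
  have h2 : (x : LaurentSeries K) = 0 := coeffMap_injective K e (by rw [h1, map_zero])
  exact Subtype.ext h2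

theorem rho_algebraMap (a : K) : rho (K := K) (N := N) e (algebraMap K (AK K N) a) = fun _ => e a := by
  have h1 := isModReal_rho e (algebraMap K (AK K N) a)
  have h2 : IsModReal N (ModularCurve.coeffMap e ((algebraMap K (AK K N) a : AK K N) : LaurentSeries K))
      (fun _ => e a) := by
    have : ((algebraMap K (AK K N) a : AK K N) : LaurentSeries K) =
        algebraMap K (LaurentSeries K) a := rfl
    rw [this, coeffMap_algebraMap_eq]
    exact .const _
  exact h1.unique_fun h2

theorem mdifferentiable_rho (x : AK K N) : MDiff (rho e x) := (isModReal_rho e x).holo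

theorem rho_smul_of_mem_Gamma0 (x : AK K N) {γ : SL(2, ℤ)} (hγ : γ ∈ Gamma0 N) (z : ℍ) :
    rho e x (γ • z) = rho e x z := (isModReal_rho e x).inv γ hγ z

theorem rho_modGrowth (x : AK K N) (γ : SL(2, ℤ)) :
    ∃ m : ℕ, IsBoundedAtImInfty (fun z : ℍ => rho e x (γ • z) * ModularForm.discriminant z ^ m) :=
  (isModReal_rho e x).growth γ

end K

end Fermat.Agent.S24.Real
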