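import Fermat.Agent.S24.H24_G3Final
import Fermat.Agent.S24.H25_Inputs
import Fermat.Agent.S24.H21_NormInf

/-!
# S24: all nine fields of `Final.Inputs K N`

`Final.inputs K e N : Final.Inputs K N` for every algebraically closed field `K` of
characteristic zero with an embedding `e : K →+* ℂ` (e.g. `K = AlgebraicClosure ℚ`, or `K = ℂ`
with `e = RingHom.id ℂ`): the fields `gen`, `zero`, `one` are helper24's `G3.gen_final`,
`G3.zero_final`, `G3.one_final`, the field `inf` is helper21's `Mer.card_places_inf`, and the
other five fields are `Final.inputs_of_places`.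
-/

set_option autoImplicit false

namespace Fermat.Agent.S24.Final

open Fermat.Agent.S24

/-- **All inputs of the genus computation**, for every algebraically closed field of
characteristic zero embedded in `ℂ`. -/
theorem inputs (K : Type*) [Field K] [Algebra ℚ K] [CharZero K] [IsAlgClosed K]
    (e : K →+* ℂ) (N : ℕ) [NeZero N] : Inputs K N :=
  inputs_of_places e N (fun c h0 h1 => G3.gen_final e c h0 h1) (G3.zero_final e)
    (G3.one_final e) (Mer.card_places_inf e N)

/-- The genus of the modular function field of level `N` over `K` is the classical genus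
formula. -/
theorem genus_FK_eq (K : Type*) [Field K] [Algebra ℚ K] [CharZero K] [IsAlgClosed K]
    (e : K →+* ℂ) (N : ℕ) [NeZero N]
    [AlgebraicCurve.HasCanonicalDivisor (K := K) (F := ↥(Fermat.Agent.S24.Real.FK K N))] :
    (AlgebraicCurve.genus K ↥(Fermat.Agent.S24.Real.FK K N) : ℚ)
      = ModularCurve.genusFormula N :=
  genus_FK_eq_of_inputs (inputs K e N)

end Fermat.Agent.S24.Final
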