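import Mathlib

/-!
# S24, package CUSP (helper7): order at `i∞` of periodic holomorphic functions

For `f : ℍ → ℂ` holomorphic and `h`-periodic whose cusp function (in the local parameter
`exp (2 π i z / h)`) is meromorphic at `0`, we define the order `ordInf h f : ℤ` of `f` at `i∞`
and prove that it behaves like a discrete valuation.
-/

set_option autoImplicit false

namespace Fermat.Agent.S24.Cusp

open UpperHalfPlane Filter Topology Function
open scoped MatrixGroups ModularForm Manifold Real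

/-- `f` is holomorphic on `ℍ`, `h`-periodic and meromorphic at `i∞` in the parameter
`exp (2 π i z / h)`. -/
structure MeroAtInf (h : ℝ) (f : ℍ → ℂ) : Prop where
  periodic : Function.Periodic (f ∘ ofComplex) h
  holo : MDiff f
  mero : MeromorphicAt (cuspFunction h f) 0

/-- The order of `f` at `i∞`, measured in the parameter `exp (2 π i z / h)`. -/
noncomputable def ordInf (h : ℝ) (f : ℍ → ℂ) : ℤ :=
  (meromorphicOrderAt (cuspFunction h f) 0).untop₀

section basic

variable {h : ℝ} {f g : ℍ → ℂ}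

lemma cuspFunction_eq_of_ne (h : ℝ) (f : ℍ → ℂ) {q : ℂ} (hq : q ≠ 0) :
    cuspFunction h f q = f (ofComplex (Periodic.invQParam h q)) := by
  simp [cuspFunction, Periodic.cuspFunction_eq_of_nonzero _ _ hq]

lemma cuspFunction_mul_eventuallyEq (h : ℝ) (f g : ℍ → ℂ) :
    cuspFunction h (f * g) =ᶠ[𝓝[≠] 0] cuspFunction h f * cuspFunction h g := by
  filter_upwards [self_mem_nhdsWithin] with q hq
  simp [cuspFunction_eq_of_ne _ _ hq]

lemma cuspFunction_add_eventuallyEq (h : ℝ) (f g : ℍ → ℂ) :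
    cuspFunction h (f + g) =ᶠ[𝓝[≠] 0] cuspFunction h f + cuspFunction h g := by
  filter_upwards [self_mem_nhdsWithin] with q hq
  simp [cuspFunction_eq_of_ne _ _ hq]

lemma cuspFunction_neg_eventuallyEq (h : ℝ) (f : ℍ → ℂ) :
    cuspFunction h (-f) =ᶠ[𝓝[≠] 0] -cuspFunction h f := by
  filter_upwards [self_mem_nhdsWithin] with q hq
  simp [cuspFunction_eq_of_ne _ _ hq]

lemma cuspFunction_const_eventuallyEq (h : ℝ) (c : ℂ) :
    cuspFunction h (fun _ : ℍ => c) =ᶠ[𝓝[≠] 0] fun _ => c := by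
  filter_upwards [self_mem_nhdsWithin] with q hq
  simp [cuspFunction_eq_of_ne _ _ hq]

lemma cuspFunction_inv_eventuallyEq (h : ℝ) (f : ℍ → ℂ) :
    cuspFunction h (f⁻¹) =ᶠ[𝓝[≠] 0] (cuspFunction h f)⁻¹ := by
  filter_upwards [self_mem_nhdsWithin] with q hq
  simp [cuspFunction_eq_of_ne _ _ hq]

end basic

namespace MeroAtInf

variable {h : ℝ} {f g : ℍ → ℂ}

lemma const (h : ℝ) (c : ℂ) : MeroAtInf h (fun _ : ℍ => c) :=
  ⟨fun _ => rfl, mdifferentiable_const,
    (MeromorphicAt.const c 0).congr (cuspFunction_const_eventuallyEq h c).symm⟩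

lemma zero (h : ℝ) : MeroAtInf h (0 : ℍ → ℂ) := const h 0

lemma one (h : ℝ) : MeroAtInf h (1 : ℍ → ℂ) := const h 1

lemma add (hf : MeroAtInf h f) (hg : MeroAtInf h g) : MeroAtInf h (f + g) :=
  ⟨fun w => by
      have h1 := hf.periodic w
      have h2 := hg.periodic w
      simp only [Function.comp_apply, Pi.add_apply] at h1 h2 ⊢
      rw [h1, h2],
    hf.holo.add hg.holo,
    (hf.mero.add hg.mero).congr (cuspFunction_add_eventuallyEq h f g).symm⟩

lemma mul (hf : MeroAtInf h f) (hg : MeroAtInf h g) : MeroAtInf h (f * g) :=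
  ⟨fun w => by
      have h1 := hf.periodic w
      have h2 := hg.periodic w
      simp only [Function.comp_apply, Pi.mul_apply] at h1 h2 ⊢
      rw [h1, h2],
    hf.holo.mul hg.holo,
    (hf.mero.mul hg.mero).congr (cuspFunction_mul_eventuallyEq h f g).symm⟩

lemma neg (hf : MeroAtInf h f) : MeroAtInf h (-f) :=
  ⟨fun w => by
      have h1 := hf.periodic w
      simp only [Function.comp_apply, Pi.neg_apply] at h1 ⊢
      rw [h1],
    hf.holo.neg,
    hf.mero.neg.congr (cuspFunction_neg_eventuallyEq h f).symm⟩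

lemma sub (hf : MeroAtInf h f) (hg : MeroAtInf h g) : MeroAtInf h (f - g) := by
  rw [sub_eq_add_neg]; exact hf.add hg.neg

lemma smul (c : ℂ) (hf : MeroAtInf h f) : MeroAtInf h (c • f) :=
  (const h c).mul hf

lemma pow (hf : MeroAtInf h f) (n : ℕ) : MeroAtInf h (f ^ n) := by
  induction n with
  | zero => simpa using one h
  | succ n ih => rw [pow_succ]; exact ih.mul hf

lemma sum {ι : Type*} (s : Finset ι) {x : ι → ℍ → ℂ} (hx : ∀ i ∈ s, MeroAtInf h (x i)) :
    MeroAtInf h (∑ i ∈ s, x i) := by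
  classical
  induction s using Finset.induction_on with
  | empty => simpa using zero h
  | insert a s ha ih =>
    rw [Finset.sum_insert ha]
    exact (hx a (Finset.mem_insert_self a s)).add
      (ih fun i hi => hx i (Finset.mem_insert_of_mem hi))

lemma prod {ι : Type*} (s : Finset ι) {x : ι → ℍ → ℂ} (hx : ∀ i ∈ s, MeroAtInf h (x i)) :
    MeroAtInf h (∏ i ∈ s, x i) := by
  classical
  induction s using Finset.induction_on with
  | empty => simpa using one h
  | insert a s ha ih =>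
    rw [Finset.prod_insert ha]
    exact (hx a (Finset.mem_insert_self a s)).mul
      (ih fun i hi => hx i (Finset.mem_insert_of_mem hi))

/-- Periodic, holomorphic and bounded at `i∞` implies meromorphic at `i∞`. -/
lemma of_isBoundedAtImInfty (hh : 0 < h) (hper : Function.Periodic (f ∘ ofComplex) h)
    (hol : MDiff f) (hbd : IsBoundedAtImInfty f) : MeroAtInf h f :=
  ⟨hper, hol, (analyticAt_cuspFunction_zero hh hper hol hbd).meromorphicAt⟩

lemma eq_cuspFunction (hf : MeroAtInf h f) (hh : h ≠ 0) (τ : ℍ) :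
    cuspFunction h f (Periodic.qParam h τ) = f τ :=
  UpperHalfPlane.eq_cuspFunction τ hh hf.periodic

lemma tendsto_qParam (hh : 0 < h) :
    Tendsto (fun τ : ℍ => Periodic.qParam h τ) atImInfty (𝓝[≠] 0) :=
  (Periodic.qParam_tendsto hh).comp tendsto_coe_atImInfty

/-- If a property holds for the cusp function on a punctured neighbourhood of `0`, it holds
for `f` near `i∞`. -/
lemma eventually_atImInfty (hf : MeroAtInf h f) (hh : 0 < h) {p : ℂ → Prop}
    (hp : ∀ᶠ q in 𝓝[≠] 0, p (cuspFunction h f q)) : ∀ᶠ τ in atImInfty, p (f τ) := by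
  have := (tendsto_qParam hh).eventually hp
  filter_upwards [this] with τ hτ
  rwa [hf.eq_cuspFunction hh.ne'] at hτ

end MeroAtInf

/-- A holomorphic function on `ℍ` which vanishes for large imaginary part is zero. -/
lemma eq_zero_of_eventually_atImInfty {f : ℍ → ℂ} (hol : MDiff f)
    (h0 : ∀ᶠ z in atImInfty, f z = 0) : f = 0 := by
  obtain ⟨A, hA⟩ := (atImInfty_mem _).mp h0
  let B : ℝ := max A 0 + 1
  have hB : 0 < B := by positivity
  let τ : ℍ := ⟨⟨0, B⟩, hB⟩
  refine UpperHalfPlane.eq_zero_of_frequently (τ := τ) hol ?_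
  refine Eventually.frequently ?_
  have hopen : IsOpen {z : ℍ | A < z.im} := isOpen_lt continuous_const UpperHalfPlane.continuous_im
  have hmem : τ ∈ {z : ℍ | A < z.im} := by
    show A < B
    have : A ≤ max A 0 := le_max_left _ _
    simp only [B]; linarith
  have := hopen.mem_nhds hmem
  refine eventually_nhdsWithin_of_eventually_nhds ?_
  filter_upwards [this] with z hz
  exact hA z (le_of_lt hz)

namespace MeroAtInf

variable {h : ℝ} {f g : ℍ → ℂ}

/-- The order at `i∞` of a nonzero function is finite. -/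
lemma order_ne_top (hf : MeroAtInf h f) (hh : 0 < h) (hne : f ≠ 0) :
    meromorphicOrderAt (cuspFunction h f) 0 ≠ ⊤ := by
  intro htop
  rw [meromorphicOrderAt_eq_top_iff] at htop
  exact hne (eq_zero_of_eventually_atImInfty hf.holo
    (hf.eventually_atImInfty hh (p := fun w => w = 0) htop))

lemma order_eq (hf : MeroAtInf h f) (hh : 0 < h) (hne : f ≠ 0) :
    meromorphicOrderAt (cuspFunction h f) 0 = (ordInf h f : WithTop ℤ) :=
  (WithTop.coe_untop₀_of_ne_top (hf.order_ne_top hh hne)).symm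

lemma ordInf_mul (hf : MeroAtInf h f) (hg : MeroAtInf h g) (hh : 0 < h)
    (hf0 : f ≠ 0) (hg0 : g ≠ 0) : ordInf h (f * g) = ordInf h f + ordInf h g := by
  unfold ordInf
  rw [meromorphicOrderAt_congr (cuspFunction_mul_eventuallyEq h f g),
    meromorphicOrderAt_mul hf.mero hg.mero,
    WithTop.untop₀_add (hf.order_ne_top hh hf0) (hg.order_ne_top hh hg0)]

lemma mul_ne_zero (hf : MeroAtInf h f) (hg : MeroAtInf h g) (hf0 : f ≠ 0) (hg0 : g ≠ 0) :
    f * g ≠ 0 := by
  intro h0
  rcases (UpperHalfPlane.mul_eq_zero_iff hf.holo hg.holo).mp h0 with h1 | h1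
  · exact hf0 h1
  · exact hg0 h1

lemma ordInf_add_ge (hf : MeroAtInf h f) (hg : MeroAtInf h g) (hh : 0 < h)
    (hf0 : f ≠ 0) (hg0 : g ≠ 0) (hfg : f + g ≠ 0) :
    min (ordInf h f) (ordInf h g) ≤ ordInf h (f + g) := by
  have key := meromorphicOrderAt_add hf.mero hg.mero
  rw [← meromorphicOrderAt_congr (cuspFunction_add_eventuallyEq h f g),
    hf.order_eq hh hf0, hg.order_eq hh hg0, (hf.add hg).order_eq hh hfg] at key
  exact_mod_cast key

lemma ordInf_neg (f : ℍ → ℂ) : ordInf h (-f) = ordInf h f := by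
  unfold ordInf
  rw [meromorphicOrderAt_congr (cuspFunction_neg_eventuallyEq h f), ← meromorphicOrderAt_neg]

lemma ordInf_const (h : ℝ) {c : ℂ} (hc : c ≠ 0) : ordInf h (fun _ : ℍ => c) = 0 := by
  classical
  unfold ordInf
  rw [meromorphicOrderAt_congr (cuspFunction_const_eventuallyEq h c)]
  have := meromorphicOrderAt_const (𝕜 := ℂ) (0 : ℂ) c
  rw [if_neg hc] at this
  rw [this]; rfl

lemma ordInf_one (h : ℝ) : ordInf h (1 : ℍ → ℂ) = 0 := ordInf_const h one_ne_zero

lemma ordInf_pow (hf : MeroAtInf h f) (hh : 0 < h) (hf0 : f ≠ 0) (n : ℕ) :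
    ordInf h (f ^ n) = n * ordInf h f := by
  induction n with
  | zero => simpa using ordInf_one h
  | succ n ih =>
    have hn : f ^ n ≠ 0 := pow_ne_zero n hf0
    rw [pow_succ, ordInf_mul (hf.pow n) hf hh hn hf0, ih]
    push_cast; ring

lemma prod_ne_zero {ι : Type*} (s : Finset ι) {x : ι → ℍ → ℂ}
    (hx : ∀ i ∈ s, MeroAtInf h (x i)) (hx0 : ∀ i ∈ s, x i ≠ 0) : ∏ i ∈ s, x i ≠ 0 := by
  intro h0
  obtain ⟨i, hi, hi0⟩ := (UpperHalfPlane.prod_eq_zero_iff fun i hi => (hx i hi).holo).mp h0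
  exact hx0 i hi hi0

lemma ordInf_prod {ι : Type*} (s : Finset ι) {x : ι → ℍ → ℂ} (hh : 0 < h)
    (hx : ∀ i ∈ s, MeroAtInf h (x i)) (hx0 : ∀ i ∈ s, x i ≠ 0) :
    ordInf h (∏ i ∈ s, x i) = ∑ i ∈ s, ordInf h (x i) := by
  classical
  induction s using Finset.induction_on with
  | empty => simpa using ordInf_one h
  | insert a s ha ih =>
    have hxs : ∀ i ∈ s, MeroAtInf h (x i) := fun i hi => hx i (Finset.mem_insert_of_mem hi)
    have hxs0 : ∀ i ∈ s, x i ≠ 0 := fun i hi => hx0 i (Finset.mem_insert_of_mem hi)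
    rw [Finset.prod_insert ha, Finset.sum_insert ha,
      ordInf_mul (hx a (Finset.mem_insert_self a s)) (prod s hxs) hh
        (hx0 a (Finset.mem_insert_self a s)) (prod_ne_zero s hxs hxs0), ih hxs hxs0]

end MeroAtInf

/-! ### Limits at the cusp -/

section limits

variable {h : ℝ} {f g : ℍ → ℂ}

lemma tendsto_ofComplex_invQParam (hh : 0 < h) :
    Tendsto (fun q : ℂ => ofComplex (Periodic.invQParam h q)) (𝓝[≠] 0) atImInfty :=
  tendsto_comap_im_ofComplex.comp (Periodic.invQParam_tendsto hh)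

namespace MeroAtInf

/-- Limits of `f` at `i∞` are limits of the cusp function at the puncture. -/
lemma tendsto_cuspFunction_iff (hf : MeroAtInf h f) (hh : 0 < h) {l : Filter ℂ} :
    Tendsto (cuspFunction h f) (𝓝[≠] 0) l ↔ Tendsto f atImInfty l := by
  constructor
  · intro ht
    have := ht.comp (tendsto_qParam hh)
    refine this.congr fun τ => ?_
    simp only [Function.comp_apply]
    exact hf.eq_cuspFunction hh.ne' τ
  · intro ht
    have := ht.comp (tendsto_ofComplex_invQParam hh)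
    refine this.congr' ?_
    filter_upwards [self_mem_nhdsWithin] with q hq
    simp only [Function.comp_apply]
    exact (cuspFunction_eq_of_ne h f hq).symm

lemma isZeroAtImInfty_iff (hf : MeroAtInf h f) (hh : 0 < h) :
    IsZeroAtImInfty f ↔ 0 < meromorphicOrderAt (cuspFunction h f) 0 := by
  rw [← tendsto_zero_iff_meromorphicOrderAt_pos hf.mero, hf.tendsto_cuspFunction_iff hh]
  rfl

lemma exists_tendsto_iff (hf : MeroAtInf h f) (hh : 0 < h) :
    (∃ L, Tendsto f atImInfty (𝓝 L)) ↔ 0 ≤ meromorphicOrderAt (cuspFunction h f) 0 := by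
  rw [← tendsto_nhds_iff_meromorphicOrderAt_nonneg hf.mero]
  simp only [hf.tendsto_cuspFunction_iff hh]

lemma exists_tendsto_ne_zero_iff (hf : MeroAtInf h f) (hh : 0 < h) :
    (∃ L, L ≠ 0 ∧ Tendsto f atImInfty (𝓝 L)) ↔ meromorphicOrderAt (cuspFunction h f) 0 = 0 := by
  rw [← tendsto_ne_zero_iff_meromorphicOrderAt_eq_zero hf.mero]
  simp only [hf.tendsto_cuspFunction_iff hh]

lemma isBoundedAtImInfty_iff (hf : MeroAtInf h f) (hh : 0 < h) :
    IsBoundedAtImInfty f ↔ 0 ≤ meromorphicOrderAt (cuspFunction h f) 0 := by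
  constructor
  · intro hb
    exact (analyticAt_cuspFunction_zero hh hf.periodic hf.holo hb).meromorphicOrderAt_nonneg
  · intro ho
    obtain ⟨L, hL⟩ := (hf.exists_tendsto_iff hh).mpr ho
    exact hL.isBigO_one ℝ

/-- A nonzero limit at `i∞` means order `0`. -/
lemma ordInf_eq_zero_of_tendsto (hf : MeroAtInf h f) (hh : 0 < h) {L : ℂ} (hL : L ≠ 0)
    (ht : Tendsto f atImInfty (𝓝 L)) : ordInf h f = 0 := by
  have := (hf.exists_tendsto_ne_zero_iff hh).mp ⟨L, hL, ht⟩
  unfold ordInf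
  rw [this]; rfl

lemma ne_zero_of_tendsto (hf : MeroAtInf h f) {L : ℂ} (hL : L ≠ 0)
    (ht : Tendsto f atImInfty (𝓝 L)) : f ≠ 0 := by
  rintro rfl
  have h0 : Tendsto (0 : ℍ → ℂ) atImInfty (𝓝 0) := tendsto_const_nhds
  exact hL (tendsto_nhds_unique ht h0)

lemma ordInf_pos_iff (hf : MeroAtInf h f) (hh : 0 < h) (hne : f ≠ 0) :
    0 < ordInf h f ↔ IsZeroAtImInfty f := by
  rw [hf.isZeroAtImInfty_iff hh, hf.order_eq hh hne]
  exact_mod_cast Iff.rfl

lemma ordInf_nonneg_iff (hf : MeroAtInf h f) (hh : 0 < h) (hne : f ≠ 0) :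
    0 ≤ ordInf h f ↔ IsBoundedAtImInfty f := by
  rw [hf.isBoundedAtImInfty_iff hh, hf.order_eq hh hne]
  exact_mod_cast Iff.rfl

lemma ordInf_eq_zero_iff (hf : MeroAtInf h f) (hh : 0 < h) (hne : f ≠ 0) :
    ordInf h f = 0 ↔ ∃ L, L ≠ 0 ∧ Tendsto f atImInfty (𝓝 L) := by
  rw [hf.exists_tendsto_ne_zero_iff hh, hf.order_eq hh hne]
  exact_mod_cast Iff.rfl

/-- If `f * g` is meromorphic at `i∞` with `g ≠ 0` meromorphic at `i∞`, so is `f`. -/
lemma of_mul (hper : Function.Periodic (f ∘ ofComplex) h) (hol : MDiff f)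
    (hg : MeroAtInf h g) (hh : 0 < h) (hg0 : g ≠ 0)
    (hfg : MeromorphicAt (cuspFunction h (f * g)) 0) : MeroAtInf h f := by
  refine ⟨hper, hol, ?_⟩
  have hne : ∀ᶠ q in 𝓝[≠] 0, cuspFunction h g q ≠ 0 :=
    (meromorphicOrderAt_ne_top_iff_eventually_ne_zero hg.mero).mp (hg.order_ne_top hh hg0)
  refine (hfg.mul hg.mero.inv).congr ?_
  filter_upwards [hne, cuspFunction_mul_eventuallyEq h f g] with q hq hmul
  simp only [Pi.mul_apply, Pi.inv_apply]
  rw [hmul]
  simp only [Pi.mul_apply]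
  field_simp

lemma of_mul_isBounded (hper : Function.Periodic (f ∘ ofComplex) h) (hol : MDiff f)
    (hg : MeroAtInf h g) (hh : 0 < h) (hg0 : g ≠ 0)
    (hbd : IsBoundedAtImInfty (f * g)) : MeroAtInf h f := by
  refine of_mul hper hol hg hh hg0 ?_
  refine (analyticAt_cuspFunction_zero hh ?_ (hol.mul hg.holo) hbd).meromorphicAt
  intro w
  have h1 := hper w
  have h2 := hg.periodic w
  simp only [Function.comp_apply, Pi.mul_apply] at h1 h2 ⊢
  rw [h1, h2]

end MeroAtInf

end limits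

/-! ### Change of period -/

section period

variable {h : ℝ} {f g : ℍ → ℂ}

lemma qParam_invQParam_mul (hh : h ≠ 0) (d : ℕ) (hd : d ≠ 0) {q : ℂ} (hq : q ≠ 0) :
    Periodic.qParam h (Periodic.invQParam (d * h) q) = q ^ d := by
  have hd' : (d : ℂ) ≠ 0 := Nat.cast_ne_zero.mpr hd
  have hh' : (h : ℂ) ≠ 0 := Complex.ofReal_ne_zero.mpr hh
  have h2 : (2 * (π : ℂ) * Complex.I) ≠ 0 := Complex.two_pi_I_ne_zero
  rw [Periodic.qParam, Periodic.invQParam]
  have : 2 * (π : ℂ) * Complex.I * (((d * h : ℝ) : ℂ) / (2 * π * Complex.I) * Complex.log q) / h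
      = d * Complex.log q := by
    push_cast
    field_simp
  rw [this, Complex.exp_nat_mul, Complex.exp_log hq]

lemma cuspFunction_period_mul (hper : Function.Periodic (f ∘ ofComplex) h) (hh : h ≠ 0)
    (d : ℕ) (hd : d ≠ 0) {q : ℂ} (hq : q ≠ 0) :
    cuspFunction (d * h) f q = cuspFunction h f (q ^ d) := by
  rw [cuspFunction_eq_of_ne _ _ hq, ← qParam_invQParam_mul hh d hd hq]
  exact (Periodic.eq_cuspFunction hh hper _).symm

lemma cuspFunction_period_mul_eventuallyEq (hper : Function.Periodic (f ∘ ofComplex) h)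
    (hh : h ≠ 0) (d : ℕ) (hd : d ≠ 0) :
    cuspFunction (d * h) f =ᶠ[𝓝[≠] 0] cuspFunction h f ∘ (fun q : ℂ => q ^ d) := by
  filter_upwards [self_mem_nhdsWithin] with q hq
  exact cuspFunction_period_mul hper hh d hd hq

lemma analyticOrderAt_pow_id (d : ℕ) :
    analyticOrderAt (fun q : ℂ => q ^ d - (0 : ℂ) ^ d) 0 = d ∨ d = 0 := by
  rcases Nat.eq_zero_or_pos d with rfl | hd
  · right; rfl
  · left
    have h0 : (0 : ℂ) ^ d = 0 := zero_pow hd.ne'
    simp only [h0, sub_zero]
    have := analyticOrderAt_pow (𝕜 := ℂ) (f := id) (z₀ := 0) analyticAt_id d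
    simp only [analyticOrderAt_id, nsmul_eq_mul, mul_one] at this
    exact this

lemma MeroAtInf.period_mul (hf : MeroAtInf h f) (hh : h ≠ 0) (d : ℕ) (hd : d ≠ 0) :
    MeroAtInf (d * h) f := by
  refine ⟨?_, hf.holo, ?_⟩
  · have := hf.periodic.nat_mul d
    simpa using this
  · have h0 : (0 : ℂ) ^ d = 0 := zero_pow hd
    have hm : MeromorphicAt (cuspFunction h f) ((fun q : ℂ => q ^ d) 0) := by
      simpa [h0] using hf.mero
    have := hm.comp_analyticAt (g := fun q : ℂ => q ^ d) (by fun_prop)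
    exact this.congr (cuspFunction_period_mul_eventuallyEq hf.periodic hh d hd).symm

lemma MeroAtInf.ordInf_period_mul (hf : MeroAtInf h f) (hh : h ≠ 0) (d : ℕ) (hd : d ≠ 0) :
    ordInf (d * h) f = d * ordInf h f := by
  have h0 : (0 : ℂ) ^ d = 0 := zero_pow hd
  have hm : MeromorphicAt (cuspFunction h f) ((fun q : ℂ => q ^ d) 0) := by
    simpa [h0] using hf.mero
  have hord : analyticOrderAt (fun q : ℂ => q ^ d - (0 : ℂ) ^ d) 0 = d :=
    (analyticOrderAt_pow_id d).resolve_right hd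
  have hnc : ¬ EventuallyConst (fun q : ℂ => q ^ d) (𝓝 0) := by
    rw [eventuallyConst_iff_analyticOrderAt_sub_eq_top]
    simp only [hord]
    exact ENat.natCast_ne_top d
  have key := hm.meromorphicOrderAt_comp (g := fun q : ℂ => q ^ d) (by fun_prop) hnc
  rw [hord] at key
  simp only [h0, ENat.map_natCast] at key
  unfold ordInf
  rw [meromorphicOrderAt_congr (cuspFunction_period_mul_eventuallyEq hf.periodic hh d hd), key]
  cases hF : meromorphicOrderAt (cuspFunction h f) 0 with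
  | top =>
    have hd' : ((d : ℤ) : WithTop ℤ) ≠ 0 := by exact_mod_cast hd
    simp
  | coe n =>
    rw [show ((n : WithTop ℤ) * (((d : ℕ) : ℤ) : WithTop ℤ)) = (((n * d : ℤ)) : WithTop ℤ) by
      push_cast; rfl]
    simp [mul_comm]

end period

/-! ### Level one forms and the discriminant -/

section levelOne

open ModularForm

lemma periodic_levelOne {k : ℤ} (F : ModularForm 𝒮ℒ k) :
    Function.Periodic ((F : ℍ → ℂ) ∘ ofComplex) 1 := by
  have := SlashInvariantFormClass.periodic_comp_ofComplex (h := 1) F one_mem_strictPeriods_SL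
  simpa using this

lemma isBoundedAtImInfty_levelOne {k : ℤ} (F : ModularForm 𝒮ℒ k) :
    IsBoundedAtImInfty (F : ℍ → ℂ) := by
  exact ModularFormClass.bdd_at_infty F

lemma meroAtInf_levelOne {k : ℤ} (F : ModularForm 𝒮ℒ k) : MeroAtInf 1 (F : ℍ → ℂ) :=
  MeroAtInf.of_isBoundedAtImInfty one_pos (periodic_levelOne F) (ModularFormClass.holo F)
    (isBoundedAtImInfty_levelOne F)

lemma periodic_discriminant : Function.Periodic (ModularForm.discriminant ∘ ofComplex) 1 := by
  have := SlashInvariantFormClass.periodic_comp_ofComplex (h := 1) CuspForm.discriminant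
    one_mem_strictPeriods_SL
  simpa using this

lemma mdiff_discriminant : MDiff ModularForm.discriminant :=
  CuspFormClass.holo CuspForm.discriminant

lemma meroAtInf_discriminant : MeroAtInf 1 ModularForm.discriminant :=
  MeroAtInf.of_isBoundedAtImInfty one_pos periodic_discriminant mdiff_discriminant
    discriminant_isZeroAtImInfty.isBoundedAtImInfty

lemma ordInf_discriminant : ordInf 1 ModularForm.discriminant = 1 := by
  have han : AnalyticAt ℂ (cuspFunction 1 ModularForm.discriminant) 0 :=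
    analyticAt_cuspFunction_zero one_pos periodic_discriminant mdiff_discriminant
      discriminant_isZeroAtImInfty.isBoundedAtImInfty
  have h0 : cuspFunction 1 ModularForm.discriminant 0 = 0 :=
    UpperHalfPlane.IsZeroAtImInfty.cuspFunction_apply_zero discriminant_isZeroAtImInfty one_pos
  have h1 : deriv (cuspFunction 1 ModularForm.discriminant) 0 = 1 := by
    have := discriminant_qExpansion_coeff_one
    rw [qExpansion_coeff] at this
    simpa using this
  have hord : analyticOrderAt (cuspFunction 1 ModularForm.discriminant) 0 = 1 :=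
    han.analyticOrderAt_eq_one_of_zero_deriv_ne_zero h0 (by rw [h1]; exact one_ne_zero)
  unfold ordInf
  rw [han.meromorphicOrderAt_eq, hord]
  rfl

lemma discriminant_ne_zero_fun : (ModularForm.discriminant : ℍ → ℂ) ≠ 0 := by
  intro h0
  exact discriminant_ne_zero UpperHalfPlane.I (congrFun h0 _)

end levelOne

/-! ### Real translations -/

section translate

variable {h : ℝ} {f g : ℍ → ℂ}

/-- Periodicity on `ℍ` gives periodicity of `f ∘ ofComplex` on all of `ℂ`. -/
lemma periodic_comp_ofComplex_of_vadd {f : ℍ → ℂ} {h : ℝ} (hf : ∀ z : ℍ, f (h +ᵥ z) = f z) :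
    Function.Periodic (f ∘ ofComplex) h := by
  intro w
  by_cases hw : 0 < w.im
  · have hw' : 0 < (w + h).im := by simpa using hw
    simp only [Function.comp_apply, ofComplex_apply_of_im_pos hw, ofComplex_apply_of_im_pos hw']
    rw [← hf ⟨w, hw⟩]
    congr 1
    ext
    simp [add_comm]
  · have hw1 : w.im ≤ 0 := not_lt.mp hw
    have hw' : (w + h).im ≤ 0 := by simpa using hw1
    simp only [Function.comp_apply]
    rw [ofComplex_apply_eq_of_im_nonpos hw' hw1]

lemma vadd_of_periodic {f : ℍ → ℂ} {h : ℝ} (hf : Function.Periodic (f ∘ ofComplex) h) (z : ℍ) :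
    f (h +ᵥ z) = f z := by
  have := hf z
  simp only [Function.comp_apply, ofComplex_apply] at this
  rw [← this]
  congr 1
  have h1 : 0 < ((z : ℂ) + h).im := by simpa using z.im_pos
  rw [ofComplex_apply_of_im_pos h1]
  ext
  simp [add_comm]

lemma mdiff_vadd {f : ℍ → ℂ} (hf : MDiff f) (t : ℝ) : MDiff (fun z : ℍ => f (t +ᵥ z)) := by
  rw [UpperHalfPlane.mdifferentiable_iff] at hf ⊢
  have hmaps : Set.MapsTo (fun w : ℂ => w + t) {z : ℂ | 0 < z.im} {z : ℂ | 0 < z.im} := by
    intro w hw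
    simpa using hw
  have hcomp : DifferentiableOn ℂ ((f ∘ ofComplex) ∘ (fun w : ℂ => w + t)) {z : ℂ | 0 < z.im} :=
    hf.comp (by fun_prop) hmaps
  refine hcomp.congr fun w hw => ?_
  have hw' : 0 < (w + (t : ℂ)).im := by simpa using hw
  simp only [Function.comp_apply, ofComplex_apply_of_im_pos hw, ofComplex_apply_of_im_pos hw']
  congr 1
  ext
  simp [add_comm]

/-- The cusp function of a real translate is a rotation of the cusp function. -/
lemma cuspFunction_vadd_eventuallyEq (hper : Function.Periodic (f ∘ ofComplex) h) (hh : 0 < h)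
    (t : ℝ) :
    cuspFunction h (fun z : ℍ => f (t +ᵥ z)) =ᶠ[𝓝[≠] 0]
      cuspFunction h f ∘ (fun q : ℂ => Periodic.qParam h t * q) := by
  have hball : Metric.ball (0 : ℂ) 1 ∈ 𝓝[≠] (0 : ℂ) :=
    nhdsWithin_le_nhds (Metric.ball_mem_nhds 0 one_pos)
  filter_upwards [self_mem_nhdsWithin, hball] with q hq hq1
  have hq1' : ‖q‖ < 1 := by simpa using hq1
  have him := Periodic.im_invQParam_pos_of_norm_lt_one hh hq1' hq
  simp only [Function.comp_apply]
  rw [cuspFunction_eq_of_ne _ _ hq, ofComplex_apply_of_im_pos him]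
  have e1 : Periodic.qParam h t * q = Periodic.qParam h (Periodic.invQParam h q + t) := by
    conv_lhs => rw [← Periodic.qParam_right_inv hh.ne' hq]
    simp only [Periodic.qParam]
    rw [← Complex.exp_add]
    congr 1
    ring
  rw [e1]
  have := Periodic.eq_cuspFunction hh.ne' hper (Periodic.invQParam h q + t)
  rw [UpperHalfPlane.cuspFunction, this]
  simp only [Function.comp_apply]
  have h1 : 0 < (Periodic.invQParam h q + (t : ℂ)).im := by simpa using him
  rw [ofComplex_apply_of_im_pos h1]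
  congr 1
  ext
  simp [add_comm]

lemma MeroAtInf.vadd (hf : MeroAtInf h f) (hh : 0 < h) (t : ℝ) :
    MeroAtInf h (fun z : ℍ => f (t +ᵥ z)) := by
  refine ⟨periodic_comp_ofComplex_of_vadd fun z => ?_, ?_, ?_⟩
  · rw [vadd_vadd, add_comm, ← vadd_vadd]
    exact vadd_of_periodic hf.periodic _
  · exact mdiff_vadd hf.holo t
  · have hm : MeromorphicAt (cuspFunction h f) ((fun q : ℂ => Periodic.qParam h t * q) 0) := by
      simpa using hf.mero
    exact (hm.comp_analyticAt (g := fun q : ℂ => Periodic.qParam h t * q) (by fun_prop)).congr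
      (cuspFunction_vadd_eventuallyEq hf.periodic hh t).symm

lemma MeroAtInf.ordInf_vadd (hf : MeroAtInf h f) (hh : 0 < h) (t : ℝ) :
    ordInf h (fun z : ℍ => f (t +ᵥ z)) = ordInf h f := by
  unfold ordInf
  rw [meromorphicOrderAt_congr (cuspFunction_vadd_eventuallyEq hf.periodic hh t)]
  have hd : deriv (fun q : ℂ => Periodic.qParam h t * q) 0 ≠ 0 := by
    have : deriv (fun q : ℂ => Periodic.qParam h t * q) 0 = Periodic.qParam h t := by
      simp
    rw [this]
    exact Periodic.qParam_ne_zero _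
  rw [meromorphicOrderAt_comp_of_deriv_ne_zero (by fun_prop) hd]
  simp

end translate

/-! ### Moderate growth and translates of `Γ₀(N)`-invariant functions -/

section growth

open ModularForm CongruenceSubgroup

variable {h : ℝ} {f g : ℍ → ℂ}

lemma conj_T_zpow_one_zero (γ : SL(2, ℤ)) (w : ℤ) :
    (γ * ModularGroup.T ^ w * γ⁻¹ : SL(2, ℤ)) 1 0 = -(w * (γ 1 0) ^ 2) := by
  have hT : ((ModularGroup.T ^ w : SL(2, ℤ)) : Matrix (Fin 2) (Fin 2) ℤ) = !![1, w; 0, 1] :=
    ModularGroup.coe_T_zpow w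
  have hγ := Matrix.SpecialLinearGroup.SL2_inv_expl γ
  have h1 : ((γ * ModularGroup.T ^ w * γ⁻¹ : SL(2, ℤ)) : Matrix (Fin 2) (Fin 2) ℤ)
      = (γ : Matrix (Fin 2) (Fin 2) ℤ) * !![1, w; 0, 1] * !![γ 1 1, -γ 0 1; -γ 1 0, γ 0 0] := by
    rw [Matrix.SpecialLinearGroup.coe_mul, Matrix.SpecialLinearGroup.coe_mul, hT, hγ]
    rfl
  show ((γ * ModularGroup.T ^ w * γ⁻¹ : SL(2, ℤ)) : Matrix (Fin 2) (Fin 2) ℤ) 1 0 = _
  rw [h1]
  simp [Matrix.mul_apply, Fin.sum_univ_two]
  ring

lemma conj_T_zpow_mem_Gamma0 (N : ℕ) (γ : SL(2, ℤ)) :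
    γ * ModularGroup.T ^ (N : ℤ) * γ⁻¹ ∈ Gamma0 N := by
  rw [Gamma0_mem, conj_T_zpow_one_zero]
  push_cast
  simp

/-- the width criterion: `γ T^w γ⁻¹ ∈ Γ₀(N)` iff `N ∣ w c²` where `c = γ 1 0`. -/
lemma conj_T_zpow_mem_Gamma0_iff (N : ℕ) (γ : SL(2, ℤ)) (w : ℤ) :
    γ * ModularGroup.T ^ w * γ⁻¹ ∈ Gamma0 N ↔ (N : ℤ) ∣ w * (γ 1 0) ^ 2 := by
  rw [Gamma0_mem, conj_T_zpow_one_zero, ZMod.intCast_zmod_eq_zero_iff_dvd, dvd_neg]

lemma meroAtInf_discriminant_nat {N : ℕ} (hN : N ≠ 0) :
    MeroAtInf (N : ℝ) ModularForm.discriminant := by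
  have := meroAtInf_discriminant.period_mul one_ne_zero N hN
  simpa using this

lemma ordInf_discriminant_nat {N : ℕ} (hN : N ≠ 0) :
    ordInf (N : ℝ) ModularForm.discriminant = N := by
  have := meroAtInf_discriminant.ordInf_period_mul one_ne_zero N hN
  simpa [ordInf_discriminant] using this

/-- Moderate growth criterion: `f` holomorphic, `N`-periodic and `f Δ^m` bounded at `i∞`. -/
lemma MeroAtInf.of_mul_discriminant_pow {N : ℕ} (hN : N ≠ 0)
    (hper : Function.Periodic (f ∘ ofComplex) N) (hol : MDiff f) (m : ℕ)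
    (hbd : IsBoundedAtImInfty (fun z => f z * ModularForm.discriminant z ^ m)) :
    MeroAtInf (N : ℝ) f := by
  have hN' : (0 : ℝ) < N := Nat.cast_pos.mpr (Nat.pos_of_ne_zero hN)
  refine MeroAtInf.of_mul_isBounded (g := ModularForm.discriminant ^ m) hper hol
    ((meroAtInf_discriminant_nat hN).pow m) hN' (pow_ne_zero m discriminant_ne_zero_fun) ?_
  exact hbd

lemma MeroAtInf.le_ordInf_of_mul_discriminant_pow {N : ℕ} (hN : N ≠ 0)
    (hf : MeroAtInf (N : ℝ) f) (hf0 : f ≠ 0) (m : ℕ)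
    (hbd : IsBoundedAtImInfty (fun z => f z * ModularForm.discriminant z ^ m)) :
    -((m : ℤ) * N) ≤ ordInf (N : ℝ) f := by
  have hN' : (0 : ℝ) < N := Nat.cast_pos.mpr (Nat.pos_of_ne_zero hN)
  have hΔ := meroAtInf_discriminant_nat hN
  have hΔm := hΔ.pow m
  have hΔm0 : (ModularForm.discriminant : ℍ → ℂ) ^ m ≠ 0 := pow_ne_zero m discriminant_ne_zero_fun
  have hmul := MeroAtInf.ordInf_mul hf hΔm hN' hf0 hΔm0
  have hnn : 0 ≤ ordInf (N : ℝ) (f * ModularForm.discriminant ^ m) :=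
    ((hf.mul hΔm).ordInf_nonneg_iff hN' (MeroAtInf.mul_ne_zero hf hΔm hf0 hΔm0)).mpr hbd
  rw [hmul, MeroAtInf.ordInf_pow hΔ hN' discriminant_ne_zero_fun, ordInf_discriminant_nat hN] at hnn
  linarith

/-- `γ T^w γ⁻¹ ∈ Γ₀(N)` makes the `γ`-translate of a `Γ₀(N)`-invariant function `w`-periodic. -/
lemma periodic_comp_smul {N : ℕ} {f : ℍ → ℂ}
    (hinv : ∀ γ ∈ Gamma0 N, ∀ z : ℍ, f (γ • z) = f z) (γ : SL(2, ℤ)) (w : ℤ)
    (hw : γ * ModularGroup.T ^ w * γ⁻¹ ∈ Gamma0 N) :
    Function.Periodic ((fun z : ℍ => f (γ • z)) ∘ ofComplex) (w : ℝ) := by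
  refine periodic_comp_ofComplex_of_vadd fun z => ?_
  have h1 : ((w : ℝ) +ᵥ z : ℍ) = ModularGroup.T ^ w • z := (modular_T_zpow_smul z w).symm
  show f (γ • ((w : ℝ) +ᵥ z)) = f (γ • z)
  rw [h1, ← hinv _ hw (γ • z)]
  congr 1
  rw [← mul_smul, ← mul_smul]
  congr 1
  group

/-- All `SL(2, ℤ)`-translates of a `Γ₀(N)`-invariant function are `N`-periodic. -/
lemma periodic_comp_smul_nat {N : ℕ} {f : ℍ → ℂ}
    (hinv : ∀ γ ∈ Gamma0 N, ∀ z : ℍ, f (γ • z) = f z) (γ : SL(2, ℤ)) :
    Function.Periodic ((fun z : ℍ => f (γ • z)) ∘ ofComplex) (N : ℝ) := by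
  have := periodic_comp_smul hinv γ (N : ℤ) (conj_T_zpow_mem_Gamma0 N γ)
  simpa using this

end growth

end Fermat.Agent.S24.Cusp
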