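import Fermat.Agent.S24.H6_Frac
import Fermat.Agent.S24.H17_Germs

/-!
# S24 REAL (helper6), part 4: the order function `ordAt z : F → ℤ` at a point `z ∈ ℍ`

For `x = a / b ∈ F` with `a, b ∈ K[j_d : d ∣ N]`:
`ordAt e z x = ord_z (rho a) - ord_z (rho b)`, where `ord_z f = analyticOrderNatAt (f ∘ ofComplex) z`.
-/

set_option autoImplicit false

open UpperHalfPlane ModularForm EisensteinSeries ModularFormClass Filter Topology
open CongruenceSubgroup
open scoped MatrixGroups ModularForm Manifold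

namespace Fermat.Agent.S24.Real

open Fermat.Agent.S23 Fermat.Agent.S23.R5 Fermat.Agent.S23.R4

/-! ### Orders of holomorphic functions on `ℍ` -/

/-- The order of vanishing at `z` of a function on `ℍ` (`0` for the zero function). -/
noncomputable def ordH (f : ℍ → ℂ) (z : ℍ) : ℕ := analyticOrderNatAt (f ∘ ofComplex) (z : ℂ)

lemma analyticAt_comp_ofComplex {f : ℍ → ℂ} (hf : MDiff f) (z : ℍ) :
    AnalyticAt ℂ (f ∘ ofComplex) (z : ℂ) :=
  (UpperHalfPlane.mdifferentiable_iff.mp hf).analyticAt (isOpen_upperHalfPlaneSet.mem_nhds z.im_pos)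

lemma analyticOrderAt_ne_top {f : ℍ → ℂ} (hf : MDiff f) (hf0 : f ≠ 0) (z : ℍ) :
    analyticOrderAt (f ∘ ofComplex) (z : ℂ) ≠ ⊤ := by
  intro h
  apply hf0
  have hconn : IsPreconnected {z : ℂ | 0 < z.im} := (convex_halfSpace_im_gt 0).isPreconnected
  rw [analyticOrderAt_eq_top] at h
  have hana : AnalyticOnNhd ℂ (f ∘ ofComplex) {z : ℂ | 0 < z.im} := fun _ hw =>
    (UpperHalfPlane.mdifferentiable_iff.mp hf).analyticAt (isOpen_upperHalfPlaneSet.mem_nhds hw)
  have := hana.eqOn_zero_of_preconnected_of_eventuallyEq_zero hconn z.im_pos h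
  funext w
  have h2 := this w.im_pos
  simpa using h2

lemma coe_ordH {f : ℍ → ℂ} (hf : MDiff f) (hf0 : f ≠ 0) (z : ℍ) :
    ((ordH f z : ℕ) : ℕ∞) = analyticOrderAt (f ∘ ofComplex) (z : ℂ) :=
  Nat.cast_analyticOrderNatAt (analyticOrderAt_ne_top hf hf0 z)

lemma ordH_mul {f g : ℍ → ℂ} (hf : MDiff f) (hg : MDiff g) (hf0 : f ≠ 0) (hg0 : g ≠ 0) (z : ℍ) :
    ordH (f * g) z = ordH f z + ordH g z := by
  have h := analyticOrderNatAt_mul (analyticAt_comp_ofComplex hf z) (analyticAt_comp_ofComplex hg z)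
    (analyticOrderAt_ne_top hf hf0 z) (analyticOrderAt_ne_top hg hg0 z)
  exact h

lemma mul_ne_zero_fun {f g : ℍ → ℂ} (hf : MDiff f) (hg : MDiff g) (hf0 : f ≠ 0) (hg0 : g ≠ 0) :
    f * g ≠ 0 := by
  intro h
  have h1 := analyticOrderAt_mul (analyticAt_comp_ofComplex hf UpperHalfPlane.I)
    (analyticAt_comp_ofComplex hg UpperHalfPlane.I)
  have h2 : ((f ∘ ofComplex) * (g ∘ ofComplex)) = (f * g) ∘ ofComplex := rfl
  rw [h2, h] at h1
  have h3 : analyticOrderAt ((0 : ℍ → ℂ) ∘ ofComplex) (UpperHalfPlane.I : ℂ) = ⊤ := by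
    rw [analyticOrderAt_eq_top]
    exact Filter.Eventually.of_forall fun _ => rfl
  rw [h3] at h1
  have h4 := analyticOrderAt_ne_top hf hf0 UpperHalfPlane.I
  have h5 := analyticOrderAt_ne_top hg hg0 UpperHalfPlane.I
  exact (WithTop.add_ne_top.mpr ⟨h4, h5⟩) h1.symm

lemma ordH_add_ge {f g : ℍ → ℂ} (hf : MDiff f) (hg : MDiff g) (hf0 : f ≠ 0) (hg0 : g ≠ 0)
    (hfg : f + g ≠ 0) (z : ℍ) : min (ordH f z) (ordH g z) ≤ ordH (f + g) z := by
  have h := le_analyticOrderAt_add (f := f ∘ ofComplex) (g := g ∘ ofComplex) (z₀ := (z : ℂ))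
  have h2 : ((f ∘ ofComplex) + (g ∘ ofComplex)) = (f + g) ∘ ofComplex := rfl
  rw [h2, ← coe_ordH hf hf0, ← coe_ordH hg hg0, ← coe_ordH (hf.add hg) hfg] at h
  rcases le_total (ordH f z) (ordH g z) with hle | hle
  · rw [min_eq_left hle]
    rw [min_eq_left (by exact_mod_cast hle)] at h
    exact_mod_cast h
  · rw [min_eq_right hle]
    rw [min_eq_right (by exact_mod_cast hle)] at h
    exact_mod_cast h

lemma ordH_const {c : ℂ} (hc : c ≠ 0) (z : ℍ) : ordH (fun _ => c) z = 0 := by
  have : AnalyticAt ℂ ((fun _ : ℍ => c) ∘ ofComplex) (z : ℂ) := analyticAt_const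
  rw [ordH, analyticOrderNatAt, this.analyticOrderAt_eq_zero.mpr (by simpa using hc)]
  rfl

lemma ordH_eq_zero_iff {f : ℍ → ℂ} (hf : MDiff f) (hf0 : f ≠ 0) (z : ℍ) :
    ordH f z = 0 ↔ f z ≠ 0 := by
  have h := (analyticAt_comp_ofComplex hf z).analyticOrderAt_eq_zero
  rw [← coe_ordH hf hf0] at h
  simp only [Function.comp_apply, ofComplex_apply] at h
  exact_mod_cast h

lemma ordH_pos_iff {f : ℍ → ℂ} (hf : MDiff f) (hf0 : f ≠ 0) (z : ℍ) :
    0 < ordH f z ↔ f z = 0 := by
  rw [Nat.pos_iff_ne_zero, ne_eq, ordH_eq_zero_iff hf hf0, not_not]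

/-- Orders are invariant under translation by an element of `SL₂(ℤ)` leaving `f` invariant. -/
lemma ordH_smul {f : ℍ → ℂ} (γ : SL(2, ℤ)) (hinv : ∀ w : ℍ, f (γ • w) = f w) (z : ℍ) :
    ordH f (γ • z) = ordH f z := by
  have h1 := analyticOrderAt_comp_of_deriv_ne_zero (f := f ∘ ofComplex) (G2.analyticAt_moebC γ z)
    (by
      rw [G2.deriv_moebC]
      exact inv_ne_zero (pow_ne_zero _ (denom_ne_zero _ z)))
  rw [G2.moebC_coe] at h1
  have h2 : analyticOrderAt ((f ∘ ofComplex) ∘ G2.moebC γ) (z : ℂ) =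
      analyticOrderAt (f ∘ ofComplex) (z : ℂ) := by
    apply analyticOrderAt_congr
    filter_upwards [isOpen_upperHalfPlaneSet.mem_nhds z.im_pos] with w hw
    simp only [Function.comp_apply, G2.moebC, ofComplex_apply]
    rw [ofComplex_apply_of_im_pos hw]
    exact hinv _
  rw [ordH, ordH, analyticOrderNatAt, analyticOrderNatAt, ← h1, h2]

/-! ### The order function on `F` -/

section K

variable {K : Type*} [Field K] [Algebra ℚ K] (e : K →+* ℂ) {N : ℕ}

lemma rho_ne_zero {a : AK K N} (ha : a ≠ 0) : rho e a ≠ 0 :=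
  fun h => ha ((rho_apply_eq_zero_iff e a).mp h)

/-- A numerator of `x ∈ F`. -/
noncomputable def numAK (x : FK K N) : AK K N :=
  ⟨(exists_div_of_mem_FK x.2).choose, (exists_div_of_mem_FK x.2).choose_spec.1⟩

/-- A denominator of `x ∈ F`. -/
noncomputable def denAK (x : FK K N) : AK K N :=
  ⟨(exists_div_of_mem_FK x.2).choose_spec.2.choose,
    (exists_div_of_mem_FK x.2).choose_spec.2.choose_spec.1⟩

lemma denAK_ne_zero (x : FK K N) : denAK x ≠ 0 := fun h =>
  (exists_div_of_mem_FK x.2).choose_spec.2.choose_spec.2.1 (congrArg Subtype.val h)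

lemma mul_denAK (x : FK K N) :
    (x : LaurentSeries K) * (denAK x : LaurentSeries K) = (numAK x : LaurentSeries K) :=
  (exists_div_of_mem_FK x.2).choose_spec.2.choose_spec.2.2

lemma numAK_ne_zero {x : FK K N} (hx : x ≠ 0) : numAK x ≠ 0 := by
  intro h
  have h1 := mul_denAK x
  rw [h] at h1
  have h2 : (x : LaurentSeries K) ≠ 0 := fun h0 => hx (Subtype.ext h0)
  have h3 : (denAK x : LaurentSeries K) ≠ 0 := fun h0 => denAK_ne_zero x (Subtype.ext h0)
  exact mul_ne_zero h2 h3 h1

/-- The order at `z ∈ ℍ` of an element of the function field. -/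
noncomputable def ordAt (z : ℍ) (x : FK K N) : ℤ :=
  open Classical in
  if x = 0 then 0 else (ordH (rho e (numAK x)) z : ℤ) - (ordH (rho e (denAK x)) z : ℤ)

/-- `ordAt` may be computed from any representation as a fraction. -/
theorem ordAt_eq_sub (z : ℍ) {x : FK K N} (hx : x ≠ 0) {a b : AK K N} (hb : b ≠ 0)
    (hab : (x : LaurentSeries K) * (b : LaurentSeries K) = (a : LaurentSeries K)) :
    ordAt e z x = (ordH (rho e a) z : ℤ) - (ordH (rho e b) z : ℤ) := by
  have hx0 : (x : LaurentSeries K) ≠ 0 := fun h0 => hx (Subtype.ext h0)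
  have ha : a ≠ 0 := by
    intro h
    rw [h] at hab
    exact mul_ne_zero hx0 (fun h0 => hb (Subtype.ext h0)) hab
  have key : a * denAK x = numAK x * b := by
    apply Subtype.ext
    simp only [MulMemClass.coe_mul]
    rw [← hab, ← mul_denAK x]
    ring
  have h1 := congrArg (rho e) key
  rw [map_mul, map_mul] at h1
  have h2 : ordH (rho e a * rho e (denAK x)) z = ordH (rho e (numAK x) * rho e b) z := by
    rw [h1]
  rw [ordH_mul (mdifferentiable_rho e _) (mdifferentiable_rho e _) (rho_ne_zero e ha)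
      (rho_ne_zero e (denAK_ne_zero x)),
    ordH_mul (mdifferentiable_rho e _) (mdifferentiable_rho e _)
      (rho_ne_zero e (numAK_ne_zero hx)) (rho_ne_zero e hb)] at h2
  rw [ordAt, if_neg hx]
  omega

@[simp] theorem ordAt_zero (z : ℍ) : ordAt e z (0 : FK K N) = 0 := by
  rw [ordAt, if_pos rfl]

/-- The element of `F` attached to an element of `K[j_d : d ∣ N]`. -/
theorem ordAt_inclAK (z : ℍ) {a : AK K N} (ha : a ≠ 0) :
    ordAt e z (inclAK K N a) = (ordH (rho e a) z : ℤ) := by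
  have hx : inclAK K N a ≠ 0 := fun h => ha (inclAK_injective K N (by rw [h, map_zero]))
  have := ordAt_eq_sub e z hx (a := a) (b := 1) one_ne_zero (by simp)
  rw [this, map_one]
  have h1 : ordH (1 : ℍ → ℂ) z = 0 := ordH_const one_ne_zero z
  rw [h1]
  simp

theorem ordAt_inclAK_nonneg (z : ℍ) (a : AK K N) : 0 ≤ ordAt e z (inclAK K N a) := by
  by_cases ha : a = 0
  · rw [ha, map_zero, ordAt_zero]
  · rw [ordAt_inclAK e z ha]
    exact Int.natCast_nonneg _

theorem ordAt_inclAK_pos_iff (z : ℍ) {a : AK K N} (ha : a ≠ 0) :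
    0 < ordAt e z (inclAK K N a) ↔ rho e a z = 0 := by
  rw [ordAt_inclAK e z ha, ← ordH_pos_iff (mdifferentiable_rho e a) (rho_ne_zero e ha) z]
  exact Int.natCast_pos

theorem ordAt_mul (z : ℍ) {x y : FK K N} (hx : x ≠ 0) (hy : y ≠ 0) :
    ordAt e z (x * y) = ordAt e z x + ordAt e z y := by
  have hxy : x * y ≠ 0 := mul_ne_zero hx hy
  have h1 := ordAt_eq_sub e z hxy (a := numAK x * numAK y) (b := denAK x * denAK y)
    (mul_ne_zero (denAK_ne_zero x) (denAK_ne_zero y)) (by
      simp only [MulMemClass.coe_mul]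
      rw [← mul_denAK x, ← mul_denAK y]
      ring)
  rw [h1, map_mul, map_mul,
    ordH_mul (mdifferentiable_rho e _) (mdifferentiable_rho e _) (rho_ne_zero e (numAK_ne_zero hx))
      (rho_ne_zero e (numAK_ne_zero hy)),
    ordH_mul (mdifferentiable_rho e _) (mdifferentiable_rho e _) (rho_ne_zero e (denAK_ne_zero x))
      (rho_ne_zero e (denAK_ne_zero y)), ordAt, ordAt, if_neg hx, if_neg hy]
  push_cast
  ring

theorem ordAt_one (z : ℍ) : ordAt e z (1 : FK K N) = 0 := by
  have := ordAt_inclAK e z (a := (1 : AK K N)) one_ne_zero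
  rw [map_one, map_one] at this
  have h1 : ordH (1 : ℍ → ℂ) z = 0 := ordH_const one_ne_zero z
  rw [this, h1]
  rfl

theorem ordAt_algebraMap (z : ℍ) (c : K) : ordAt e z (algebraMap K (FK K N) c) = 0 := by
  by_cases hc : c = 0
  · rw [hc, map_zero, ordAt_zero]
  · have h1 : algebraMap K (FK K N) c = inclAK K N (algebraMap K (AK K N) c) := by
      rw [AlgHom.commutes]
    have h2 : algebraMap K (AK K N) c ≠ 0 := by
      intro h
      apply hc
      have := congrArg (rho e) h
      rw [rho_algebraMap, map_zero] at this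
      have h3 := congrFun this UpperHalfPlane.I
      simpa using h3
    rw [h1, ordAt_inclAK e z h2, rho_algebraMap]
    have hec : e c ≠ 0 := by simpa using hc
    rw [ordH_const hec z]
    rfl

theorem ordAt_inv (z : ℍ) (x : FK K N) : ordAt e z x⁻¹ = - ordAt e z x := by
  by_cases hx : x = 0
  · rw [hx, inv_zero, ordAt_zero, neg_zero]
  · have h := ordAt_mul e z hx (inv_ne_zero hx)
    rw [mul_inv_cancel₀ hx, ordAt_one] at h
    linarith

theorem ordAt_add_ge (z : ℍ) {x y : FK K N} (hx : x ≠ 0) (hy : y ≠ 0) (hxy : x + y ≠ 0) :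
    min (ordAt e z x) (ordAt e z y) ≤ ordAt e z (x + y) := by
  have hbx := denAK_ne_zero x
  have hby := denAK_ne_zero y
  have hax := numAK_ne_zero hx
  have hay := numAK_ne_zero hy
  have hsum : ((x + y : FK K N) : LaurentSeries K) * ((denAK x * denAK y : AK K N) : LaurentSeries K)
      = ((numAK x * denAK y + numAK y * denAK x : AK K N) : LaurentSeries K) := by
    simp only [MulMemClass.coe_mul, AddMemClass.coe_add]
    rw [← mul_denAK x, ← mul_denAK y]
    ring
  have h1 := ordAt_eq_sub e z hxy (mul_ne_zero hbx hby) hsum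
  have hnum : numAK x * denAK y + numAK y * denAK x ≠ 0 := by
    intro h
    rw [h] at hsum
    have hx0 : ((x + y : FK K N) : LaurentSeries K) ≠ 0 := fun h0 => hxy (Subtype.ext h0)
    have hb0 : ((denAK x * denAK y : AK K N) : LaurentSeries K) ≠ 0 :=
      fun h0 => mul_ne_zero hbx hby (Subtype.ext h0)
    exact mul_ne_zero hx0 hb0 hsum
  have hd : ∀ a : AK K N, MDiff (rho e a) := mdifferentiable_rho e
  have h2 := ordH_add_ge (f := rho e (numAK x * denAK y)) (g := rho e (numAK y * denAK x))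
    (hd _) (hd _) (rho_ne_zero e (mul_ne_zero hax hby)) (rho_ne_zero e (mul_ne_zero hay hbx))
    (by rw [← map_add]; exact rho_ne_zero e hnum) z
  rw [← map_add] at h2
  rw [map_mul, map_mul, ordH_mul (hd _) (hd _) (rho_ne_zero e hax) (rho_ne_zero e hby),
    ordH_mul (hd _) (hd _) (rho_ne_zero e hay) (rho_ne_zero e hbx)] at h2
  rw [h1, map_mul, ordH_mul (hd _) (hd _) (rho_ne_zero e hbx) (rho_ne_zero e hby), ordAt, ordAt,
    if_neg hx, if_neg hy]
  push_cast
  have h3 : (min (ordH (rho e (numAK x)) z + ordH (rho e (denAK y)) z)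
      (ordH (rho e (numAK y)) z + ordH (rho e (denAK x)) z) : ℤ) ≤
      ordH (rho e (numAK x * denAK y + numAK y * denAK x)) z := by
    exact_mod_cast h2
  rcases min_le_iff.mp h3 with h4 | h4
  · exact min_le_iff.mpr (Or.inl (by linarith))
  · exact min_le_iff.mpr (Or.inr (by linarith))

/-- `ordAt` only depends on the `Γ₀(N)`-orbit of the point. -/
theorem ordAt_smul_of_mem_Gamma0 {γ : SL(2, ℤ)} (hγ : γ ∈ Gamma0 N) (z : ℍ) (x : FK K N) :
    ordAt e (γ • z) x = ordAt e z x := by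
  rw [ordAt, ordAt]
  rw [ordH_smul γ (fun w => rho_smul_of_mem_Gamma0 e _ hγ w) z,
    ordH_smul γ (fun w => rho_smul_of_mem_Gamma0 e _ hγ w) z]

variable (K N) in
/-- The formal `j` as an element of the function field `F`. -/
noncomputable def jF : FK K N := inclAK K N (jAK K N)

@[simp] lemma coe_jF : ((jF K N : FK K N) : LaurentSeries K) =
    ModularCurve.coeffEmb K ModularCurve.jq := rfl

lemma jF_sub_eq (c : K) :
    jF K N - algebraMap K (FK K N) c = inclAK K N (jAK K N - algebraMap K (AK K N) c) := by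
  rw [map_sub, AlgHom.commutes]
  rfl

lemma rho_jAK_sub (c : K) :
    rho e (jAK K N - algebraMap K (AK K N) c) = fun w => jInv w - e c := by
  rw [map_sub, rho_jAK, rho_algebraMap]
  rfl

/-- The order of `j - c` at `z` is the analytic order of `j - e c` at `z`. -/
theorem ordAt_jF_sub (z : ℍ) (c : K) :
    ordAt e z (jF K N - algebraMap K (FK K N) c) =
      (analyticOrderNatAt (fun w : ℂ => jInv (ofComplex w) - e c) (z : ℂ) : ℤ) := by
  rw [jF_sub_eq]
  by_cases ha : jAK K N - algebraMap K (AK K N) c = 0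
  · rw [ha, map_zero, ordAt_zero]
    have h1 := rho_jAK_sub e (N := N) c
    rw [ha, map_zero] at h1
    have h2 : (fun w : ℂ => jInv (ofComplex w) - e c) = fun _ => 0 := by
      funext w
      exact (congrFun h1 (ofComplex w)).symm
    rw [h2, analyticOrderNatAt]
    have : analyticOrderAt (fun _ : ℂ => (0 : ℂ)) (z : ℂ) = ⊤ := by
      rw [analyticOrderAt_eq_top]
      exact Filter.Eventually.of_forall fun _ => rfl
    rw [this]
    rfl
  · rw [ordAt_inclAK e z ha, rho_jAK_sub]
    rfl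

theorem ordAt_jF_sub_pos_iff (z : ℍ) (c : K)
    (hc : jAK K N - algebraMap K (AK K N) c ≠ 0) :
    0 < ordAt e z (jF K N - algebraMap K (FK K N) c) ↔ jInv z = e c := by
  rw [jF_sub_eq, ordAt_inclAK_pos_iff e z hc, rho_jAK_sub]
  exact sub_eq_zero

end K

end Fermat.Agent.S24.Real
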