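import Fermat.Agent.S24.H6_Frac
import Fermat.Agent.S24.H7_CuspJ
import Fermat.Agent.S24.H21_PlaceOfVal

/-!
# S24, G4.2 (helper12): the cusp valuations and cusp places of the modular function field

For `γ : SL(2, ℤ)` and `a ∈ A = K[j_d : d ∣ N]` the translate `z ↦ ρ(a)(γ • z)` is holomorphic,
`N`-periodic and meromorphic at `i∞`; its order at `i∞` (in the parameter `exp (2 π i z / N)`)
is `cuspW e γ a`.  It extends to a valuation `cuspVal e γ` on the field of fractions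
`F = K(j_d : d ∣ N)`, which is trivial on `K` and takes the value `-N` on `j`; the corresponding
place of `F / K` is `cuspPlace e N γ`, with multiplicity `cuspMult e N γ`
(`cuspVal = cuspMult * ord_{cuspPlace}`).
-/

set_option autoImplicit false

open UpperHalfPlane Filter Topology
open CongruenceSubgroup AlgebraicCurve
open scoped MatrixGroups ModularForm Manifold

namespace Fermat.Agent.S24.G4

open Fermat.Agent.S24.Real Fermat.Agent.S24.Cusp Fermat.Agent.S24.Orb Fermat.Agent.S23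

/-! ### Generic: extension of a valuation from a ring to its field of fractions -/

section Ext

variable {A F : Type*} [CommRing A] [Field F] (ι : A →+* F)
  (hfrac : ∀ x : F, ∃ a b : A, b ≠ 0 ∧ x * ι b = ι a) (w : A → ℤ)

/-- A numerator of `x`. -/
noncomputable def extNum (x : F) : A := (hfrac x).choose

/-- A denominator of `x`. -/
noncomputable def extDen (x : F) : A := (hfrac x).choose_spec.choose

lemma extDen_ne_zero (x : F) : extDen ι hfrac x ≠ 0 := (hfrac x).choose_spec.choose_spec.1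

lemma extNum_spec (x : F) : x * ι (extDen ι hfrac x) = ι (extNum ι hfrac x) :=
  (hfrac x).choose_spec.choose_spec.2

/-- The extension of `w : A → ℤ` to fractions: `extVal (a / b) = w a - w b`. -/
noncomputable def extVal (x : F) : ℤ := w (extNum ι hfrac x) - w (extDen ι hfrac x)

variable {ι hfrac w}

lemma extVal_num_ne_zero (hι : Function.Injective ι) {x : F} (hx : x ≠ 0) {a b : A} (hb : b ≠ 0)
    (hab : x * ι b = ι a) : a ≠ 0 := by
  rintro rfl
  rw [map_zero] at hab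
  rcases mul_eq_zero.mp hab with h | h
  · exact hx h
  · exact hb (hι (by rw [h, map_zero]))

variable (hι : Function.Injective ι)
  (hmul : ∀ a b : A, a ≠ 0 → b ≠ 0 → w (a * b) = w a + w b)

include hι hmul in
theorem extVal_eq {x : F} (hx : x ≠ 0) {a b : A} (hb : b ≠ 0) (hab : x * ι b = ι a) :
    extVal ι hfrac w x = w a - w b := by
  have hb' := extDen_ne_zero ι hfrac x
  have hab' := extNum_spec ι hfrac x
  have ha : a ≠ 0 := extVal_num_ne_zero hι hx hb hab
  have ha' : extNum ι hfrac x ≠ 0 := extVal_num_ne_zero hι hx hb' hab'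
  have key : extNum ι hfrac x * b = a * extDen ι hfrac x := by
    apply hι
    rw [map_mul, map_mul, ← hab', ← hab]
    ring
  have h2 := congrArg w key
  rw [hmul _ _ ha' hb, hmul _ _ ha hb'] at h2
  unfold extVal
  omega

include hι hmul in
theorem extVal_mul {x y : F} (hx : x ≠ 0) (hy : y ≠ 0) :
    extVal ι hfrac w (x * y) = extVal ι hfrac w x + extVal ι hfrac w y := by
  obtain ⟨a, b, hb, hab⟩ := hfrac x
  obtain ⟨c, d, hd, hcd⟩ := hfrac y
  have ha : a ≠ 0 := extVal_num_ne_zero hι hx hb hab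
  have hc : c ≠ 0 := extVal_num_ne_zero hι hy hd hcd
  have hbd : b * d ≠ 0 := by
    intro h0
    have := congrArg ι h0
    rw [map_mul, map_zero] at this
    rcases mul_eq_zero.mp this with h | h
    · exact hb (hι (by rw [h, map_zero]))
    · exact hd (hι (by rw [h, map_zero]))
  have hxy : x * y * ι (b * d) = ι (a * c) := by
    rw [map_mul, map_mul, ← hab, ← hcd]
    ring
  rw [extVal_eq hι hmul (mul_ne_zero hx hy) hbd hxy, extVal_eq hι hmul hx hb hab,
    extVal_eq hι hmul hy hd hcd, hmul _ _ ha hc, hmul _ _ hb hd]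
  ring

include hι hmul in
theorem extVal_add
    (hadd : ∀ a b : A, a ≠ 0 → b ≠ 0 → a + b ≠ 0 → min (w a) (w b) ≤ w (a + b))
    {x y : F} (hx : x ≠ 0) (hy : y ≠ 0) (hxy : x + y ≠ 0) :
    min (extVal ι hfrac w x) (extVal ι hfrac w y) ≤ extVal ι hfrac w (x + y) := by
  obtain ⟨a, b, hb, hab⟩ := hfrac x
  obtain ⟨c, d, hd, hcd⟩ := hfrac y
  have ha : a ≠ 0 := extVal_num_ne_zero hι hx hb hab
  have hc : c ≠ 0 := extVal_num_ne_zero hι hy hd hcd
  have hbd : b * d ≠ 0 := by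
    intro h0
    have := congrArg ι h0
    rw [map_mul, map_zero] at this
    rcases mul_eq_zero.mp this with h | h
    · exact hb (hι (by rw [h, map_zero]))
    · exact hd (hι (by rw [h, map_zero]))
  have had : a * d ≠ 0 := by
    intro h0
    have := congrArg ι h0
    rw [map_mul, map_zero] at this
    rcases mul_eq_zero.mp this with h | h
    · exact ha (hι (by rw [h, map_zero]))
    · exact hd (hι (by rw [h, map_zero]))
  have hcb : c * b ≠ 0 := by
    intro h0
    have := congrArg ι h0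
    rw [map_mul, map_zero] at this
    rcases mul_eq_zero.mp this with h | h
    · exact hc (hι (by rw [h, map_zero]))
    · exact hb (hι (by rw [h, map_zero]))
  have hsum : (x + y) * ι (b * d) = ι (a * d + c * b) := by
    rw [map_add, map_mul, map_mul, map_mul, ← hab, ← hcd]
    ring
  have hnum : a * d + c * b ≠ 0 := extVal_num_ne_zero hι hxy hbd hsum
  have hmin := hadd _ _ had hcb hnum
  rw [hmul _ _ ha hd, hmul _ _ hc hb] at hmin
  rw [extVal_eq hι hmul hxy hbd hsum, extVal_eq hι hmul hx hb hab,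
    extVal_eq hι hmul hy hd hcd, hmul _ _ hb hd]
  rcases le_total (w a + w d) (w c + w b) with hle | hle
  · rw [min_eq_left hle] at hmin
    have : w a - w b ≤ w c - w d := by omega
    rw [min_eq_left this]
    omega
  · rw [min_eq_right hle] at hmin
    have : w c - w d ≤ w a - w b := by omega
    rw [min_eq_right this]
    omega

include hι hmul in
theorem extVal_map {a : A} (ha : a ≠ 0) : extVal ι hfrac w (ι a) = w a := by
  have h1 : (1 : A) ≠ 0 := by
    intro h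
    have := congrArg ι h
    rw [map_one, map_zero] at this
    exact one_ne_zero this
  have hw1 : w 1 = 0 := by
    have := hmul 1 1 h1 h1
    rw [mul_one] at this
    omega
  have hne : ι a ≠ 0 := fun h => ha (hι (by rw [h, map_zero]))
  have := extVal_eq (hfrac := hfrac) hι hmul hne h1 (by rw [map_one, mul_one] : ι a * ι 1 = ι a)
  rw [this, hw1, sub_zero]

end Ext

/-! ### The translates of `ρ(a)` and their order at `i∞` -/

section Cusp

variable {K : Type*} [Field K] [Algebra ℚ K] (e : K →+* ℂ) {N : ℕ}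

/-- The translate `z ↦ ρ(a)(γ • z)`. -/
noncomputable def cuspTrans (γ : SL(2, ℤ)) (a : AK K N) : ℍ → ℂ := fun z => rho e a (γ • z)

lemma cuspTrans_apply (γ : SL(2, ℤ)) (a : AK K N) (z : ℍ) :
    cuspTrans e γ a z = rho e a (γ • z) := rfl

lemma cuspTrans_mul (γ : SL(2, ℤ)) (a b : AK K N) :
    cuspTrans e γ (a * b) = cuspTrans e γ a * cuspTrans e γ b := by
  funext z
  simp [cuspTrans, map_mul]

lemma cuspTrans_add (γ : SL(2, ℤ)) (a b : AK K N) :
    cuspTrans e γ (a + b) = cuspTrans e γ a + cuspTrans e γ b := by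
  funext z
  simp [cuspTrans, map_add]

lemma cuspTrans_zero (γ : SL(2, ℤ)) : cuspTrans e γ (0 : AK K N) = 0 := by
  funext z
  simp [cuspTrans]

lemma cuspTrans_one (γ : SL(2, ℤ)) : cuspTrans e γ (1 : AK K N) = 1 := by
  funext z
  simp [cuspTrans]

lemma cuspTrans_algebraMap (γ : SL(2, ℤ)) (c : K) :
    cuspTrans e γ (algebraMap K (AK K N) c) = fun _ => e c := by
  funext z
  rw [cuspTrans, rho_algebraMap]

lemma cuspTrans_jAK (γ : SL(2, ℤ)) : cuspTrans e γ (jAK K N) = R4.jInv := by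
  funext z
  rw [cuspTrans, rho_jAK, R4.jInv_smul]

lemma cuspTrans_eq_zero_iff (γ : SL(2, ℤ)) (a : AK K N) : cuspTrans e γ a = 0 ↔ a = 0 := by
  constructor
  · intro h
    rw [← rho_apply_eq_zero_iff e]
    funext z
    have := congrFun h (γ⁻¹ • z)
    rw [cuspTrans, smul_inv_smul] at this
    exact this
  · rintro rfl
    exact cuspTrans_zero e γ

lemma cuspTrans_ne_zero (γ : SL(2, ℤ)) {a : AK K N} (ha : a ≠ 0) : cuspTrans e γ a ≠ 0 :=
  fun h => ha ((cuspTrans_eq_zero_iff e γ a).mp h)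

/-- `cuspTrans e (δ * γ) = cuspTrans e γ` for `δ ∈ Γ₀(N)`. -/
lemma cuspTrans_Gamma0_mul {δ : SL(2, ℤ)} (hδ : δ ∈ Gamma0 N) (γ : SL(2, ℤ)) (a : AK K N) :
    cuspTrans e (δ * γ) a = cuspTrans e γ a := by
  funext z
  rw [cuspTrans, cuspTrans, mul_smul, rho_smul_of_mem_Gamma0 e a hδ]

/-- `cuspTrans e (γ * T ^ n) a = (cuspTrans e γ a) (n + ·)`. -/
lemma cuspTrans_mul_T_zpow (γ : SL(2, ℤ)) (n : ℤ) (a : AK K N) :
    cuspTrans e (γ * ModularGroup.T ^ n) a = fun z => cuspTrans e γ a ((n : ℝ) +ᵥ z) := by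
  funext z
  rw [cuspTrans, cuspTrans, mul_smul, modular_T_zpow_smul]

variable [NeZero N]

theorem meroAtInf_cuspTrans (γ : SL(2, ℤ)) (a : AK K N) :
    MeroAtInf (N : ℝ) (cuspTrans e γ a) := by
  obtain ⟨m, hm⟩ := rho_modGrowth e a γ
  exact MeroAtInf.of_mul_discriminant_pow (NeZero.ne N)
    (periodic_comp_smul_nat (fun δ hδ z => rho_smul_of_mem_Gamma0 e a hδ z) γ)
    (R4.mdifferentiable_comp_smul (mdifferentiable_rho e a) γ) m hm

omit [NeZero N] in
/-- If `γ T^w γ⁻¹ ∈ Γ₀(N)` with `w ≠ 0`, the translate is meromorphic at `i∞` already in the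
parameter `exp (2 π i z / w)`. -/
theorem meroAtInf_cuspTrans_width (γ : SL(2, ℤ)) (a : AK K N) {w : ℕ} (hw0 : w ≠ 0)
    (hw : γ * ModularGroup.T ^ (w : ℤ) * γ⁻¹ ∈ Gamma0 N) :
    MeroAtInf (w : ℝ) (cuspTrans e γ a) := by
  obtain ⟨m, hm⟩ := rho_modGrowth e a γ
  have hper : Function.Periodic (cuspTrans e γ a ∘ ofComplex) (w : ℝ) := by
    have := periodic_comp_smul (fun δ hδ z => rho_smul_of_mem_Gamma0 e a hδ z) γ (w : ℤ) hw
    rw [Int.cast_natCast] at this
    exact this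
  exact MeroAtInf.of_mul_discriminant_pow hw0 hper
    (R4.mdifferentiable_comp_smul (mdifferentiable_rho e a) γ) m hm

variable (N) in
lemma h12_Npos : (0 : ℝ) < (N : ℝ) := Nat.cast_pos.mpr (Nat.pos_of_ne_zero (NeZero.ne N))

/-- The order at `i∞` of the `γ`-translate of `ρ(a)`. -/
noncomputable def cuspW (γ : SL(2, ℤ)) (a : AK K N) : ℤ := ordInf (N : ℝ) (cuspTrans e γ a)

theorem cuspW_mul (γ : SL(2, ℤ)) (a b : AK K N) (ha : a ≠ 0) (hb : b ≠ 0) :
    cuspW e γ (a * b) = cuspW e γ a + cuspW e γ b := by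
  rw [cuspW, cuspTrans_mul]
  exact MeroAtInf.ordInf_mul (meroAtInf_cuspTrans e γ a) (meroAtInf_cuspTrans e γ b) (h12_Npos N)
    (cuspTrans_ne_zero e γ ha) (cuspTrans_ne_zero e γ hb)

theorem cuspW_add (γ : SL(2, ℤ)) (a b : AK K N) (ha : a ≠ 0) (hb : b ≠ 0) (hab : a + b ≠ 0) :
    min (cuspW e γ a) (cuspW e γ b) ≤ cuspW e γ (a + b) := by
  rw [cuspW, cuspW, cuspW, cuspTrans_add]
  refine MeroAtInf.ordInf_add_ge (meroAtInf_cuspTrans e γ a) (meroAtInf_cuspTrans e γ b)
    (h12_Npos N) (cuspTrans_ne_zero e γ ha) (cuspTrans_ne_zero e γ hb) ?_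
  rw [← cuspTrans_add]
  exact cuspTrans_ne_zero e γ hab

omit [NeZero N] in
theorem cuspW_algebraMap (γ : SL(2, ℤ)) {c : K} (hc : c ≠ 0) :
    cuspW e γ (algebraMap K (AK K N) c) = 0 := by
  rw [cuspW, cuspTrans_algebraMap]
  exact MeroAtInf.ordInf_const _ ((map_ne_zero e).mpr hc)

theorem cuspW_jAK (γ : SL(2, ℤ)) : cuspW e γ (jAK K N) = -(N : ℤ) := by
  rw [cuspW, cuspTrans_jAK]
  exact ordInf_jInv_nat (NeZero.ne N)

omit [NeZero N] in
theorem cuspW_Gamma0_mul {δ : SL(2, ℤ)} (hδ : δ ∈ Gamma0 N) (γ : SL(2, ℤ)) (a : AK K N) :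
    cuspW e (δ * γ) a = cuspW e γ a := by
  rw [cuspW, cuspW, cuspTrans_Gamma0_mul e hδ]

theorem cuspW_mul_T_zpow (γ : SL(2, ℤ)) (n : ℤ) (a : AK K N) :
    cuspW e (γ * ModularGroup.T ^ n) a = cuspW e γ a := by
  rw [cuspW, cuspW, cuspTrans_mul_T_zpow]
  exact MeroAtInf.ordInf_vadd (meroAtInf_cuspTrans e γ a) (h12_Npos N) _

/-- Width divisibility: if `γ T^w γ⁻¹ ∈ Γ₀(N)` and `N = d * w`, then `d ∣ cuspW e γ a`. -/
theorem dvd_cuspW_of_width (γ : SL(2, ℤ)) (a : AK K N) {w d : ℕ} (hN : N = d * w)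
    (hw : γ * ModularGroup.T ^ (w : ℤ) * γ⁻¹ ∈ Gamma0 N) :
    (d : ℤ) ∣ cuspW e γ a := by
  have hN0 : N ≠ 0 := NeZero.ne N
  have hw0 : w ≠ 0 := by
    rintro rfl
    exact hN0 (by rw [hN, mul_zero])
  have hd0 : d ≠ 0 := by
    rintro rfl
    exact hN0 (by rw [hN, zero_mul])
  have h1 := meroAtInf_cuspTrans_width e γ a hw0 hw
  have h2 := h1.ordInf_period_mul (by exact_mod_cast hw0) d hd0
  have h3 : ((d : ℝ) * (w : ℝ)) = (N : ℝ) := by rw [hN]; push_cast; ring
  rw [h3] at h2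
  rw [cuspW, h2]
  exact Dvd.intro _ rfl

end Cusp

/-! ### The cusp valuation on `F = K(j_d : d ∣ N)` -/

section Field

variable {K : Type*} [Field K] [Algebra ℚ K] (e : K →+* ℂ) {N : ℕ}

/-- The inclusion `A → F` as a ring homomorphism. -/
noncomputable def inclR (K : Type*) [Field K] [Algebra ℚ K] (N : ℕ) : AK K N →+* FK K N :=
  (inclAK K N : AK K N →+* FK K N)

lemma inclR_apply (a : AK K N) : inclR K N a = inclAK K N a := rfl

lemma inclR_injective : Function.Injective (inclR K N) := inclAK_injective K N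

lemma inclR_ne_zero {a : AK K N} (ha : a ≠ 0) : inclR K N a ≠ 0 :=
  fun h => ha (inclR_injective (by rw [h, map_zero]))

lemma inclR_algebraMap (c : K) : inclR K N (algebraMap K (AK K N) c) = algebraMap K (FK K N) c :=
  (inclAK K N).commutes c

/-- Every element of `F` is a fraction of elements of `A`. -/
lemma exists_frac (x : FK K N) :
    ∃ a b : AK K N, b ≠ 0 ∧ x * inclR K N b = inclR K N a := by
  obtain ⟨a, ha, b, hb, hb0, hab⟩ := exists_div_of_mem_FK x.2
  refine ⟨⟨a, ha⟩, ⟨b, hb⟩, ?_, ?_⟩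
  · intro h
    exact hb0 (congrArg Subtype.val h)
  · apply Subtype.ext
    exact hab

/-- The element `j` of `F`. -/
noncomputable def jF (K : Type*) [Field K] [Algebra ℚ K] (N : ℕ) : FK K N :=
  inclAK K N (jAK K N)

lemma jF_def : jF K N = inclAK K N (jAK K N) := rfl

variable [NeZero N]

/-- **The cusp valuation** attached to `γ : SL(2, ℤ)`: the order at `i∞` of the `γ`-translate,
measured in the parameter `exp (2 π i z / N)`. -/
noncomputable def cuspVal (γ : SL(2, ℤ)) (x : FK K N) : ℤ :=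
  extVal (inclR K N) exists_frac (cuspW e γ) x

/-- The defining property: `cuspVal (a / b) = cuspW a - cuspW b`. -/
theorem cuspVal_eq (γ : SL(2, ℤ)) {x : FK K N} (hx : x ≠ 0) {a b : AK K N} (hb : b ≠ 0)
    (hab : x * inclAK K N b = inclAK K N a) :
    cuspVal e γ x = cuspW e γ a - cuspW e γ b := by
  have hab' : x * inclR K N b = inclR K N a := hab
  unfold cuspVal
  exact extVal_eq (ι := inclR K N) (hfrac := exists_frac) (w := cuspW e γ) inclR_injective
    (cuspW_mul e γ) hx hb hab'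

theorem cuspVal_inclAK (γ : SL(2, ℤ)) {a : AK K N} (ha : a ≠ 0) :
    cuspVal e γ (inclAK K N a) = cuspW e γ a := by
  rw [← inclR_apply]
  unfold cuspVal
  exact extVal_map (ι := inclR K N) (hfrac := exists_frac) (w := cuspW e γ) inclR_injective
    (cuspW_mul e γ) ha

theorem cuspVal_mul (γ : SL(2, ℤ)) (x y : FK K N) (hx : x ≠ 0) (hy : y ≠ 0) :
    cuspVal e γ (x * y) = cuspVal e γ x + cuspVal e γ y := by
  unfold cuspVal
  exact extVal_mul (ι := inclR K N) (hfrac := exists_frac) (w := cuspW e γ) inclR_injective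
    (cuspW_mul e γ) hx hy

theorem cuspVal_add (γ : SL(2, ℤ)) (x y : FK K N) (hx : x ≠ 0) (hy : y ≠ 0) (hxy : x + y ≠ 0) :
    min (cuspVal e γ x) (cuspVal e γ y) ≤ cuspVal e γ (x + y) := by
  unfold cuspVal
  exact extVal_add (ι := inclR K N) (hfrac := exists_frac) (w := cuspW e γ) inclR_injective
    (cuspW_mul e γ) (cuspW_add e γ) hx hy hxy

theorem cuspVal_algebraMap (γ : SL(2, ℤ)) {c : K} (hc : c ≠ 0) :
    cuspVal e γ (algebraMap K (FK K N) c) = 0 := by
  have hc' : algebraMap K (AK K N) c ≠ 0 := by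
    rw [Ne, map_eq_zero_iff _ (algebraMap K (AK K N)).injective]
    exact hc
  rw [← inclR_algebraMap, inclR_apply, cuspVal_inclAK e γ hc', cuspW_algebraMap e γ hc]

theorem cuspVal_algebraMap_nonneg (γ : SL(2, ℤ)) (c : K)
    (hc : algebraMap K (FK K N) c ≠ 0) : 0 ≤ cuspVal e γ (algebraMap K (FK K N) c) := by
  have hc0 : c ≠ 0 := by
    rintro rfl
    exact hc (map_zero _)
  rw [cuspVal_algebraMap e γ hc0]

omit [NeZero N] in
include e in
lemma jAK_ne_zero : jAK K N ≠ 0 := by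
  intro h
  have h1 := rho_jAK (K := K) (N := N) e
  rw [h, map_zero] at h1
  exact jInv_ne_zero_fun h1.symm

omit [NeZero N] in
include e in
lemma jF_ne_zero : jF K N ≠ 0 := inclR_ne_zero (jAK_ne_zero e)

/-- The cusp valuation of `j` is `-N`. -/
theorem cuspVal_jF (γ : SL(2, ℤ)) : cuspVal e γ (jF K N) = -(N : ℤ) := by
  rw [jF, cuspVal_inclAK e γ (jAK_ne_zero e), cuspW_jAK]

theorem cuspVal_one (γ : SL(2, ℤ)) : cuspVal e γ (1 : FK K N) = 0 := by
  have := cuspVal_mul e γ (1 : FK K N) 1 one_ne_zero one_ne_zero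
  rw [mul_one] at this
  omega

theorem cuspVal_inv (γ : SL(2, ℤ)) {x : FK K N} (hx : x ≠ 0) :
    cuspVal e γ x⁻¹ = -cuspVal e γ x := by
  have := cuspVal_mul e γ x x⁻¹ hx (inv_ne_zero hx)
  rw [mul_inv_cancel₀ hx, cuspVal_one] at this
  omega

/-- The cusp valuation of `1 / j` is `N`. -/
theorem cuspVal_jF_inv (γ : SL(2, ℤ)) : cuspVal e γ (jF K N)⁻¹ = (N : ℤ) := by
  rw [cuspVal_inv e γ (jF_ne_zero e), cuspVal_jF, neg_neg]

theorem cuspVal_nontrivial (γ : SL(2, ℤ)) : ∃ t : FK K N, t ≠ 0 ∧ cuspVal e γ t ≠ 0 := by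
  refine ⟨jF K N, jF_ne_zero e, ?_⟩
  rw [cuspVal_jF]
  have : (N : ℤ) ≠ 0 := by exact_mod_cast NeZero.ne N
  omega

omit [NeZero N] in
/-- Invariance under left multiplication by `Γ₀(N)`. -/
theorem cuspVal_Gamma0_mul {δ : SL(2, ℤ)} (hδ : δ ∈ Gamma0 N) (γ : SL(2, ℤ)) (x : FK K N) :
    cuspVal e (δ * γ) x = cuspVal e γ x := by
  have : cuspW (K := K) (N := N) e (δ * γ) = cuspW e γ := by
    funext a
    exact cuspW_Gamma0_mul e hδ γ a
  rw [cuspVal, cuspVal, this]

/-- Invariance under right multiplication by powers of `T`. -/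
theorem cuspVal_mul_T_zpow (γ : SL(2, ℤ)) (n : ℤ) (x : FK K N) :
    cuspVal e (γ * ModularGroup.T ^ n) x = cuspVal e γ x := by
  have : cuspW (K := K) (N := N) e (γ * ModularGroup.T ^ n) = cuspW e γ := by
    funext a
    exact cuspW_mul_T_zpow e γ n a
  rw [cuspVal, cuspVal, this]

/-- Width divisibility: if `γ T^w γ⁻¹ ∈ Γ₀(N)` and `N = d * w`, then `d ∣ cuspVal e γ x`. -/
theorem dvd_cuspVal_of_width (γ : SL(2, ℤ)) {w d : ℕ} (hN : N = d * w)
    (hw : γ * ModularGroup.T ^ (w : ℤ) * γ⁻¹ ∈ Gamma0 N) (x : FK K N) :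
    (d : ℤ) ∣ cuspVal e γ x := by
  rw [cuspVal, extVal]
  exact dvd_sub (dvd_cuspW_of_width e γ _ hN hw) (dvd_cuspW_of_width e γ _ hN hw)

/-! ### The cusp places -/

/-- **The cusp place** attached to `γ : SL(2, ℤ)`. -/
noncomputable def cuspPlace (e : K →+* ℂ) (N : ℕ) [NeZero N] (γ : SL(2, ℤ)) : Place K (FK K N) :=
  placeOfVal (cuspVal e γ) (cuspVal_mul e γ) (cuspVal_add e γ) (cuspVal_algebraMap_nonneg e γ)
    (cuspVal_nontrivial e γ)

theorem mem_cuspPlace_iff (γ : SL(2, ℤ)) (h : FK K N) :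
    h ∈ (cuspPlace e N γ).toValuationSubring ↔ (h = 0 ∨ 0 ≤ cuspVal e γ h) := Iff.rfl

theorem exists_cuspMult (γ : SL(2, ℤ)) :
    ∃ m : ℕ, 0 < m ∧ ∀ h : FK K N, h ≠ 0 → cuspVal e γ h = m * (cuspPlace e N γ).ord h := by
  obtain ⟨P, m, hm, hord, hmem⟩ := exists_place_of_valuation (K := K) (F := FK K N)
    (cuspVal e γ) (cuspVal_mul e γ)
    (cuspVal_add e γ) (cuspVal_algebraMap_nonneg e γ) (cuspVal_nontrivial e γ)
  have hP : P = cuspPlace e N γ := by
    apply Place.ext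
    ext h
    rw [hmem, mem_cuspPlace_iff]
  subst hP
  exact ⟨m, hm, hord⟩

/-- The multiplicity of the cusp valuation: `cuspVal = cuspMult * ord_{cuspPlace}`. -/
noncomputable def cuspMult (e : K →+* ℂ) (N : ℕ) [NeZero N] (γ : SL(2, ℤ)) : ℕ :=
  (exists_cuspMult (K := K) (N := N) e γ).choose

theorem cuspMult_pos (γ : SL(2, ℤ)) : 0 < cuspMult e N γ :=
  (exists_cuspMult (K := K) (N := N) e γ).choose_spec.1

theorem cuspVal_eq_mul_ord (γ : SL(2, ℤ)) {h : FK K N} (hh : h ≠ 0) :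
    cuspVal e γ h = (cuspMult e N γ : ℤ) * (cuspPlace e N γ).ord h :=
  (exists_cuspMult (K := K) (N := N) e γ).choose_spec.2 h hh

/-- `ord_P h` and `cuspVal h` have the same sign. -/
theorem ord_cuspPlace_pos_iff (γ : SL(2, ℤ)) {h : FK K N} (hh : h ≠ 0) :
    0 < (cuspPlace e N γ).ord h ↔ 0 < cuspVal e γ h := by
  rw [cuspVal_eq_mul_ord e γ hh]
  have hm : (0 : ℤ) < (cuspMult e N γ : ℤ) := by exact_mod_cast cuspMult_pos (N := N) e γ
  constructor
  · intro h1
    exact mul_pos hm h1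
  · intro h1
    exact (mul_pos_iff_of_pos_left hm).mp h1

theorem ord_cuspPlace_nonneg_iff (γ : SL(2, ℤ)) {h : FK K N} (hh : h ≠ 0) :
    0 ≤ (cuspPlace e N γ).ord h ↔ 0 ≤ cuspVal e γ h := by
  rw [cuspVal_eq_mul_ord e γ hh]
  have hm : (0 : ℤ) < (cuspMult e N γ : ℤ) := by exact_mod_cast cuspMult_pos (N := N) e γ
  constructor
  · intro h1
    exact mul_nonneg hm.le h1
  · intro h1
    exact (mul_nonneg_iff_of_pos_left hm).mp h1

theorem ord_cuspPlace_eq_zero_iff (γ : SL(2, ℤ)) {h : FK K N} (hh : h ≠ 0) :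
    (cuspPlace e N γ).ord h = 0 ↔ cuspVal e γ h = 0 := by
  rw [cuspVal_eq_mul_ord e γ hh]
  have hm : (cuspMult e N γ : ℤ) ≠ 0 := by exact_mod_cast (cuspMult_pos (N := N) e γ).ne'
  constructor
  · intro h1
    rw [h1, mul_zero]
  · intro h1
    rcases mul_eq_zero.mp h1 with h2 | h2
    · exact absurd h2 hm
    · exact h2

/-- Hypothesis (a) of `orbit_place` with `t = 1 / j`, `s = N`. -/
theorem cuspMult_mul_ord_jF_inv (γ : SL(2, ℤ)) :
    (cuspMult e N γ : ℤ) * (cuspPlace e N γ).ord (jF K N)⁻¹ = (N : ℤ) := by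
  rw [← cuspVal_eq_mul_ord e γ (inv_ne_zero (jF_ne_zero e)), cuspVal_jF_inv]

/-- The cusp places lie over `j = ∞`. -/
theorem ord_cuspPlace_jF_inv_pos (γ : SL(2, ℤ)) : 0 < (cuspPlace e N γ).ord (jF K N)⁻¹ := by
  rw [ord_cuspPlace_pos_iff e γ (inv_ne_zero (jF_ne_zero e)), cuspVal_jF_inv]
  exact_mod_cast Nat.pos_of_ne_zero (NeZero.ne N)

/-- Two elements of `SL(2, ℤ)` with the same cusp valuation define the same place. -/
theorem cuspPlace_eq_of_cuspVal_eq {γ γ' : SL(2, ℤ)}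
    (h : ∀ x : FK K N, cuspVal e γ x = cuspVal e γ' x) : cuspPlace e N γ = cuspPlace e N γ' := by
  apply Place.ext
  ext x
  rw [mem_cuspPlace_iff, mem_cuspPlace_iff, h x]

theorem cuspPlace_Gamma0_mul {δ : SL(2, ℤ)} (hδ : δ ∈ Gamma0 N) (γ : SL(2, ℤ)) :
    cuspPlace e N (δ * γ) = cuspPlace e N γ :=
  cuspPlace_eq_of_cuspVal_eq e (cuspVal_Gamma0_mul e hδ γ)

theorem cuspPlace_mul_T_zpow (γ : SL(2, ℤ)) (n : ℤ) :
    cuspPlace e N (γ * ModularGroup.T ^ n) = cuspPlace e N γ :=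
  cuspPlace_eq_of_cuspVal_eq e (cuspVal_mul_T_zpow e γ n)

/-- Width divisibility for the multiplicity: if `γ T^w γ⁻¹ ∈ Γ₀(N)` and `N = d * w`,
then `d ∣ cuspMult e γ`. -/
theorem dvd_cuspMult_of_width (γ : SL(2, ℤ)) {w d : ℕ} (hN : N = d * w)
    (hw : γ * ModularGroup.T ^ (w : ℤ) * γ⁻¹ ∈ Gamma0 N) :
    d ∣ cuspMult e N γ := by
  obtain ⟨π, hπ⟩ := IsDiscreteValuationRing.exists_irreducible
    (cuspPlace e N γ).toValuationSubring
  have hπF : (π : FK K N) ≠ 0 := by
    simpa [ne_eq, ZeroMemClass.coe_eq_zero] using hπ.ne_zero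
  have h1 := dvd_cuspVal_of_width e γ hN hw (π : FK K N)
  rw [cuspVal_eq_mul_ord e γ hπF, (cuspPlace e N γ).ord_coe_irreducible hπ, mul_one] at h1
  exact_mod_cast h1

end Field

end Fermat.Agent.S24.G4
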