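import Fermat.Agent.S24.H12_CuspPlace

/-!
# S24 / S20 (helper12): the cusp places in "fraction" shape

For every `γ : SL(2, ℤ)` there are a place `v` of `F = K(j_d : d ∣ N)` and a multiplicity `m > 0`
with `m * ord_v (a / b) = ord_∞ (ρ(a) ∘ γ) - ord_∞ (ρ(b) ∘ γ)`.
-/

set_option autoImplicit false

open UpperHalfPlane Filter Topology
open CongruenceSubgroup AlgebraicCurve
open scoped MatrixGroups ModularForm Manifold

namespace Fermat.Agent.S24.G4

open Fermat.Agent.S24.Real Fermat.Agent.S24.Cusp Fermat.Agent.S24.Orb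

variable {K : Type*} [Field K] [Algebra ℚ K] (e : K →+* ℂ) (N : ℕ) [NeZero N]

/-- The fraction formula for the cusp place. -/
theorem cuspMult_mul_ord_eq (γ : SL(2, ℤ)) (a b : AK K N) (u : FK K N) (ha : a ≠ 0) (hb : b ≠ 0)
    (hab : u * inclAK K N b = inclAK K N a) :
    (cuspMult e N γ : ℤ) * (cuspPlace e N γ).ord u =
      ordInf (N : ℝ) (fun z => rho e a (γ • z)) - ordInf (N : ℝ) (fun z => rho e b (γ • z)) := by
  have hu : u ≠ 0 := by
    rintro rfl
    rw [zero_mul] at hab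
    exact ha (inclAK_injective K N (by rw [← hab, map_zero]))
  rw [← cuspVal_eq_mul_ord e γ hu, cuspVal_eq e γ hu hb hab]
  rfl

/-- **[CUSP]**: the cusp places, in the shape consumed by S20. -/
theorem exists_cuspPlace (γ : SL(2, ℤ)) :
    ∃ (v : Place K (FK K N)) (m : ℕ), 0 < m ∧
      ∀ (a b : AK K N) (u : FK K N), a ≠ 0 → b ≠ 0 → u * inclAK K N b = inclAK K N a →
        (m : ℤ) * v.ord u =
          ordInf (N : ℝ) (fun z => rho e a (γ • z)) - ordInf (N : ℝ) (fun z => rho e b (γ • z)) :=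
  ⟨cuspPlace e N γ, cuspMult e N γ, cuspMult_pos e γ,
    fun a b u ha hb hab => cuspMult_mul_ord_eq e N γ a b u ha hb hab⟩

/-- **[CUSP]** with the valuation-ring characterisation and the value on `j`. -/
theorem exists_cuspPlace' (γ : SL(2, ℤ)) :
    ∃ (v : Place K (FK K N)) (m : ℕ), 0 < m ∧
      (∀ h : FK K N, h ≠ 0 → cuspVal e γ h = m * v.ord h) ∧
      (∀ h : FK K N, h ∈ v.toValuationSubring ↔ (h = 0 ∨ 0 ≤ cuspVal e γ h)) ∧
      (m : ℤ) * v.ord (jF K N)⁻¹ = N ∧ 0 < v.ord (jF K N)⁻¹ ∧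
      ∀ (a b : AK K N) (u : FK K N), a ≠ 0 → b ≠ 0 → u * inclAK K N b = inclAK K N a →
        (m : ℤ) * v.ord u =
          ordInf (N : ℝ) (fun z => rho e a (γ • z)) - ordInf (N : ℝ) (fun z => rho e b (γ • z)) :=
  ⟨cuspPlace e N γ, cuspMult e N γ, cuspMult_pos e γ,
    fun _ hh => cuspVal_eq_mul_ord e γ hh, fun h => mem_cuspPlace_iff e γ h,
    cuspMult_mul_ord_jF_inv e γ, ord_cuspPlace_jF_inv_pos e γ,
    fun a b u ha hb hab => cuspMult_mul_ord_eq e N γ a b u ha hb hab⟩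

end Fermat.Agent.S24.G4
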