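import Mathlib
import Fermat.Prelude.Def_ModularCurve_ArithmeticGalois

/-!
# S24 (helper13): generators of the modular function field over `K`

`laurentBaseChange K (modularFunctionFieldFull N)` is the subfield of `K((q))` generated over
`K` by the finitely many series `j(q ^ d)`, `d ∣ N`. Hence it is essentially of finite type over
`K`, and each of its elements is a quotient of two elements of the `K`-algebra
`K[j(q ^ d) : d ∣ N]`.
-/

open ModularCurve IntermediateField

namespace Fermat.Agent.S24.LD

variable (K : Type*) [Field K] [Algebra ℚ K] (N : ℕ)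

theorem coeffEmb_algebraMap (r : ℚ) :
    coeffEmb K (algebraMap ℚ (LaurentSeries ℚ) r) =
      algebraMap K (LaurentSeries K) (algebraMap ℚ K r) := by
  rw [algebraMap_laurentSeries_eq_single, algebraMap_laurentSeries_eq_single, coeffEmb,
    coeffMap_single]

/-- The generators `j(q ^ d)`, `d ∣ N`, over `K`. -/
def genSet : Set (LaurentSeries K) := ⇑(coeffEmb K) '' divisorExpansions N

theorem finite_divisorExpansions [NeZero N] : (divisorExpansions N).Finite := by
  classical
  have hsub : divisorExpansions N ⊆
      ((N.divisors : Set ℕ).image fun d => if h : d = 0 then 0 else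
        haveI : NeZero d := ⟨h⟩; qExpand ℚ d jq) := by
    rintro x ⟨d, hd, hdN, rfl⟩
    refine ⟨d, ?_, ?_⟩
    · simpa using Nat.mem_divisors.mpr ⟨hdN, NeZero.ne N⟩
    · show (if h : d = 0 then 0 else haveI : NeZero d := ⟨h⟩; qExpand ℚ d jq) = qExpand ℚ d jq
      rw [dif_neg (NeZero.ne d)]
  exact (N.divisors.finite_toSet.image _).subset hsub

theorem finite_genSet [NeZero N] : (genSet K N).Finite :=
  (finite_divisorExpansions N).image _

/-- The modular function field over `K` is generated over `K` by the `j(q ^ d)`, `d ∣ N`. -/
theorem laurentBaseChange_full_eq_adjoin :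
    laurentBaseChange K (modularFunctionFieldFull N) = adjoin K (genSet K N) := by
  apply le_antisymm
  · rw [laurentBaseChange, adjoin_le_iff]
    rintro _ ⟨y, hy, rfl⟩
    change y ∈ adjoin ℚ (divisorExpansions N) at hy
    induction hy using IntermediateField.adjoin_induction with
    | mem x hx => exact subset_adjoin K _ ⟨x, hx, rfl⟩
    | algebraMap r =>
      rw [coeffEmb_algebraMap]
      exact IntermediateField.algebraMap_mem _ _
    | add x y _ _ hx hy => rw [map_add]; exact add_mem hx hy
    | inv x _ hx => rw [map_inv₀]; exact inv_mem hx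
    | mul x y _ _ hx hy => rw [map_mul]; exact mul_mem hx hy
  · refine adjoin.mono K _ _ (Set.image_mono ?_)
    exact fun x hx => subset_adjoin ℚ _ hx

theorem fg_laurentBaseChange_full [NeZero N] :
    (laurentBaseChange K (modularFunctionFieldFull N)).FG := by
  rw [laurentBaseChange_full_eq_adjoin]
  exact fg_adjoin_of_finite (finite_genSet K N)

/-- The modular function field is essentially of finite type over `K`. -/
theorem essFiniteType_laurentBaseChange_full [NeZero N] :
    Algebra.EssFiniteType K ↥(laurentBaseChange K (modularFunctionFieldFull N)) :=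
  essFiniteType_iff.mpr (fg_laurentBaseChange_full K N)

/-- Every element of the modular function field is a quotient of two elements of the
`K`-algebra generated by the `j(q ^ d)`, `d ∣ N`. -/
theorem exists_div_of_mem_laurentBaseChange_full {x : LaurentSeries K}
    (hx : x ∈ laurentBaseChange K (modularFunctionFieldFull N)) :
    ∃ a ∈ Algebra.adjoin K (genSet K N), ∃ b ∈ Algebra.adjoin K (genSet K N),
      b ≠ 0 ∧ x * b = a := by
  rw [laurentBaseChange_full_eq_adjoin, mem_adjoin_iff_div] at hx
  obtain ⟨r, hr, s, hs, rfl⟩ := hx
  by_cases hs0 : s = 0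
  · refine ⟨0, zero_mem _, 1, one_mem _, one_ne_zero, ?_⟩
    rw [hs0, div_zero, zero_mul]
  · exact ⟨r, hr, s, hs, hs0, div_mul_cancel₀ r hs0⟩

theorem algebra_adjoin_le_laurentBaseChange_full {a : LaurentSeries K}
    (ha : a ∈ Algebra.adjoin K (genSet K N)) :
    a ∈ laurentBaseChange K (modularFunctionFieldFull N) := by
  rw [laurentBaseChange_full_eq_adjoin]
  exact algebra_adjoin_le_adjoin K _ ha

end Fermat.Agent.S24.LD
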