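import Fermat.Agent.S24.H15_Hurwitz
import Fermat.Agent.S24.H21_PlaceOfVal

/-!
# S24 (helper15): places of a function field and primes of a Dedekind model

`A` is a Dedekind domain with fraction field `F`, containing the constants `K`.
Every height-one prime `Q` of `A` defines a place `placeQ Q` of `F / K` with
`(placeQ Q).ord f = ordQ Q f := - log (Q.valuation F f)`, and every place `v` whose
valuation ring contains `A` is of this form, for `Q = A ∩ m_v`.
-/

set_option autoImplicit false
set_option linter.unusedSectionVars false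

noncomputable section

namespace Fermat.Agent.S24.RH

open AlgebraicCurve IsDedekindDomain IsLocalRing

variable {K F : Type*} [Field K] [Field F] [Algebra K F]
variable {A : Type*} [CommRing A] [IsDedekindDomain A] [Algebra A F] [IsFractionRing A F]
  [Algebra K A] [IsScalarTower K A F]

/-- The additive valuation of the height-one prime `Q`. -/
def ordQ (Q : HeightOneSpectrum A) (f : F) : ℤ := -(WithZero.log (Q.valuation F f))

theorem valuation_ne_zero (Q : HeightOneSpectrum A) {f : F} (hf : f ≠ 0) :
    Q.valuation F f ≠ 0 := (Valuation.ne_zero_iff _).mpr hf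

theorem ordQ_mul (Q : HeightOneSpectrum A) (f g : F) (hf : f ≠ 0) (hg : g ≠ 0) :
    ordQ Q (f * g) = ordQ Q f + ordQ Q g := by
  simp only [ordQ, map_mul]
  rw [WithZero.log_mul (valuation_ne_zero Q hf) (valuation_ne_zero Q hg)]
  ring

theorem ordQ_add (Q : HeightOneSpectrum A) (f g : F) (hf : f ≠ 0) (hg : g ≠ 0)
    (hfg : f + g ≠ 0) : min (ordQ Q f) (ordQ Q g) ≤ ordQ Q (f + g) := by
  have h := (Q.valuation F).map_add f g
  simp only [ordQ]
  rcases le_max_iff.mp h with h1 | h1
  · have := (WithZero.log_le_log (valuation_ne_zero Q hfg) (valuation_ne_zero Q hf)).mpr h1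
    exact (min_le_left _ _).trans (by omega)
  · have := (WithZero.log_le_log (valuation_ne_zero Q hfg) (valuation_ne_zero Q hg)).mpr h1
    exact (min_le_right _ _).trans (by omega)

theorem ordQ_algebraMap_nonneg (Q : HeightOneSpectrum A) (a : A) (ha : algebraMap A F a ≠ 0) :
    0 ≤ ordQ Q (algebraMap A F a) := by
  have h1 : Q.valuation F (algebraMap A F a) ≤ 1 := Q.valuation_le_one a
  have := (WithZero.log_le_log (valuation_ne_zero Q ha) one_ne_zero).mpr h1
  simp only [ordQ, WithZero.log_one] at this ⊢
  omega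

theorem ordQ_const_nonneg (Q : HeightOneSpectrum A) (a : K) (ha : algebraMap K F a ≠ 0) :
    0 ≤ ordQ Q (algebraMap K F a) := by
  rw [IsScalarTower.algebraMap_apply K A F] at ha ⊢
  exact ordQ_algebraMap_nonneg Q _ ha

theorem exists_ordQ_eq_one (Q : HeightOneSpectrum A) : ∃ π : F, π ≠ 0 ∧ ordQ Q π = 1 := by
  obtain ⟨π, hπ⟩ := Q.valuation_exists_uniformizer F
  refine ⟨π, ?_, ?_⟩
  · rintro rfl
    rw [map_zero] at hπ
    exact WithZero.exp_ne_zero hπ.symm
  · simp [ordQ, hπ]

theorem exists_placeQ (Q : HeightOneSpectrum A) :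
    ∃ P : Place K F, (∀ f : F, f ≠ 0 → P.ord f = ordQ Q f) ∧
      ∀ f : F, f ∈ P.toValuationSubring ↔ (f = 0 ∨ 0 ≤ ordQ Q f) := by
  obtain ⟨π, hπ0, hπ⟩ := exists_ordQ_eq_one (F := F) Q
  obtain ⟨P, m, hm, hPm, hmem⟩ := Orb.exists_place_of_valuation (K := K) (ordQ (F := F) Q)
    (ordQ_mul Q) (ordQ_add Q) (ordQ_const_nonneg Q) ⟨π, hπ0, by rw [hπ]; norm_num⟩
  have hm1 : m = 1 := by
    have := hPm π hπ0
    rw [hπ] at this
    have h1 : (m : ℤ) ∣ 1 := ⟨P.ord π, this⟩
    have h2 := Int.eq_one_of_dvd_one (by positivity) h1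
    exact_mod_cast h2
  subst hm1
  exact ⟨P, fun f hf => by rw [hPm f hf]; simp, hmem⟩

/-- The place of a height-one prime. -/
def placeQ (Q : HeightOneSpectrum A) : Place K F := (exists_placeQ (K := K) (F := F) Q).choose

theorem placeQ_ord (Q : HeightOneSpectrum A) {f : F} (hf : f ≠ 0) :
    (placeQ (K := K) (F := F) Q).ord f = ordQ Q f :=
  (exists_placeQ (K := K) (F := F) Q).choose_spec.1 f hf

theorem mem_placeQ (Q : HeightOneSpectrum A) (f : F) :
    f ∈ (placeQ (K := K) (F := F) Q).toValuationSubring ↔ (f = 0 ∨ 0 ≤ ordQ Q f) :=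
  (exists_placeQ (K := K) (F := F) Q).choose_spec.2 f

theorem ordQ_nonneg_iff (Q : HeightOneSpectrum A) {f : F} (hf : f ≠ 0) :
    0 ≤ ordQ Q f ↔ Q.valuation F f ≤ 1 := by
  have := WithZero.log_le_iff_le_exp (a := (0 : ℤ)) (valuation_ne_zero Q hf)
  rw [WithZero.exp_zero] at this
  rw [← this, ordQ]
  omega

theorem ordQ_pos_iff (Q : HeightOneSpectrum A) {f : F} (hf : f ≠ 0) :
    0 < ordQ Q f ↔ Q.valuation F f < 1 := by
  have := WithZero.log_lt_iff_lt_exp (a := (0 : ℤ)) (valuation_ne_zero Q hf)
  rw [WithZero.exp_zero] at this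
  rw [← this, ordQ]
  omega

/-- `A` is contained in the valuation ring of `placeQ Q`. -/
theorem algebraMap_mem_placeQ (Q : HeightOneSpectrum A) (a : A) :
    algebraMap A F a ∈ (placeQ (K := K) (F := F) Q).toValuationSubring := by
  rw [mem_placeQ]
  by_cases ha : algebraMap A F a = 0
  · exact Or.inl ha
  · exact Or.inr (ordQ_algebraMap_nonneg Q a ha)

/-- The order of an element of `A` at `placeQ Q` is positive iff it lies in `Q`. -/
theorem placeQ_ord_pos_iff (Q : HeightOneSpectrum A) {a : A} (ha : a ≠ 0) :
    0 < (placeQ (K := K) (F := F) Q).ord (algebraMap A F a) ↔ a ∈ Q.asIdeal := by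
  have ha' : algebraMap A F a ≠ 0 := by
    rwa [Ne, FaithfulSMul.algebraMap_eq_zero_iff]
  rw [placeQ_ord Q ha', ordQ_pos_iff Q ha', Q.valuation_lt_one_iff_mem]

/-! ### The prime of a place containing `A` -/

section PrimeOfPlace

variable (v : Place K F) (hA : ∀ a : A, algebraMap A F a ∈ v.toValuationSubring)

/-- The inclusion of `A` into the valuation ring. -/
def inclA : A →+* v.toValuationSubring :=
  (algebraMap A F).codRestrict v.toValuationSubring.toSubring hA

@[simp] theorem coe_inclA (a : A) : ((inclA v hA a : v.toValuationSubring) : F) = algebraMap A F a :=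
  rfl

/-- The centre of the place `v` on `A`. -/
def centre : Ideal A := Ideal.comap (inclA v hA) (maximalIdeal v.toValuationSubring)

theorem mem_centre {a : A} : a ∈ centre v hA ↔ inclA v hA a ∈ maximalIdeal v.toValuationSubring :=
  Iff.rfl

instance centre_isPrime : (centre v hA).IsPrime :=
  Ideal.comap_isPrime _ _

theorem centre_ne_bot : centre v hA ≠ ⊥ := by
  -- pick `f ∉ O_v`; write `f⁻¹ = b / a`
  have hne : ∃ f : F, f ∉ v.toValuationSubring := by
    by_contra hall
    rw [not_exists] at hall
    exact v.ne_top' (SetLike.ext fun f => ⟨fun _ => ValuationSubring.mem_top f,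
      fun _ => not_not.mp (hall f)⟩)
  obtain ⟨f, hf⟩ := hne
  have hf0 : f ≠ 0 := by rintro rfl; exact hf (zero_mem _)
  have hford : v.ord f < 0 := ord_neg_of_not_mem v hf
  obtain ⟨a, b, hb, hab⟩ := IsFractionRing.div_surjective (A := A) f
  have hb0 : b ≠ 0 := nonZeroDivisors.ne_zero hb
  have hbF : algebraMap A F b ≠ 0 := by rwa [Ne, FaithfulSMul.algebraMap_eq_zero_iff]
  have haF : algebraMap A F a ≠ 0 := by
    rintro h0
    rw [h0, zero_div] at hab
    exact hf0 hab.symm
  -- `ord b = ord a - ord f > 0`
  have h1 : v.ord (algebraMap A F a) = v.ord f + v.ord (algebraMap A F b) := by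
    rw [← v.ord_mul hf0 hbF, ← hab, div_mul_cancel₀ _ hbF]
  have h2 : 0 ≤ v.ord (algebraMap A F a) := ord_nonneg_of_mem v (hA a)
  have h3 : 0 < v.ord (algebraMap A F b) := by omega
  intro hbot
  have hmem : b ∈ centre v hA := by
    rw [mem_centre]
    obtain ⟨hm, hmm⟩ := mem_maximalIdeal_of_ord_pos v h3
    exact hmm
  rw [hbot, Ideal.mem_bot] at hmem
  exact hb0 hmem

/-- The centre as a height-one prime. -/
def centreH : HeightOneSpectrum A := ⟨centre v hA, centre_isPrime v hA, centre_ne_bot v hA⟩

theorem mem_centre_iff_ord_pos {a : A} (ha : a ≠ 0) :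
    a ∈ centre v hA ↔ 0 < v.ord (algebraMap A F a) := by
  constructor
  · intro h
    have h0 : inclA v hA a ≠ 0 := by
      intro h0
      apply ha
      have h1 : algebraMap A F a = 0 := congrArg Subtype.val h0
      exact (FaithfulSMul.algebraMap_eq_zero_iff A F).mp h1
    have h' : inclA v hA a ∈ maximalIdeal v.toValuationSubring := (mem_centre v hA).mp h
    have h2 := ord_pos_of_mem_maximalIdeal v h' h0
    rwa [coe_inclA] at h2
  · intro h
    obtain ⟨hm, hmm⟩ := mem_maximalIdeal_of_ord_pos v h
    rw [mem_centre]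
    have : inclA v hA a = ⟨algebraMap A F a, hm⟩ := Subtype.ext (coe_inclA v hA a)
    rw [this]
    exact hmm

theorem isUnit_inclA_of_not_mem {d : A} (hd : d ∉ centre v hA) : IsUnit (inclA v hA d) := by
  by_contra h
  exact hd ((IsLocalRing.mem_maximalIdeal _).mpr h)

theorem inv_mem_of_not_mem_centre {d : A} (hd : d ∉ centre v hA) :
    (algebraMap A F d)⁻¹ ∈ v.toValuationSubring := by
  obtain ⟨u, hu⟩ := isUnit_inclA_of_not_mem v hA hd
  have h1 : ((u⁻¹ : (v.toValuationSubring)ˣ) : v.toValuationSubring) * inclA v hA d = 1 := by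
    rw [← hu]; exact u.inv_mul
  have h2 : (((u⁻¹ : (v.toValuationSubring)ˣ) : v.toValuationSubring) : F) * algebraMap A F d = 1 := by
    have := congrArg Subtype.val h1
    simpa using this
  rw [← eq_inv_of_mul_eq_one_left h2]
  exact SetLike.coe_mem _

/-- **Every place containing `A` is the place of its centre.** -/
theorem eq_placeQ_centre : v = placeQ (K := K) (F := F) (centreH v hA) := by
  apply Place.ext
  ext f
  rw [mem_placeQ]
  rcases eq_or_ne f 0 with rfl | hf
  · simp
  rw [ordQ_nonneg_iff _ hf]
  simp only [hf, false_or]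
  obtain ⟨n, d, hnd | hnd⟩ := (centreH v hA).exists_primeCompl_mul_eq_or_mul_eq (K := F) f
  · -- `f = n / d`
    have hd : (d : A) ∉ centre v hA := d.2
    have hdF : algebraMap A F (d : A) ≠ 0 := by
      intro h0
      apply hd
      rw [(FaithfulSMul.algebraMap_eq_zero_iff A F).mp h0]
      exact zero_mem _
    have hf' : f = algebraMap A F n * (algebraMap A F (d : A))⁻¹ := by
      rw [← hnd]; field_simp
    constructor
    · intro _
      rw [hf', map_mul, map_inv₀,
        ((centreH v hA).valuation_eq_one_iff_notMem (K := F)).mpr hd, inv_one, mul_one]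
      exact (centreH v hA).valuation_le_one n
    · intro _
      rw [hf']
      exact mul_mem (hA n) (inv_mem_of_not_mem_centre v hA hd)
  · -- `f = d / n`
    have hd : (d : A) ∉ centre v hA := d.2
    have hdF : algebraMap A F (d : A) ≠ 0 := by
      intro h0
      apply hd
      rw [(FaithfulSMul.algebraMap_eq_zero_iff A F).mp h0]
      exact zero_mem _
    have hnF : algebraMap A F n ≠ 0 := by
      intro h0
      rw [h0, mul_zero] at hnd
      exact hdF hnd.symm
    have hf' : f = algebraMap A F (d : A) * (algebraMap A F n)⁻¹ := by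
      rw [← hnd]; field_simp
    have hval : (centreH v hA).valuation F f = ((centreH v hA).valuation F (algebraMap A F n))⁻¹ := by
      rw [hf', map_mul, map_inv₀,
        ((centreH v hA).valuation_eq_one_iff_notMem (K := F)).mpr hd, one_mul]
    by_cases hn : n ∈ centre v hA
    · -- both sides false
      have hlt : (centreH v hA).valuation F (algebraMap A F n) < 1 :=
        ((centreH v hA).valuation_lt_one_iff_mem (K := F) n).mpr hn
      constructor
      · intro hfm
        exfalso
        apply hd
        rw [mem_centre]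
        have : inclA v hA (d : A) = ⟨f, hfm⟩ * inclA v hA n := by
          apply Subtype.ext
          simp only [coe_inclA, MulMemClass.coe_mul]
          exact hnd.symm
        rw [this]
        exact Ideal.mul_mem_left _ _ hn
      · intro hle
        exfalso
        rw [hval] at hle
        have h0 := valuation_ne_zero (centreH v hA) hnF
        have : 1 ≤ (centreH v hA).valuation F (algebraMap A F n) := by
          have := (inv_le_one₀ (zero_lt_iff.mpr h0)).mp hle
          exact this
        exact absurd hlt (not_lt.mpr this)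
    · -- both sides true
      constructor
      · intro _
        rw [hval, ((centreH v hA).valuation_eq_one_iff_notMem (K := F)).mpr hn, inv_one]
      · intro _
        rw [hf']
        exact mul_mem (hA _) (inv_mem_of_not_mem_centre v hA hn)

end PrimeOfPlace

/-- The centre of `placeQ Q` is `Q`. -/
theorem centre_placeQ (Q : HeightOneSpectrum A) :
    centre (placeQ (K := K) (F := F) Q) (algebraMap_mem_placeQ Q) = Q.asIdeal := by
  ext a
  rcases eq_or_ne a 0 with rfl | ha
  · simp
  rw [mem_centre_iff_ord_pos _ _ ha, placeQ_ord_pos_iff Q ha]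

theorem placeQ_injective :
    Function.Injective (placeQ (K := K) (F := F) (A := A)) := by
  intro Q Q' h
  apply HeightOneSpectrum.ext
  rw [← centre_placeQ (K := K) (F := F) Q, ← centre_placeQ (K := K) (F := F) Q']
  ext a
  rcases eq_or_ne a 0 with rfl | ha
  · simp
  rw [mem_centre_iff_ord_pos _ _ ha, mem_centre_iff_ord_pos _ _ ha, h]

end Fermat.Agent.S24.RH
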