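import Fermat.Agent.S24.H15_Bridge

/-!
# S24 (helper15): residue fields and finiteness for places centred on a Dedekind model

If `A` is a Dedekind domain, finitely generated as an algebra over the algebraically closed
field `K`, with fraction field `F`, then every place `v` of `F / K` containing `A` has residue
field `K`, degree one, and its valuation ring is essentially of finite type over `K`.
-/

set_option autoImplicit false
set_option linter.unusedSectionVars false

noncomputable section

namespace Fermat.Agent.S24.RH

open AlgebraicCurve IsDedekindDomain IsLocalRing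

variable {K F : Type*} [Field K] [Field F] [Algebra K F]
variable {A : Type*} [CommRing A] [IsDedekindDomain A] [Algebra A F] [IsFractionRing A F]
  [Algebra K A] [IsScalarTower K A F]

/-- **Nullstellensatz**: the residue field of a maximal ideal of a finitely generated algebra
over an algebraically closed field is the base field. -/
theorem exists_sub_mem_of_isMaximal [IsAlgClosed K] [Algebra.FiniteType K A] (Q : Ideal A)
    [hQ : Q.IsMaximal] (a : A) : ∃ c : K, a - algebraMap K A c ∈ Q := by
  let _ := Ideal.Quotient.field Q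
  have hfin : Module.Finite K (A ⧸ Q) := finite_of_finite_type_of_isJacobsonRing K (A ⧸ Q)
  have hint : Algebra.IsIntegral K (A ⧸ Q) := Algebra.IsIntegral.of_finite K (A ⧸ Q)
  obtain ⟨c, hc⟩ := (IsAlgClosed.algebraMap_bijective_of_isIntegral (k := K) (K := A ⧸ Q)).2
    (Ideal.Quotient.mk Q a)
  refine ⟨c, ?_⟩
  have h1 : algebraMap K (A ⧸ Q) c = Ideal.Quotient.mk Q (algebraMap K A c) := rfl
  rw [← Ideal.Quotient.eq_zero_iff_mem, map_sub, ← hc, h1, sub_self]

variable (v : Place K F) (hA : ∀ a : A, algebraMap A F a ∈ v.toValuationSubring)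

theorem inclA_algebraMap (c : K) :
    inclA v hA (algebraMap K A c) = algebraMap K v.toValuationSubring c := by
  apply Subtype.ext
  rw [coe_inclA, v.coe_algebraMap, ← IsScalarTower.algebraMap_apply]

/-- Every element of the valuation ring is `n / d` with `n, d ∈ A`, `d` outside the centre. -/
theorem exists_mul_eq_inclA (u : v.toValuationSubring) :
    ∃ (n d : A), d ∉ centre v hA ∧ u * inclA v hA d = inclA v hA n := by
  have hu : (centreH v hA).valuation F (u : F) ≤ 1 := by
    rcases eq_or_ne (u : F) 0 with h0 | h0
    · rw [h0, map_zero]; exact zero_le_one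
    · have hmem : (u : F) ∈ (placeQ (K := K) (F := F) (centreH v hA)).toValuationSubring := by
        rw [← eq_placeQ_centre v hA]; exact u.2
      rw [mem_placeQ] at hmem
      exact (ordQ_nonneg_iff _ h0).mp (hmem.resolve_left h0)
  obtain ⟨n, d, hnd⟩ := (centreH v hA).exists_primeCompl_mul_eq_of_integer (K := F) (u : F) hu
  exact ⟨n, d, d.2, Subtype.ext (by simpa using hnd)⟩

include hA in
/-- The residue field of a place centred on `A` is `K`. -/
theorem residueTrivial_of_centre [IsAlgClosed K] [Algebra.FiniteType K A] :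
    ResidueTrivial v := by
  intro u
  obtain ⟨n, d, hd, hnd⟩ := exists_mul_eq_inclA v hA u
  have : (centre v hA).IsMaximal := (centreH v hA).isMaximal
  obtain ⟨c₁, hc₁⟩ := exists_sub_mem_of_isMaximal (K := K) (centre v hA) n
  obtain ⟨c₂, hc₂⟩ := exists_sub_mem_of_isMaximal (K := K) (centre v hA) d
  have hc₂0 : c₂ ≠ 0 := by
    rintro rfl
    rw [map_zero, sub_zero] at hc₂
    exact hd hc₂
  refine ⟨c₁ / c₂, ?_⟩
  -- `(u - c₁/c₂) * d = (n - c₁) - (c₁/c₂) (d - c₂)`
  have hunit := isUnit_inclA_of_not_mem v hA hd
  have key : (u - algebraMap K v.toValuationSubring (c₁ / c₂)) * inclA v hA d =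
      inclA v hA (n - algebraMap K A c₁) -
        algebraMap K v.toValuationSubring (c₁ / c₂) * inclA v hA (d - algebraMap K A c₂) := by
    rw [sub_mul, hnd, map_sub, map_sub, inclA_algebraMap, inclA_algebraMap, mul_sub, ← map_mul,
      div_mul_cancel₀ _ hc₂0]
    ring
  have hmem : (u - algebraMap K v.toValuationSubring (c₁ / c₂)) * inclA v hA d ∈
      maximalIdeal v.toValuationSubring := by
    rw [key]
    exact Ideal.sub_mem _ ((mem_centre v hA).mp hc₁)
      (Ideal.mul_mem_left _ _ ((mem_centre v hA).mp hc₂))
  rcases (IsLocalRing.maximalIdeal.isMaximal v.toValuationSubring).isPrime.mem_or_mem hmem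
    with h | h
  · exact h
  · exact absurd hunit ((IsLocalRing.mem_maximalIdeal _).mp h)

/-- A place with residue field `K` has degree one. -/
theorem deg_eq_one_of_residueTrivial (w : Place K F) (h : ResidueTrivial w) : w.deg = 1 := by
  rw [Place.deg]
  rw [finrank_eq_one_iff_of_nonzero' (1 : w.ResidueField) one_ne_zero]
  intro x
  obtain ⟨u, rfl⟩ := IsLocalRing.residue_surjective x
  obtain ⟨c, hc⟩ := h u
  refine ⟨c, ?_⟩
  have h1 : IsLocalRing.residue w.toValuationSubring (u - algebraMap K w.toValuationSubring c) = 0 :=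
    (IsLocalRing.residue_eq_zero_iff _).mpr hc
  rw [map_sub, sub_eq_zero] at h1
  rw [h1, Algebra.smul_def, mul_one]
  rfl

/-- The inclusion of `A` into the valuation ring, as a `K`-algebra homomorphism. -/
def inclAₐ : A →ₐ[K] v.toValuationSubring :=
  { inclA v hA with commutes' := inclA_algebraMap v hA }

@[simp] theorem inclAₐ_apply (a : A) : inclAₐ v hA a = inclA v hA a := rfl

include hA in
/-- The valuation ring of a place centred on a finitely generated `K`-algebra `A` with
fraction field `F` is essentially of finite type over `K`. -/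
theorem essFiniteType_of_centre [Algebra.FiniteType K A] :
    Algebra.EssFiniteType K v.toValuationSubring := by
  classical
  obtain ⟨σ₀, hσ₀⟩ := (Algebra.FiniteType.out : (⊤ : Subalgebra K A).FG)
  rw [Algebra.essFiniteType_iff]
  refine ⟨σ₀.image (inclAₐ v hA), fun u => ?_⟩
  have hrange : ∀ a : A, inclAₐ v hA a ∈
      Algebra.adjoin K ((σ₀.image (inclAₐ v hA) : Finset v.toValuationSubring) :
        Set v.toValuationSubring) := by
    intro a
    have h1 : a ∈ Algebra.adjoin K (σ₀ : Set A) := by rw [hσ₀]; exact Algebra.mem_top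
    have h2 : inclAₐ v hA a ∈ (Algebra.adjoin K (σ₀ : Set A)).map (inclAₐ v hA) :=
      Subalgebra.mem_map.mpr ⟨a, h1, rfl⟩
    rw [AlgHom.map_adjoin] at h2
    simpa using h2
  obtain ⟨n, d, hd, hnd⟩ := exists_mul_eq_inclA v hA u
  exact ⟨inclAₐ v hA d, hrange d, isUnit_inclA_of_not_mem v hA hd, by
    rw [inclAₐ_apply, hnd]; exact hrange n⟩

end Fermat.Agent.S24.RH
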