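import Fermat.Agent.S24.H15_Fin

/-!
# S24 / S20 (helper15): the order of `dy` at a place of a function field, hypothesis-free

For `F` finite over `K⟮x⟯`, `K` algebraically closed of characteristic zero: at every place `v`
and for every `y` with `v.ord y ≠ 0`, the differential `dy` has order `v.ord y - 1`.
-/

set_option autoImplicit false

noncomputable section

namespace Fermat.Agent.S24.RH

open AlgebraicCurve KaehlerDifferential IntermediateField

variable {K F : Type*} [Field K] [Field F] [Algebra K F]

/-- **[DIFF]** `ord_v (dy) = ord_v y - 1` whenever `ord_v y ≠ 0`. -/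
theorem ordDifferential_D_funField [CharZero K] [IsAlgClosed K] (x : F)
    [FiniteDimensional K⟮x⟯ F] (v : Place K F) {y : F} (hy : v.ord y ≠ 0) :
    v.ordDifferential (D K F y) = v.ord y - 1 := by
  have := finite_kaehler_place x v
  have := nontrivial_kaehler_place x v
  exact ordDifferential_D v (residueTrivial_place x v) hy

/-- `ord_v (dy) = ord_v (y - c) - 1` at a zero of `y - c`. -/
theorem ordDifferential_D_funField_of_zero [CharZero K] [IsAlgClosed K] (x : F)
    [FiniteDimensional K⟮x⟯ F] (v : Place K F) {y : F} {c : K}
    (h : 0 < v.ord (y - algebraMap K F c)) :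
    v.ordDifferential (D K F y) = v.ord (y - algebraMap K F c) - 1 := by
  have := finite_kaehler_place x v
  have := nontrivial_kaehler_place x v
  exact ordDifferential_D_of_zero v (residueTrivial_place x v) h

/-- `ord_v (dy) = ord_v y - 1` at a pole of `y`. -/
theorem ordDifferential_D_funField_of_pole [CharZero K] [IsAlgClosed K] (x : F)
    [FiniteDimensional K⟮x⟯ F] (v : Place K F) {y : F} (h : v.ord y < 0) :
    v.ordDifferential (D K F y) = v.ord y - 1 :=
  ordDifferential_D_funField x v h.ne

/-- `dy ≠ 0` for every non-constant `y`. -/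
theorem D_ne_zero_funField [CharZero K] [IsAlgClosed K] (x : F)
    [FiniteDimensional K⟮x⟯ F] (v : Place K F) {y : F}
    (hy : y ∉ Set.range (algebraMap K F)) : D K F y ≠ 0 := by
  have := finite_kaehler_place x v
  have := nontrivial_kaehler_place x v
  exact D_ne_zero_of_not_const v (residueTrivial_place x v) hy

/-- Every place is a zero of `y - c` for some constant `c`, or a pole of `y`. -/
theorem ord_pos_or_ord_neg_funField [CharZero K] [IsAlgClosed K] (x : F)
    [FiniteDimensional K⟮x⟯ F] (v : Place K F) {y : F}
    (hy : y ∉ Set.range (algebraMap K F)) :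
    v.ord y < 0 ∨ ∃ c : K, 0 < v.ord (y - algebraMap K F c) :=
  ord_pos_or_ord_neg v (residueTrivial_place x v) hy

end Fermat.Agent.S24.RH
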