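import Fermat.Agent.S24.H15_Diff
import Fermat.Agent.S24.H25_Inputs

/-!
# S24 / S20 (helper15): the order of `dy` at a place of the modular function field

The statement **[DIFF]** at `F = Real.FK K N` (the modular function field of level `N` over `K`),
generic in `K` (algebraically closed, characteristic zero, with a realisation `e : K →+* ℂ`).
-/

set_option autoImplicit false

noncomputable section

namespace Fermat.Agent.S24.RH

open AlgebraicCurve KaehlerDifferential IntermediateField
open Fermat.Agent.S24.Real Fermat.Agent.S24.Final

variable {K : Type*} [Field K] [Algebra ℚ K] [CharZero K] [IsAlgClosed K]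

/-- **[DIFF]** at the modular function field: `ord_v (dy) = ord_v y - 1` if `ord_v y ≠ 0`. -/
theorem ordDifferential_D_FK (e : K →+* ℂ) (N : ℕ) [NeZero N]
    (v : Place K (FK K N)) (y : FK K N) (hy : v.ord y ≠ 0) :
    v.ordDifferential (D K (FK K N) y) = v.ord y - 1 := by
  have := finiteDimensional_jF e N
  exact ordDifferential_D_funField (jF K N) v hy

/-- Every place of the modular function field has residue field `K`. -/
theorem residueTrivial_FK (e : K →+* ℂ) (N : ℕ) [NeZero N] (v : Place K (FK K N)) :
    ResidueTrivial v := by
  have := finiteDimensional_jF e N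
  exact residueTrivial_place (jF K N) v

/-- `dy ≠ 0` for every non-constant modular function `y`. -/
theorem D_ne_zero_FK (e : K →+* ℂ) (N : ℕ) [NeZero N] {y : FK K N}
    (hy : y ∉ Set.range (algebraMap K (FK K N))) : D K (FK K N) y ≠ 0 := by
  have := finiteDimensional_jF e N
  have hcd := countData_jF e N
  have hn : 0 < Module.finrank K⟮jF K N⟯ (FK K N) := Module.finrank_pos
  obtain ⟨v⟩ := hcd.exists_place hn
  exact D_ne_zero_funField (jF K N) v hy

/-- **[DIFF]** over `ℂ`, in the shape consumed by the S20 lower bound. -/
theorem ordDifferential_D_FK_complex (N : ℕ) [NeZero N] :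
    ∀ (v : Place ℂ (FK ℂ N)) (y : FK ℂ N), v.ord y ≠ 0 →
      v.ordDifferential (D ℂ (FK ℂ N) y) = v.ord y - 1 :=
  ordDifferential_D_FK (RingHom.id ℂ) N

end Fermat.Agent.S24.RH
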