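import Mathlib
import Fermat.Prelude.Def_ModularCurve_CanonicalDivisor

/-!
# S24, package G5 (helper15): order of `dx` at a place, purely algebraically

For a place `v` of a function field `F / K` whose valuation ring `O_v` is essentially of finite
type over `K` and has residue field `K`, the module `Ω[O_v⁄K]` is generated by `dπ` for any
uniformizer `π` (Nakayama).  Consequently `d` preserves `O_v` (relative to `dπ`), and in
characteristic zero `ord_v (dx / dπ) = ord_v (x - c) - 1` at a zero of `x - c`,
`ord_v (dx / dπ) = ord_v x - 1` at a pole of `x`.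
-/

set_option autoImplicit false

noncomputable section

namespace Fermat.Agent.S24.RH

open AlgebraicCurve KaehlerDifferential IsLocalRing

variable {K F : Type*} [Field K] [Field F] [Algebra K F]

/-- The residue field of the place `v` is `K`: every element of the valuation ring is congruent
to a constant modulo the maximal ideal. -/
def ResidueTrivial (v : Place K F) : Prop :=
  ∀ u : v.toValuationSubring, ∃ c : K,
    u - algebraMap K v.toValuationSubring c ∈ maximalIdeal v.toValuationSubring

/-- The (private) uniformizer used by the prelude to define `dCoord`. -/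
theorem exists_irreducible_dCoord (v : Place K F) :
    ∃ π : v.toValuationSubring, Irreducible π ∧ v.dCoord = D K F (π : F) :=
  ⟨_, (IsDiscreteValuationRing.exists_irreducible v.toValuationSubring).choose_spec, rfl⟩

/-- **Nakayama step.** If `Ω[O_v⁄K]` is a finite `O_v`-module and the residue field of `v` is
`K`, then `Ω[O_v⁄K]` is generated by `dπ` for every uniformizer `π`. -/
theorem span_D_irreducible_eq_top (v : Place K F)
    [Module.Finite v.toValuationSubring Ω[v.toValuationSubring⁄K]]
    (hres : ResidueTrivial v) {π : v.toValuationSubring} (hπ : Irreducible π) :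
    Submodule.span v.toValuationSubring {D K v.toValuationSubring π} = ⊤ := by
  have hmax : maximalIdeal v.toValuationSubring = Ideal.span {π} := hπ.maximalIdeal_eq
  apply top_unique
  apply Submodule.le_of_le_smul_of_le_jacobson_bot (I := maximalIdeal v.toValuationSubring)
    Module.Finite.fg_top (IsLocalRing.maximalIdeal_le_jacobson ⊥)
  rw [← KaehlerDifferential.span_range_derivation K v.toValuationSubring, Submodule.span_le]
  rintro _ ⟨u, rfl⟩
  obtain ⟨c, hc⟩ := hres u
  rw [hmax, Ideal.mem_span_singleton'] at hc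
  obtain ⟨w, hw⟩ := hc
  have hu : u = algebraMap K v.toValuationSubring c + w * π := by rw [hw]; ring
  rw [hu, map_add, Derivation.map_algebraMap, zero_add, Derivation.leibniz]
  refine Submodule.add_mem _
    (Submodule.mem_sup_left (Submodule.smul_mem _ _ (Submodule.mem_span_singleton_self _)))
    (Submodule.mem_sup_right ?_)
  refine Submodule.smul_mem_smul ?_ ?_
  · rw [hmax]; exact Ideal.mem_span_singleton_self π
  · rw [KaehlerDifferential.span_range_derivation]; exact Submodule.mem_top

/-- **Key lemma.** The derivative (with respect to `π`) of an element of `O_v` lies in `O_v`. -/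
theorem exists_D_eq_smul (v : Place K F)
    [Module.Finite v.toValuationSubring Ω[v.toValuationSubring⁄K]]
    (hres : ResidueTrivial v) {π : v.toValuationSubring} (hπ : Irreducible π)
    (u : v.toValuationSubring) :
    ∃ u' : v.toValuationSubring, D K F (u : F) = (u' : F) • D K F (π : F) := by
  have hmem : D K v.toValuationSubring u ∈
      Submodule.span v.toValuationSubring {D K v.toValuationSubring π} := by
    rw [span_D_irreducible_eq_top v hres hπ]; exact Submodule.mem_top
  obtain ⟨u', hu'⟩ := Submodule.mem_span_singleton.mp hmem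
  refine ⟨u', ?_⟩
  have h := congrArg (KaehlerDifferential.map K K v.toValuationSubring F) hu'
  rw [map_smul, KaehlerDifferential.map_D, KaehlerDifferential.map_D] at h
  exact h.symm

/-- `Ω[F⁄K]` is generated over `F` by `dπ`. -/
theorem span_D_coe_irreducible_eq_top (v : Place K F)
    [Module.Finite v.toValuationSubring Ω[v.toValuationSubring⁄K]]
    (hres : ResidueTrivial v) {π : v.toValuationSubring} (hπ : Irreducible π) :
    Submodule.span F {D K F (π : F)} = ⊤ := by
  apply top_unique
  rw [← KaehlerDifferential.span_range_derivation K F, Submodule.span_le]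
  rintro _ ⟨f, rfl⟩
  rcases v.toValuationSubring.mem_or_inv_mem f with hf | hf
  · obtain ⟨u', hu'⟩ := exists_D_eq_smul v hres hπ ⟨f, hf⟩
    rw [SetLike.mem_coe]
    have h2 : D K F f = (u' : F) • D K F (π : F) := hu'
    rw [h2]
    exact Submodule.smul_mem _ _ (Submodule.mem_span_singleton_self _)
  · obtain ⟨u', hu'⟩ := exists_D_eq_smul v hres hπ ⟨f⁻¹, hf⟩
    have h2 : D K F f⁻¹ = (u' : F) • D K F (π : F) := hu'
    have h3 : D K F f = -f ^ 2 • D K F f⁻¹ := by
      have := Derivation.leibniz_inv (D K F) f⁻¹
      rwa [inv_inv] at this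
    rw [SetLike.mem_coe, h3, h2]
    exact Submodule.smul_mem _ _
      (Submodule.smul_mem _ _ (Submodule.mem_span_singleton_self _))

/-- The prelude class `DCoordGenerates` holds. -/
theorem dCoordGenerates (v : Place K F)
    [Module.Finite v.toValuationSubring Ω[v.toValuationSubring⁄K]]
    (hres : ResidueTrivial v) : v.DCoordGenerates := by
  obtain ⟨π, hπ, h⟩ := exists_irreducible_dCoord v
  exact ⟨by rw [h]; exact span_D_coe_irreducible_eq_top v hres hπ⟩

/-- A field extension admitting a place is not algebraic. -/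
theorem not_isAlgebraic_of_place (v : Place K F) : ¬ Algebra.IsAlgebraic K F := by
  intro halg
  apply v.ne_top'
  refine SetLike.ext fun f => ⟨fun _ => ValuationSubring.mem_top f, fun _ => ?_⟩
  have hint : IsIntegral K f := (halg.isAlgebraic f).isIntegral
  have hint' : IsIntegral v.toValuationSubring f := hint.tower_top
  obtain ⟨y, hy⟩ := IsIntegrallyClosed.isIntegral_iff.mp hint'
  rw [← hy]
  exact y.2

/-- In characteristic zero, a finitely generated field extension admitting a place has nonzero
Kähler differentials. -/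
theorem nontrivial_kaehler_of_place [CharZero K] [Algebra.EssFiniteType K F] (v : Place K F) :
    Nontrivial Ω[F⁄K] := by
  by_contra hnt
  rw [not_nontrivial_iff_subsingleton] at hnt
  have : Algebra.FormallyUnramified K F := ⟨hnt⟩
  have hsep : Algebra.IsSeparable K F := Algebra.FormallyUnramified.isSeparable K F
  exact not_isAlgebraic_of_place v inferInstance

/-! ### The order function and the valuation ring -/

theorem coe_irreducible_ne_zero (v : Place K F) {π : v.toValuationSubring} (hπ : Irreducible π) :
    (π : F) ≠ 0 := by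
  simpa [ne_eq, ZeroMemClass.coe_eq_zero] using hπ.ne_zero

theorem mem_of_ord_nonneg (v : Place K F) {f : F} (h : 0 ≤ v.ord f) :
    f ∈ v.toValuationSubring := by
  rcases eq_or_ne f 0 with rfl | hf
  · exact zero_mem _
  obtain ⟨π, hπ⟩ := IsDiscreteValuationRing.exists_irreducible v.toValuationSubring
  obtain ⟨u, hu⟩ := v.exists_unit_mul_zpow hf hπ
  obtain ⟨m, hm⟩ := Int.eq_ofNat_of_zero_le h
  rw [hu, hm, zpow_natCast]
  exact mul_mem (u : v.toValuationSubring).2 (pow_mem π.2 m)

theorem ord_nonneg_of_mem (v : Place K F) {f : F} (hf : f ∈ v.toValuationSubring) :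
    0 ≤ v.ord f := by
  rcases eq_or_ne f 0 with rfl | hf0
  · simp
  obtain ⟨π, hπ⟩ := IsDiscreteValuationRing.exists_irreducible v.toValuationSubring
  obtain ⟨u, hu⟩ := v.exists_unit_mul_zpow hf0 hπ
  by_contra hneg
  rw [not_le] at hneg
  obtain ⟨m, hm⟩ := Int.exists_eq_neg_ofNat hneg.le
  have hm0 : m ≠ 0 := by rintro rfl; simp at hm; omega
  have hπ0 := coe_irreducible_ne_zero v hπ
  -- `u = f * π ^ m`
  have h1 : ((u : v.toValuationSubring) : F) = f * (π : F) ^ m := by
    conv_rhs => rw [hu, hm, zpow_neg, zpow_natCast]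
    field_simp
  have h2 : (u : v.toValuationSubring) = ⟨f, hf⟩ * π ^ m := Subtype.ext (by simpa using h1)
  have h3 : (u : v.toValuationSubring) ∈ maximalIdeal v.toValuationSubring := by
    rw [h2, hπ.maximalIdeal_eq]
    exact Ideal.mul_mem_left _ _ (Ideal.pow_mem_of_mem _ (Ideal.mem_span_singleton_self π) m
      (Nat.pos_of_ne_zero hm0))
  exact (IsLocalRing.mem_maximalIdeal _).mp h3 u.isUnit

theorem ord_nonneg_iff (v : Place K F) {f : F} : 0 ≤ v.ord f ↔ f ∈ v.toValuationSubring :=
  ⟨mem_of_ord_nonneg v, ord_nonneg_of_mem v⟩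

theorem ord_pos_of_mem_maximalIdeal (v : Place K F) {u : v.toValuationSubring}
    (hu : u ∈ maximalIdeal v.toValuationSubring) (hu0 : u ≠ 0) : 0 < v.ord (u : F) := by
  obtain ⟨π, hπ⟩ := IsDiscreteValuationRing.exists_irreducible v.toValuationSubring
  rw [hπ.maximalIdeal_eq, Ideal.mem_span_singleton'] at hu
  obtain ⟨w, hw⟩ := hu
  have hw0 : w ≠ 0 := by rintro rfl; exact hu0 (by rw [← hw, zero_mul])
  have hwF : (w : F) ≠ 0 := by simpa [ne_eq, ZeroMemClass.coe_eq_zero] using hw0
  have h1 : (u : F) = (w : F) * (π : F) := by rw [← hw]; rfl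
  rw [h1, v.ord_mul hwF (coe_irreducible_ne_zero v hπ), v.ord_coe_irreducible hπ]
  have := ord_nonneg_of_mem v w.2
  omega

theorem mem_maximalIdeal_of_ord_pos (v : Place K F) {f : F} (h : 0 < v.ord f) :
    ∃ hf : f ∈ v.toValuationSubring,
      (⟨f, hf⟩ : v.toValuationSubring) ∈ maximalIdeal v.toValuationSubring := by
  have hf0 : f ≠ 0 := by rintro rfl; simp at h
  obtain ⟨π, hπ⟩ := IsDiscreteValuationRing.exists_irreducible v.toValuationSubring
  obtain ⟨u, hu⟩ := v.exists_unit_mul_zpow hf0 hπ
  obtain ⟨m, hm⟩ := Int.eq_ofNat_of_zero_le h.le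
  have hm0 : m ≠ 0 := by rintro rfl; simp at hm; omega
  refine ⟨mem_of_ord_nonneg v h.le, ?_⟩
  have h2 : (⟨f, mem_of_ord_nonneg v h.le⟩ : v.toValuationSubring) = u * π ^ m := by
    apply Subtype.ext
    simp only [MulMemClass.coe_mul, SubmonoidClass.coe_pow]
    conv_lhs => rw [hu, hm, zpow_natCast]
  rw [h2, hπ.maximalIdeal_eq]
  exact Ideal.mul_mem_left _ _ (Ideal.pow_mem_of_mem _ (Ideal.mem_span_singleton_self π) m
    (Nat.pos_of_ne_zero hm0))

theorem ord_neg_of_not_mem (v : Place K F) {f : F} (hf : f ∉ v.toValuationSubring) :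
    v.ord f < 0 := by
  by_contra h
  rw [not_lt] at h
  exact hf (mem_of_ord_nonneg v h)

/-- A nonzero constant has order zero. -/
theorem ord_algebraMap (v : Place K F) (c : K) : v.ord (algebraMap K F c) = 0 := by
  rcases eq_or_ne c 0 with rfl | hc
  · simp
  have h1 : 0 ≤ v.ord (algebraMap K F c) := ord_nonneg_of_mem v (v.algebraMap_mem' c)
  have h2 : 0 ≤ v.ord (algebraMap K F c)⁻¹ := by
    rw [← map_inv₀]
    exact ord_nonneg_of_mem v (v.algebraMap_mem' c⁻¹)
  rw [v.ord_inv] at h2
  omega

/-- In a local ring, a unit plus an element of the maximal ideal is a unit. -/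
theorem isUnit_add_of_mem_maximalIdeal {R : Type*} [CommRing R] [IsLocalRing R] {a b : R}
    (ha : IsUnit a) (hb : b ∈ maximalIdeal R) : IsUnit (a + b) := by
  by_contra h
  have h1 : a + b ∈ maximalIdeal R := (IsLocalRing.mem_maximalIdeal _).mpr h
  have h2 : a ∈ maximalIdeal R := by simpa using Ideal.sub_mem _ h1 hb
  exact (IsLocalRing.mem_maximalIdeal _).mp h2 ha

/-- **The coefficient of `dy`** (characteristic zero): if `ord_v y ≠ 0` then `dy / dπ_v` is a
unit times `π ^ (ord_v y - 1)`. -/
theorem exists_differentialCoeff_D (v : Place K F) [CharZero K]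
    [Module.Finite v.toValuationSubring Ω[v.toValuationSubring⁄K]] [Nontrivial Ω[F⁄K]]
    (hres : ResidueTrivial v) {y : F} (hy : v.ord y ≠ 0) :
    ∃ (π : v.toValuationSubring) (_ : Irreducible π) (w : (v.toValuationSubring)ˣ),
      v.differentialCoeff (D K F y) =
        ((w : v.toValuationSubring) : F) * (π : F) ^ (v.ord y - 1) := by
  have := dCoordGenerates v hres
  obtain ⟨π, hπ, hd⟩ := exists_irreducible_dCoord v
  have hy0 : y ≠ 0 := by rintro rfl; exact hy v.ord_zero
  obtain ⟨u, hu⟩ := v.exists_unit_mul_zpow hy0 hπ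
  obtain ⟨u', hu'⟩ := exists_D_eq_smul v hres hπ (u : v.toValuationSubring)
  have hπ0 : (π : F) ≠ 0 := coe_irreducible_ne_zero v hπ
  have hnK : ((v.ord y : ℤ) : K) ≠ 0 := by exact_mod_cast hy
  -- the unit `n u + π u'`
  have hw : IsUnit (algebraMap K v.toValuationSubring ((v.ord y : ℤ) : K) * (u : v.toValuationSubring)
      + π * u') := by
    refine isUnit_add_of_mem_maximalIdeal (IsUnit.mul ?_ u.isUnit) ?_
    · exact (IsUnit.mk0 _ hnK).map (algebraMap K v.toValuationSubring)
    · rw [hπ.maximalIdeal_eq]
      exact Ideal.mul_mem_right _ _ (Ideal.mem_span_singleton_self π)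
  have hpow : (π : F) ^ (v.ord y) = (π : F) ^ (v.ord y - 1) * (π : F) := by
    rw [← zpow_add_one₀ hπ0, sub_add_cancel]
  have hD : D K F y = (((hw.unit : v.toValuationSubring) : F) * (π : F) ^ (v.ord y - 1)) •
      v.dCoord := by
    rw [hd]
    conv_lhs => rw [hu]
    rw [Derivation.leibniz, Derivation.leibniz_zpow, hu', ← Int.cast_smul_eq_zsmul F,
      smul_smul, smul_smul, smul_smul, ← add_smul]
    congr 1
    rw [IsUnit.unit_spec]
    push_cast
    rw [v.coe_algebraMap, map_intCast, hpow]
    ring
  exact ⟨π, hπ, hw.unit, v.differentialCoeff_unique hD⟩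

/-- **Order of `dy` at a place** (characteristic zero): if `ord_v y ≠ 0` then
`ord_v (dy / dπ_v) = ord_v y - 1`. -/
theorem ordDifferential_D (v : Place K F) [CharZero K]
    [Module.Finite v.toValuationSubring Ω[v.toValuationSubring⁄K]] [Nontrivial Ω[F⁄K]]
    (hres : ResidueTrivial v) {y : F} (hy : v.ord y ≠ 0) :
    v.ordDifferential (D K F y) = v.ord y - 1 := by
  obtain ⟨π, hπ, w, hw⟩ := exists_differentialCoeff_D v hres hy
  rw [Place.ordDifferential, hw]
  exact v.ord_unit_smul_zpow w hπ (v.ord y - 1)

theorem differentialCoeff_D_ne_zero (v : Place K F) [CharZero K]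
    [Module.Finite v.toValuationSubring Ω[v.toValuationSubring⁄K]] [Nontrivial Ω[F⁄K]]
    (hres : ResidueTrivial v) {y : F} (hy : v.ord y ≠ 0) :
    v.differentialCoeff (D K F y) ≠ 0 := by
  obtain ⟨π, hπ, w, hw⟩ := exists_differentialCoeff_D v hres hy
  rw [hw]
  refine mul_ne_zero ?_ (zpow_ne_zero _ (coe_irreducible_ne_zero v hπ))
  simp [ne_eq, ZeroMemClass.coe_eq_zero]

/-! ### Zeros and poles of a non-constant function -/

theorem ord_pos_or_ord_neg (v : Place K F) (hres : ResidueTrivial v) {x : F}
    (hx : x ∉ Set.range (algebraMap K F)) :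
    v.ord x < 0 ∨ ∃ c : K, 0 < v.ord (x - algebraMap K F c) := by
  by_cases hmem : x ∈ v.toValuationSubring
  · right
    obtain ⟨c, hc⟩ := hres ⟨x, hmem⟩
    refine ⟨c, ?_⟩
    have h0 : (⟨x, hmem⟩ - algebraMap K v.toValuationSubring c : v.toValuationSubring) ≠ 0 := by
      intro h
      apply hx
      refine ⟨c, ?_⟩
      have := congrArg (Subtype.val) h
      simp only [AddSubgroupClass.coe_sub, v.coe_algebraMap, ZeroMemClass.coe_zero] at this
      exact (sub_eq_zero.mp this).symm
    have := ord_pos_of_mem_maximalIdeal v hc h0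
    simpa using this
  · exact Or.inl (ord_neg_of_not_mem v hmem)

theorem eq_of_ord_sub_pos (v : Place K F) {x : F} {c c' : K}
    (h : 0 < v.ord (x - algebraMap K F c)) (h' : 0 < v.ord (x - algebraMap K F c')) : c = c' := by
  by_contra hne
  obtain ⟨h1, h1m⟩ := mem_maximalIdeal_of_ord_pos v h
  obtain ⟨h2, h2m⟩ := mem_maximalIdeal_of_ord_pos v h'
  have h3 := Ideal.sub_mem _ h2m h1m
  have h4 : ((⟨x - algebraMap K F c', h2⟩ : v.toValuationSubring) - ⟨x - algebraMap K F c, h1⟩)
      = algebraMap K v.toValuationSubring (c - c') := by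
    apply Subtype.ext
    simp only [AddSubgroupClass.coe_sub, v.coe_algebraMap, map_sub]
    ring
  rw [h4] at h3
  exact (IsLocalRing.mem_maximalIdeal _).mp h3
    ((IsUnit.mk0 _ (sub_ne_zero.mpr hne)).map (algebraMap K v.toValuationSubring))

theorem not_ord_sub_pos_of_ord_neg (v : Place K F) {x : F} (h : v.ord x < 0) (c : K) :
    ¬ 0 < v.ord (x - algebraMap K F c) := by
  intro hc
  have h1 : x - algebraMap K F c ∈ v.toValuationSubring := mem_of_ord_nonneg v hc.le
  have h2 : x ∈ v.toValuationSubring := by
    have := add_mem h1 (v.algebraMap_mem' c)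
    simpa using this
  have := ord_nonneg_of_mem v h2
  omega

theorem ordDifferential_D_of_zero (v : Place K F) [CharZero K]
    [Module.Finite v.toValuationSubring Ω[v.toValuationSubring⁄K]] [Nontrivial Ω[F⁄K]]
    (hres : ResidueTrivial v) {x : F} {c : K} (h : 0 < v.ord (x - algebraMap K F c)) :
    v.ordDifferential (D K F x) = v.ord (x - algebraMap K F c) - 1 := by
  have := ordDifferential_D v hres (y := x - algebraMap K F c) h.ne'
  rwa [map_sub, Derivation.map_algebraMap, sub_zero] at this

theorem ordDifferential_D_of_pole (v : Place K F) [CharZero K]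
    [Module.Finite v.toValuationSubring Ω[v.toValuationSubring⁄K]] [Nontrivial Ω[F⁄K]]
    (hres : ResidueTrivial v) {x : F} (h : v.ord x < 0) :
    v.ordDifferential (D K F x) = v.ord x - 1 :=
  ordDifferential_D v hres h.ne

/-- For a non-constant `x`, the coefficient of `dx` is nonzero at every place. -/
theorem differentialCoeff_D_ne_zero_of_not_const (v : Place K F) [CharZero K]
    [Module.Finite v.toValuationSubring Ω[v.toValuationSubring⁄K]] [Nontrivial Ω[F⁄K]]
    (hres : ResidueTrivial v) {x : F} (hx : x ∉ Set.range (algebraMap K F)) :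
    v.differentialCoeff (D K F x) ≠ 0 := by
  rcases ord_pos_or_ord_neg v hres hx with h | ⟨c, hc⟩
  · exact differentialCoeff_D_ne_zero v hres h.ne
  · have := differentialCoeff_D_ne_zero v hres (y := x - algebraMap K F c) hc.ne'
    rwa [map_sub, Derivation.map_algebraMap, sub_zero] at this

theorem D_ne_zero_of_not_const (v : Place K F) [CharZero K]
    [Module.Finite v.toValuationSubring Ω[v.toValuationSubring⁄K]] [Nontrivial Ω[F⁄K]]
    (hres : ResidueTrivial v) {x : F} (hx : x ∉ Set.range (algebraMap K F)) :
    D K F x ≠ 0 := by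
  have := dCoordGenerates v hres
  intro h0
  apply differentialCoeff_D_ne_zero_of_not_const v hres hx
  rw [h0]
  exact v.differentialCoeff_zero

end Fermat.Agent.S24.RH
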