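import Fermat.Agent.S24.H15_Hurwitz

/-!
# S24 (helper15): principal divisors have degree zero, from the fundamental identity
-/

set_option autoImplicit false

noncomputable section

namespace Fermat.Agent.S24.RH

open AlgebraicCurve

variable {K F : Type*} [Field K] [Field F] [Algebra K F]

/-- If the fundamental identity holds for the zeros and the poles of every non-constant
function (with the same `n`), then every principal divisor has degree zero. -/
theorem degree_principal_of_fundId (hdeg : ∀ v : Place K F, v.deg = 1)
    (hFI : ∀ h : F, h ∉ Set.range (algebraMap K F) →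
      ∃ n : ℕ, FundId (K := K) h n ∧ FundId (K := K) h⁻¹ n) :
    ∀ f : F, f ≠ 0 → ∀ E : Divisor K F, (∀ v : Place K F, E v = v.ord f) →
      Divisor.degree E = 0 := by
  classical
  intro f _ E hE
  by_cases hc : f ∈ Set.range (algebraMap K F)
  · obtain ⟨c, rfl⟩ := hc
    have : E = 0 := by
      ext v
      rw [hE, ord_algebraMap, Finsupp.zero_apply]
    rw [this, map_zero]
  · obtain ⟨n, ⟨Z, hZ, hZs⟩, ⟨P, hP, hPs⟩⟩ := hFI f hc
    have hsupp : E.support ⊆ Z ∪ P := by
      intro v hv
      rw [Finsupp.mem_support_iff, hE] at hv
      rw [Finset.mem_union, hZ, hP, v.ord_inv]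
      omega
    have hdisj : Disjoint Z P := by
      rw [Finset.disjoint_left]
      intro v hv hv'
      have h1 := (hZ v).mp hv
      have h2 := (hP v).mp hv'
      rw [v.ord_inv] at h2
      omega
    rw [degree_eq_sum_of_subset hdeg E _ hsupp, Finset.sum_union hdisj,
      Finset.sum_congr rfl (fun v _ => hE v), Finset.sum_congr rfl (fun v _ => hE v), hZs]
    have : ∑ v ∈ P, v.ord f = -∑ v ∈ P, v.ord f⁻¹ := by
      rw [← Finset.sum_neg_distrib]
      exact Finset.sum_congr rfl fun v _ => by rw [v.ord_inv]; ring
    rw [this, hPs]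
    ring

end Fermat.Agent.S24.RH
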