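/-
S24 / S20 glue (helper17): the place of a point of the upper half plane.

For `z : ℍ` and `c : K` with `j(z) = e c`, helper6's order function `Real.ordAt e z` on the
function field `FK K N` is a nontrivial valuation, hence (helper21 `Orb.exists_place_of_valuation`)
a positive multiple `m * ord_P` of the order function of a place `P` of `FK K N`.  The place lies
over `j = c` and `m * ord_P (j - c)` is the local degree of `j` at `z` (`1`, `2` or `3`, helper17
G1).
-/
import Fermat.Agent.S24.H6_Ord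
import Fermat.Agent.S24.H21_PlaceOfVal
import Fermat.Agent.S24.H17_JLocal

set_option autoImplicit false

open UpperHalfPlane ModularForm EisensteinSeries ModularFormClass Filter Topology
open CongruenceSubgroup AlgebraicCurve
open scoped MatrixGroups ModularForm Manifold

namespace Fermat.Agent.S24.PointPlace

open Fermat.Agent.S23 Fermat.Agent.S23.R4 Fermat.Agent.S24.Real Fermat.Agent.S24.G1

/-- The local degree of `j` at `z`, as a natural number. -/
noncomputable def eJ (z : ℍ) : ℕ := analyticOrderNatAt (fun w => jC w - jC z) (z : ℂ)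

theorem coe_eJ (z : ℍ) : ((eJ z : ℕ) : ℕ∞) = analyticOrderAt (fun w => jC w - jC z) (z : ℂ) := by
  rw [eJ]
  refine Nat.cast_analyticOrderNatAt ?_
  rw [analyticOrderAt_jC_sub]
  have h4 : analyticOrderAt ((E₄ : ℍ → ℂ) ∘ ofComplex) (z : ℂ) ≠ ⊤ := by
    intro h
    have := (analyticOrderAt_of_E4_eq_zero z)
    by_cases h0 : E₄ z = 0
    · have h1 := (this h0).1
      rw [h] at h1
      exact ENat.top_ne_one h1
    · have h1 : analyticOrderAt ((E₄ : ℍ → ℂ) ∘ ofComplex) (z : ℂ) = 0 := by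
        rw [(analyticAt_E4C z).analyticOrderAt_eq_zero]
        simpa [ofComplex_apply] using h0
      rw [h1] at h
      exact ENat.zero_ne_top h
  have h6 : analyticOrderAt ((E₆ : ℍ → ℂ) ∘ ofComplex) (z : ℂ) ≠ ⊤ := by
    intro h
    have := (analyticOrderAt_of_E6_eq_zero z)
    by_cases h0 : E₆ z = 0
    · have h1 := (this h0).1
      rw [h] at h1
      exact ENat.top_ne_one h1
    · have h1 : analyticOrderAt ((E₆ : ℍ → ℂ) ∘ ofComplex) (z : ℂ) = 0 := by
        rw [(analyticAt_E6C z).analyticOrderAt_eq_zero]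
        simpa [ofComplex_apply] using h0
      rw [h1] at h
      exact ENat.zero_ne_top h
  intro htop
  rcases WithTop.add_eq_top.mp htop with h | h
  · rcases WithTop.add_eq_top.mp h with h' | h'
    · rcases WithTop.mul_eq_top_iff.mp h' with ⟨_, h''⟩ | ⟨h'', _⟩
      · exact h4 h''
      · exact absurd h'' (by decide)
    · exact h6 h'
  · exact ENat.one_ne_top h

theorem eJ_eq_three {z : ℍ} (h : jInv z = 0) : eJ z = 3 := by
  have h1 := (analyticOrderAt_of_E4_eq_zero z ((jInv_eq_zero_iff z).mp h)).2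
  have h2 := coe_eJ z
  rw [h1] at h2
  exact_mod_cast h2

theorem eJ_eq_two {z : ℍ} (h : jInv z = 1728) : eJ z = 2 := by
  have h1 := (analyticOrderAt_of_E6_eq_zero z ((jInv_eq_1728_iff z).mp h)).2
  have h2 := coe_eJ z
  rw [h1] at h2
  exact_mod_cast h2

theorem eJ_eq_one {z : ℍ} (h0 : jInv z ≠ 0) (h1 : jInv z ≠ 1728) : eJ z = 1 := by
  have h3 := analyticOrderAt_jC_of_ne z h0 h1
  have h2 := coe_eJ z
  rw [h3] at h2
  exact_mod_cast h2

theorem eJ_pos (z : ℍ) : 0 < eJ z := by
  by_cases h0 : jInv z = 0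
  · rw [eJ_eq_three h0]; norm_num
  · by_cases h1 : jInv z = 1728
    · rw [eJ_eq_two h1]; norm_num
    · rw [eJ_eq_one h0 h1]; norm_num

theorem eJ_I : eJ UpperHalfPlane.I = 2 := eJ_eq_two jInv_I

theorem eJ_rho : eJ rho = 3 := eJ_eq_three jInv_rho

/-- The local degree of `j` is invariant under `SL(2, ℤ)`. -/
theorem eJ_smul (γ : SL(2, ℤ)) (z : ℍ) : eJ (γ • z) = eJ z := by
  have hj : jInv (γ • z) = jInv z := R4.jInv_smul γ z
  by_cases h0 : jInv z = 0
  · rw [eJ_eq_three h0, eJ_eq_three (hj.trans h0)]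
  · by_cases h1 : jInv z = 1728
    · rw [eJ_eq_two h1, eJ_eq_two (hj.trans h1)]
    · rw [eJ_eq_one h0 h1, eJ_eq_one (fun h => h0 (hj ▸ h)) (fun h => h1 (hj ▸ h))]

variable {K : Type*} [Field K] [Algebra ℚ K] (e : K →+* ℂ) {N : ℕ}

include e in
/-- `j - c` is not zero in `K[j_d]`. -/
theorem jAK_sub_ne_zero (c : K) : jAK K N - algebraMap K (AK K N) c ≠ 0 := by
  intro h
  have h1 := rho_jAK_sub e (N := N) c
  rw [h, map_zero] at h1
  obtain ⟨z, hz⟩ := G1.exists_jInv_ne (e c)
  have h2 := congrFun h1 z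
  simp only [Pi.zero_apply] at h2
  exact hz (sub_eq_zero.mp h2.symm)

include e in
theorem jF_sub_ne_zero (c : K) : Real.jF K N - algebraMap K (FK K N) c ≠ 0 := by
  rw [jF_sub_eq]
  intro h
  exact jAK_sub_ne_zero e c (inclAK_injective K N (by rw [h, map_zero]))

/-- The order of `j - c` at a point `z` with `j(z) = e c` is the local degree of `j` at `z`. -/
theorem ordAt_jF_sub_eq_eJ (z : ℍ) (c : K) (hc : jInv z = e c) :
    ordAt e z (Real.jF K N - algebraMap K (FK K N) c) = (eJ z : ℤ) := by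
  rw [ordAt_jF_sub, eJ]
  have : (fun w : ℂ => jInv (ofComplex w) - e c) = fun w => jC w - jC z := by
    funext w
    rw [jC_coe, hc]
    rfl
  rw [this]

/-- The order of `j - c` at a point `z` with `j(z) ≠ e c` is `0`. -/
theorem ordAt_jF_sub_eq_zero (z : ℍ) (c : K) (hc : jInv z ≠ e c) :
    ordAt e z (Real.jF K N - algebraMap K (FK K N) c) = 0 := by
  have h1 := (ordAt_jF_sub_pos_iff (N := N) e z c (jAK_sub_ne_zero e c)).not.mpr hc
  have h2 : 0 ≤ ordAt e z (Real.jF K N - algebraMap K (FK K N) c) := by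
    rw [jF_sub_eq]
    exact ordAt_inclAK_nonneg e z _
  omega

/-- **The place of a point.** For `z : ℍ` with `j(z) = e c` there are a place `P` of the function
field and a positive integer `m` with `ordAt e z = m * ord_P`; `P` lies over `j = c` and
`m * ord_P (j - c)` is the local degree of `j` at `z`. -/
theorem exists_pointPlace (z : ℍ) (c : K) (hc : jInv z = e c) :
    ∃ (P : Place K (FK K N)) (m : ℕ), 0 < m ∧
      (∀ h : FK K N, h ≠ 0 → ordAt e z h = m * P.ord h) ∧
      (∀ h : FK K N, h ∈ P.toValuationSubring ↔ (h = 0 ∨ 0 ≤ ordAt e z h)) ∧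
      (m : ℤ) * P.ord (Real.jF K N - algebraMap K (FK K N) c) = eJ z ∧
      0 < P.ord (Real.jF K N - algebraMap K (FK K N) c) := by
  have hne := jF_sub_ne_zero (N := N) e c
  have hw := ordAt_jF_sub_eq_eJ (N := N) e z c hc
  obtain ⟨P, m, hm, hord, hmem⟩ := Orb.exists_place_of_valuation (K := K) (ordAt e z)
    (fun f g hf hg => ordAt_mul e z hf hg)
    (fun f g hf hg hfg => ordAt_add_ge e z hf hg hfg)
    (fun a _ => by rw [ordAt_algebraMap])
    ⟨Real.jF K N - algebraMap K (FK K N) c, hne, by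
      rw [hw]
      have := eJ_pos z
      omega⟩
  refine ⟨P, m, hm, hord, hmem, ?_, ?_⟩
  · rw [← hord _ hne, hw]
  · have h1 := hord _ hne
    rw [hw] at h1
    have h2 := eJ_pos z
    have h3 : (0 : ℤ) < m := by exact_mod_cast hm
    by_contra hcon
    have h4 : P.ord (Real.jF K N - algebraMap K (FK K N) c) ≤ 0 := not_lt.mp hcon
    have h5 : (m : ℤ) * P.ord (Real.jF K N - algebraMap K (FK K N) c) ≤ 0 :=
      mul_nonpos_of_nonneg_of_nonpos h3.le h4
    omega

/-- Two places attached to points in the same `Γ₀(N)`-orbit coincide. -/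
theorem pointPlace_eq_of_smul {γ : SL(2, ℤ)} (hγ : γ ∈ Gamma0 N) (z : ℍ)
    {P P' : Place K (FK K N)}
    (hP : ∀ h : FK K N, h ∈ P.toValuationSubring ↔ (h = 0 ∨ 0 ≤ ordAt e z h))
    (hP' : ∀ h : FK K N, h ∈ P'.toValuationSubring ↔ (h = 0 ∨ 0 ≤ ordAt e (γ • z) h)) :
    P = P' := by
  apply Place.ext
  ext h
  rw [hP, hP', ordAt_smul_of_mem_Gamma0 e hγ]

/-- Two places with the same valuation ring description coincide. -/
theorem pointPlace_unique (z : ℍ) {P P' : Place K (FK K N)}
    (hP : ∀ h : FK K N, h ∈ P.toValuationSubring ↔ (h = 0 ∨ 0 ≤ ordAt e z h))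
    (hP' : ∀ h : FK K N, h ∈ P'.toValuationSubring ↔ (h = 0 ∨ 0 ≤ ordAt e z h)) :
    P = P' := by
  apply Place.ext
  ext h
  rw [hP, hP']

end Fermat.Agent.S24.PointPlace
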