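/-
S24 G3 glue (helper17): multiplicities of the point places at the elliptic points.

If `g⁻¹ S g ∈ Γ₀(N)` then every element of the function field has even order at `g⁻¹ • i`, hence
the multiplicity `m` of the point place at `g⁻¹ • i` (`ordAt e (g⁻¹ • i) = m * ord_P`) is even.
Similarly with `S T`, `ρ` and `3`.  This is hypothesis (c) of `Orb.orbit_place` in the shape of
helper9's `h9_two_dvd_classCard_mul` / `h9_three_dvd_classCard_mul`.
-/
import Fermat.Agent.S24.H17_PointPlace
import Fermat.Agent.S24.H9_CombClass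

set_option autoImplicit false

open UpperHalfPlane ModularForm EisensteinSeries ModularFormClass Filter Topology
open CongruenceSubgroup AlgebraicCurve MulAction
open scoped MatrixGroups ModularForm Manifold

namespace Fermat.Agent.S24.PointPlace

open Fermat.Agent.S23 Fermat.Agent.S23.R4 Fermat.Agent.S24.Real Fermat.Agent.S24.G1
open Fermat.Agent.S24.Comb Fermat.Agent.S24.Orb

variable {K : Type*} [Field K] [Algebra ℚ K] (e : K →+* ℂ) {N : ℕ}

/-- Every element of the function field has even order at a point `g⁻¹ • i` with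
`g⁻¹ S g ∈ Γ₀(N)`. -/
theorem two_dvd_ordAt (g : SL(2, ℤ)) (hg : g⁻¹ * ModularGroup.S * g ∈ Gamma0 N)
    (x : FK K N) : (2 : ℤ) ∣ ordAt e (g⁻¹ • UpperHalfPlane.I) x := by
  by_cases hx : x = 0
  · rw [hx, ordAt_zero]
    exact dvd_zero _
  · rw [ordAt, if_neg hx]
    have ha := mdifferentiable_rho e (numAK x)
    have hb := mdifferentiable_rho e (denAK x)
    have ha0 := rho_ne_zero e (numAK_ne_zero hx)
    have hb0 := rho_ne_zero e (denAK_ne_zero x)
    refine G2.two_dvd_sub_conj_S g ha hb (fun z => ?_)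
      (coe_ordH ha ha0 _).symm (coe_ordH hb hb0 _).symm
    rw [rho_smul_of_mem_Gamma0 e _ hg, rho_smul_of_mem_Gamma0 e _ hg]

/-- Every element of the function field has order divisible by `3` at a point `g⁻¹ • ρ` with
`g⁻¹ (S T) g ∈ Γ₀(N)`. -/
theorem three_dvd_ordAt (g : SL(2, ℤ))
    (hg : g⁻¹ * (ModularGroup.S * ModularGroup.T) * g ∈ Gamma0 N)
    (x : FK K N) : (3 : ℤ) ∣ ordAt e (g⁻¹ • rho) x := by
  by_cases hx : x = 0
  · rw [hx, ordAt_zero]
    exact dvd_zero _
  · rw [ordAt, if_neg hx]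
    have ha := mdifferentiable_rho e (numAK x)
    have hb := mdifferentiable_rho e (denAK x)
    have ha0 := rho_ne_zero e (numAK_ne_zero hx)
    have hb0 := rho_ne_zero e (denAK_ne_zero x)
    refine G2.three_dvd_sub_conj_ST g ha hb (fun z => ?_)
      (coe_ordH ha ha0 _).symm (coe_ordH hb hb0 _).symm
    rw [rho_smul_of_mem_Gamma0 e _ hg, rho_smul_of_mem_Gamma0 e _ hg]

omit [Algebra ℚ K] in
/-- If an integer `s` divides all values of `w = m * ord_P` then `s ∣ m`. -/
theorem dvd_mult_of_forall_dvd {F : Type*} [Field F] [Algebra K F] (P : Place K F) (m : ℕ)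
    (w : F → ℤ) (hw : ∀ h : F, h ≠ 0 → w h = m * P.ord h) (s : ℕ)
    (hs : ∀ h : F, (s : ℤ) ∣ w h) : s ∣ m := by
  obtain ⟨π, hπ⟩ := IsDiscreteValuationRing.exists_irreducible P.toValuationSubring
  have hπF : (π : F) ≠ 0 := by
    simpa [ne_eq, ZeroMemClass.coe_eq_zero] using hπ.ne_zero
  have h1 := hw (π : F) hπF
  rw [P.ord_coe_irreducible hπ, mul_one] at h1
  have h2 := hs (π : F)
  rw [h1] at h2
  exact Int.natCast_dvd_natCast.mp h2

/-- **Hypothesis (c) at `i`**: the multiplicity of the point place at `g⁻¹ • i` is even if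
`g⁻¹ S g ∈ Γ₀(N)`. -/
theorem two_dvd_mult (g : SL(2, ℤ)) (hg : g⁻¹ * ModularGroup.S * g ∈ Gamma0 N)
    (P : Place K (FK K N)) (m : ℕ)
    (hord : ∀ h : FK K N, h ≠ 0 → ordAt e (g⁻¹ • UpperHalfPlane.I) h = m * P.ord h) : 2 ∣ m :=
  dvd_mult_of_forall_dvd P m _ hord 2 (fun h => by exact_mod_cast two_dvd_ordAt e g hg h)

/-- **Hypothesis (c) at `ρ`**: the multiplicity of the point place at `g⁻¹ • ρ` is divisible by `3`
if `g⁻¹ (S T) g ∈ Γ₀(N)`. -/
theorem three_dvd_mult (g : SL(2, ℤ))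
    (hg : g⁻¹ * (ModularGroup.S * ModularGroup.T) * g ∈ Gamma0 N)
    (P : Place K (FK K N)) (m : ℕ)
    (hord : ∀ h : FK K N, h ≠ 0 → ordAt e (g⁻¹ • rho) h = m * P.ord h) : 3 ∣ m :=
  dvd_mult_of_forall_dvd P m _ hord 3 (fun h => by exact_mod_cast three_dvd_ordAt e g hg h)

variable [NeZero N]

/-- Hypothesis (c) of `Orb.orbit_place` for `S` and the point places at `(out k)⁻¹ • i`. -/
theorem two_dvd_classCard_mul_mult (k : X N) (P : Place K (FK K N)) (m : ℕ)
    (hord : ∀ h : FK K N, h ≠ 0 →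
      ordAt e ((Quotient.out k)⁻¹ • UpperHalfPlane.I) h = m * P.ord h) :
    2 ∣ classCard (orbitRel (Subgroup.zpowers ModularGroup.S) (X N)) k * m :=
  h9_two_dvd_classCard_mul k m fun hg => two_dvd_mult e _ hg P m hord

/-- Hypothesis (c) of `Orb.orbit_place` for `S * T` and the point places at `(out k)⁻¹ • ρ`. -/
theorem three_dvd_classCard_mul_mult (k : X N) (P : Place K (FK K N)) (m : ℕ)
    (hord : ∀ h : FK K N, h ≠ 0 → ordAt e ((Quotient.out k)⁻¹ • rho) h = m * P.ord h) :
    3 ∣ classCard (orbitRel (Subgroup.zpowers (ModularGroup.S * ModularGroup.T)) (X N)) k * m :=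
  h9_three_dvd_classCard_mul k m fun hg => three_dvd_mult e _ hg P m hord

end Fermat.Agent.S24.PointPlace
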