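import Mathlib

/-!
# S24 package COMB2 (helper19): parity by sign and Scott's lemma

Pure finite combinatorics / linear algebra (Mathlib only).

* `numCycles σ` : number of orbits of `⟨σ⟩` on `X` (cycles INCLUDING fixed points).
* `scott` : for `s₁ s₂ s₃ = 1` generating a transitive group on `X`,
  `2 (n - 1) ≤ Σ (n - numCycles sᵢ)`.
* `even_sum_of_mul_eq_one` : for `s₁ s₂ s₃ = 1`, `Σ (n - numCycles sᵢ)` is even.
-/

namespace Fermat.Agent.S24.Comb2

open Module

section AbstractScott

variable {K V : Type*} [Field K] [AddCommGroup V] [Module K V] [FiniteDimensional K V]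

/-- Abstract form of Scott's lemma: if `g₁ g₂ g₃ = 1` then
`rank (1 - g₁) + rank (1 - g₂) + rank (1 - g₃) ≥ codim (common fixed space) + dim Σ range (1 - gᵢ)`. -/
theorem scott_linear (g₁ g₂ g₃ : V →ₗ[K] V) (h : g₁ ∘ₗ g₂ ∘ₗ g₃ = LinearMap.id) :
    (finrank K V - finrank K
        ↥(LinearMap.ker (LinearMap.id - g₁) ⊓ (LinearMap.ker (LinearMap.id - g₂) ⊓
          LinearMap.ker (LinearMap.id - g₃)))) +
      finrank K ↥(LinearMap.range (LinearMap.id - g₁) ⊔ (LinearMap.range (LinearMap.id - g₂) ⊔
          LinearMap.range (LinearMap.id - g₃))) ≤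
    finrank K ↥(LinearMap.range (LinearMap.id - g₁)) +
      finrank K ↥(LinearMap.range (LinearMap.id - g₂)) +
      finrank K ↥(LinearMap.range (LinearMap.id - g₃)) := by
  set A : V →ₗ[K] V := LinearMap.id - g₁ with hA
  set B : V →ₗ[K] V := LinearMap.id - g₂ with hB
  set C : V →ₗ[K] V := LinearMap.id - g₃ with hC
  -- the two maps
  let β : V →ₗ[K] (↥(LinearMap.range A) × ↥(LinearMap.range B) × ↥(LinearMap.range C)) :=
    A.rangeRestrict.prod (B.rangeRestrict.prod C.rangeRestrict)
  let δ : (↥(LinearMap.range A) × ↥(LinearMap.range B) × ↥(LinearMap.range C)) →ₗ[K] V :=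
    (LinearMap.range A).subtype.coprod
      ((g₁ ∘ₗ (LinearMap.range B).subtype).coprod (g₁ ∘ₗ g₂ ∘ₗ (LinearMap.range C).subtype))
  have hδ : ∀ x : ↥(LinearMap.range A) × ↥(LinearMap.range B) × ↥(LinearMap.range C),
      δ x = (x.1 : V) + (g₁ (x.2.1 : V) + g₁ (g₂ (x.2.2 : V))) := by
    intro x
    simp [δ, LinearMap.coprod_apply]
  have hβ : ∀ v : V, β v = (⟨A v, LinearMap.mem_range_self A v⟩,
      ⟨B v, LinearMap.mem_range_self B v⟩, ⟨C v, LinearMap.mem_range_self C v⟩) := by
    intro v; rfl
  have h123 : ∀ v : V, g₁ (g₂ (g₃ v)) = v := by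
    intro v
    have := congrArg (fun f : V →ₗ[K] V => f v) h
    simpa using this
  -- δ ∘ β = 0
  have hδβ : LinearMap.range β ≤ LinearMap.ker δ := by
    rintro _ ⟨v, rfl⟩
    rw [LinearMap.mem_ker, hδ, hβ]
    simp only [hA, hB, hC, LinearMap.sub_apply, LinearMap.id_apply, map_sub, h123]
    abel
  -- ker β = common fixed space
  have hkerβ : LinearMap.ker β = LinearMap.ker A ⊓ (LinearMap.ker B ⊓ LinearMap.ker C) := by
    simp only [β, LinearMap.ker_prod, LinearMap.ker_rangeRestrict]
  -- range δ ⊇ sum of ranges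
  have hrangeδ : LinearMap.range A ⊔ (LinearMap.range B ⊔ LinearMap.range C) ≤
      LinearMap.range δ := by
    refine sup_le ?_ (sup_le ?_ ?_)
    · intro x hx
      refine ⟨(⟨x, hx⟩, 0, 0), ?_⟩
      rw [hδ]; simp
    · intro x hx
      refine ⟨(⟨A x, LinearMap.mem_range_self A x⟩, ⟨x, hx⟩, 0), ?_⟩
      rw [hδ]; simp [hA]
    · intro x hx
      refine ⟨(⟨A x, LinearMap.mem_range_self A x⟩, ⟨B x, LinearMap.mem_range_self B x⟩,
        ⟨x, hx⟩), ?_⟩
      rw [hδ]; simp [hA, hB]
  -- dimension count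
  have e1 := LinearMap.finrank_range_add_finrank_ker β
  have e2 := LinearMap.finrank_range_add_finrank_ker δ
  have e3 : finrank K (↥(LinearMap.range A) × ↥(LinearMap.range B) × ↥(LinearMap.range C)) =
      finrank K ↥(LinearMap.range A) + (finrank K ↥(LinearMap.range B) +
        finrank K ↥(LinearMap.range C)) := by
    rw [Module.finrank_prod, Module.finrank_prod]
  have e4 := Submodule.finrank_mono hδβ
  have e5 := Submodule.finrank_mono hrangeδ
  rw [hkerβ] at e1
  omega

end AbstractScott

section Perm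

variable {X : Type*}

/-- Number of cycles of `σ`, INCLUDING fixed points: the number of orbits of `⟨σ⟩` on `X`. -/
noncomputable def numCycles (σ : Equiv.Perm X) : ℕ :=
  Nat.card (MulAction.orbitRel.Quotient (Subgroup.zpowers σ) X)

/-- The permutation representation `v ↦ v ∘ σ` on `X → ℚ`. -/
noncomputable def permRep (σ : Equiv.Perm X) : (X → ℚ) →ₗ[ℚ] (X → ℚ) :=
  LinearMap.funLeft ℚ ℚ σ

@[simp] lemma permRep_apply (σ : Equiv.Perm X) (v : X → ℚ) (x : X) :
    permRep σ v x = v (σ x) := rfl

lemma permRep_mul (σ τ : Equiv.Perm X) : permRep (σ * τ) = permRep τ ∘ₗ permRep σ := by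
  ext v x
  simp

lemma permRep_one : permRep (1 : Equiv.Perm X) = LinearMap.id := by
  ext v x
  simp

lemma mem_ker_id_sub_permRep (σ : Equiv.Perm X) (v : X → ℚ) :
    v ∈ LinearMap.ker (LinearMap.id - permRep σ) ↔ ∀ x, v (σ x) = v x := by
  rw [LinearMap.mem_ker, LinearMap.sub_apply, sub_eq_zero, LinearMap.id_apply]
  constructor
  · intro h x
    exact (congrFun h x).symm
  · intro h
    funext x
    exact (h x).symm

lemma apply_zpow_of_fixed (σ : Equiv.Perm X) (v : X → ℚ) (h : ∀ x, v (σ x) = v x)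
    (k : ℤ) (x : X) : v ((σ ^ k) x) = v x := by
  induction k using Int.induction_on generalizing x with
  | zero => simp
  | succ n ih =>
    rw [zpow_add_one, Equiv.Perm.mul_apply, ih, h]
  | pred n ih =>
    rw [zpow_sub_one, Equiv.Perm.mul_apply, ih]
    have := h (σ⁻¹ x)
    simpa using this.symm

lemma apply_of_mem_zpowers (σ : Equiv.Perm X) (v : X → ℚ) (h : ∀ x, v (σ x) = v x)
    (g : Equiv.Perm X) (hg : g ∈ Subgroup.zpowers σ) (x : X) : v (g x) = v x := by
  obtain ⟨k, rfl⟩ := Subgroup.mem_zpowers_iff.mp hg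
  exact apply_zpow_of_fixed σ v h k x

/-- The fixed space of `permRep σ` is the space of functions on the orbit space. -/
lemma range_funLeft_mk (σ : Equiv.Perm X) :
    LinearMap.range (LinearMap.funLeft ℚ ℚ
      (Quotient.mk (MulAction.orbitRel (Subgroup.zpowers σ) X))) =
    LinearMap.ker (LinearMap.id - permRep σ) := by
  ext v
  rw [mem_ker_id_sub_permRep]
  constructor
  · rintro ⟨w, rfl⟩ x
    simp only [LinearMap.funLeft_apply]
    congr 1
    apply Quotient.sound
    change σ x ∈ MulAction.orbit (Subgroup.zpowers σ) x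
    exact ⟨⟨σ, Subgroup.mem_zpowers σ⟩, rfl⟩
  · intro h
    refine ⟨Quotient.lift v ?_, ?_⟩
    · intro a b hab
      change a ∈ MulAction.orbit (Subgroup.zpowers σ) b at hab
      obtain ⟨⟨g, hg⟩, rfl⟩ := hab
      exact apply_of_mem_zpowers σ v h g hg b
    · funext x
      simp [LinearMap.funLeft_apply]

variable [Fintype X]

lemma finrank_ker_id_sub_permRep (σ : Equiv.Perm X) :
    finrank ℚ ↥(LinearMap.ker (LinearMap.id - permRep σ)) = numCycles σ := by
  classical
  rw [← range_funLeft_mk, LinearMap.finrank_range_of_inj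
    (LinearMap.funLeft_injective_of_surjective ℚ ℚ _ Quotient.mk_surjective)]
  rw [numCycles, Nat.card_eq_fintype_card, Module.finrank_fintype_fun_eq_card]

lemma finrank_range_add_numCycles (σ : Equiv.Perm X) :
    finrank ℚ ↥(LinearMap.range (LinearMap.id - permRep σ)) + numCycles σ = Fintype.card X := by
  have := LinearMap.finrank_range_add_finrank_ker (LinearMap.id - permRep σ)
  rw [finrank_ker_id_sub_permRep, Module.finrank_fintype_fun_eq_card] at this
  exact this

lemma numCycles_le (σ : Equiv.Perm X) : numCycles σ ≤ Fintype.card X := by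
  have := finrank_range_add_numCycles σ
  omega

lemma finrank_range_id_sub_permRep (σ : Equiv.Perm X) :
    finrank ℚ ↥(LinearMap.range (LinearMap.id - permRep σ)) = Fintype.card X - numCycles σ := by
  have := finrank_range_add_numCycles σ
  omega

omit [Fintype X] in
/-- Common fixed vectors of a transitive set of permutations are constant. -/
lemma finrank_fixed_le_one (s₁ s₂ s₃ : Equiv.Perm X)
    (htrans : ∀ x y : X, ∃ g ∈ Subgroup.closure ({s₁, s₂, s₃} : Set (Equiv.Perm X)), g x = y) :
    finrank ℚ ↥(LinearMap.ker (LinearMap.id - permRep s₁) ⊓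
      (LinearMap.ker (LinearMap.id - permRep s₂) ⊓
        LinearMap.ker (LinearMap.id - permRep s₃))) ≤ 1 := by
  have hle : LinearMap.ker (LinearMap.id - permRep s₁) ⊓
      (LinearMap.ker (LinearMap.id - permRep s₂) ⊓
        LinearMap.ker (LinearMap.id - permRep s₃)) ≤ Submodule.span ℚ {(fun _ : X => (1 : ℚ))} := by
    intro v hv
    simp only [Submodule.mem_inf, mem_ker_id_sub_permRep] at hv
    obtain ⟨h1, h2, h3⟩ := hv
    have hcl : ∀ g ∈ Subgroup.closure ({s₁, s₂, s₃} : Set (Equiv.Perm X)), ∀ x, v (g x) = v x := by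
      intro g hg
      induction hg using Subgroup.closure_induction with
      | mem g hg =>
        simp only [Set.mem_insert_iff, Set.mem_singleton_iff] at hg
        rcases hg with rfl | rfl | rfl
        · exact h1
        · exact h2
        · exact h3
      | one => intro x; simp
      | mul g g' _ _ ih ih' => intro x; rw [Equiv.Perm.mul_apply, ih, ih']
      | inv g _ ih =>
        intro x
        have := ih (g⁻¹ x)
        simpa using this.symm
    rcases isEmpty_or_nonempty X with hX | ⟨⟨x₀⟩⟩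
    · have : v = 0 := Subsingleton.elim _ _
      rw [this]; exact Submodule.zero_mem _
    · rw [Submodule.mem_span_singleton]
      refine ⟨v x₀, ?_⟩
      funext y
      obtain ⟨g, hg, hgy⟩ := htrans x₀ y
      simp only [Pi.smul_apply, smul_eq_mul, mul_one]
      rw [← hgy, hcl g hg]
  refine (Submodule.finrank_mono hle).trans ?_
  have := finrank_span_finset_le_card (R := ℚ) ({(fun _ : X => (1 : ℚ))} : Finset (X → ℚ))
  rw [Finset.card_singleton, Set.finrank, Finset.coe_singleton] at this
  exact this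

/-- The augmentation map `v ↦ ∑ x, v x`. -/
noncomputable def aug (X : Type*) [Fintype X] : (X → ℚ) →ₗ[ℚ] ℚ :=
  ∑ x : X, LinearMap.proj x

lemma aug_apply (v : X → ℚ) : aug X v = ∑ x, v x := by
  simp [aug, LinearMap.sum_apply]

variable [DecidableEq X]

lemma finrank_ker_aug [Nonempty X] :
    finrank ℚ ↥(LinearMap.ker (aug X)) + 1 = Fintype.card X := by
  have h := LinearMap.finrank_range_add_finrank_ker (aug X)
  have hsurj : LinearMap.range (aug X) = ⊤ := by
    rw [LinearMap.range_eq_top]
    intro c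
    obtain ⟨x₀⟩ := ‹Nonempty X›
    refine ⟨Pi.single x₀ c, ?_⟩
    rw [aug_apply]
    simp
  rw [hsurj, finrank_top, Module.finrank_self, Module.finrank_fintype_fun_eq_card] at h
  omega

omit [Fintype X] in
lemma single_sub_single_mem_range (σ : Equiv.Perm X) (x : X) :
    (Pi.single x (1 : ℚ) - Pi.single (σ x) (1 : ℚ) : X → ℚ) ∈
      LinearMap.range (LinearMap.id - permRep σ) := by
  refine ⟨-Pi.single (σ x) 1, ?_⟩
  funext y
  simp only [LinearMap.sub_apply, LinearMap.id_apply, Pi.sub_apply, Pi.neg_apply, permRep_apply,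
    Pi.single_apply, EmbeddingLike.apply_eq_iff_eq]
  ring

omit [Fintype X] in
lemma single_sub_single_mem_sup (s₁ s₂ s₃ : Equiv.Perm X)
    (htrans : ∀ x y : X, ∃ g ∈ Subgroup.closure ({s₁, s₂, s₃} : Set (Equiv.Perm X)), g x = y)
    (x y : X) :
    (Pi.single x (1 : ℚ) - Pi.single y (1 : ℚ) : X → ℚ) ∈
      LinearMap.range (LinearMap.id - permRep s₁) ⊔
        (LinearMap.range (LinearMap.id - permRep s₂) ⊔
          LinearMap.range (LinearMap.id - permRep s₃)) := by
  set S := LinearMap.range (LinearMap.id - permRep s₁) ⊔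
        (LinearMap.range (LinearMap.id - permRep s₂) ⊔
          LinearMap.range (LinearMap.id - permRep s₃)) with hS
  have h1 : LinearMap.range (LinearMap.id - permRep s₁) ≤ S := le_sup_left
  have h2 : LinearMap.range (LinearMap.id - permRep s₂) ≤ S := le_sup_left.trans le_sup_right
  have h3 : LinearMap.range (LinearMap.id - permRep s₃) ≤ S := le_sup_right.trans le_sup_right
  have hcl : ∀ g ∈ Subgroup.closure ({s₁, s₂, s₃} : Set (Equiv.Perm X)), ∀ x : X,
      (Pi.single x (1 : ℚ) - Pi.single (g x) (1 : ℚ) : X → ℚ) ∈ S := by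
    intro g hg
    induction hg using Subgroup.closure_induction with
    | mem g hg =>
      simp only [Set.mem_insert_iff, Set.mem_singleton_iff] at hg
      rcases hg with rfl | rfl | rfl
      · exact fun x => h1 (single_sub_single_mem_range _ x)
      · exact fun x => h2 (single_sub_single_mem_range _ x)
      · exact fun x => h3 (single_sub_single_mem_range _ x)
    | one => intro x; simp
    | mul g g' _ _ ih ih' =>
      intro x
      have e : (Pi.single x (1 : ℚ) - Pi.single ((g * g') x) (1 : ℚ) : X → ℚ) =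
          (Pi.single x (1 : ℚ) - Pi.single (g' x) (1 : ℚ)) +
            (Pi.single (g' x) (1 : ℚ) - Pi.single (g (g' x)) (1 : ℚ)) := by
        rw [Equiv.Perm.mul_apply]; abel
      rw [e]
      exact S.add_mem (ih' x) (ih (g' x))
    | inv g _ ih =>
      intro x
      have e : (Pi.single x (1 : ℚ) - Pi.single (g⁻¹ x) (1 : ℚ) : X → ℚ) =
          -(Pi.single (g⁻¹ x) (1 : ℚ) - Pi.single (g (g⁻¹ x)) (1 : ℚ)) := by
        simp
      rw [e]
      exact S.neg_mem (ih (g⁻¹ x))
  obtain ⟨g, hg, rfl⟩ := htrans x y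
  exact hcl g hg x

lemma ker_aug_le_sup (s₁ s₂ s₃ : Equiv.Perm X)
    (htrans : ∀ x y : X, ∃ g ∈ Subgroup.closure ({s₁, s₂, s₃} : Set (Equiv.Perm X)), g x = y)
    [Nonempty X] :
    LinearMap.ker (aug X) ≤
      LinearMap.range (LinearMap.id - permRep s₁) ⊔
        (LinearMap.range (LinearMap.id - permRep s₂) ⊔
          LinearMap.range (LinearMap.id - permRep s₃)) := by
  intro v hv
  rw [LinearMap.mem_ker, aug_apply] at hv
  obtain ⟨x₀⟩ := ‹Nonempty X›
  have e : v = ∑ x, v x • (Pi.single x (1 : ℚ) - Pi.single x₀ (1 : ℚ) : X → ℚ) := by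
    funext y
    simp only [Finset.sum_apply, Pi.smul_apply, Pi.sub_apply, Pi.single_apply, smul_eq_mul,
      mul_sub, Finset.sum_sub_distrib, ← Finset.sum_mul, hv]
    simp
  rw [e]
  exact Submodule.sum_mem _ fun x _ =>
    Submodule.smul_mem _ _ (single_sub_single_mem_sup s₁ s₂ s₃ htrans x x₀)

/-- **Scott's lemma / Ree's theorem** for three permutations with product one generating a
transitive group. -/
theorem scott (s₁ s₂ s₃ : Equiv.Perm X) (h : s₁ * s₂ * s₃ = 1)
    (htrans : ∀ x y : X, ∃ g ∈ Subgroup.closure ({s₁, s₂, s₃} : Set (Equiv.Perm X)), g x = y)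
    [Nonempty X] :
    2 * (Fintype.card X - 1) ≤
      (Fintype.card X - numCycles s₁) + (Fintype.card X - numCycles s₂) +
        (Fintype.card X - numCycles s₃) := by
  -- `permRep` is an anti-homomorphism: use `g₁ = R s₃`, `g₂ = R s₂`, `g₃ = R s₁`.
  have hcomp : permRep s₃ ∘ₗ permRep s₂ ∘ₗ permRep s₁ = LinearMap.id := by
    rw [← permRep_mul, ← permRep_mul, h, permRep_one]
  have key := scott_linear (permRep s₃) (permRep s₂) (permRep s₁) hcomp
  have hfix : finrank ℚ ↥(LinearMap.ker (LinearMap.id - permRep s₃) ⊓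
      (LinearMap.ker (LinearMap.id - permRep s₂) ⊓
        LinearMap.ker (LinearMap.id - permRep s₁))) ≤ 1 := by
    have := finrank_fixed_le_one s₁ s₂ s₃ htrans
    have e : LinearMap.ker (LinearMap.id - permRep s₃) ⊓
      (LinearMap.ker (LinearMap.id - permRep s₂) ⊓
        LinearMap.ker (LinearMap.id - permRep s₁)) =
      LinearMap.ker (LinearMap.id - permRep s₁) ⊓
      (LinearMap.ker (LinearMap.id - permRep s₂) ⊓
        LinearMap.ker (LinearMap.id - permRep s₃)) := by
      ac_rfl
    rw [e]; exact this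
  have hsum : Fintype.card X - 1 ≤ finrank ℚ ↥(LinearMap.range (LinearMap.id - permRep s₃) ⊔
      (LinearMap.range (LinearMap.id - permRep s₂) ⊔
        LinearMap.range (LinearMap.id - permRep s₁))) := by
    have h1 := Submodule.finrank_mono (ker_aug_le_sup s₁ s₂ s₃ htrans)
    have h2 := finrank_ker_aug (X := X)
    have e : LinearMap.range (LinearMap.id - permRep s₃) ⊔
      (LinearMap.range (LinearMap.id - permRep s₂) ⊔
        LinearMap.range (LinearMap.id - permRep s₁)) =
      LinearMap.range (LinearMap.id - permRep s₁) ⊔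
      (LinearMap.range (LinearMap.id - permRep s₂) ⊔
        LinearMap.range (LinearMap.id - permRep s₃)) := by
      ac_rfl
    rw [e]
    omega
  rw [finrank_range_id_sub_permRep, finrank_range_id_sub_permRep, finrank_range_id_sub_permRep,
    Module.finrank_fintype_fun_eq_card] at key
  omega

omit [Fintype X] [DecidableEq X] in
lemma orbitRel_zpowers_iff (σ : Equiv.Perm X) (a b : X) :
    (MulAction.orbitRel (Subgroup.zpowers σ) X) a b ↔ σ.SameCycle a b := by
  rw [MulAction.orbitRel_apply, Equiv.Perm.sameCycle_comm]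
  constructor
  · rintro ⟨⟨g, hg⟩, rfl⟩
    obtain ⟨k, rfl⟩ := Subgroup.mem_zpowers_iff.mp hg
    exact ⟨k, rfl⟩
  · rintro ⟨k, rfl⟩
    exact ⟨⟨σ ^ k, Subgroup.zpow_mem_zpowers σ k⟩, rfl⟩

/-- Auxiliary classifying map: a fixed point goes to itself, a moved point to its cycle. -/
noncomputable def cycleClass (σ : Equiv.Perm X) (x : X) : Equiv.Perm X ⊕ X :=
  if σ x = x then Sum.inr x else Sum.inl (σ.cycleOf x)

lemma cycleClass_eq_iff (σ : Equiv.Perm X) (x y : X) :
    cycleClass σ x = cycleClass σ y ↔ σ.SameCycle x y := by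
  unfold cycleClass
  by_cases hx : σ x = x <;> by_cases hy : σ y = y
  · simp only [hx, hy, if_true, Sum.inr.injEq]
    constructor
    · rintro rfl; exact Equiv.Perm.SameCycle.refl _ _
    · rintro ⟨k, rfl⟩
      exact ((Equiv.Perm.zpow_apply_eq_self_of_apply_eq_self hx k)).symm
  · simp only [hx, hy, if_true, if_false, reduceCtorEq, false_iff]
    intro h
    exact hy (h.apply_eq_self_iff.mp hx)
  · simp only [hx, hy, if_true, if_false, reduceCtorEq, false_iff]
    intro h
    exact hx (h.apply_eq_self_iff.mpr hy)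
  · simp only [hx, hy, if_false, Sum.inl.injEq]
    exact (Equiv.Perm.sameCycle_iff_cycleOf_eq_of_mem_support
      (Equiv.Perm.mem_support.mpr hx) (Equiv.Perm.mem_support.mpr hy)).symm

/-- The number of cycles (including fixed points) in terms of Mathlib's `cycleType`. -/
theorem numCycles_eq (σ : Equiv.Perm X) :
    numCycles σ = Multiset.card σ.cycleType + (Fintype.card X - σ.support.card) := by
  classical
  let Φ : MulAction.orbitRel.Quotient (Subgroup.zpowers σ) X → Equiv.Perm X ⊕ X :=
    Quotient.lift (cycleClass σ) (fun a b hab =>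
      (cycleClass_eq_iff σ a b).mpr ((orbitRel_zpowers_iff σ a b).mp hab))
  have hΦ : Function.Injective Φ := by
    intro a b
    induction a using Quotient.inductionOn with | _ a => ?_
    induction b using Quotient.inductionOn with | _ b => ?_
    intro hab
    apply Quotient.sound
    exact (orbitRel_zpowers_iff σ a b).mpr ((cycleClass_eq_iff σ a b).mp hab)
  have himg : Finset.univ.image Φ = σ.cycleFactorsFinset.disjSum σ.supportᶜ := by
    ext z
    simp only [Finset.mem_image, Finset.mem_univ, true_and, Finset.mem_disjSum,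
      Finset.mem_compl, Equiv.Perm.mem_support, not_not]
    constructor
    · rintro ⟨q, rfl⟩
      induction q using Quotient.inductionOn with | _ a => ?_
      have hΦa : Φ ⟦a⟧ = cycleClass σ a := rfl
      rw [hΦa]
      by_cases ha : σ a = a
      · right
        exact ⟨a, ha, by simp [cycleClass, ha]⟩
      · left
        refine ⟨σ.cycleOf a, ?_, by simp [cycleClass, ha]⟩
        rw [Equiv.Perm.cycleOf_mem_cycleFactorsFinset_iff]
        exact Equiv.Perm.mem_support.mpr ha
    · rintro (⟨c, hc, rfl⟩ | ⟨b, hb, rfl⟩)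
      · have hcyc : c.IsCycle := (Equiv.Perm.mem_cycleFactorsFinset_iff.mp hc).1
        obtain ⟨x, hx, -⟩ := hcyc
        have hxs : x ∈ c.support := Equiv.Perm.mem_support.mpr hx
        have hcx : c = σ.cycleOf x := Equiv.Perm.cycle_is_cycleOf hxs hc
        have hσx : σ x ≠ x := by
          have := (Equiv.Perm.mem_cycleFactorsFinset_iff.mp hc).2 x hxs
          rw [← this]; exact hx
        refine ⟨⟦x⟧, ?_⟩
        have hΦx : Φ ⟦x⟧ = cycleClass σ x := rfl
        rw [hΦx, hcx]
        simp [cycleClass, hσx]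
      · refine ⟨⟦b⟧, ?_⟩
        have hΦb : Φ ⟦b⟧ = cycleClass σ b := rfl
        rw [hΦb]
        simp [cycleClass, hb]
  rw [numCycles, Nat.card_eq_fintype_card, ← Finset.card_univ,
    ← Finset.card_image_of_injective _ hΦ, himg, Finset.card_disjSum, Finset.card_compl,
    Equiv.Perm.cycleType_def, Multiset.card_map]
  rfl

/-- `sign σ = (-1) ^ (n - #cycles)`. -/
theorem sign_eq_neg_one_pow (σ : Equiv.Perm X) :
    Equiv.Perm.sign σ = (-1 : ℤˣ) ^ (Fintype.card X - numCycles σ) := by
  have h1 := numCycles_eq σ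
  have h2 := numCycles_le σ
  have h3 : σ.support.card ≤ Fintype.card X := Finset.card_le_univ _
  rw [Equiv.Perm.sign_of_cycleType, Equiv.Perm.sum_cycleType]
  have e : σ.support.card + Multiset.card σ.cycleType =
      (Fintype.card X - numCycles σ) + 2 * Multiset.card σ.cycleType := by
    omega
  rw [e, pow_add, pow_mul]
  simp

/-- **Parity**: if `s₁ s₂ s₃ = 1` then `Σ (n - #cycles sᵢ)` is even. -/
theorem even_sum_of_mul_eq_one (s₁ s₂ s₃ : Equiv.Perm X) (h : s₁ * s₂ * s₃ = 1) :
    Even ((Fintype.card X - numCycles s₁) + (Fintype.card X - numCycles s₂) +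
      (Fintype.card X - numCycles s₃)) := by
  have hs := congrArg Equiv.Perm.sign h
  rw [map_mul, map_mul, map_one, sign_eq_neg_one_pow, sign_eq_neg_one_pow, sign_eq_neg_one_pow,
    ← pow_add, ← pow_add] at hs
  exact (neg_one_pow_eq_one_iff_even (by decide)).mp hs

omit [Fintype X] [DecidableEq X] in
lemma numCycles_inv (σ : Equiv.Perm X) : numCycles σ⁻¹ = numCycles σ := by
  rw [numCycles, numCycles, Subgroup.zpowers_inv]

omit [DecidableEq X] in
lemma numCycles_pos [Nonempty X] (σ : Equiv.Perm X) : 0 < numCycles σ := by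
  classical
  rw [numCycles, Nat.card_eq_fintype_card]
  obtain ⟨x⟩ := ‹Nonempty X›
  exact Fintype.card_pos_iff.mpr ⟨Quotient.mk _ x⟩

/-- Parity, in the form `s₁ s₂ = s₃`. -/
theorem even_sum_of_mul_eq (s₁ s₂ s₃ : Equiv.Perm X) (h : s₁ * s₂ = s₃) :
    Even ((Fintype.card X - numCycles s₁) + (Fintype.card X - numCycles s₂) +
      (Fintype.card X - numCycles s₃)) := by
  have := even_sum_of_mul_eq_one s₁ s₂ s₃⁻¹ (by rw [h, mul_inv_cancel])
  rwa [numCycles_inv] at this

/-- Scott's lemma, in the form `s₁ s₂ = s₃` with `⟨s₁, s₂⟩` transitive. -/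
theorem scott_of_mul_eq (s₁ s₂ s₃ : Equiv.Perm X) (h : s₁ * s₂ = s₃)
    (htrans : ∀ x y : X, ∃ g ∈ Subgroup.closure ({s₁, s₂} : Set (Equiv.Perm X)), g x = y)
    [Nonempty X] :
    2 * (Fintype.card X - 1) ≤
      (Fintype.card X - numCycles s₁) + (Fintype.card X - numCycles s₂) +
        (Fintype.card X - numCycles s₃) := by
  have := scott s₁ s₂ s₃⁻¹ (by rw [h, mul_inv_cancel]) (fun x y => by
    obtain ⟨g, hg, hgx⟩ := htrans x y
    refine ⟨g, Subgroup.closure_mono ?_ hg, hgx⟩
    intro z hz
    simp only [Set.mem_insert_iff, Set.mem_singleton_iff] at hz ⊢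
    rcases hz with rfl | rfl
    · exact Or.inl rfl
    · exact Or.inr (Or.inl rfl))
  rwa [numCycles_inv] at this

/-- The "genus" attached to a transitive triple `s₁ s₂ = s₃`: there is a natural number `g`
with `n - c₁ - c₂ - c₃ = 2 g - 2`. -/
theorem exists_genus_of_mul_eq (s₁ s₂ s₃ : Equiv.Perm X) (h : s₁ * s₂ = s₃)
    (htrans : ∀ x y : X, ∃ g ∈ Subgroup.closure ({s₁, s₂} : Set (Equiv.Perm X)), g x = y)
    [Nonempty X] :
    ∃ g : ℕ, (Fintype.card X : ℤ) - numCycles s₁ - numCycles s₂ - numCycles s₃ = 2 * g - 2 := by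
  have h1 := numCycles_le s₁
  have h2 := numCycles_le s₂
  have h3 := numCycles_le s₃
  have hn : 0 < Fintype.card X := Fintype.card_pos
  obtain ⟨r, hr⟩ := even_sum_of_mul_eq s₁ s₂ s₃ h
  have hs := scott_of_mul_eq s₁ s₂ s₃ h htrans
  refine ⟨r + 1 - Fintype.card X, ?_⟩
  omega

/-- The `toNat / 2` form used by the prelude's definition of the genus. -/
theorem toNat_div_two_of_mul_eq (s₁ s₂ s₃ : Equiv.Perm X) (h : s₁ * s₂ = s₃)
    (htrans : ∀ x y : X, ∃ g ∈ Subgroup.closure ({s₁, s₂} : Set (Equiv.Perm X)), g x = y)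
    [Nonempty X] :
    (2 : ℤ) * ((((Fintype.card X : ℤ) - numCycles s₁ - numCycles s₂ - numCycles s₃ + 2).toNat / 2 :
      ℕ) : ℤ) = (Fintype.card X : ℤ) - numCycles s₁ - numCycles s₂ - numCycles s₃ + 2 := by
  obtain ⟨g, hg⟩ := exists_genus_of_mul_eq s₁ s₂ s₃ h htrans
  rw [hg]
  have : ((2 : ℤ) * g - 2 + 2).toNat = 2 * g := by omega
  rw [this]
  omega

/-- Cycle count of an element of prime order dividing `p`: all nontrivial cycles have
length `p`. -/
theorem numCycles_of_pow_prime_eq_one {p : ℕ} (hp : p.Prime) (σ : Equiv.Perm X)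
    (h : σ ^ p = 1) :
    p ∣ σ.support.card ∧
      numCycles σ = (Fintype.card X - σ.support.card) + σ.support.card / p := by
  have hall : ∀ n ∈ σ.cycleType, n = p := by
    intro n hn
    have h1 : n ∣ p := (Equiv.Perm.dvd_of_mem_cycleType hn).trans (orderOf_dvd_of_pow_eq_one h)
    have h2 := Equiv.Perm.two_le_of_mem_cycleType hn
    rcases (Nat.dvd_prime hp).mp h1 with h3 | h3
    · omega
    · exact h3
  have hrep : σ.cycleType = Multiset.replicate (Multiset.card σ.cycleType) p :=
    Multiset.eq_replicate_card.mpr hall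
  have hsum : σ.support.card = Multiset.card σ.cycleType * p := by
    rw [← Equiv.Perm.sum_cycleType, hrep, Multiset.sum_replicate, Multiset.card_replicate,
      smul_eq_mul]
  refine ⟨⟨_, by rw [hsum, mul_comm]⟩, ?_⟩
  rw [numCycles_eq, hsum, Nat.mul_div_cancel _ hp.pos, add_comm]

/-- Same, phrased with the number of fixed points. -/
theorem numCycles_of_pow_prime_eq_one' {p : ℕ} (hp : p.Prime) (σ : Equiv.Perm X)
    (h : σ ^ p = 1) :
    numCycles σ = Nat.card (Function.fixedPoints σ) +
      (Fintype.card X - Nat.card (Function.fixedPoints σ)) / p := by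
  have hfix : Nat.card (Function.fixedPoints σ) = Fintype.card X - σ.support.card := by
    rw [Nat.card_eq_fintype_card, Equiv.Perm.card_fixedPoints, Equiv.Perm.sum_cycleType]
  have hle : σ.support.card ≤ Fintype.card X := Finset.card_le_univ _
  obtain ⟨-, h2⟩ := numCycles_of_pow_prime_eq_one hp σ h
  rw [h2, hfix]
  congr 2
  omega

end Perm

section Action

variable {G X : Type*} [Group G] [MulAction G X]

lemma toPerm_zpow (g : G) (k : ℤ) :
    (MulAction.toPerm g : Equiv.Perm X) ^ k = MulAction.toPerm (g ^ k) :=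
  (map_zpow (MulAction.toPermHom G X) g k).symm

/-- For a group element acting on `X`, the cycles of the induced permutation are the orbits
of the cyclic subgroup it generates. -/
theorem numCycles_toPerm (g : G) :
    numCycles (MulAction.toPerm g : Equiv.Perm X) =
      Nat.card (MulAction.orbitRel.Quotient (Subgroup.zpowers g) X) := by
  rw [numCycles]
  refine Nat.card_congr (Quotient.congrRight fun a b => ?_)
  rw [MulAction.orbitRel_apply, MulAction.orbitRel_apply]
  constructor
  · rintro ⟨⟨s, hs⟩, rfl⟩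
    obtain ⟨k, rfl⟩ := Subgroup.mem_zpowers_iff.mp hs
    refine ⟨⟨g ^ k, Subgroup.zpow_mem_zpowers g k⟩, ?_⟩
    change g ^ k • b = ((MulAction.toPerm g : Equiv.Perm X) ^ k) b
    rw [toPerm_zpow]
    rfl
  · rintro ⟨⟨s, hs⟩, rfl⟩
    obtain ⟨k, rfl⟩ := Subgroup.mem_zpowers_iff.mp hs
    refine ⟨⟨(MulAction.toPerm g : Equiv.Perm X) ^ k, Subgroup.zpow_mem_zpowers _ k⟩, ?_⟩
    change ((MulAction.toPerm g : Equiv.Perm X) ^ k) b = g ^ k • b
    rw [toPerm_zpow]
    rfl

lemma fixedPoints_toPerm (g : G) :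
    Function.fixedPoints (MulAction.toPerm g : Equiv.Perm X) = MulAction.fixedBy X g := rfl

end Action

end Fermat.Agent.S24.Comb2
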