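import Fermat.Agent.S24.H6_Ord
import Fermat.Agent.S24.H9_CombClass
import Fermat.Agent.S24.H21_PlaceOfVal

/-!
# S24, leaf [G3-c] (helper19): divisibility of the multiplicities at fixed cosets

Let `k : X N = SL(2,ℤ) ⧸ Γ₀(N)` and `g = Quotient.out k`.  If `S` fixes `k`, then
`g⁻¹ S g ∈ Γ₀(N)` fixes the point `g⁻¹ • i`, every element of the function field is invariant
under it, and hence (helper17, G2) all orders `ordAt e (g⁻¹ • i) h` are even.  If the point
valuation is `m * ord_P` for a place `P`, then `2 ∣ m`.  Similarly for `S * T`, `ρ` and `3`.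

Together with helper9's `h9_two_dvd_classCard_mul` / `h9_three_dvd_classCard_mul` this is
hypothesis (c) of `Orb.orbit_place` over `j = 1728` and `j = 0`.
-/

set_option autoImplicit false

open UpperHalfPlane CongruenceSubgroup AlgebraicCurve MulAction
open scoped MatrixGroups Manifold

namespace Fermat.Agent.S24.H19Fix

open Fermat.Agent.S23 Fermat.Agent.S24.Real Fermat.Agent.S24.Comb Fermat.Agent.S24.Orb

/-! ### Generic: a place has elements of order one -/

section Generic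

variable {K F : Type*} [Field K] [Field F] [Algebra K F]

/-- Every place has a uniformiser. -/
theorem exists_ord_eq_one (P : Place K F) : ∃ π : F, π ≠ 0 ∧ P.ord π = 1 := by
  obtain ⟨π, hπ⟩ := IsDiscreteValuationRing.exists_irreducible P.toValuationSubring
  refine ⟨(π : F), ?_, P.ord_coe_irreducible hπ⟩
  intro h
  exact hπ.ne_zero (Subtype.ext h)

/-- If a function `w = m * ord_P` only takes values divisible by `s`, then `s ∣ m`. -/
theorem dvd_of_forall_dvd (P : Place K F) (m : ℕ) (w : F → ℤ)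
    (hm : ∀ h : F, h ≠ 0 → w h = m * P.ord h) (s : ℕ) (hs : ∀ h : F, h ≠ 0 → (s : ℤ) ∣ w h) :
    s ∣ m := by
  obtain ⟨π, hπ0, hπ⟩ := exists_ord_eq_one P
  have h1 := hs π hπ0
  rw [hm π hπ0, hπ, mul_one] at h1
  exact Int.natCast_dvd_natCast.mp h1

/-- Two places whose `ord` functions have a common positive multiple are equal. -/
theorem place_eq_of_mul_ord_eq {P Q : Place K F} {m n : ℕ} (hm : 0 < m) (hn : 0 < n)
    (h : ∀ f : F, f ≠ 0 → (m : ℤ) * P.ord f = (n : ℤ) * Q.ord f) : P = Q := by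
  have hm' : (0 : ℤ) < m := by exact_mod_cast hm
  have hn' : (0 : ℤ) < n := by exact_mod_cast hn
  refine place_ext_of_ord fun f hf => ⟨fun h1 => ?_, fun h1 => ?_⟩
  · have h2 : 0 ≤ (n : ℤ) * Q.ord f := by
      rw [← h f hf]
      exact mul_nonneg hm'.le h1
    exact nonneg_of_mul_nonneg_right h2 hn'
  · have h2 : 0 ≤ (m : ℤ) * P.ord f := by
      rw [h f hf]
      exact mul_nonneg hn'.le h1
    exact nonneg_of_mul_nonneg_right h2 hm'

end Generic

/-! ### Orders at fixed points -/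

section K

variable {K : Type*} [Field K] [Algebra ℚ K] (e : K →+* ℂ) {N : ℕ}

/-- All orders at `g⁻¹ • i` are even when `g⁻¹ S g ∈ Γ₀(N)`. -/
theorem two_dvd_ordAt (g : SL(2, ℤ)) (hg : g⁻¹ * ModularGroup.S * g ∈ Gamma0 N) (h : FK K N) :
    (2 : ℤ) ∣ ordAt e (g⁻¹ • UpperHalfPlane.I) h := by
  by_cases hh : h = 0
  · rw [hh, ordAt_zero]
    exact dvd_zero _
  · have hb := denAK_ne_zero h
    have ha := numAK_ne_zero hh
    rw [ordAt_eq_sub e _ hh hb (mul_denAK h)]
    have hinv : ∀ z : ℍ, rho e (numAK h) ((g⁻¹ * ModularGroup.S * g) • z) * rho e (denAK h) z =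
        rho e (numAK h) z * rho e (denAK h) ((g⁻¹ * ModularGroup.S * g) • z) := by
      intro z
      rw [rho_smul_of_mem_Gamma0 e _ hg z, rho_smul_of_mem_Gamma0 e _ hg z]
    exact G2.two_dvd_sub_conj_S g (mdifferentiable_rho e _) (mdifferentiable_rho e _) hinv
      (coe_ordH (mdifferentiable_rho e _) (rho_ne_zero e ha) _).symm
      (coe_ordH (mdifferentiable_rho e _) (rho_ne_zero e hb) _).symm

/-- All orders at `g⁻¹ • ρ` are divisible by `3` when `g⁻¹ (S T) g ∈ Γ₀(N)`. -/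
theorem three_dvd_ordAt (g : SL(2, ℤ))
    (hg : g⁻¹ * (ModularGroup.S * ModularGroup.T) * g ∈ Gamma0 N) (h : FK K N) :
    (3 : ℤ) ∣ ordAt e (g⁻¹ • G1.rho) h := by
  by_cases hh : h = 0
  · rw [hh, ordAt_zero]
    exact dvd_zero _
  · have hb := denAK_ne_zero h
    have ha := numAK_ne_zero hh
    rw [ordAt_eq_sub e _ hh hb (mul_denAK h)]
    have hinv : ∀ z : ℍ,
        rho e (numAK h) ((g⁻¹ * (ModularGroup.S * ModularGroup.T) * g) • z) * rho e (denAK h) z =
        rho e (numAK h) z *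
          rho e (denAK h) ((g⁻¹ * (ModularGroup.S * ModularGroup.T) * g) • z) := by
      intro z
      rw [rho_smul_of_mem_Gamma0 e _ hg z, rho_smul_of_mem_Gamma0 e _ hg z]
    exact G2.three_dvd_sub_conj_ST g (mdifferentiable_rho e _) (mdifferentiable_rho e _) hinv
      (coe_ordH (mdifferentiable_rho e _) (rho_ne_zero e ha) _).symm
      (coe_ordH (mdifferentiable_rho e _) (rho_ne_zero e hb) _).symm

/-- **[G3-c] at `j = 1728`**, conjugate form: if `g⁻¹ S g ∈ Γ₀(N)` and the point valuation at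
`g⁻¹ • i` is `m * ord_P`, then `2 ∣ m`. -/
theorem two_dvd_m_of_conj (g : SL(2, ℤ)) (hg : g⁻¹ * ModularGroup.S * g ∈ Gamma0 N)
    (P : Place K (FK K N)) (m : ℕ)
    (hm : ∀ h : FK K N, h ≠ 0 → ordAt e (g⁻¹ • UpperHalfPlane.I) h = m * P.ord h) : 2 ∣ m :=
  dvd_of_forall_dvd P m _ hm 2 fun h _ => two_dvd_ordAt e g hg h

/-- **[G3-c] at `j = 0`**, conjugate form. -/
theorem three_dvd_m_of_conj (g : SL(2, ℤ))
    (hg : g⁻¹ * (ModularGroup.S * ModularGroup.T) * g ∈ Gamma0 N)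
    (P : Place K (FK K N)) (m : ℕ)
    (hm : ∀ h : FK K N, h ≠ 0 → ordAt e (g⁻¹ • G1.rho) h = m * P.ord h) : 3 ∣ m :=
  dvd_of_forall_dvd P m _ hm 3 fun h _ => three_dvd_ordAt e g hg h

/-- **[G3-c] at `j = 1728`**: if `S` fixes the coset `k` and the point valuation at
`(out k)⁻¹ • i` is `m * ord_P`, then `2 ∣ m`. -/
theorem two_dvd_m (k : X N) (hk : ModularGroup.S • k = k) (P : Place K (FK K N)) (m : ℕ)
    (hm : ∀ h : FK K N, h ≠ 0 →
      ordAt e ((Quotient.out k)⁻¹ • UpperHalfPlane.I) h = m * P.ord h) : 2 ∣ m :=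
  two_dvd_m_of_conj e (Quotient.out k) ((h9_smul_eq_iff_out _ k).mp hk) P m hm

/-- **[G3-c] at `j = 0`**: if `S * T` fixes the coset `k` and the point valuation at
`(out k)⁻¹ • ρ` is `m * ord_P`, then `3 ∣ m`. -/
theorem three_dvd_m (k : X N) (hk : (ModularGroup.S * ModularGroup.T) • k = k)
    (P : Place K (FK K N)) (m : ℕ)
    (hm : ∀ h : FK K N, h ≠ 0 → ordAt e ((Quotient.out k)⁻¹ • G1.rho) h = m * P.ord h) :
    3 ∣ m :=
  three_dvd_m_of_conj e (Quotient.out k) ((h9_smul_eq_iff_out _ k).mp hk) P m hm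

/-- Hypothesis (c) of `Orb.orbit_place` in the generic case (`σ = 1`, `s = 1`). -/
theorem hc_one (m : X N → ℕ) (k : X N) :
    1 ∣ classCard (orbitRel (Subgroup.zpowers (1 : SL(2, ℤ))) (X N)) k * m k :=
  one_dvd _

/-! ### The value `s` of the point valuations on `j - c` (hypothesis (a) of `orbit_place`) -/

/-- The order of `j - c` is the same at all `SL(2,ℤ)`-translates of a point. -/
theorem ordAt_jF_sub_smul (γ : SL(2, ℤ)) (z : ℍ) (c : K) :
    ordAt e (γ • z) (jF K N - algebraMap K (FK K N) c) =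
      ordAt e z (jF K N - algebraMap K (FK K N) c) := by
  rw [ordAt_jF_sub, ordAt_jF_sub]
  have h := ordH_smul (f := fun w : ℍ => R4.jInv w - e c) γ
    (fun w => by rw [R4.jInv_smul]) z
  exact_mod_cast h

/-- The order of `j - c` at a point `z` in terms of the local degree of `j` at `z`. -/
theorem ordAt_jF_sub_eq_of_order (z : ℍ) (c : K) (hc : R4.jInv z = e c) (s : ℕ)
    (hs : analyticOrderAt (fun w => G1.jC w - G1.jC z) (z : ℂ) = s) :
    ordAt e z (jF K N - algebraMap K (FK K N) c) = s := by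
  rw [ordAt_jF_sub]
  have h1 : (fun w : ℂ => R4.jInv (ofComplex w) - e c) = fun w => G1.jC w - G1.jC z := by
    funext w
    rw [G1.jC_coe, hc]
    rfl
  rw [h1, analyticOrderNatAt, hs]
  rfl

/-- **Hypothesis (a) over `j = 1728`**: `j - c` has order `2` at every translate of `i`. -/
theorem ordAt_jF_sub_I (g : SL(2, ℤ)) (c : K) (hc : e c = 1728) :
    ordAt e (g⁻¹ • UpperHalfPlane.I) (jF K N - algebraMap K (FK K N) c) = 2 := by
  rw [ordAt_jF_sub_smul]
  have := ordAt_jF_sub_eq_of_order e (N := N) UpperHalfPlane.I c (by rw [G1.jInv_I, hc]) 2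
    (by exact_mod_cast G1.analyticOrderAt_jC_I)
  exact_mod_cast this

/-- **Hypothesis (a) over `j = 0`**: `j - c` has order `3` at every translate of `ρ`. -/
theorem ordAt_jF_sub_rho (g : SL(2, ℤ)) (c : K) (hc : e c = 0) :
    ordAt e (g⁻¹ • G1.rho) (jF K N - algebraMap K (FK K N) c) = 3 := by
  rw [ordAt_jF_sub_smul]
  have := ordAt_jF_sub_eq_of_order e (N := N) G1.rho c (by rw [G1.jInv_rho, hc]) 3
    (by exact_mod_cast G1.analyticOrderAt_jC_rho)
  exact_mod_cast this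

/-- **Hypothesis (a) over `j = c`, `c ≠ 0, 1728`**: `j - c` has order `1` at every translate of a
point of the fibre. -/
theorem ordAt_jF_sub_of_ne (g : SL(2, ℤ)) (z₀ : ℍ) (c : K) (hc : R4.jInv z₀ = e c)
    (h0 : e c ≠ 0) (h1 : e c ≠ 1728) :
    ordAt e (g⁻¹ • z₀) (jF K N - algebraMap K (FK K N) c) = 1 := by
  rw [ordAt_jF_sub_smul]
  have := ordAt_jF_sub_eq_of_order e (N := N) z₀ c hc 1
    (by exact_mod_cast G1.analyticOrderAt_jC_of_ne z₀ (hc ▸ h0) (hc ▸ h1))
  exact_mod_cast this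

/-- **Hypothesis (a) of `Orb.orbit_place` over `j = 1728`**: `m k * ord_{P k} (j - c) = 2`. -/
theorem ha_S (c : K) (hc : e c = 1728) (P : X N → Place K (FK K N)) (m : X N → ℕ)
    (hm : ∀ (k : X N) (h : FK K N), h ≠ 0 →
      ordAt e ((Quotient.out k)⁻¹ • UpperHalfPlane.I) h = m k * (P k).ord h)
    (hne : jF K N - algebraMap K (FK K N) c ≠ 0) (k : X N) :
    (m k : ℤ) * (P k).ord (jF K N - algebraMap K (FK K N) c) = (2 : ℕ) := by
  rw [← hm k _ hne, ordAt_jF_sub_I e _ c hc]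
  rfl

/-- **Hypothesis (a) of `Orb.orbit_place` over `j = 0`**: `m k * ord_{P k} (j - c) = 3`. -/
theorem ha_ST (c : K) (hc : e c = 0) (P : X N → Place K (FK K N)) (m : X N → ℕ)
    (hm : ∀ (k : X N) (h : FK K N), h ≠ 0 →
      ordAt e ((Quotient.out k)⁻¹ • G1.rho) h = m k * (P k).ord h)
    (hne : jF K N - algebraMap K (FK K N) c ≠ 0) (k : X N) :
    (m k : ℤ) * (P k).ord (jF K N - algebraMap K (FK K N) c) = (3 : ℕ) := by
  rw [← hm k _ hne, ordAt_jF_sub_rho e _ c hc]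
  rfl

/-- **Hypothesis (a) of `Orb.orbit_place` over `j = c`, `c ≠ 0, 1728`**. -/
theorem ha_gen (z₀ : ℍ) (c : K) (hc : R4.jInv z₀ = e c) (h0 : e c ≠ 0) (h1 : e c ≠ 1728)
    (P : X N → Place K (FK K N)) (m : X N → ℕ)
    (hm : ∀ (k : X N) (h : FK K N), h ≠ 0 →
      ordAt e ((Quotient.out k)⁻¹ • z₀) h = m k * (P k).ord h)
    (hne : jF K N - algebraMap K (FK K N) c ≠ 0) (k : X N) :
    (m k : ℤ) * (P k).ord (jF K N - algebraMap K (FK K N) c) = (1 : ℕ) := by
  rw [← hm k _ hne, ordAt_jF_sub_of_ne e _ z₀ c hc h0 h1]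
  rfl

/-! ### Hypothesis (b) of `orbit_place`: the point valuation only depends on the orbit -/

/-- If `σ` fixes `z₀`, the point `(out k)⁻¹ • z₀` only depends, up to `Γ₀(N)`, on the
`⟨σ⟩`-orbit of `k`; hence so does the point valuation. -/
theorem ordAt_out_eq_of_orbitRel (σ : SL(2, ℤ)) (z₀ : ℍ) (hσ : σ • z₀ = z₀) {k k' : X N}
    (h : (orbitRel (Subgroup.zpowers σ) (X N)) k k') (x : FK K N) :
    ordAt e ((Quotient.out k)⁻¹ • z₀) x = ordAt e ((Quotient.out k')⁻¹ • z₀) x := by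
  obtain ⟨n, δ, hδ, hout⟩ := h9_out_of_orbitRel σ h
  have hfix : ∀ n : ℤ, σ ^ n • z₀ = z₀ := by
    intro n
    have h1 : σ ∈ MulAction.stabilizer SL(2, ℤ) z₀ := hσ
    exact (Subgroup.zpow_mem _ h1 n : σ ^ n ∈ MulAction.stabilizer SL(2, ℤ) z₀)
  have hpt : (Quotient.out k)⁻¹ • z₀ = δ⁻¹ • ((Quotient.out k')⁻¹ • z₀) := by
    rw [hout, mul_inv_rev, mul_inv_rev, mul_smul, mul_smul, ← zpow_neg, hfix]
  rw [hpt, ordAt_smul_of_mem_Gamma0 e ((Gamma0 N).inv_mem hδ)]

/-- **Hypothesis (b) of `Orb.orbit_place`** for the stabiliser `⟨σ⟩` of `z₀`. -/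
theorem hb (σ : SL(2, ℤ)) (z₀ : ℍ) (hσ : σ • z₀ = z₀) (P : X N → Place K (FK K N))
    (m : X N → ℕ) (hmpos : ∀ k, 0 < m k)
    (hm : ∀ (k : X N) (h : FK K N), h ≠ 0 →
      ordAt e ((Quotient.out k)⁻¹ • z₀) h = m k * (P k).ord h)
    (k k' : X N) (h : (orbitRel (Subgroup.zpowers σ) (X N)) k k') : P k = P k' :=
  place_eq_of_mul_ord_eq (hmpos k) (hmpos k') fun f hf => by
    rw [← hm k f hf, ← hm k' f hf, ordAt_out_eq_of_orbitRel e σ z₀ hσ h]

variable [NeZero N]

/-- **Hypothesis (c) of `Orb.orbit_place` over `j = 1728`** (`σ = S`, `z₀ = i`, `s = 2`). -/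
theorem hc_S (P : X N → Place K (FK K N)) (m : X N → ℕ)
    (hm : ∀ (k : X N) (h : FK K N), h ≠ 0 →
      ordAt e ((Quotient.out k)⁻¹ • UpperHalfPlane.I) h = m k * (P k).ord h) (k : X N) :
    2 ∣ classCard (orbitRel (Subgroup.zpowers ModularGroup.S) (X N)) k * m k :=
  h9_two_dvd_classCard_mul k (m k) fun hg =>
    two_dvd_m_of_conj e (Quotient.out k) hg (P k) (m k) (hm k)

/-- **Hypothesis (c) of `Orb.orbit_place` over `j = 0`** (`σ = S * T`, `z₀ = ρ`, `s = 3`). -/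
theorem hc_ST (P : X N → Place K (FK K N)) (m : X N → ℕ)
    (hm : ∀ (k : X N) (h : FK K N), h ≠ 0 →
      ordAt e ((Quotient.out k)⁻¹ • G1.rho) h = m k * (P k).ord h) (k : X N) :
    3 ∣ classCard (orbitRel (Subgroup.zpowers (ModularGroup.S * ModularGroup.T)) (X N)) k * m k :=
  h9_three_dvd_classCard_mul k (m k) fun hg =>
    three_dvd_m_of_conj e (Quotient.out k) hg (P k) (m k) (hm k)

end K

end Fermat.Agent.S24.H19Fix
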