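import Fermat.Agent.S24.H12_CuspExp
import Fermat.Agent.S24.H6_Formal
import Fermat.Agent.S23.H23_JFun
import Fermat.Agent.S23.R5_Scale
import Fermat.Prelude.Thm_ModularCurve_coeffMap_qExpand

/-!
# S24 [H-R1] (helper19): the formal `j_d` is the Laurent expansion of `z ↦ j (d z)`
-/

set_option autoImplicit false

open UpperHalfPlane Filter Topology Function ModularFormClass ModularForm EisensteinSeries
open scoped Manifold MatrixGroups

namespace Fermat.Agent.S24.H19R

open Fermat.Agent.S24.G4 Fermat.Agent.S23 Fermat.Agent.S23.R4 ModularCurve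

local notation "Δ" => ModularForm.discriminant

/-! ### Niceness of `E₄`, `Δ` and of their rescalings -/

theorem nice_of_modularForm {k : ℤ} (F : ModularForm 𝒮ℒ k) : Nice 1 (⇑F : ℍ → ℂ) :=
  ⟨periodic_levelOne F, ModularFormClass.holo F, ModularFormClass.bdd_at_infty F⟩

theorem scaleN_eq_scaleH (d : ℕ) [NeZero d] (z : ℍ) : scaleN d z = scaleH d z := by
  apply UpperHalfPlane.ext
  rw [coe_scaleN, coe_scaleH]

theorem nice_comp_scaleH {x : ℍ → ℂ} (hx : Nice 1 x) (d : ℕ) [NeZero d] :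
    Nice 1 (fun z => x (scaleH d z)) := by
  have e : (fun z => x (scaleH d z)) = fun z => x (scaleN d z) := by
    funext z; rw [scaleN_eq_scaleH]
  rw [e]
  exact ⟨periodic_comp_scaleN hx.periodic d, mdifferentiable_comp_scaleN hx.holo d,
    isBoundedAtImInfty_comp_scaleN hx.bdd d⟩

/-- `q`-expansion of `z ↦ x (d z)`: substitute `q ^ d` for `q` (prelude `qExpand`). -/
theorem ofPowerSeries_qExpansion_comp_scaleH {x : ℍ → ℂ} (hx : Nice 1 x) (d : ℕ) [NeZero d] :
    HahnSeries.ofPowerSeries ℤ ℂ (qExpansion 1 (fun z => x (scaleH d z))) =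
      qExpand ℂ d (HahnSeries.ofPowerSeries ℤ ℂ (qExpansion 1 x)) := by
  have e : (fun z => x (scaleH d z)) = fun z => x (scaleN d z) := by
    funext z; rw [scaleN_eq_scaleH]
  rw [e]
  have hd : (d : ℤ) ≠ 0 := by exact_mod_cast NeZero.ne d
  have hdpos : (0 : ℤ) < d := by exact_mod_cast Nat.pos_of_ne_zero (NeZero.ne d)
  ext k
  rcases lt_or_ge k 0 with hk | hk
  · rw [ofPowerSeries_coeff_of_neg _ hk]
    by_cases hdk : (d : ℤ) ∣ k
    · obtain ⟨m, rfl⟩ := hdk
      rw [qExpand_coeff_mul]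
      have hm : m < 0 := by
        by_contra hm
        push Not at hm
        have := mul_nonneg hdpos.le hm
        omega
      rw [ofPowerSeries_coeff_of_neg _ hm]
    · rw [qExpand_coeff_of_not_dvd d _ hdk]
  · obtain ⟨n, rfl⟩ := Int.eq_ofNat_of_zero_le hk
    rw [HahnSeries.ofPowerSeries_apply_coeff]
    have h := qCoeff_comp_scaleN hx.periodic hx.holo hx.bdd d n
    unfold qCoeff at h
    rw [h]
    by_cases hdn : d ∣ n
    · rw [if_pos hdn]
      obtain ⟨m, rfl⟩ := hdn
      rw [Nat.mul_div_cancel_left _ (Nat.pos_of_ne_zero (NeZero.ne d))]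
      have : ((d * m : ℕ) : ℤ) = (d : ℤ) * (m : ℤ) := by push_cast; ring
      rw [this, qExpand_coeff_mul, HahnSeries.ofPowerSeries_apply_coeff]
    · rw [if_neg hdn, qExpand_coeff_of_not_dvd d _ (by exact_mod_cast hdn)]

/-- Laurent expansion of `z ↦ x (d z)` for nice `x`. -/
theorem laurentExp_comp_scaleH_of_nice {x : ℍ → ℂ} (hx : Nice 1 x) (d : ℕ) [NeZero d] :
    laurentExp 1 (fun z => x (scaleH d z)) = qExpand ℂ d (laurentExp 1 x) := by
  rw [laurentExp_of_nice one_pos (nice_comp_scaleH hx d), laurentExp_of_nice one_pos hx,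
    ofPowerSeries_qExpansion_comp_scaleH hx d]

/-! ### Moderate growth of `j_d` -/

theorem scaleH_vadd_one (d : ℕ) [NeZero d] (z : ℍ) :
    scaleH d ((1 : ℝ) +ᵥ z) = ModularGroup.T ^ (d : ℤ) • scaleH d z := by
  rw [UpperHalfPlane.modular_T_zpow_smul]
  apply UpperHalfPlane.ext
  simp [UpperHalfPlane.coe_vadd, mul_add]

theorem jN_vadd_one (d : ℕ) [NeZero d] (z : ℍ) : jN d ((1 : ℝ) +ᵥ z) = jN d z := by
  unfold jN
  rw [scaleH_vadd_one, jInv_smul]

theorem mg_jN (d : ℕ) [NeZero d] : MG 1 (jN d) := by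
  refine ⟨periodic_comp_ofComplex_of_vadd (jN_vadd_one d), mdifferentiable_jN d, d, ?_⟩
  obtain ⟨A₁, -, h1⟩ := norm_jN_smul_le d
  rw [UpperHalfPlane.isBoundedAtImInfty_iff]
  refine ⟨16, A₁, fun z hz => ?_⟩
  have h2 := h1 1 z hz
  rw [one_smul] at h2
  simp only [Pi.mul_apply, Pi.pow_apply, norm_mul, norm_pow, norm_qFun]
  have h3 : Real.exp (-2 * Real.pi * z.im / 1) ^ d = Real.exp (-(2 * Real.pi * (d * z.im))) := by
    rw [← Real.exp_nat_mul]
    congr 1
    ring
  rw [h3]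
  calc ‖jN d z‖ * Real.exp (-(2 * Real.pi * (d * z.im)))
      ≤ 16 * Real.exp (2 * Real.pi * (d * z.im)) * Real.exp (-(2 * Real.pi * (d * z.im))) := by
        gcongr
    _ = 16 := by
        rw [mul_assoc, ← Real.exp_add, add_neg_cancel, Real.exp_zero, mul_one]

/-! ### The formal identity `j_q * Δ_q = E₄(q)³` -/

theorem coeffMap_ofPowerSeries {R S : Type*} [CommRing R] [CommRing S] (f : R →+* S)
    (p : PowerSeries R) :
    coeffMap f (HahnSeries.ofPowerSeries ℤ R p) = HahnSeries.ofPowerSeries ℤ S (p.map f) := by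
  ext k
  rw [coeffMap_coeff]
  rcases lt_or_ge k 0 with hk | hk
  · rw [ofPowerSeries_coeff_of_neg _ hk, ofPowerSeries_coeff_of_neg _ hk, map_zero]
  · obtain ⟨n, rfl⟩ := Int.eq_ofNat_of_zero_le hk
    rw [HahnSeries.ofPowerSeries_apply_coeff, HahnSeries.ofPowerSeries_apply_coeff,
      PowerSeries.coeff_map]

theorem map_map_int {p : PowerSeries ℤ} :
    (p.map (Int.castRingHom ℚ)).map (algebraMap ℚ ℂ) = p.map (Int.castRingHom ℂ) := by
  ext n
  simp [PowerSeries.coeff_map]

/-- The prelude's formal `j`, base-changed to `ℂ`. -/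
theorem coeffEmb_jq :
    coeffEmb ℂ jq = HahnSeries.single (-1 : ℤ) (1 : ℂ) *
      HahnSeries.ofPowerSeries ℤ ℂ (jNum.map (Int.castRingHom ℂ)) := by
  unfold coeffEmb jq
  rw [map_mul, coeffMap_single, map_one, coeffMap_ofPowerSeries, jNumQ, map_map_int]

theorem ofPowerSeries_deltaZ :
    HahnSeries.ofPowerSeries ℤ ℂ (Real.deltaZ.map (Int.castRingHom ℂ)) =
      HahnSeries.single (1 : ℤ) (1 : ℂ) *
        HahnSeries.ofPowerSeries ℤ ℂ (dedekindEtaUnit.map (Int.castRingHom ℂ)) := by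
  rw [Real.deltaZ, map_mul, map_mul, PowerSeries.map_X, HahnSeries.ofPowerSeries_X]

/-- The formal identity `j * Δ = E₄ ^ 3` in `ℂ((q))`. -/
theorem coeffEmb_jq_mul_delta :
    coeffEmb ℂ jq * HahnSeries.ofPowerSeries ℤ ℂ (Real.deltaZ.map (Int.castRingHom ℂ)) =
      HahnSeries.ofPowerSeries ℤ ℂ (eisenstein4.map (Int.castRingHom ℂ)) ^ 3 := by
  rw [coeffEmb_jq, ofPowerSeries_deltaZ]
  have h1 : HahnSeries.single (-1 : ℤ) (1 : ℂ) * HahnSeries.single (1 : ℤ) (1 : ℂ) = 1 := by
    rw [HahnSeries.single_mul_single]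
    simp
  have h2 : jNum * dedekindEtaUnit = eisenstein4 ^ 3 := by
    rw [jNum, mul_assoc, mul_comm dedekindEtaUnitInv, dedekindEtaUnit_mul_inv, mul_one]
  calc HahnSeries.single (-1 : ℤ) (1 : ℂ) *
        HahnSeries.ofPowerSeries ℤ ℂ (jNum.map (Int.castRingHom ℂ)) *
        (HahnSeries.single (1 : ℤ) (1 : ℂ) *
          HahnSeries.ofPowerSeries ℤ ℂ (dedekindEtaUnit.map (Int.castRingHom ℂ)))
      = (HahnSeries.single (-1 : ℤ) (1 : ℂ) * HahnSeries.single (1 : ℤ) (1 : ℂ)) *
        (HahnSeries.ofPowerSeries ℤ ℂ (jNum.map (Int.castRingHom ℂ)) *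
          HahnSeries.ofPowerSeries ℤ ℂ (dedekindEtaUnit.map (Int.castRingHom ℂ))) := by ring
    _ = HahnSeries.ofPowerSeries ℤ ℂ ((jNum * dedekindEtaUnit).map (Int.castRingHom ℂ)) := by
        rw [h1, one_mul, ← map_mul, ← map_mul]
    _ = _ := by rw [h2, map_pow, map_pow]

/-! ### The analytic identity and the bridge -/

theorem nice_E4 : Nice 1 (⇑E₄ : ℍ → ℂ) := nice_of_modularForm E₄

theorem nice_discriminant : Nice 1 (Δ : ℍ → ℂ) :=
  ⟨SlashInvariantFormClass.periodic_comp_ofComplex CuspForm.discriminant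
      one_mem_strictPeriods_SL,
    ModularFormClass.holo CuspForm.discriminant,
    ModularFormClass.bdd_at_infty CuspForm.discriminant⟩

theorem jN_mul_discriminant (d : ℕ) [NeZero d] :
    jN d * (fun z => Δ (scaleH d z)) = (fun z => E₄ (scaleH d z)) ^ 3 := by
  funext z
  simp only [Pi.mul_apply, Pi.pow_apply, jN, jInv]
  exact div_mul_cancel₀ _ (ModularForm.discriminant_ne_zero _)

/-- **The bridge**: the Laurent expansion of `z ↦ j (d z)` is the prelude's formal `j_d`,
base-changed to `ℂ`. -/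
theorem laurentExp_jN (d : ℕ) [NeZero d] :
    laurentExp 1 (jN d) = coeffEmb ℂ (qExpand ℚ d jq) := by
  have hΔ := nice_comp_scaleH nice_discriminant d
  have hE := nice_comp_scaleH nice_E4 d
  -- analytic identity on Laurent expansions
  have h1 : laurentExp 1 (jN d) * laurentExp 1 (fun z => Δ (scaleH d z)) =
      laurentExp 1 (fun z => E₄ (scaleH d z)) ^ 3 := by
    rw [← laurentExp_mul one_pos (mg_jN d) hΔ.mg, jN_mul_discriminant,
      laurentExp_pow one_pos hE.mg]
  rw [laurentExp_comp_scaleH_of_nice nice_discriminant, laurentExp_comp_scaleH_of_nice nice_E4,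
    laurentExp_of_nice one_pos nice_discriminant, laurentExp_of_nice one_pos nice_E4,
    Real.qExpansion_discriminant, Real.qExpansion_E4] at h1
  -- formal identity, pushed through `qExpand`
  have h2 := congrArg (qExpand ℂ d) coeffEmb_jq_mul_delta
  rw [map_mul, map_pow] at h2
  have h3 : coeffEmb ℂ (qExpand ℚ d jq) = qExpand ℂ d (coeffEmb ℂ jq) :=
    coeffMap_qExpand (algebraMap ℚ ℂ) d jq
  rw [h3]
  have hne : qExpand ℂ d (HahnSeries.ofPowerSeries ℤ ℂ
      (Real.deltaZ.map (Int.castRingHom ℂ))) ≠ 0 := by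
    intro h0
    have h4 := congrArg (fun s : LaurentSeries ℂ => s.coeff ((d : ℤ) * 1)) h0
    simp only [qExpand_coeff_mul, HahnSeries.coeff_zero] at h4
    rw [show (1 : ℤ) = ((1 : ℕ) : ℤ) from rfl, HahnSeries.ofPowerSeries_apply_coeff,
      ← Real.qExpansion_discriminant, ModularForm.discriminant_qExpansion_coeff_one] at h4
    exact one_ne_zero h4
  exact mul_right_cancel₀ hne (h1.trans h2.symm)

/-- The bridge for an arbitrary coefficient field `K` with `e : K →+* ℂ`. -/
theorem coeffMap_coeffEmb_jq {K : Type*} [Field K] [Algebra ℚ K] (e : K →+* ℂ)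
    (d : ℕ) [NeZero d] :
    coeffMap e (coeffEmb K (qExpand ℚ d jq)) = laurentExp 1 (jN d) := by
  rw [laurentExp_jN, coeffEmb, coeffEmb, coeffMap_coeffMap]
  exact coeffMap_congr (Subsingleton.elim _ _) _

end Fermat.Agent.S24.H19R
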