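import Mathlib

/-!
# S24, package COMB (part 2): orbits of an element of prime order

Generic counting lemma: if `g ^ m` acts trivially on a finite set `X` (`m` prime), then
`m * #(orbits of ⟨g⟩) = #X + (m - 1) * #(fixed points of g)`.
-/

set_option autoImplicit false

namespace Fermat.Agent.S24.Comb

open MulAction

section Generic

variable {G X : Type*} [Group G] [MulAction G X]

/-- The orbit relation of `zpowers g` in terms of integer powers. -/
theorem orbitRel_zpowers_iff (g : G) (x y : X) :
    (orbitRel (Subgroup.zpowers g) X) x y ↔ ∃ k : ℤ, g ^ k • y = x := by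
  rw [orbitRel_apply, mem_orbit_iff]
  constructor
  · rintro ⟨⟨h, hh⟩, rfl⟩
    obtain ⟨k, rfl⟩ := Subgroup.mem_zpowers_iff.1 hh
    exact ⟨k, rfl⟩
  · rintro ⟨k, rfl⟩
    exact ⟨⟨g ^ k, Subgroup.zpow_mem_zpowers g k⟩, rfl⟩

/-- The orbits of `zpowers g` on `X` and of `zpowers (toPerm g)` on `X` agree. -/
noncomputable def orbitsEquivPerm (g : G) :
    orbitRel.Quotient (Subgroup.zpowers g) X ≃
      orbitRel.Quotient (Subgroup.zpowers (MulAction.toPerm g : Equiv.Perm X)) X :=
  Quotient.congrRight fun x y => by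
    rw [orbitRel_zpowers_iff, orbitRel_zpowers_iff]
    refine exists_congr fun k => ?_
    have h := map_zpow (MulAction.toPermHom G X) g k
    have : ((MulAction.toPerm g : Equiv.Perm X) ^ k) • y = g ^ k • y := by
      show ((MulAction.toPermHom G X g) ^ k) y = _
      rw [← h]
      rfl
    rw [this]

end Generic

section Perm

variable {X : Type*}

theorem fixedBy_eq_of_mem_zpowers {σ z : Equiv.Perm X} (hz : z ∈ Subgroup.zpowers σ) :
    fixedBy X σ ⊆ fixedBy X z := by
  obtain ⟨k, rfl⟩ := Subgroup.mem_zpowers_iff.1 hz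
  intro x hx
  rw [mem_fixedBy] at hx ⊢
  exact Equiv.Perm.zpow_apply_eq_self_of_apply_eq_self hx k

/-- If `σ ^ m = 1` with `m` prime then every non-identity power of `σ` has the same fixed points
as `σ`. -/
theorem fixedBy_eq_of_prime {σ : Equiv.Perm X} {m : ℕ} (hm : m.Prime) (hσ : σ ^ m = 1)
    {z : Equiv.Perm X} (hz : z ∈ Subgroup.zpowers σ) (hz1 : z ≠ 1) :
    fixedBy X z = fixedBy X σ := by
  refine Set.Subset.antisymm ?_ (fixedBy_eq_of_mem_zpowers hz)
  obtain ⟨k, rfl⟩ := Subgroup.mem_zpowers_iff.1 hz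
  -- `k` is prime to `m`
  have hkm : ¬ (m : ℤ) ∣ k := by
    rintro ⟨j, rfl⟩
    apply hz1
    rw [zpow_mul, zpow_natCast, hσ, one_zpow]
  have hcop : IsCoprime (m : ℤ) k :=
    (Nat.prime_iff_prime_int.1 hm).coprime_iff_not_dvd.2 hkm
  obtain ⟨a, b, hab⟩ := hcop
  have hσk : σ = (σ ^ k) ^ b := by
    have h1 : σ ^ (a * (m : ℤ) + b * k) = σ := by rw [hab, zpow_one]
    rw [zpow_add, zpow_mul', zpow_natCast, hσ, one_zpow, one_mul, mul_comm, zpow_mul] at h1
    exact h1.symm
  have := fixedBy_eq_of_mem_zpowers (X := X) (σ := σ ^ k) (z := σ)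
    (Subgroup.mem_zpowers_iff.2 ⟨b, hσk.symm⟩)
  exact this

variable [Finite X]

/-- Generic orbit count for permutations: if `σ ^ m = 1` with `m` prime, then
`m * #orbits = #X + (m - 1) * #fixed points`. -/
theorem prime_mul_card_orbits_perm (σ : Equiv.Perm X) {m : ℕ} (hm : m.Prime) (hσ : σ ^ m = 1) :
    m * Nat.card (orbitRel.Quotient (Subgroup.zpowers σ) X) =
      Nat.card X + (m - 1) * Nat.card (fixedBy X σ) := by
  classical
  letI : Fintype X := Fintype.ofFinite X
  letI : Fintype (Subgroup.zpowers σ) := Fintype.ofFinite _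
  letI : Fintype (orbitRel.Quotient (Subgroup.zpowers σ) X) := Fintype.ofFinite _
  letI : ∀ z : Subgroup.zpowers σ, Fintype (fixedBy X z) := fun z => Fintype.ofFinite _
  have hB := sum_card_fixedBy_eq_card_orbits_mul_card_group (Subgroup.zpowers σ) X
  set c := Nat.card (orbitRel.Quotient (Subgroup.zpowers σ) X) with hc
  set f := Nat.card (fixedBy X σ) with hf
  have hfix : ∀ z : Subgroup.zpowers σ, z ≠ 1 → Fintype.card (fixedBy X z) = f := by
    intro z hz
    have hz' : (z : Equiv.Perm X) ≠ 1 := fun h => hz (Subtype.ext h)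
    have hset : fixedBy X z = fixedBy X σ := by
      have := fixedBy_eq_of_prime (X := X) hm hσ z.2 hz'
      ext x
      rw [← this]
      rfl
    rw [← Nat.card_eq_fintype_card, hf]
    exact Nat.card_congr (Equiv.setCongr hset)
  have hone : Fintype.card (fixedBy X (1 : Subgroup.zpowers σ)) = Nat.card X := by
    rw [← Nat.card_eq_fintype_card]
    refine Nat.card_congr ((Equiv.setCongr ?_).trans (Equiv.Set.univ X))
    ext x
    simp
  have hsum : (∑ z : Subgroup.zpowers σ, Fintype.card (fixedBy X z)) =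
      Nat.card X + (Fintype.card (Subgroup.zpowers σ) - 1) * f := by
    rw [← Finset.add_sum_erase Finset.univ _ (Finset.mem_univ (1 : Subgroup.zpowers σ)), hone]
    congr 1
    rw [Finset.sum_congr rfl (fun z hz => hfix z (Finset.ne_of_mem_erase hz)),
      Finset.sum_const, Finset.card_erase_of_mem (Finset.mem_univ _), Finset.card_univ,
      smul_eq_mul]
  rw [hsum, ← Nat.card_eq_fintype_card (α := orbitRel.Quotient (Subgroup.zpowers σ) X),
    ← Nat.card_eq_fintype_card (α := Subgroup.zpowers σ), Nat.card_zpowers] at hB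
  have hdvd : orderOf σ ∣ m := orderOf_dvd_of_pow_eq_one hσ
  rcases (Nat.dvd_prime hm).1 hdvd with h1 | h1
  · -- σ = 1
    rw [h1] at hB
    have hσ1 : σ = 1 := orderOf_eq_one_iff.1 h1
    have hfX : f = Nat.card X := by
      rw [hf]
      refine Nat.card_congr ((Equiv.setCongr ?_).trans (Equiv.Set.univ X))
      ext x
      simp [hσ1]
    have hcX : c = Nat.card X := by
      simp only [Nat.sub_self, zero_mul, add_zero, mul_one] at hB
      exact hB.symm
    rw [hcX, hfX]
    have hm1 : 1 ≤ m := hm.one_lt.le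
    obtain ⟨m', rfl⟩ : ∃ m', m = m' + 1 := ⟨m - 1, by omega⟩
    simp only [Nat.add_sub_cancel]
    ring
  · rw [h1] at hB
    rw [mul_comm, ← hB]

end Perm

section Action

variable {G X : Type*} [Group G] [MulAction G X] [Finite X]

/-- Generic orbit count: if `g ^ m` acts trivially on the finite set `X` (`m` prime), then
`m * #(orbits of ⟨g⟩) = #X + (m - 1) * #(fixed points of g)`. -/
theorem prime_mul_card_orbits (g : G) {m : ℕ} (hm : m.Prime) (hg : ∀ x : X, g ^ m • x = x) :
    m * Nat.card (orbitRel.Quotient (Subgroup.zpowers g) X) =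
      Nat.card X + (m - 1) * Nat.card (fixedBy X g) := by
  have hσ : (MulAction.toPerm g : Equiv.Perm X) ^ m = 1 := by
    ext x
    have h := map_pow (MulAction.toPermHom G X) g m
    show ((MulAction.toPermHom G X g) ^ m) x = x
    rw [← h]
    exact hg x
  have h := prime_mul_card_orbits_perm (MulAction.toPerm g : Equiv.Perm X) hm hσ
  rw [← Nat.card_congr (orbitsEquivPerm (X := X) g)] at h
  have hfix : fixedBy X (MulAction.toPerm g : Equiv.Perm X) = fixedBy X g := by
    ext x
    rfl
  rw [hfix] at h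
  exact h

end Action

end Fermat.Agent.S24.Comb
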