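import Fermat.Agent.S24.H9_CombBasic
import Fermat.Agent.S24.H9_CombOrbit

/-!
# S24, package COMB (part 3): orbit counts of `S` and `S * T` and the genus count

* `two_mul_card_orbits_S : 2 * #orbits(⟨S⟩) = #X + nuTwo N`,
* `three_mul_card_orbits_ST : 3 * #orbits(⟨S * T⟩) = #X + 2 * nuThree N`,
* `genus_count`: with `#X = dedekindPsi N` and `#orbits(⟨T⟩) = cuspCount N`,
  `#X - c_S - c_ST - c_T = 2 * genusFormula N - 2`.
-/

set_option autoImplicit false

open scoped MatrixGroups
open CongruenceSubgroup ModularCurve MulAction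

namespace Fermat.Agent.S24.Comb

variable {N : ℕ}

/-- `S ^ 2 = -1` acts trivially on the coset space. -/
theorem S_sq_smul (x : X N) : ModularGroup.S ^ 2 • x = x := by
  induction x using QuotientGroup.induction_on with
  | H g =>
    rw [pow_two, mul_smul, smul_mk, smul_mk, mk_eq_mk_iff, S_mul_zero_zero, S_mul_one_zero,
      S_mul_one_zero, S_mul_zero_zero]
    push_cast
    ring

/-- `(S * T) ^ 3 = -1` acts trivially on the coset space. -/
theorem ST_cube_smul (x : X N) : (ModularGroup.S * ModularGroup.T) ^ 3 • x = x := by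
  induction x using QuotientGroup.induction_on with
  | H g =>
    rw [pow_succ, pow_two, mul_smul, mul_smul, smul_mk, smul_mk, smul_mk, mk_eq_mk_iff]
    simp only [ST_mul_zero_zero, ST_mul_one_zero]
    push_cast
    ring

variable [NeZero N]

instance finite_X : Finite (X N) := Subgroup.finite_quotient_of_finiteIndex

/-- (C5a) Twice the number of `⟨S⟩`-orbits on `SL(2, ℤ) ⧸ Γ₀(N)`. -/
theorem two_mul_card_orbits_S :
    2 * Nat.card (orbitRel.Quotient (Subgroup.zpowers ModularGroup.S) (X N)) =
      Nat.card (X N) + nuTwo N := by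
  have h := prime_mul_card_orbits (X := X N) ModularGroup.S Nat.prime_two S_sq_smul
  rw [card_fixedBy_S, show (2 - 1) * nuTwo N = nuTwo N by norm_num] at h
  exact h

/-- (C5b) Three times the number of `⟨S * T⟩`-orbits on `SL(2, ℤ) ⧸ Γ₀(N)`. -/
theorem three_mul_card_orbits_ST :
    3 * Nat.card (orbitRel.Quotient (Subgroup.zpowers (ModularGroup.S * ModularGroup.T)) (X N)) =
      Nat.card (X N) + 2 * nuThree N := by
  have h := prime_mul_card_orbits (X := X N) (ModularGroup.S * ModularGroup.T) Nat.prime_three
    ST_cube_smul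
  rw [card_fixedBy_ST, show (3 - 1) * nuThree N = 2 * nuThree N by norm_num] at h
  exact h

/-- (C5c) The Riemann–Hurwitz count: the "Euler characteristic" of the triple of permutations
`S, S * T, T` on the cosets equals `2 * genusFormula N - 2`, given the index formula and the
count of cusps. -/
theorem genus_count (hμ : Nat.card (X N) = dedekindPsi N)
    (hT : Nat.card (orbitRel.Quotient (Subgroup.zpowers ModularGroup.T) (X N)) = cuspCount N) :
    ((Nat.card (X N) : ℚ)
        - (Nat.card (orbitRel.Quotient (Subgroup.zpowers ModularGroup.S) (X N)) : ℚ)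
        - (Nat.card (orbitRel.Quotient
            (Subgroup.zpowers (ModularGroup.S * ModularGroup.T)) (X N)) : ℚ)
        - (Nat.card (orbitRel.Quotient (Subgroup.zpowers ModularGroup.T) (X N)) : ℚ))
      = 2 * genusFormula N - 2 := by
  have h2 := two_mul_card_orbits_S (N := N)
  have h3 := three_mul_card_orbits_ST (N := N)
  have h2' : (2 : ℚ) * (Nat.card (orbitRel.Quotient (Subgroup.zpowers ModularGroup.S) (X N)) : ℚ)
      = (Nat.card (X N) : ℚ) + (nuTwo N : ℚ) := by exact_mod_cast h2
  have h3' : (3 : ℚ) * (Nat.card (orbitRel.Quotient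
      (Subgroup.zpowers (ModularGroup.S * ModularGroup.T)) (X N)) : ℚ)
      = (Nat.card (X N) : ℚ) + 2 * (nuThree N : ℚ) := by exact_mod_cast h3
  rw [hT, genusFormula]
  rw [hμ] at h2' h3' ⊢
  linarith

end Fermat.Agent.S24.Comb
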