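import Fermat.Agent.S24.H19_Comb2
import Fermat.Agent.S24.H9_CombCount
import Fermat.Agent.S24.H16_CardX
import Fermat.Agent.S24.H12_OrbitsT

/-!
# S24 package ARITH (helper19): `genusFormula N` is a natural number

Glue between COMB (orbit counts on `SL(2, ℤ) ⧸ Γ₀(N)`, helper9 / helper16 / helper12) and
COMB2 (parity by sign + Scott's lemma, helper19).

* `exists_mem_closure_toPerm` : `⟨S, T⟩` acts transitively on the cosets.
* `exists_genus` : `∃ g : ℕ, #X - c_S - c_ST - c_T = 2 g - 2` in `ℤ`.
* `genusFormula_nat` : `∃ g : ℕ, genusFormula N = g`.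
* `genus_of_degree` : if `d = 2 * genusFormula N - 2` then `(d + 2).toNat / 2 = genusFormula N`.
-/

set_option autoImplicit false

open scoped MatrixGroups
open CongruenceSubgroup ModularCurve MulAction

namespace Fermat.Agent.S24.Arith

open Fermat.Agent.S24.Comb Fermat.Agent.S24.Comb2

variable (N : ℕ)

/-- `⟨S, T⟩ = SL(2, ℤ)` acts transitively on the coset space. -/
theorem exists_mem_closure_toPerm (x y : X N) :
    ∃ g ∈ Subgroup.closure ({MulAction.toPerm ModularGroup.S,
        MulAction.toPerm ModularGroup.T} : Set (Equiv.Perm (X N))), g x = y := by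
  obtain ⟨γ, hγ⟩ := MulAction.exists_smul_eq SL(2, ℤ) x y
  refine ⟨MulAction.toPerm γ, ?_, hγ⟩
  have hmem : γ ∈ Subgroup.closure {ModularGroup.S, ModularGroup.T} := by
    rw [SpecialLinearGroup.SL2Z_generators]; trivial
  have := Subgroup.mem_map_of_mem (MulAction.toPermHom SL(2, ℤ) (X N)) hmem
  rw [MonoidHom.map_closure, Set.image_pair] at this
  exact this

variable [NeZero N]

/-- The integer `#X - c_S - c_ST - c_T` is `2 g - 2` for a natural number `g`. -/
theorem exists_genus :
    ∃ g : ℕ, (Nat.card (X N) : ℤ)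
        - (Nat.card (orbitRel.Quotient (Subgroup.zpowers ModularGroup.S) (X N)) : ℤ)
        - (Nat.card (orbitRel.Quotient
            (Subgroup.zpowers (ModularGroup.S * ModularGroup.T)) (X N)) : ℤ)
        - (Nat.card (orbitRel.Quotient (Subgroup.zpowers ModularGroup.T) (X N)) : ℤ)
      = 2 * (g : ℤ) - 2 := by
  classical
  let _ : Fintype (X N) := Fintype.ofFinite _
  have : Nonempty (X N) := ⟨QuotientGroup.mk 1⟩
  have hmul : (MulAction.toPerm ModularGroup.S : Equiv.Perm (X N)) *
      MulAction.toPerm ModularGroup.T = MulAction.toPerm (ModularGroup.S * ModularGroup.T) :=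
    (map_mul (MulAction.toPermHom SL(2, ℤ) (X N)) _ _).symm
  obtain ⟨g, hg⟩ := exists_genus_of_mul_eq _ _ _ hmul (exists_mem_closure_toPerm N)
  rw [numCycles_toPerm, numCycles_toPerm, numCycles_toPerm, ← Nat.card_eq_fintype_card] at hg
  have hg' : (Nat.card (X N) : ℤ)
        - (Nat.card (orbitRel.Quotient (Subgroup.zpowers ModularGroup.S) (X N)) : ℤ)
        - (Nat.card (orbitRel.Quotient (Subgroup.zpowers ModularGroup.T) (X N)) : ℤ)
        - (Nat.card (orbitRel.Quotient
            (Subgroup.zpowers (ModularGroup.S * ModularGroup.T)) (X N)) : ℤ)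
      = 2 * (g : ℤ) - 2 := hg
  exact ⟨g, by rw [← hg']; ring⟩

/-- **`genusFormula N` is a natural number.** -/
theorem genusFormula_nat : ∃ g : ℕ, genusFormula N = (g : ℚ) := by
  obtain ⟨g, hg⟩ := exists_genus N
  refine ⟨g, ?_⟩
  have h := genus_count (N := N) (card_X N) (card_orbits_T N)
  have hg' : ((Nat.card (X N) : ℚ)
        - (Nat.card (orbitRel.Quotient (Subgroup.zpowers ModularGroup.S) (X N)) : ℚ)
        - (Nat.card (orbitRel.Quotient
            (Subgroup.zpowers (ModularGroup.S * ModularGroup.T)) (X N)) : ℚ)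
        - (Nat.card (orbitRel.Quotient (Subgroup.zpowers ModularGroup.T) (X N)) : ℚ))
      = 2 * (g : ℚ) - 2 := by exact_mod_cast hg
  linarith

lemma genusFormula_nonneg : 0 ≤ genusFormula N := by
  obtain ⟨g, hg⟩ := genusFormula_nat N
  rw [hg]; positivity

/-- **The finishing lemma**: if an integer `d` (the degree of a canonical divisor) equals
`2 * genusFormula N - 2`, then the prelude's `(d + 2).toNat / 2` equals `genusFormula N`. -/
theorem genus_of_degree (d : ℤ) (hd : (d : ℚ) = 2 * genusFormula N - 2) :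
    (((d + 2).toNat / 2 : ℕ) : ℚ) = genusFormula N := by
  obtain ⟨g, hg⟩ := genusFormula_nat N
  rw [hg] at hd ⊢
  have hd' : d = 2 * (g : ℤ) - 2 := by exact_mod_cast hd
  have : (d + 2).toNat / 2 = g := by omega
  rw [this]

/-- The Riemann–Hurwitz count in `ℤ`-form: the integer `#X - c_S - c_ST - c_T`, cast to `ℚ`,
is `2 * genusFormula N - 2` (helper9's `genus_count` with the hypotheses discharged). -/
theorem genus_count_int :
    (((Nat.card (X N) : ℤ)
        - (Nat.card (orbitRel.Quotient (Subgroup.zpowers ModularGroup.S) (X N)) : ℤ)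
        - (Nat.card (orbitRel.Quotient
            (Subgroup.zpowers (ModularGroup.S * ModularGroup.T)) (X N)) : ℤ)
        - (Nat.card (orbitRel.Quotient (Subgroup.zpowers ModularGroup.T) (X N)) : ℤ) : ℤ) : ℚ)
      = 2 * genusFormula N - 2 := by
  have h := genus_count (N := N) (card_X N) (card_orbits_T N)
  push_cast
  linarith

end Fermat.Agent.S24.Arith
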