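import Mathlib

/-!
# S24, layer NORM (helper21): the generic Galois step

For a finite separable extension `F / K0`, a field `E` with `i : K0 →+* E` and a finite family
`sig : X → (F →+* E)` of pairwise distinct ring homomorphisms extending `i`:

* `card_le_finrank_of_distinct` : `Fintype.card X ≤ finrank K0 F`;
* `norm_eq_prod_of_card` : if moreover `finrank K0 F ≤ Fintype.card X`, then
  `i (Algebra.norm K0 h) = ∏ k, sig k h` for every `h : F` (and similarly for the trace).
-/

set_option autoImplicit false

namespace Fermat.Agent.S24.Mer

open Module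

section Galois

variable {K0 F E : Type*} [Field K0] [Field F] [Field E] [Algebra K0 F]
  {X : Type*} [Fintype X]

/-- The embedding into the algebraic closure attached to a ring hom extending `i`. -/
noncomputable def embBar (i : K0 →+* E) (s : F →+* E)
    (hs : ∀ a, s (algebraMap K0 F a) = i a) :
    letI : Algebra K0 (AlgebraicClosure E) := ((algebraMap E (AlgebraicClosure E)).comp i).toAlgebra
    F →ₐ[K0] AlgebraicClosure E :=
  letI : Algebra K0 (AlgebraicClosure E) := ((algebraMap E (AlgebraicClosure E)).comp i).toAlgebra
  { toRingHom := (algebraMap E (AlgebraicClosure E)).comp s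
    commutes' := fun a => by
      show (algebraMap E (AlgebraicClosure E)) (s (algebraMap K0 F a)) = _
      rw [hs]
      rfl }

lemma embBar_apply (i : K0 →+* E) (s : F →+* E) (hs : ∀ a, s (algebraMap K0 F a) = i a) (h : F) :
    letI : Algebra K0 (AlgebraicClosure E) := ((algebraMap E (AlgebraicClosure E)).comp i).toAlgebra
    embBar i s hs h = algebraMap E (AlgebraicClosure E) (s h) := rfl

lemma embBar_injective (i : K0 →+* E) (sig : X → (F →+* E))
    (hsig : ∀ k a, sig k (algebraMap K0 F a) = i a) (hinj : Function.Injective sig) :
    letI : Algebra K0 (AlgebraicClosure E) := ((algebraMap E (AlgebraicClosure E)).comp i).toAlgebra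
    Function.Injective (fun k => embBar i (sig k) (hsig k)) := by
  letI : Algebra K0 (AlgebraicClosure E) := ((algebraMap E (AlgebraicClosure E)).comp i).toAlgebra
  intro k l hkl
  apply hinj
  apply RingHom.ext
  intro h
  have := DFunLike.congr_fun hkl h
  simp only [embBar_apply] at this
  exact (algebraMap E (AlgebraicClosure E)).injective this

variable [FiniteDimensional K0 F] [Algebra.IsSeparable K0 F]

/-- **Lower bound for the degree**: pairwise distinct extensions of `i` to `F` are at most
`[F : K0]` in number. -/
theorem card_le_finrank_of_distinct (i : K0 →+* E) (sig : X → (F →+* E))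
    (hsig : ∀ k a, sig k (algebraMap K0 F a) = i a) (hinj : Function.Injective sig) :
    Fintype.card X ≤ finrank K0 F := by
  letI : Algebra K0 (AlgebraicClosure E) := ((algebraMap E (AlgebraicClosure E)).comp i).toAlgebra
  have h1 := Fintype.card_le_of_injective _ (embBar_injective i sig hsig hinj)
  rwa [AlgHom.card K0 F (AlgebraicClosure E)] at h1

/-- If there are `[F : K0]` pairwise distinct extensions of `i`, they are all the embeddings. -/
lemma embBar_bijective (i : K0 →+* E) (sig : X → (F →+* E))
    (hsig : ∀ k a, sig k (algebraMap K0 F a) = i a) (hinj : Function.Injective sig)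
    (hcard : finrank K0 F ≤ Fintype.card X) :
    letI : Algebra K0 (AlgebraicClosure E) := ((algebraMap E (AlgebraicClosure E)).comp i).toAlgebra
    Function.Bijective (fun k => embBar i (sig k) (hsig k)) := by
  letI : Algebra K0 (AlgebraicClosure E) := ((algebraMap E (AlgebraicClosure E)).comp i).toAlgebra
  rw [Fintype.bijective_iff_injective_and_card]
  refine ⟨embBar_injective i sig hsig hinj, ?_⟩
  rw [AlgHom.card K0 F (AlgebraicClosure E)]
  exact le_antisymm (card_le_finrank_of_distinct i sig hsig hinj) hcard

/-- **The norm is the product of the conjugates.** -/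
theorem norm_eq_prod_of_card (i : K0 →+* E) (sig : X → (F →+* E))
    (hsig : ∀ k a, sig k (algebraMap K0 F a) = i a) (hinj : Function.Injective sig)
    (hcard : finrank K0 F ≤ Fintype.card X) (h : F) :
    i (Algebra.norm K0 h) = ∏ k, sig k h := by
  letI : Algebra K0 (AlgebraicClosure E) := ((algebraMap E (AlgebraicClosure E)).comp i).toAlgebra
  apply (algebraMap E (AlgebraicClosure E)).injective
  have h1 := Algebra.norm_eq_prod_embeddings K0 (AlgebraicClosure E) h
  have h2 : (algebraMap K0 (AlgebraicClosure E)) (Algebra.norm K0 h)
      = algebraMap E (AlgebraicClosure E) (i (Algebra.norm K0 h)) := rfl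
  rw [← h2, h1, map_prod]
  exact (Fintype.prod_bijective _ (embBar_bijective i sig hsig hinj hcard) _ _
    (fun k => rfl)).symm

/-- **The trace is the sum of the conjugates.** -/
theorem trace_eq_sum_of_card (i : K0 →+* E) (sig : X → (F →+* E))
    (hsig : ∀ k a, sig k (algebraMap K0 F a) = i a) (hinj : Function.Injective sig)
    (hcard : finrank K0 F ≤ Fintype.card X) (h : F) :
    i (Algebra.trace K0 F h) = ∑ k, sig k h := by
  letI : Algebra K0 (AlgebraicClosure E) := ((algebraMap E (AlgebraicClosure E)).comp i).toAlgebra
  apply (algebraMap E (AlgebraicClosure E)).injective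
  have h1 := trace_eq_sum_embeddings (K := K0) (L := F) (AlgebraicClosure E) (x := h)
  have h2 : (algebraMap K0 (AlgebraicClosure E)) (Algebra.trace K0 F h)
      = algebraMap E (AlgebraicClosure E) (i (Algebra.trace K0 F h)) := rfl
  rw [← h2, h1, map_sum]
  exact (Fintype.sum_bijective _ (embBar_bijective i sig hsig hinj hcard) _ _
    (fun k => rfl)).symm

end Galois

end Fermat.Agent.S24.Mer
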