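import Fermat.Agent.S24.H21_Mer

/-!
# S24, layer MER (helper21): orders of vanishing at points of the upper half plane

* `ordN z f` : the order of vanishing of `f : HolH` at `z : ℍ` (a natural number; `0` for
  `f = 0`), defined as `analyticOrderNatAt (f ∘ ofComplex) z`;
* `ordE z x` : its extension to `MerH`, with values in `ℤ` (`0` for `x = 0`);
* the valuation rules and the behaviour under the translations `tau g`, `tauE g`.
-/

set_option autoImplicit false

open UpperHalfPlane
open scoped Manifold MatrixGroups Topology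

namespace Fermat.Agent.S24.Mer

/-- Holomorphic functions on `ℍ` are analytic at every point (after `ofComplex`). -/
lemma analyticAt_comp_ofComplex (f : HolH) (z : ℍ) :
    AnalyticAt ℂ ((f : ℍ → ℂ) ∘ ofComplex) (z : ℂ) :=
  (UpperHalfPlane.mdifferentiable_iff.mp f.2).analyticAt
    (isOpen_upperHalfPlaneSet.mem_nhds z.im_pos)

/-- The identity theorem: a nonzero holomorphic function has finite order everywhere. -/
lemma holH_order_ne_top (z : ℍ) {f : HolH} (hf : f ≠ 0) :
    analyticOrderAt ((f : ℍ → ℂ) ∘ ofComplex) (z : ℂ) ≠ ⊤ := by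
  intro htop
  rw [analyticOrderAt_eq_top] at htop
  apply hf
  apply Subtype.ext
  have han : AnalyticOnNhd ℂ ((f : ℍ → ℂ) ∘ ofComplex) {w : ℂ | 0 < w.im} :=
    (UpperHalfPlane.mdifferentiable_iff.mp f.2).analyticOnNhd isOpen_upperHalfPlaneSet
  have hpre : IsPreconnected {w : ℂ | 0 < w.im} :=
    (Complex.isConnected_of_upperHalfPlane subset_rfl (by grind)).isPreconnected
  have h0 := han.eqOn_zero_of_preconnected_of_eventuallyEq_zero hpre z.im_pos htop
  funext w
  have := h0 w.im_pos
  simpa using this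

/-- The order of vanishing of a holomorphic function at a point of `ℍ`. -/
noncomputable def ordN (z : ℍ) (f : HolH) : ℕ :=
  analyticOrderNatAt ((f : ℍ → ℂ) ∘ ofComplex) (z : ℂ)

lemma ordN_def (z : ℍ) (f : HolH) :
    ordN z f = analyticOrderNatAt ((f : ℍ → ℂ) ∘ ofComplex) (z : ℂ) := rfl

lemma cast_ordN (z : ℍ) {f : HolH} (hf : f ≠ 0) :
    ((ordN z f : ℕ) : ℕ∞) = analyticOrderAt ((f : ℍ → ℂ) ∘ ofComplex) (z : ℂ) :=
  Nat.cast_analyticOrderNatAt (holH_order_ne_top z hf)

@[simp] lemma ordN_zero (z : ℍ) : ordN z 0 = 0 := by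
  have h : analyticOrderAt (((0 : HolH) : ℍ → ℂ) ∘ ofComplex) (z : ℂ) = ⊤ := by
    rw [analyticOrderAt_eq_top]
    exact Filter.Eventually.of_forall fun w => rfl
  unfold ordN analyticOrderNatAt
  rw [h]
  rfl

lemma ordN_mul (z : ℍ) {f g : HolH} (hf : f ≠ 0) (hg : g ≠ 0) :
    ordN z (f * g) = ordN z f + ordN z g :=
  analyticOrderNatAt_mul (analyticAt_comp_ofComplex f z) (analyticAt_comp_ofComplex g z)
    (holH_order_ne_top z hf) (holH_order_ne_top z hg)

lemma ordN_eq_zero_iff (z : ℍ) {f : HolH} (hf : f ≠ 0) :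
    ordN z f = 0 ↔ (f : ℍ → ℂ) z ≠ 0 := by
  have h1 : ((ordN z f : ℕ) : ℕ∞) = 0 ↔ (f : ℍ → ℂ) z ≠ 0 := by
    rw [cast_ordN z hf, analyticOrderAt_eq_zero]
    simp [analyticAt_comp_ofComplex f z]
  rw [← h1]
  exact_mod_cast Iff.rfl

lemma ordN_pos_iff (z : ℍ) {f : HolH} (hf : f ≠ 0) :
    0 < ordN z f ↔ (f : ℍ → ℂ) z = 0 := by
  rw [Nat.pos_iff_ne_zero, Ne, ordN_eq_zero_iff z hf, not_not]

lemma min_ordN_le_ordN_add (z : ℍ) {f g : HolH} (hfg : f + g ≠ 0) (hf : f ≠ 0) (hg : g ≠ 0) :
    min (ordN z f) (ordN z g) ≤ ordN z (f + g) := by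
  have h := le_analyticOrderAt_add (f := (f : ℍ → ℂ) ∘ ofComplex)
    (g := (g : ℍ → ℂ) ∘ ofComplex) (z₀ := (z : ℂ))
  have hsum : ((f : ℍ → ℂ) ∘ ofComplex) + ((g : ℍ → ℂ) ∘ ofComplex)
      = (((f + g : HolH) : ℍ → ℂ) ∘ ofComplex) := rfl
  rw [hsum, ← cast_ordN z hf, ← cast_ordN z hg, ← cast_ordN z hfg] at h
  rcases le_total (ordN z f) (ordN z g) with hle | hle
  · rw [min_eq_left hle]
    rw [min_eq_left (by exact_mod_cast hle)] at h
    exact_mod_cast h
  · rw [min_eq_right hle]
    rw [min_eq_right (by exact_mod_cast hle)] at h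
    exact_mod_cast h

lemma ordN_constH (z : ℍ) {c : ℂ} (hc : c ≠ 0) : ordN z (constH c) = 0 := by
  have hne : constH c ≠ 0 := fun h => hc (constH_injective (h.trans (map_zero constH).symm))
  rw [ordN_eq_zero_iff z hne]
  simpa using hc

@[simp] lemma ordN_one (z : ℍ) : ordN z 1 = 0 := by
  rw [ordN_eq_zero_iff z one_ne_zero]
  exact one_ne_zero

/-- The order of vanishing is compatible with the translations. -/
lemma ordN_tau (g : SL(2, ℤ)) (z : ℍ) (f : HolH) :
    ordN z (tau g f) = ordN (g⁻¹ • z) f := by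
  have hdet : 0 < (Matrix.SpecialLinearGroup.mapGL ℝ g⁻¹).det.val := by
    simp
  have hcomp : ((tau g f : HolH) : ℍ → ℂ) ∘ ofComplex
      = ((f : ℍ → ℂ) ∘ ofComplex) ∘
        (fun w : ℂ => ((Matrix.SpecialLinearGroup.mapGL ℝ g⁻¹ • ofComplex w : ℍ) : ℂ)) := by
    funext w
    simp only [Function.comp_apply, tau_apply, ofComplex_apply]
    rfl
  unfold ordN analyticOrderNatAt
  rw [hcomp, analyticOrderAt_comp_of_deriv_ne_zero (UpperHalfPlane.analyticAt_smul hdet z)
    (UpperHalfPlane.deriv_smul_ne_zero hdet z)]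
  simp only [ofComplex_apply]
  rfl

/-! ### The order on the field of fractions -/

lemma algebraMap_MerH_injective : Function.Injective (algebraMap HolH MerH) :=
  IsFractionRing.injective HolH MerH

lemma algebraMap_MerH_ne_zero {a : HolH} (ha : a ≠ 0) : algebraMap HolH MerH a ≠ 0 :=
  (map_ne_zero_iff _ algebraMap_MerH_injective).mpr ha

/-- The order of a meromorphic function (a fraction of holomorphic functions) at a point of
`ℍ`; by convention `ordE z 0 = 0`. -/
noncomputable def ordE (z : ℍ) (x : MerH) : ℤ :=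
  open Classical in
  if x = 0 then 0 else
    (ordN z (IsLocalization.sec (nonZeroDivisors HolH) x).1 : ℤ)
      - (ordN z ((IsLocalization.sec (nonZeroDivisors HolH) x).2 : HolH) : ℤ)

@[simp] lemma ordE_zero (z : ℍ) : ordE z 0 = 0 := by
  simp [ordE]

/-- The order of a fraction. -/
lemma ordE_div (z : ℍ) {a b : HolH} (ha : a ≠ 0) (hb : b ≠ 0) :
    ordE z (algebraMap HolH MerH a / algebraMap HolH MerH b) = (ordN z a : ℤ) - ordN z b := by
  have ha' := algebraMap_MerH_ne_zero ha
  have hb' := algebraMap_MerH_ne_zero hb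
  have hx : algebraMap HolH MerH a / algebraMap HolH MerH b ≠ 0 := div_ne_zero ha' hb'
  unfold ordE
  rw [if_neg hx]
  have hspec := IsLocalization.sec_spec (nonZeroDivisors HolH)
    (algebraMap HolH MerH a / algebraMap HolH MerH b)
  set p := IsLocalization.sec (nonZeroDivisors HolH)
    (algebraMap HolH MerH a / algebraMap HolH MerH b) with hp
  have hs : (p.2 : HolH) ≠ 0 := nonZeroDivisors.coe_ne_zero p.2
  have hkey : a * (p.2 : HolH) = p.1 * b := by
    apply algebraMap_MerH_injective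
    rw [map_mul, map_mul, ← hspec]
    field_simp
  have hp1 : p.1 ≠ 0 := by
    intro h0
    rw [h0, zero_mul] at hkey
    exact (mul_ne_zero ha hs) hkey
  have := congrArg (ordN z) hkey
  rw [ordN_mul z ha hs, ordN_mul z hp1 hb] at this
  omega

lemma ordE_algebraMap (z : ℍ) (a : HolH) :
    ordE z (algebraMap HolH MerH a) = ordN z a := by
  by_cases ha : a = 0
  · simp [ha]
  · have := ordE_div z ha one_ne_zero
    simpa using this

/-- Every nonzero meromorphic function is a fraction of nonzero holomorphic functions. -/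
lemma exists_rep {x : MerH} (hx : x ≠ 0) :
    ∃ a b : HolH, a ≠ 0 ∧ b ≠ 0 ∧ x = algebraMap HolH MerH a / algebraMap HolH MerH b := by
  obtain ⟨a, b, hb, rfl⟩ := IsFractionRing.div_surjective (A := HolH) x
  have hb0 : b ≠ 0 := nonZeroDivisors.ne_zero hb
  refine ⟨a, b, ?_, hb0, rfl⟩
  rintro rfl
  simp at hx

lemma ordE_mul (z : ℍ) {x y : MerH} (hx : x ≠ 0) (hy : y ≠ 0) :
    ordE z (x * y) = ordE z x + ordE z y := by
  obtain ⟨a, b, ha, hb, rfl⟩ := exists_rep hx
  obtain ⟨c, d, hc, hd, rfl⟩ := exists_rep hy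
  have h : algebraMap HolH MerH a / algebraMap HolH MerH b *
      (algebraMap HolH MerH c / algebraMap HolH MerH d)
      = algebraMap HolH MerH (a * c) / algebraMap HolH MerH (b * d) := by
    rw [map_mul, map_mul, div_mul_div_comm]
  rw [h, ordE_div z (mul_ne_zero ha hc) (mul_ne_zero hb hd), ordE_div z ha hb, ordE_div z hc hd,
    ordN_mul z ha hc, ordN_mul z hb hd]
  push_cast
  ring

@[simp] lemma ordE_one (z : ℍ) : ordE z 1 = 0 := by
  have := ordE_algebraMap z 1
  simpa using this

lemma ordE_inv (z : ℍ) (x : MerH) : ordE z x⁻¹ = - ordE z x := by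
  by_cases hx : x = 0
  · simp [hx]
  · have h := ordE_mul z hx (inv_ne_zero hx)
    rw [mul_inv_cancel₀ hx, ordE_one] at h
    omega

lemma ordE_div' (z : ℍ) {x y : MerH} (hx : x ≠ 0) (hy : y ≠ 0) :
    ordE z (x / y) = ordE z x - ordE z y := by
  rw [div_eq_mul_inv, ordE_mul z hx (inv_ne_zero hy), ordE_inv]
  ring

lemma ordE_neg (z : ℍ) (x : MerH) : ordE z (-x) = ordE z x := by
  by_cases hx : x = 0
  · simp [hx]
  · have hm1 : ordE z (-1 : MerH) = 0 := by
      have h := ordE_mul z (x := (-1 : MerH)) (y := -1) (by simp) (by simp)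
      rw [neg_one_mul, neg_neg, ordE_one] at h
      omega
    have h := ordE_mul z (x := (-1 : MerH)) (y := x) (by simp) hx
    rw [neg_one_mul, hm1, zero_add] at h
    exact h

lemma ordE_prod (z : ℍ) {ι : Type*} (s : Finset ι) (x : ι → MerH) (h : ∀ i ∈ s, x i ≠ 0) :
    ordE z (∏ i ∈ s, x i) = ∑ i ∈ s, ordE z (x i) := by
  classical
  induction s using Finset.induction_on with
  | empty => simp
  | insert i s hi ih =>
    have h1 : x i ≠ 0 := h i (Finset.mem_insert_self i s)
    have h2 : ∀ j ∈ s, x j ≠ 0 := fun j hj => h j (Finset.mem_insert_of_mem hj)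
    rw [Finset.prod_insert hi, Finset.sum_insert hi,
      ordE_mul z h1 (Finset.prod_ne_zero_iff.mpr h2), ih h2]

lemma ordE_pow (z : ℍ) (x : MerH) (n : ℕ) : ordE z (x ^ n) = n * ordE z x := by
  by_cases hx : x = 0
  · rcases Nat.eq_zero_or_pos n with rfl | hn
    · simp
    · simp [hx, zero_pow hn.ne']
  · induction n with
    | zero => simp
    | succ n ih =>
      rw [pow_succ, ordE_mul z (pow_ne_zero n hx) hx, ih]
      push_cast
      ring

/-- The ultrametric inequality. -/
lemma min_ordE_le_ordE_add (z : ℍ) {x y : MerH} (hx : x ≠ 0) (hy : y ≠ 0) (hxy : x + y ≠ 0) :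
    min (ordE z x) (ordE z y) ≤ ordE z (x + y) := by
  obtain ⟨a, b, ha, hb, rfl⟩ := exists_rep hx
  obtain ⟨c, d, hc, hd, rfl⟩ := exists_rep hy
  have hb' := algebraMap_MerH_ne_zero hb
  have hd' := algebraMap_MerH_ne_zero hd
  have h : algebraMap HolH MerH a / algebraMap HolH MerH b +
      (algebraMap HolH MerH c / algebraMap HolH MerH d)
      = algebraMap HolH MerH (a * d + c * b) / algebraMap HolH MerH (b * d) := by
    rw [map_add, map_mul, map_mul, map_mul]
    field_simp
  have hnum : a * d + c * b ≠ 0 := by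
    intro h0
    rw [h, h0, map_zero, zero_div] at hxy
    exact hxy rfl
  have hmin := min_ordN_le_ordN_add z hnum (mul_ne_zero ha hd) (mul_ne_zero hc hb)
  rw [ordN_mul z ha hd, ordN_mul z hc hb] at hmin
  rw [h, ordE_div z hnum (mul_ne_zero hb hd), ordE_div z ha hb, ordE_div z hc hd,
    ordN_mul z hb hd]
  push_cast
  rcases le_total (ordN z a + ordN z d) (ordN z c + ordN z b) with hle | hle
  · rw [min_eq_left hle] at hmin
    have : (ordN z a : ℤ) - ordN z b ≤ (ordN z c : ℤ) - ordN z d := by omega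
    rw [min_eq_left this]
    omega
  · rw [min_eq_right hle] at hmin
    have : (ordN z c : ℤ) - ordN z d ≤ (ordN z a : ℤ) - ordN z b := by omega
    rw [min_eq_right this]
    omega

/-- Nonzero constants have order `0`. -/
lemma ordE_constH (z : ℍ) (c : ℂ) : ordE z (algebraMap HolH MerH (constH c)) = 0 := by
  rw [ordE_algebraMap]
  by_cases hc : c = 0
  · simp [hc]
  · simp [ordN_constH z hc]

/-- The order is compatible with the translations. -/
lemma ordE_tauE (g : SL(2, ℤ)) (z : ℍ) (x : MerH) :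
    ordE z (tauE g x) = ordE (g⁻¹ • z) x := by
  by_cases hx : x = 0
  · simp [hx]
  · obtain ⟨a, b, ha, hb, rfl⟩ := exists_rep hx
    have ha' : tau g a ≠ 0 := (map_ne_zero_iff _ (tau g).injective).mpr ha
    have hb' : tau g b ≠ 0 := (map_ne_zero_iff _ (tau g).injective).mpr hb
    rw [map_div₀, tauE_algebraMap, tauE_algebraMap, ordE_div z ha' hb', ordE_div _ ha hb,
      ordN_tau, ordN_tau]

/-- The order of a holomorphic function is nonnegative. -/
lemma ordE_algebraMap_nonneg (z : ℍ) (a : HolH) : 0 ≤ ordE z (algebraMap HolH MerH a) := by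
  rw [ordE_algebraMap]
  exact Int.natCast_nonneg _

/-- A holomorphic function has positive order exactly at its zeros. -/
lemma ordE_algebraMap_pos_iff (z : ℍ) {a : HolH} (ha : a ≠ 0) :
    0 < ordE z (algebraMap HolH MerH a) ↔ (a : ℍ → ℂ) z = 0 := by
  rw [ordE_algebraMap, ← ordN_pos_iff z ha]
  exact_mod_cast Iff.rfl

end Fermat.Agent.S24.Mer
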