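import Fermat.Agent.S24.H6_Frac
import Fermat.Agent.S24.H21_MerOrd
import Fermat.Agent.S24.H21_Galois
import Fermat.Agent.S24.H23_DegLower

/-!
# S24, layers MER + NORM (helper21): the embedding of the modular function field into `MerH`

`F = Real.FK K N` is the prelude function field `K(j_d : d ∣ N)`, realised by helper6's
`Real.rho e : AK K N →+* (ℍ → ℂ)`.

* `rhoH e : AK K N →+* HolH`, `iota e : FK K N →+* MerH` (the lift to the fraction fields);
* invariance of `iota e h` under `Γ₀(N)`, of `iota e` on `K⟮jF⟯` under `SL(2, ℤ)`;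
* `sig e k := tauE (Quotient.out k) ∘ iota e` for `k : SL(2, ℤ) ⧸ Γ₀(N)`: pairwise distinct;
* `card_le_finrank` (DEG, lower bound) and `iota_norm_eq_prod` (NORM): if
  `[F : K⟮jF⟯] ≤ μ` then `iota (N_{F/K(j)} h) = ∏ k, tauE (Quotient.out k) (iota h)`.
-/

set_option autoImplicit false
set_option linter.style.haveILetI false
set_option linter.unusedSectionVars false

open UpperHalfPlane CongruenceSubgroup IntermediateField
open scoped MatrixGroups Manifold

namespace Fermat.Agent.S24.Mer

open Fermat.Agent.S24.Real Fermat.Agent.S23.R4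

variable {K : Type*} [Field K] [Algebra ℚ K] (e : K →+* ℂ) {N : ℕ}

/-- The realisation `rho` with values in the ring of holomorphic functions. -/
noncomputable def rhoH : AK K N →+* HolH :=
  (rho (K := K) (N := N) e).codRestrict HolH (fun x => mdifferentiable_rho e x)

@[simp] lemma rhoH_coe (a : AK K N) : ((rhoH e a : HolH) : ℍ → ℂ) = rho e a := rfl

lemma rhoH_injective : Function.Injective (rhoH (K := K) (N := N) e) :=
  fun _ _ h => rho_injective e (congrArg Subtype.val h)

lemma rhoH_ne_zero {a : AK K N} (ha : a ≠ 0) : rhoH e a ≠ 0 :=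
  (map_ne_zero_iff _ (rhoH_injective e)).mpr ha

lemma rhoH_algebraMap (c : K) : rhoH e (algebraMap K (AK K N) c) = constH (e c) :=
  Subtype.ext (rho_algebraMap e c)

/-- The embedding of the modular function field into the field of meromorphic functions. -/
noncomputable def iota : FK K N →+* MerH :=
  letI : Algebra (AK K N) (FK K N) := (inclAK K N).toRingHom.toAlgebra
  haveI := isFractionRing_AK K N
  IsFractionRing.lift (A := AK K N) (K := FK K N) (g := (algebraMap HolH MerH).comp (rhoH e))
    (algebraMap_MerH_injective.comp (rhoH_injective e))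

lemma iota_incl (a : AK K N) :
    iota e (inclAK K N a) = algebraMap HolH MerH (rhoH e a) := by
  letI : Algebra (AK K N) (FK K N) := (inclAK K N).toRingHom.toAlgebra
  haveI := isFractionRing_AK K N
  exact IsFractionRing.lift_algebraMap
    (g := (algebraMap HolH MerH).comp (rhoH e))
    (algebraMap_MerH_injective.comp (rhoH_injective e)) a

lemma iota_injective : Function.Injective (iota (K := K) (N := N) e) :=
  (injective_iff_map_eq_zero (iota e)).mpr fun _ ha => (map_eq_zero (iota e)).1 ha

lemma iota_algebraMap (c : K) :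
    iota e (algebraMap K (FK K N) c) = algebraMap HolH MerH (constH (e c)) := by
  have h : algebraMap K (FK K N) c = inclAK K N (algebraMap K (AK K N) c) :=
    ((inclAK K N).commutes c).symm
  rw [h, iota_incl, rhoH_algebraMap]

variable (K N) in
/-- The function `j` as an element of the function field. -/
noncomputable def jF : FK K N := inclAK K N (jAK K N)

/-- The function `j` as a holomorphic function. -/
noncomputable def jH : HolH := ⟨jInv, mdifferentiable_jInv⟩

@[simp] lemma jH_coe : ((jH : HolH) : ℍ → ℂ) = jInv := rfl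

lemma rhoH_jAK : rhoH e (jAK K N) = jH := Subtype.ext (rho_jAK e)

lemma iota_jF : iota e (jF K N) = algebraMap HolH MerH jH := by
  rw [jF, iota_incl, rhoH_jAK]

/-- Every element of `F` is a fraction of elements of `AK`. -/
lemma exists_frac (h : FK K N) :
    ∃ a b : AK K N, b ≠ 0 ∧ h * inclAK K N b = inclAK K N a := by
  obtain ⟨a, ha, b, hb, hb0, hab⟩ := exists_div_of_mem_FK h.2
  refine ⟨⟨a, ha⟩, ⟨b, hb⟩, ?_, Subtype.ext hab⟩
  intro h0
  exact hb0 (congrArg Subtype.val h0)

lemma iota_eq_div (h : FK K N) (a b : AK K N) (hb : b ≠ 0)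
    (hab : h * inclAK K N b = inclAK K N a) :
    iota e h = algebraMap HolH MerH (rhoH e a) / algebraMap HolH MerH (rhoH e b) := by
  have hb' : algebraMap HolH MerH (rhoH e b) ≠ 0 := algebraMap_MerH_ne_zero (rhoH_ne_zero e hb)
  rw [eq_div_iff hb', ← iota_incl, ← iota_incl, ← map_mul, hab]

/-! ### Invariance -/

lemma tau_rhoH_of_mem {γ : SL(2, ℤ)} (hγ : γ ∈ Gamma0 N) (a : AK K N) :
    tau γ (rhoH e a) = rhoH e a := by
  apply Subtype.ext
  funext z
  show rho e a (γ⁻¹ • z) = rho e a z
  exact rho_smul_of_mem_Gamma0 e a (inv_mem hγ) z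

/-- The functions in the image of `iota` are invariant under `Γ₀(N)`. -/
lemma tauE_iota_of_mem {γ : SL(2, ℤ)} (hγ : γ ∈ Gamma0 N) (h : FK K N) :
    tauE γ (iota e h) = iota e h := by
  obtain ⟨a, b, hb, hab⟩ := exists_frac h
  rw [iota_eq_div e h a b hb hab, map_div₀, tauE_algebraMap, tauE_algebraMap,
    tau_rhoH_of_mem e hγ, tau_rhoH_of_mem e hγ]

lemma tau_jH (g : SL(2, ℤ)) : tau g jH = jH := by
  apply Subtype.ext
  funext z
  show jInv (g⁻¹ • z) = jInv z
  exact jInv_smul _ z

lemma tau_constH' (g : SL(2, ℤ)) (c : ℂ) : tau g (constH c) = constH c := rfl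

/-- The subfield of `F` of elements whose image is fixed by `tauE g`. -/
noncomputable def fixedField (g : SL(2, ℤ)) : IntermediateField K (FK K N) where
  carrier := {h | tauE g (iota e h) = iota e h}
  mul_mem' := fun {a b} ha hb => by
    show tauE g (iota e (a * b)) = iota e (a * b)
    rw [map_mul, map_mul, ha, hb]
  one_mem' := by
    show tauE g (iota e 1) = iota e 1
    rw [map_one, map_one]
  add_mem' := fun {a b} ha hb => by
    show tauE g (iota e (a + b)) = iota e (a + b)
    rw [map_add, map_add, ha, hb]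
  zero_mem' := by
    show tauE g (iota e 0) = iota e 0
    rw [map_zero, map_zero]
  algebraMap_mem' := fun c => by
    show tauE g (iota e (algebraMap K (FK K N) c)) = iota e (algebraMap K (FK K N) c)
    rw [iota_algebraMap, tauE_algebraMap, tau_constH']
  inv_mem' := fun a ha => by
    show tauE g (iota e a⁻¹) = iota e a⁻¹
    rw [map_inv₀, map_inv₀, ha]

lemma mem_fixedField (g : SL(2, ℤ)) (h : FK K N) :
    h ∈ fixedField e g ↔ tauE g (iota e h) = iota e h := Iff.rfl

lemma jF_mem_fixedField (g : SL(2, ℤ)) : jF K N ∈ fixedField e g := by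
  rw [mem_fixedField, iota_jF, tauE_algebraMap, tau_jH]

/-- The elements of `K(j)` are invariant under all of `SL(2, ℤ)`. -/
lemma tauE_iota_adjoin (g : SL(2, ℤ)) (a : K⟮jF K N⟯) :
    tauE g (iota e (a : FK K N)) = iota e (a : FK K N) := by
  have hle : K⟮jF K N⟯ ≤ fixedField e g := by
    rw [IntermediateField.adjoin_le_iff, Set.singleton_subset_iff]
    exact jF_mem_fixedField e g
  exact hle a.2

/-! ### The conjugates -/

/-- The conjugate embeddings `h ↦ (iota h) ∘ (g_k⁻¹ • ·)`, `g_k := Quotient.out k`. -/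
noncomputable def sig (k : SL(2, ℤ) ⧸ Gamma0 N) : FK K N →+* MerH :=
  (tauE (Quotient.out k)).toRingHom.comp (iota e)

@[simp] lemma sig_apply (k : SL(2, ℤ) ⧸ Gamma0 N) (h : FK K N) :
    sig e k h = tauE (Quotient.out k) (iota e h) := rfl

lemma sig_adjoin (k : SL(2, ℤ) ⧸ Gamma0 N) (a : K⟮jF K N⟯) :
    sig e k (algebraMap K⟮jF K N⟯ (FK K N) a) = iota e (algebraMap K⟮jF K N⟯ (FK K N) a) :=
  tauE_iota_adjoin e (Quotient.out k) a

/-- The conjugate of an element of `AK` is the translate of its realisation. -/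
lemma sig_incl (k : SL(2, ℤ) ⧸ Gamma0 N) (a : AK K N) :
    sig e k (inclAK K N a) = algebraMap HolH MerH (tau (Quotient.out k) (rhoH e a)) := by
  rw [sig_apply, iota_incl, tauE_algebraMap]

variable [NeZero N]

/-- The conjugates are pairwise distinct (they differ on `j_N`). -/
lemma sig_injective : Function.Injective (sig (K := K) (N := N) e) := by
  intro k l hkl
  by_contra hne
  obtain ⟨z, hz⟩ := Fermat.Agent.S24.DegLB.jCoset_ne N hne
  apply hz
  have h1 := DFunLike.congr_fun hkl (inclAK K N (jdAK K N N dvd_rfl))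
  rw [sig_incl, sig_incl] at h1
  have h2 := algebraMap_MerH_injective h1
  have h3 := congrFun (congrArg Subtype.val h2) z
  have h4 : ∀ k : SL(2, ℤ) ⧸ Gamma0 N,
      ((tau (Quotient.out k) (rhoH e (jdAK K N N dvd_rfl)) : HolH) : ℍ → ℂ) z
        = Fermat.Agent.S24.DegLB.jCoset N k z := by
    intro k
    conv_rhs => rw [← Quotient.out_eq' k]
    show rho e (jdAK K N N dvd_rfl) ((Quotient.out k)⁻¹ • z) = jN N ((Quotient.out k)⁻¹ • z)
    rw [rho_jdAK]
  rw [← h4 k, ← h4 l]
  exact h3

lemma charZero_adjoin_jF : CharZero K⟮jF K N⟯ := by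
  haveI : CharZero K := algebraRat.charZero K
  letI : Algebra K K⟮jF K N⟯ := (K⟮jF K N⟯).toSubalgebra.algebra
  exact charZero_of_injective_algebraMap (R := K) (algebraMap K _).injective

set_option synthInstance.maxHeartbeats 400000 in
lemma isSeparable_adjoin_jF [FiniteDimensional K⟮jF K N⟯ (FK K N)] :
    Algebra.IsSeparable K⟮jF K N⟯ (FK K N) := by
  haveI : CharZero K⟮jF K N⟯ := charZero_adjoin_jF
  exact inferInstance

include e in
/-- **DEG, lower bound**: `μ ≤ [F : K(j)]`. -/
theorem card_le_finrank [FiniteDimensional K⟮jF K N⟯ (FK K N)] :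
    Nat.card (SL(2, ℤ) ⧸ Gamma0 N) ≤ Module.finrank K⟮jF K N⟯ (FK K N) := by
  haveI : Algebra.IsSeparable K⟮jF K N⟯ (FK K N) := isSeparable_adjoin_jF
  letI : Fintype (SL(2, ℤ) ⧸ Gamma0 N) := Fintype.ofFinite _
  rw [Nat.card_eq_fintype_card]
  exact card_le_finrank_of_distinct ((iota e).comp (algebraMap K⟮jF K N⟯ (FK K N)))
    (sig e) (fun k a => sig_adjoin e k a) (sig_injective e)

/-- **NORM, function identity**: the norm of `h` down to `K(j)` is the product of the
translates of `h` over the cosets of `Γ₀(N)`. -/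
theorem iota_norm_eq_prod [FiniteDimensional K⟮jF K N⟯ (FK K N)]
    [Fintype (SL(2, ℤ) ⧸ Gamma0 N)]
    (hcard : Module.finrank K⟮jF K N⟯ (FK K N) ≤ Nat.card (SL(2, ℤ) ⧸ Gamma0 N))
    (h : FK K N) :
    iota e (algebraMap K⟮jF K N⟯ (FK K N) (Algebra.norm K⟮jF K N⟯ h))
      = ∏ k : SL(2, ℤ) ⧸ Gamma0 N, tauE (Quotient.out k) (iota e h) := by
  haveI : Algebra.IsSeparable K⟮jF K N⟯ (FK K N) := isSeparable_adjoin_jF
  rw [Nat.card_eq_fintype_card] at hcard
  exact norm_eq_prod_of_card ((iota e).comp (algebraMap K⟮jF K N⟯ (FK K N)))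
    (sig e) (fun k a => sig_adjoin e k a) (sig_injective e) hcard h

/-- **TRACE, function identity.** -/
theorem iota_trace_eq_sum [FiniteDimensional K⟮jF K N⟯ (FK K N)]
    [Fintype (SL(2, ℤ) ⧸ Gamma0 N)]
    (hcard : Module.finrank K⟮jF K N⟯ (FK K N) ≤ Nat.card (SL(2, ℤ) ⧸ Gamma0 N))
    (h : FK K N) :
    iota e (algebraMap K⟮jF K N⟯ (FK K N) (Algebra.trace K⟮jF K N⟯ (FK K N) h))
      = ∑ k : SL(2, ℤ) ⧸ Gamma0 N, tauE (Quotient.out k) (iota e h) := by
  haveI : Algebra.IsSeparable K⟮jF K N⟯ (FK K N) := isSeparable_adjoin_jF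
  rw [Nat.card_eq_fintype_card] at hcard
  exact trace_eq_sum_of_card ((iota e).comp (algebraMap K⟮jF K N⟯ (FK K N)))
    (sig e) (fun k a => sig_adjoin e k a) (sig_injective e) hcard h

end Fermat.Agent.S24.Mer
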