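import Mathlib

/-!
# S24, layer MER (helper21): holomorphic and meromorphic functions on the upper half plane

* `HolH` : the ring of holomorphic functions `ℍ → ℂ` (a domain, by the identity theorem);
* `MerH` : its field of fractions;
* `tau g` : the ring automorphism `f ↦ f ∘ (g⁻¹ • ·)` of `HolH` for `g : SL(2, ℤ)`, and its
  extension `tauE g` to `MerH`;
* `ordN z f` : the order of vanishing of `f : HolH` at `z`, and `ordE z : MerH → ℤ` its
  extension to `MerH`, with the valuation axioms and the behaviour under `tau`.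
-/

set_option autoImplicit false

open UpperHalfPlane
open scoped Manifold MatrixGroups Topology

namespace Fermat.Agent.S24.Mer

/-- The ring of holomorphic functions on the upper half plane. -/
def HolH : Subring (ℍ → ℂ) where
  carrier := {f | MDifferentiable 𝓘(ℂ) 𝓘(ℂ) f}
  mul_mem' := fun hf hg => hf.mul hg
  one_mem' := mdifferentiable_const
  add_mem' := fun hf hg => hf.add hg
  zero_mem' := mdifferentiable_const
  neg_mem' := fun hf => hf.neg

lemma mem_HolH {f : ℍ → ℂ} : f ∈ HolH ↔ MDifferentiable 𝓘(ℂ) 𝓘(ℂ) f := Iff.rfl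

lemma HolH.mdiff (f : HolH) : MDifferentiable 𝓘(ℂ) 𝓘(ℂ) (f : ℍ → ℂ) := f.2

instance : IsDomain HolH := by
  have : Nontrivial HolH := ⟨⟨0, 1, fun h => by
    have := congrFun (congrArg Subtype.val h) UpperHalfPlane.I
    simp at this⟩⟩
  have : NoZeroDivisors HolH := ⟨fun {a b} hab => by
    have h : (a : ℍ → ℂ) * (b : ℍ → ℂ) = 0 := congrArg Subtype.val hab
    rcases (UpperHalfPlane.mul_eq_zero_iff a.2 b.2).mp h with h0 | h0
    · left; exact Subtype.ext h0
    · right; exact Subtype.ext h0⟩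
  exact NoZeroDivisors.to_isDomain _

/-- The field of meromorphic functions on the upper half plane (fractions of holomorphic
functions). -/
abbrev MerH : Type := FractionRing HolH

/-- Constant functions. -/
def constH : ℂ →+* HolH where
  toFun c := ⟨fun _ => c, mdifferentiable_const⟩
  map_one' := rfl
  map_mul' _ _ := rfl
  map_zero' := rfl
  map_add' _ _ := rfl

@[simp] lemma constH_apply (c : ℂ) (z : ℍ) : (constH c : ℍ → ℂ) z = c := rfl

lemma constH_injective : Function.Injective constH := by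
  intro a b h
  have := congrFun (congrArg Subtype.val h) UpperHalfPlane.I
  simpa using this

/-- Holomorphy of `z ↦ f (γ • z)`. -/
lemma mdiff_comp_smul {f : ℍ → ℂ} (hf : MDifferentiable 𝓘(ℂ) 𝓘(ℂ) f) (γ : SL(2, ℤ)) :
    MDifferentiable 𝓘(ℂ) 𝓘(ℂ) (fun z : ℍ => f (γ • z)) := by
  have hdet : 0 < (Matrix.SpecialLinearGroup.mapGL ℝ γ).det.val := by
    simp
  have h := UpperHalfPlane.mdifferentiable_smul hdet
  exact hf.comp h

/-- The translation action of `SL(2, ℤ)` on holomorphic functions: `tau g f = f ∘ (g⁻¹ • ·)`. -/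
noncomputable def tau (g : SL(2, ℤ)) : HolH ≃+* HolH where
  toFun f := ⟨fun z => (f : ℍ → ℂ) (g⁻¹ • z), mdiff_comp_smul f.2 g⁻¹⟩
  invFun f := ⟨fun z => (f : ℍ → ℂ) (g • z), mdiff_comp_smul f.2 g⟩
  left_inv f := by
    apply Subtype.ext
    funext z
    show (f : ℍ → ℂ) (g⁻¹ • g • z) = (f : ℍ → ℂ) z
    rw [inv_smul_smul]
  right_inv f := by
    apply Subtype.ext
    funext z
    show (f : ℍ → ℂ) (g • g⁻¹ • z) = (f : ℍ → ℂ) z
    rw [smul_inv_smul]
  map_mul' _ _ := rfl
  map_add' _ _ := rfl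

@[simp] lemma tau_apply (g : SL(2, ℤ)) (f : HolH) (z : ℍ) :
    (tau g f : ℍ → ℂ) z = (f : ℍ → ℂ) (g⁻¹ • z) := rfl

lemma tau_one (f : HolH) : tau 1 f = f := by
  apply Subtype.ext
  funext z
  simp

lemma tau_mul (g h : SL(2, ℤ)) (f : HolH) : tau (g * h) f = tau g (tau h f) := by
  apply Subtype.ext
  funext z
  simp [mul_smul]

lemma tau_constH (g : SL(2, ℤ)) (c : ℂ) : tau g (constH c) = constH c := rfl

/-- The extension of `tau g` to the field of fractions. -/
noncomputable def tauE (g : SL(2, ℤ)) : MerH ≃+* MerH :=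
  IsFractionRing.ringEquivOfRingEquiv (tau g)

@[simp] lemma tauE_algebraMap (g : SL(2, ℤ)) (f : HolH) :
    tauE g (algebraMap HolH MerH f) = algebraMap HolH MerH (tau g f) :=
  IsFractionRing.ringEquivOfRingEquiv_algebraMap (tau g) f

lemma tauE_mul (g h : SL(2, ℤ)) (x : MerH) : tauE (g * h) x = tauE g (tauE h x) := by
  obtain ⟨a, b, hb, rfl⟩ := IsFractionRing.div_surjective (A := HolH) x
  simp [map_div₀, tau_mul]

lemma tauE_one (x : MerH) : tauE 1 x = x := by
  obtain ⟨a, b, hb, rfl⟩ := IsFractionRing.div_surjective (A := HolH) x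
  simp [map_div₀, tau_one]

end Fermat.Agent.S24.Mer
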