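import Mathlib

/-!
# S24 (M3)+(M4): the generic Galois step (helper22)

Let `F / K₀` be a finite separable field extension and `E` any field containing `K₀`.
A family of pairwise distinct `K₀`-embeddings `sig : X → (F →ₐ[K₀] E)` has at most
`[F : K₀]` members, and if it has exactly `[F : K₀]` members then norm and trace of `F / K₀`
are the product and the sum over the family:
`algebraMap K₀ E (norm h) = ∏ k, sig k h`, `algebraMap K₀ E (trace h) = ∑ k, sig k h`.
-/

set_option autoImplicit false

namespace Fermat.Agent.S24.H22

open Module

section AlgHom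

variable {K0 F E : Type*} [Field K0] [Field F] [Field E] [Algebra K0 F] [Algebra K0 E]
  {X : Type*} [Fintype X] (sig : X → (F →ₐ[K0] E))

/-- (G1) Pairwise distinct embeddings: at most `[F : K₀]` of them. -/
theorem card_le_finrank [FiniteDimensional K0 F] (hinj : Function.Injective sig) :
    Fintype.card X ≤ finrank K0 F := by
  have h1 : Nat.card X ≤ Nat.card (F →ₐ[K0] E) := Nat.card_le_card_of_injective sig hinj
  rw [Nat.card_eq_fintype_card] at h1
  exact h1.trans (card_algHom_le_finrank K0 F E)

variable [FiniteDimensional K0 F] [Algebra.IsSeparable K0 F]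

omit [Fintype X] [FiniteDimensional K0 F] [Algebra.IsSeparable K0 F] in
/-- The family composed with `E → AlgebraicClosure E`. -/
noncomputable def sigBar (k : X) : F →ₐ[K0] AlgebraicClosure E :=
  (IsScalarTower.toAlgHom K0 E (AlgebraicClosure E)).comp (sig k)

omit [Fintype X] [FiniteDimensional K0 F] [Algebra.IsSeparable K0 F] in
theorem sigBar_apply (k : X) (h : F) :
    sigBar sig k h = algebraMap E (AlgebraicClosure E) (sig k h) := rfl

omit [Fintype X] [FiniteDimensional K0 F] [Algebra.IsSeparable K0 F] in
theorem sigBar_injective (hinj : Function.Injective sig) : Function.Injective (sigBar sig) := by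
  intro k k' hkk'
  apply hinj
  ext h
  have := congrArg (fun σ : F →ₐ[K0] AlgebraicClosure E => σ h) hkk'
  simp only [sigBar_apply] at this
  exact (algebraMap E (AlgebraicClosure E)).injective this

theorem sigBar_bijective (hinj : Function.Injective sig)
    (hcard : Fintype.card X = finrank K0 F) : Function.Bijective (sigBar sig) := by
  rw [Fintype.bijective_iff_injective_and_card]
  refine ⟨sigBar_injective sig hinj, ?_⟩
  rw [hcard, AlgHom.card]

/-- (G2) A full family of embeddings computes the norm. -/
theorem norm_eq_prod (hinj : Function.Injective sig)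
    (hcard : Fintype.card X = finrank K0 F) (h : F) :
    algebraMap K0 E (Algebra.norm K0 h) = ∏ k, sig k h := by
  apply (algebraMap E (AlgebraicClosure E)).injective
  rw [← IsScalarTower.algebraMap_apply K0 E (AlgebraicClosure E),
    Algebra.norm_eq_prod_embeddings K0 (AlgebraicClosure E) h, map_prod]
  rw [← Fintype.prod_bijective (sigBar sig) (sigBar_bijective sig hinj hcard)
    (fun k => algebraMap E (AlgebraicClosure E) (sig k h)) (fun σ => σ h) (fun k => rfl)]

/-- (G2') A full family of embeddings computes the trace. -/
theorem trace_eq_sum (hinj : Function.Injective sig)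
    (hcard : Fintype.card X = finrank K0 F) (h : F) :
    algebraMap K0 E (Algebra.trace K0 F h) = ∑ k, sig k h := by
  apply (algebraMap E (AlgebraicClosure E)).injective
  rw [← IsScalarTower.algebraMap_apply K0 E (AlgebraicClosure E),
    trace_eq_sum_embeddings (AlgebraicClosure E) (K := K0) (L := F), map_sum]
  rw [← Fintype.sum_bijective (sigBar sig) (sigBar_bijective sig hinj hcard)
    (fun k => algebraMap E (AlgebraicClosure E) (sig k h)) (fun σ => σ h) (fun k => rfl)]

end AlgHom


section RingHom

variable {K0 F E : Type*} [Field K0] [Field F] [Field E] [Algebra K0 F]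
  [FiniteDimensional K0 F] {X : Type*} [Fintype X] (i : F →+* E)
  (sig : X → (F →+* E))

/-- The ring homomorphisms `sig k`, as `K₀`-algebra homomorphisms for the `K₀`-algebra structure
on `E` induced by `i`. -/
def sigAlg (hsig : ∀ k (c : K0), sig k (algebraMap K0 F c) = i (algebraMap K0 F c)) (k : X) :
    letI : Algebra K0 E := (i.comp (algebraMap K0 F)).toAlgebra
    F →ₐ[K0] E :=
  letI : Algebra K0 E := (i.comp (algebraMap K0 F)).toAlgebra
  { sig k with commutes' := fun c => hsig k c }

theorem sigAlg_injective (hsig : ∀ k (c : K0), sig k (algebraMap K0 F c) = i (algebraMap K0 F c))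
    (hinj : Function.Injective sig) :
    letI : Algebra K0 E := (i.comp (algebraMap K0 F)).toAlgebra
    Function.Injective (sigAlg i sig hsig) := by
  letI : Algebra K0 E := (i.comp (algebraMap K0 F)).toAlgebra
  intro k k' hkk'
  apply hinj
  ext h
  exact congrArg (fun σ : F →ₐ[K0] E => σ h) hkk'

/-- (G3) Pairwise distinct ring embeddings agreeing on `K₀`: at most `[F : K₀]` of them. -/
theorem card_le_finrank_ringHom
    (hsig : ∀ k (c : K0), sig k (algebraMap K0 F c) = i (algebraMap K0 F c))
    (hinj : Function.Injective sig) : Fintype.card X ≤ finrank K0 F := by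
  letI : Algebra K0 E := (i.comp (algebraMap K0 F)).toAlgebra
  exact card_le_finrank (sigAlg i sig hsig) (sigAlg_injective i sig hsig hinj)

variable [Algebra.IsSeparable K0 F]

/-- (G3) A full family of ring embeddings agreeing with `i` on `K₀` computes the norm. -/
theorem norm_eq_prod_ringHom
    (hsig : ∀ k (c : K0), sig k (algebraMap K0 F c) = i (algebraMap K0 F c))
    (hinj : Function.Injective sig) (hcard : Fintype.card X = finrank K0 F) (h : F) :
    i (algebraMap K0 F (Algebra.norm K0 h)) = ∏ k, sig k h := by
  letI : Algebra K0 E := (i.comp (algebraMap K0 F)).toAlgebra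
  exact norm_eq_prod (sigAlg i sig hsig) (sigAlg_injective i sig hsig hinj) hcard h

/-- (G3) A full family of ring embeddings agreeing with `i` on `K₀` computes the trace. -/
theorem trace_eq_sum_ringHom
    (hsig : ∀ k (c : K0), sig k (algebraMap K0 F c) = i (algebraMap K0 F c))
    (hinj : Function.Injective sig) (hcard : Fintype.card X = finrank K0 F) (h : F) :
    i (algebraMap K0 F (Algebra.trace K0 F h)) = ∑ k, sig k h := by
  letI : Algebra K0 E := (i.comp (algebraMap K0 F)).toAlgebra
  exact trace_eq_sum (sigAlg i sig hsig) (sigAlg_injective i sig hsig hinj) hcard h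

end RingHom

end Fermat.Agent.S24.H22
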