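import Fermat.Agent.S24.H23_DegLower

/-!
# S24, package DEG (lower bound, field level; owner of this leaf: helper23)

Abstract glue: let `F / K` be a field extension, `x, y : F` with `x` transcendental over `K`, and
let `e : K →+* ℂ`.  Assume that every polynomial relation `P (x, y) = 0`, `P ∈ K[X][Y]`, holds for
the functions `j` and `j_N` on the upper half plane (after mapping the coefficients by `e`).
Then `[F : K(x)] ≥ [SL(2, ℤ) : Γ₀(N)]`.
-/

set_option autoImplicit false

open UpperHalfPlane CongruenceSubgroup Polynomial IntermediateField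

open scoped MatrixGroups

namespace Fermat.Agent.S24.DegLB

open Fermat.Agent.S23.R4

variable {K F : Type*} [Field K] [Field F] [Algebra K F]

/-- The analytic value at `z` of a two-variable polynomial over `K`: `X ↦ j z`, `Y ↦ j (N z)`,
coefficients mapped by `e`. -/
noncomputable def evalJ (e : K →+* ℂ) (N : ℕ) [NeZero N] (P : Polynomial (Polynomial K))
    (z : ℍ) : ℂ :=
  P.eval₂ (Polynomial.eval₂RingHom e (jInv z)) (jN N z)

/-- The value in `F` of a two-variable polynomial over `K`: `X ↦ x`, `Y ↦ y`. -/
noncomputable def evalF (x y : F) (P : Polynomial (Polynomial K)) : F :=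
  P.eval₂ (Polynomial.eval₂RingHom (algebraMap K F) x) y

lemma evalJ_eq (e : K →+* ℂ) (N : ℕ) [NeZero N] (P : Polynomial (Polynomial K)) (z : ℍ) :
    evalJ e N P z =
      ((P.map (Polynomial.mapRingHom e)).map (Polynomial.evalRingHom (jInv z))).eval (jN N z) := by
  unfold evalJ
  rw [Polynomial.map_map, Polynomial.eval_map]
  congr 1
  ext a
  · simp
  · simp

/-- **Lower bound for the degree of a relation (coefficients in `K`).** -/
theorem card_le_natDegree_of_evalJ (e : K →+* ℂ) (N : ℕ) [NeZero N]
    (P : Polynomial (Polynomial K)) (hP : P ≠ 0) (h : ∀ z : ℍ, evalJ e N P z = 0) :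
    Nat.card (SL(2, ℤ) ⧸ Gamma0 N) ≤ P.natDegree := by
  have hinj : Function.Injective (Polynomial.mapRingHom e) := by
    intro a b hab
    exact Polynomial.map_injective e e.injective hab
  have hP' : P.map (Polynomial.mapRingHom e) ≠ 0 := by
    intro h0
    exact hP (Polynomial.map_injective _ hinj (by simpa using h0))
  have hdeg : (P.map (Polynomial.mapRingHom e)).natDegree = P.natDegree :=
    Polynomial.natDegree_map_eq_of_injective hinj P
  rw [← hdeg]
  exact card_le_natDegree N _ hP' fun z => by rw [← evalJ_eq]; exact h z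

/-- **Lower bound for the degree (field level).**  If every polynomial relation between `x` and
`y` over `K` is satisfied by `j` and `j_N`, then `[F : K(x)] ≥ μ`. -/
theorem card_le_finrank (e : K →+* ℂ) (N : ℕ) [NeZero N] (x y : F) (hx : Transcendental K x)
    [FiniteDimensional K⟮x⟯ F]
    (hreal : ∀ P : Polynomial (Polynomial K), evalF x y P = 0 → ∀ z : ℍ, evalJ e N P z = 0) :
    Nat.card (SL(2, ℤ) ⧸ Gamma0 N) ≤ Module.finrank K⟮x⟯ F := by
  classical
  -- the minimal polynomial of `y` over `K(x)`, transported to `RatFunc K`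
  set m : Polynomial K⟮x⟯ := minpoly K⟮x⟯ y with hm
  have hint : IsIntegral K⟮x⟯ y := Algebra.IsIntegral.isIntegral y
  have hm0 : m ≠ 0 := minpoly.ne_zero hint
  let φ : RatFunc K ≃ₐ[K] K⟮x⟯ := RatFunc.algEquivOfTranscendental x hx
  set m' : Polynomial (RatFunc K) := m.map (φ.symm : K⟮x⟯ →+* RatFunc K) with hm'
  obtain ⟨b, hbM, hb⟩ := IsLocalization.integerNormalization_spec (nonZeroDivisors K[X]) m'
  set P : Polynomial (Polynomial K) :=
    IsLocalization.integerNormalization (nonZeroDivisors K[X]) m' with hPdef
  have hb0 : b ≠ 0 := nonZeroDivisors.ne_zero hbM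
  -- push the identity `P.map algebraMap = b • m'` back to `K(x)`
  have hφ : ((φ : RatFunc K →+* K⟮x⟯).comp (algebraMap K[X] (RatFunc K))) =
      (Polynomial.aeval (AdjoinSimple.gen K x) : K[X] →ₐ[K] K⟮x⟯).toRingHom := by
    refine RingHom.ext fun p => ?_
    exact RatFunc.algEquivOfTranscendental_algebraMap x hx p
  have hmap : P.map (Polynomial.aeval (AdjoinSimple.gen K x) : K[X] →ₐ[K] K⟮x⟯).toRingHom =
      Polynomial.C (Polynomial.aeval (AdjoinSimple.gen K x) b) * m := by
    have h1 := congrArg (Polynomial.map (φ : RatFunc K →+* K⟮x⟯)) hb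
    rw [Polynomial.map_map, hφ] at h1
    rw [h1, Algebra.smul_def, Polynomial.map_mul, hm', Polynomial.map_map]
    have h2 : ((φ : RatFunc K →+* K⟮x⟯).comp (φ.symm : K⟮x⟯ →+* RatFunc K)) = RingHom.id _ := by
      ext a; simp
    rw [h2, Polynomial.map_id]
    congr 1
    rw [Polynomial.algebraMap_apply, Polynomial.map_C]
    congr 1
    exact RatFunc.algEquivOfTranscendental_algebraMap x hx b
  have hbx : Polynomial.aeval (AdjoinSimple.gen K x) b ≠ 0 := by
    intro h0
    have hx' : Transcendental K (AdjoinSimple.gen K x) := by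
      intro halg
      apply hx
      have := halg.algebraMap (A := F)
      simpa using this
    exact hb0 ((transcendental_iff.mp hx') _ h0)
  -- degree and nonvanishing of `P`
  have hPm : (P.map (Polynomial.aeval (AdjoinSimple.gen K x) : K[X] →ₐ[K] K⟮x⟯).toRingHom).natDegree
      = m.natDegree := by
    rw [hmap, Polynomial.natDegree_C_mul hbx]
  have hP0 : P ≠ 0 := by
    intro h0
    have : Polynomial.C (Polynomial.aeval (AdjoinSimple.gen K x) b) * m = 0 := by
      rw [← hmap, h0, Polynomial.map_zero]
    rcases mul_eq_zero.mp this with h | h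
    · exact hbx (Polynomial.C_eq_zero.mp h)
    · exact hm0 h
  have hdegP : m.natDegree ≤ P.natDegree := by
    rw [← hPm]; exact Polynomial.natDegree_map_le
  -- `P (x, y) = 0`
  have hPxy : evalF x y P = 0 := by
    unfold evalF
    have hcomp : (Polynomial.eval₂RingHom (algebraMap K F) x) =
        (algebraMap K⟮x⟯ F).comp
          (Polynomial.aeval (AdjoinSimple.gen K x) : K[X] →ₐ[K] K⟮x⟯).toRingHom := by
      ext a
      · simp
      · simp
    rw [hcomp, ← Polynomial.eval₂_map, hmap, Polynomial.eval₂_mul]
    have : Polynomial.eval₂ (algebraMap K⟮x⟯ F) y m = 0 := by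
      rw [hm, ← Polynomial.aeval_def]; exact minpoly.aeval _ _
    rw [this, mul_zero]
  have h1 := card_le_natDegree_of_evalJ e N P hP0 (hreal P hPxy)
  have h2 : m.natDegree ≤ Module.finrank K⟮x⟯ F := minpoly.natDegree_le y
  -- `natDegree P = natDegree m`
  have hdegP' : P.natDegree ≤ m.natDegree := by
    have hinj : Function.Injective
        (Polynomial.aeval (AdjoinSimple.gen K x) : K[X] →ₐ[K] K⟮x⟯).toRingHom := by
      have hx' : Transcendental K (AdjoinSimple.gen K x) := by
        intro halg
        apply hx
        have := halg.algebraMap (A := F)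
        simpa using this
      exact transcendental_iff_injective.mp hx'
    rw [← hPm, Polynomial.natDegree_map_eq_of_injective hinj]
  omega

/-- The realisation hypothesis forces `x` to be transcendental over `K` (because `j` is not
constant). -/
theorem transcendental_of_hreal (e : K →+* ℂ) (N : ℕ) [NeZero N] (x y : F)
    (hreal : ∀ P : Polynomial (Polynomial K), evalF x y P = 0 → ∀ z : ℍ, evalJ e N P z = 0) :
    Transcendental K x := by
  classical
  rw [transcendental_iff]
  intro p hp
  by_contra hp0
  have h1 : evalF x y (Polynomial.C p) = 0 := by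
    unfold evalF
    rw [Polynomial.eval₂_C]
    simpa [Polynomial.aeval_def] using hp
  have h2 := hreal _ h1
  have hpe : p.map e ≠ 0 := by
    intro h0
    exact hp0 (Polynomial.map_injective e e.injective (by simpa using h0))
  obtain ⟨z, hz, -⟩ := exists_point_injective N (p.map e).roots.toFinset
  apply hz
  rw [Multiset.mem_toFinset, Polynomial.mem_roots hpe, Polynomial.IsRoot.def, Polynomial.eval_map]
  have := h2 z
  unfold evalJ at this
  rw [Polynomial.eval₂_C] at this
  simpa using this

/-- **Lower bound for the degree (field level)**, without the transcendence hypothesis. -/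
theorem card_le_finrank' (e : K →+* ℂ) (N : ℕ) [NeZero N] (x y : F)
    [FiniteDimensional K⟮x⟯ F]
    (hreal : ∀ P : Polynomial (Polynomial K), evalF x y P = 0 → ∀ z : ℍ, evalJ e N P z = 0) :
    Nat.card (SL(2, ℤ) ⧸ Gamma0 N) ≤ Module.finrank K⟮x⟯ F :=
  card_le_finrank e N x y (transcendental_of_hreal e N x y hreal) hreal

/-- The realisation hypothesis from a ring homomorphism `ρ` defined on a `K`-algebra `A` that
embeds into `F`: it suffices that `ρ` maps constants to constants and two elements `a, b` to
`j` and `j_N`. -/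
theorem hreal_of_ringHom (e : K →+* ℂ) (N : ℕ) [NeZero N] {A : Type*} [CommRing A] [Algebra K A]
    (ι : A →ₐ[K] F) (hι : Function.Injective ι) (ρ : A →+* (ℍ → ℂ))
    (hρK : ∀ c : K, ρ (algebraMap K A c) = fun _ => e c) (a b : A)
    (ha : ρ a = jInv) (hb : ρ b = jN N) :
    ∀ P : Polynomial (Polynomial K), evalF (ι a) (ι b) P = 0 → ∀ z : ℍ, evalJ e N P z = 0 := by
  intro P hP z
  -- the relation already holds in `A`
  have h1 : (ι : A →+* F).comp (Polynomial.eval₂RingHom (algebraMap K A) a) =
      Polynomial.eval₂RingHom (algebraMap K F) (ι a) := by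
    refine Polynomial.ringHom_ext (fun c => ?_) ?_
    · simp
    · simp
  have h2 : ι (P.eval₂ (Polynomial.eval₂RingHom (algebraMap K A) a) b) = 0 := by
    have := Polynomial.hom_eval₂ P (Polynomial.eval₂RingHom (algebraMap K A) a) (ι : A →+* F) b
    rw [h1] at this
    rw [← hP]
    exact this
  have h3 : P.eval₂ (Polynomial.eval₂RingHom (algebraMap K A) a) b = 0 :=
    hι (by rw [h2, map_zero])
  -- apply `ρ` and evaluate at `z`
  let ev : (ℍ → ℂ) →+* ℂ := Pi.evalRingHom (fun _ : ℍ => ℂ) z
  have h4 : (ev.comp ρ).comp (Polynomial.eval₂RingHom (algebraMap K A) a) =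
      Polynomial.eval₂RingHom e (jInv z) := by
    refine Polynomial.ringHom_ext (fun c => ?_) ?_
    · simp [ev, hρK]
    · simp [ev, ha]
  have h5 := Polynomial.hom_eval₂ P (Polynomial.eval₂RingHom (algebraMap K A) a) (ev.comp ρ) b
  rw [h3, map_zero, h4] at h5
  unfold evalJ
  rw [h5]
  simp [ev, hb]

end Fermat.Agent.S24.DegLB
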