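import Fermat.Agent.S24.H21_OrdAt
import Fermat.Agent.S24.H23_NormAlg
import Fermat.Agent.S24.H13_CRT
import Fermat.Agent.S24.H24_G3
import Fermat.Agent.S24.H24_T1
import Fermat.Agent.S24.H25_Inputs

/-!
# S24, package NORM + SURJ at a finite value `c` of `j` (helper23)

`F = FK K N` the modular function field, `x = j`.  For `c : K` and a point `z₀` of the upper
half plane with `j z₀ = e c`:

* `hNORM_fin_mer` / `hNORM_fin_real`: the hypothesis `hNORM` of `CRT.surj_of_norm_R` in terms of
  the point valuations `ordAt` at the translates `(Quotient.out k)⁻¹ • z₀`;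
* `surj_fin`: every place over `j = c` is one of the places `P k`, for any family `P` of places
  over `c` dominated by the point valuations;
* `hsurj`: the hypothesis `hsurj` of `G3.card_places_eq_card_quotient` (and of
  `G3.card_places_gen`, `G3.card_places_1728`, `G3.card_places_zero`) verbatim;
* `card_places_gen`, `card_places_1728`, `card_places_zero`: the fields `gen`, `one`, `zero` of
  `Final.Inputs`, hypothesis-free.
-/

set_option autoImplicit false
set_option linter.style.haveILetI false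
set_option linter.unusedSectionVars false

open UpperHalfPlane CongruenceSubgroup IntermediateField Polynomial AlgebraicCurve MulAction
open scoped MatrixGroups Manifold

namespace Fermat.Agent.S24.SurjFin

open Fermat.Agent.S23.R4 Fermat.Agent.S24.Real

variable {K : Type*} [Field K] [Algebra ℚ K] (e : K →+* ℂ) (N : ℕ) [NeZero N]

omit [NeZero N] in
/-- The two point valuations on the function field (helper21's and helper6's) agree. -/
theorem mer_ordAt_eq_real (z : ℍ) (h : FK K N) :
    Mer.ordAt e z h = Real.ordAt e z h := by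
  by_cases hh : h = 0
  · subst hh
    rw [Mer.ordAt_zero, Real.ordAt_zero]
  · obtain ⟨a, b, hb, hab⟩ := Mer.exists_frac h
    have ha : a ≠ 0 := by
      rintro rfl
      rw [map_zero] at hab
      rcases mul_eq_zero.mp hab with h1 | h1
      · exact hh h1
      · exact hb (inclAK_injective K N (h1.trans (map_zero _).symm))
    rw [Mer.ordAt_eq_sub e z h a b ha hb hab,
      Real.ordAt_eq_sub e z hh hb (congrArg Subtype.val hab)]
    rfl

variable [CharZero K]

set_option synthInstance.maxHeartbeats 400000 in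
/-- **hNORM at a finite value**, in terms of helper21's point valuation. -/
theorem hNORM_fin_mer (c : K) (z0 : ℍ) (hz0 : jInv z0 = e c) :
    ∀ h ∈ CRT.R K (Final.jF K N), h ≠ 0 → ∃ Q₀ : Polynomial K,
      (∃ g ∈ CRT.R K (Final.jF K N), Polynomial.aeval (Final.jF K N) Q₀ = h * g) ∧
        (Q₀.eval c = 0 →
          ∃ k : SL(2, ℤ) ⧸ Gamma0 N, 0 < Mer.ordAt e ((Quotient.out k)⁻¹ • z0) h) := by
  intro h hh hh0
  haveI hfd : FiniteDimensional K⟮Mer.jF K N⟯ (FK K N) := Final.finiteDimensional_jF e N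
  have hcard : Module.finrank K⟮Mer.jF K N⟯ (FK K N) ≤ Nat.card (SL(2, ℤ) ⧸ Gamma0 N) :=
    (Final.finrank_jF e N).le
  have htr : Transcendental K (Mer.jF K N) := Final.transcendental_jF K N
  obtain ⟨Q₀, hQ1, hQ2⟩ := NormAlg.exists_norm_poly (Mer.jF K N) htr h hh
  refine ⟨Q₀, hQ2, fun h0 => ?_⟩
  -- the norm is nonzero
  have hnorm : algebraMap K⟮Mer.jF K N⟯ (FK K N) (Algebra.norm K⟮Mer.jF K N⟯ h) ≠ 0 := by
    rw [Ne, map_eq_zero_iff _ (algebraMap K⟮Mer.jF K N⟯ (FK K N)).injective,
      Algebra.norm_eq_zero_iff]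
    exact hh0
  letI : Fintype (SL(2, ℤ) ⧸ Gamma0 N) := Fintype.ofFinite _
  -- the order of the norm at `z0` is positive
  have hpos : 0 < Mer.ordAt e z0
      (algebraMap K⟮Mer.jF K N⟯ (FK K N) (Algebra.norm K⟮Mer.jF K N⟯ h)) := by
    have hne : Mer.evalH e Q₀ ≠ 0 := by
      intro hz
      apply Mer.iota_ne_zero e hnorm
      rw [hQ1, Mer.iota_aeval_jF, hz, map_zero]
    rw [hQ1, Mer.ordAt, Mer.iota_aeval_jF, Mer.ordE_algebraMap_pos_iff z0 hne, Mer.evalH_apply,
      hz0, Polynomial.eval_map, Polynomial.eval₂_at_apply, h0, map_zero]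
  rw [Mer.ordAt_norm e hcard z0 hh0] at hpos
  by_contra hcon
  push Not at hcon
  exact absurd hpos (not_lt.mpr (Finset.sum_nonpos fun k _ => hcon k))

/-- **hNORM at a finite value**, in terms of helper6's point valuation. -/
theorem hNORM_fin_real (c : K) (z0 : ℍ) (hz0 : jInv z0 = e c) :
    ∀ h ∈ CRT.R K (Final.jF K N), h ≠ 0 → ∃ Q₀ : Polynomial K,
      (∃ g ∈ CRT.R K (Final.jF K N), Polynomial.aeval (Final.jF K N) Q₀ = h * g) ∧
        (Q₀.eval c = 0 →
          ∃ k : SL(2, ℤ) ⧸ Gamma0 N, 0 < Real.ordAt e ((Quotient.out k)⁻¹ • z0) h) := by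
  intro h hh hh0
  obtain ⟨Q₀, hQ, hk⟩ := hNORM_fin_mer e N c z0 hz0 h hh hh0
  refine ⟨Q₀, hQ, fun h0 => ?_⟩
  obtain ⟨k, hk⟩ := hk h0
  exact ⟨k, by rwa [← mer_ordAt_eq_real]⟩

set_option synthInstance.maxHeartbeats 400000 in
/-- **SURJ at a finite value**: every place over `j = c` is one of the `P k`, for any family
`P` of places over `c` at which positivity of the point valuation at
`(Quotient.out k)⁻¹ • z₀` implies positivity of the order. -/
theorem surj_fin (c : K) (z0 : ℍ) (hz0 : jInv z0 = e c)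
    (P : SL(2, ℤ) ⧸ Gamma0 N → Place K (FK K N))
    (hP : ∀ k, 0 < (P k).ord (Final.jF K N - algebraMap K (FK K N) c))
    (hord : ∀ k, ∀ h : FK K N, h ≠ 0 →
      0 < Real.ordAt e ((Quotient.out k)⁻¹ • z0) h → 0 < (P k).ord h) :
    ∀ Q : Place K (FK K N), 0 < Q.ord (Final.jF K N - algebraMap K (FK K N) c) →
      ∃ k, P k = Q := by
  haveI hfd : FiniteDimensional K⟮Final.jF K N⟯ (FK K N) := Final.finiteDimensional_jF e N
  haveI : Finite (SL(2, ℤ) ⧸ Gamma0 N) := Comb.finite_X
  refine CRT.surj_of_norm_R_of_ord_pos P (Final.jF K N) c hP ?_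
  intro h hh hh0
  obtain ⟨Q₀, hQ, hk⟩ := hNORM_fin_real e N c z0 hz0 h hh hh0
  refine ⟨Q₀, hQ, fun h0 => ?_⟩
  obtain ⟨k, hk⟩ := hk h0
  exact ⟨k, hord k h hh0 hk⟩

/-- **The hypothesis `hsurj` of helper24's `G3.card_places_eq_card_quotient`**, verbatim. -/
theorem hsurj (c : K) (z0 : ℍ) (hz0 : jInv z0 = e c) :
    ∀ Q : Place K (FK K N),
      0 < Q.ord (Final.jF K N - algebraMap K (FK K N) c) →
        ∃ k : Comb.X N, G3.ptPlace e N (G3.zk z0 k) c (G3.jInv_zk e z0 c hz0 k) = Q := by
  refine surj_fin e N c z0 hz0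
    (fun k => G3.ptPlace e N (G3.zk z0 k) c (G3.jInv_zk e z0 c hz0 k)) (fun k => ?_)
    (fun k h hh0 hk => ?_)
  · have h1 := G3.ptMult_mul_ord (N := N) e (G3.zk z0 k) c (G3.jInv_zk e z0 c hz0 k)
    have h2 : (0 : ℤ) < (G3.ptMult e N (G3.zk z0 k) c (G3.jInv_zk e z0 c hz0 k) : ℤ) := by
      exact_mod_cast G3.ptMult_pos (N := N) e (G3.zk z0 k) c (G3.jInv_zk e z0 c hz0 k)
    have h3 : (0 : ℤ) < (G3.locDeg (e c) : ℤ) := by exact_mod_cast G3.locDeg_pos (e c)
    rw [← h1] at h3
    exact (mul_pos_iff_of_pos_left h2).mp h3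
  · exact (G3.ptPlace_ord_pos_iff (N := N) e (G3.zk z0 k) c (G3.jInv_zk e z0 c hz0 k) hh0).mpr hk

variable [IsAlgClosed K]

include e in
/-- **Field `gen` of `Final.Inputs`**: over `c ∉ {0, 1728}` there are `#X` places. -/
theorem card_places_gen (c : K) (h0 : c ≠ 0) (h1 : c ≠ 1728) :
    Nat.card {Q : Place K (FK K N) // 0 < Q.ord (Final.jF K N - algebraMap K (FK K N) c)}
      = Nat.card (Comb.X N) :=
  G3.card_places_gen e c h0 h1 (fun z0 hz0 => hsurj e N c z0 hz0)

include e in
/-- **Field `one` of `Final.Inputs`**: the places over `j = 1728` are the `⟨S⟩`-orbits. -/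
theorem card_places_1728 :
    Nat.card {Q : Place K (FK K N) //
        0 < Q.ord (Final.jF K N - algebraMap K (FK K N) 1728)}
      = Nat.card (orbitRel.Quotient (Subgroup.zpowers ModularGroup.S) (Comb.X N)) :=
  G3.card_places_1728 e (hsurj e N 1728 UpperHalfPlane.I (G3.jInv_I_eq e))

include e in
/-- **Field `zero` of `Final.Inputs`**: the places over `j = 0` are the `⟨ST⟩`-orbits. -/
theorem card_places_zero :
    Nat.card {Q : Place K (FK K N) //
        0 < Q.ord (Final.jF K N - algebraMap K (FK K N) 0)}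
      = Nat.card (orbitRel.Quotient
          (Subgroup.zpowers (ModularGroup.S * ModularGroup.T)) (Comb.X N)) :=
  G3.card_places_zero e (hsurj e N 0 G1.rho (G3.jInv_rho_eq e))

end Fermat.Agent.S24.SurjFin
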