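import Fermat.Agent.S24.H24_Deg
import Fermat.Agent.S24.H6_Frac

/-!
# S24 / G3 (DEG): the upper bound `[F : K(j)] ≤ μ` for the prelude function field

Instantiation of `RealData` by the analytic realisation `Real.rho` (helper6), and the resulting
degree bound for `F = FK K N = laurentBaseChange K (modularFunctionFieldFull N)`.
-/

set_option autoImplicit false

namespace Fermat.Agent.S24.G3

open UpperHalfPlane ModularForm CongruenceSubgroup Polynomial ModularCurve IntermediateField
open Fermat.Agent.S23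
open scoped MatrixGroups ModularForm Manifold

noncomputable section

variable (K : Type*) [Field K] [Algebra ℚ K] (N : ℕ)

/-- The realisation `Real.rho` of helper6 as `RealData`. -/
def realData (e : K →+* ℂ) : RealData N e (Fermat.Agent.S24.Real.AK K N) (Fermat.Agent.S24.Real.jAK K N) where
  ρ := Fermat.Agent.S24.Real.rho e
  ρ_x := Fermat.Agent.S24.Real.rho_jAK e
  ρ_algebraMap := Fermat.Agent.S24.Real.rho_algebraMap e
  hol := Fermat.Agent.S24.Real.mdifferentiable_rho e
  inv := fun a _ hγ z => Fermat.Agent.S24.Real.rho_smul_of_mem_Gamma0 e a hγ z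
  growth := fun a δ => Fermat.Agent.S24.Real.rho_modGrowth e a δ
  qexp := fun _ u b h m =>
    Fermat.Agent.S24.Real.linear_qExpansion_principle e Finset.univ u b h m

@[simp] theorem realData_ρ (e : K →+* ℂ) : (realData K N e).ρ = Fermat.Agent.S24.Real.rho e := rfl

/-- The formal `j` as an element of the function field `F`. -/
def jF : Fermat.Agent.S24.Real.FK K N :=
  Fermat.Agent.S24.Real.inclAK K N (Fermat.Agent.S24.Real.jAK K N)

@[simp] theorem coe_jF : ((jF K N : Fermat.Agent.S24.Real.FK K N) : LaurentSeries K)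
    = coeffEmb K jq := rfl

/-- Fractions, in the shape consumed by `RealData.finrank_le_card`. -/
theorem exists_frac (h : LaurentSeries K) (hh : h ∈ Fermat.Agent.S24.Real.FK K N) :
    ∃ a b : Fermat.Agent.S24.Real.AK K N, (b : LaurentSeries K) ≠ 0 ∧ h * b = a := by
  obtain ⟨a, ha, b, hb, hb0, hab⟩ := Fermat.Agent.S24.Real.exists_div_of_mem_FK hh
  exact ⟨⟨a, ha⟩, ⟨b, hb⟩, hb0, hab⟩

/-- **DEG, upper bound**, flexible form: `F` has degree at most `μ` over any model `K0` of
`K(j)`. -/
theorem finrank_le_card_of_model [NeZero N] (e : K →+* ℂ) (K0 : Type*) [Field K0] [Algebra K K0]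
    [Algebra K0 (Fermat.Agent.S24.Real.FK K N)]
    [IsScalarTower K K0 (Fermat.Agent.S24.Real.FK K N)]
    (j0 : K0) (hj0 : algebraMap K0 (Fermat.Agent.S24.Real.FK K N) j0 = jF K N) :
    FiniteDimensional K0 (Fermat.Agent.S24.Real.FK K N) ∧
      Module.finrank K0 (Fermat.Agent.S24.Real.FK K N) ≤ Nat.card (SL(2, ℤ) ⧸ Gamma0 N) := by
  have : CharZero K := algebraRat.charZero K
  exact (realData K N e).finrank_le_card (Fermat.Agent.S24.Real.FK K N)
    (Fermat.Agent.S24.Real.AK_le_FK K N (Fermat.Agent.S24.Real.jAK K N).2)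
    (exists_frac K N) K0 j0 hj0

set_option synthInstance.maxHeartbeats 400000 in
/-- **DEG, upper bound**: `[F : K(j)] ≤ μ = [SL(2, ℤ) : Γ₀(N)]`, with `K(j)` the intermediate
field `K⟮j⟯` of `F / K`. -/
theorem finrank_adjoin_jF_le [NeZero N] (e : K →+* ℂ) :
    FiniteDimensional K⟮jF K N⟯ (Fermat.Agent.S24.Real.FK K N) ∧
      Module.finrank K⟮jF K N⟯ (Fermat.Agent.S24.Real.FK K N)
        ≤ Nat.card (SL(2, ℤ) ⧸ Gamma0 N) :=
  finrank_le_card_of_model K N e K⟮jF K N⟯ (AdjoinSimple.gen K (jF K N)) rfl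

end

end Fermat.Agent.S24.G3
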