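import Fermat.Agent.S23.R2_Esymm
import Fermat.Agent.S23.H14_PolyJ

/-!
# S24 / G3: the invariant polynomial of a modular function

For a holomorphic function `g` on the upper half plane which is invariant (weight `0`) under an
arithmetic subgroup `𝒢` and of moderate growth at all cusps, the elementary symmetric functions of
its `SL(2, ℤ)`-translates are polynomials in `j`.  Hence `g` (and each of its translates) is a root
of a monic polynomial of degree `[SL(2, ℤ) : 𝒢]` with coefficients in `ℂ[j]`.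
-/

set_option autoImplicit false

namespace Fermat.Agent.S24.G3

open UpperHalfPlane ModularForm SlashInvariantForm Filter Topology Polynomial
open Fermat.Agent.S23
open scoped MatrixGroups ModularForm Manifold

noncomputable section

local notation "Δ" => ModularForm.discriminant

/-- Moderate growth at `i∞`: `φ Δ^m` is bounded at `i∞` for some `m`. -/
def ModGrowth (φ : ℍ → ℂ) : Prop := ∃ m : ℕ, IsBoundedAtImInfty (φ * Δ ^ m)

theorem discriminant_bdd : IsBoundedAtImInfty (Δ : ℍ → ℂ) :=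
  discriminant_isZeroAtImInfty.boundedAtFilter

theorem discriminant_pow_bdd (m : ℕ) : IsBoundedAtImInfty ((Δ : ℍ → ℂ) ^ m) := by
  induction m with
  | zero => rw [pow_zero]; exact Filter.const_boundedAtFilter atImInfty (1 : ℂ)
  | succ m ih => rw [pow_succ]; exact ih.mul discriminant_bdd

theorem ModGrowth.of_bdd {φ : ℍ → ℂ} (h : IsBoundedAtImInfty φ) : ModGrowth φ :=
  ⟨0, by simpa using h⟩

theorem ModGrowth.one : ModGrowth (1 : ℍ → ℂ) :=
  ModGrowth.of_bdd (Filter.const_boundedAtFilter _ (1 : ℂ))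

theorem ModGrowth.zero : ModGrowth (0 : ℍ → ℂ) :=
  ModGrowth.of_bdd (Filter.const_boundedAtFilter _ (0 : ℂ))

theorem ModGrowth.mul {φ ψ : ℍ → ℂ} (hφ : ModGrowth φ) (hψ : ModGrowth ψ) :
    ModGrowth (φ * ψ) := by
  obtain ⟨m, hm⟩ := hφ
  obtain ⟨n, hn⟩ := hψ
  refine ⟨m + n, ?_⟩
  have : φ * ψ * Δ ^ (m + n) = (φ * Δ ^ m) * (ψ * Δ ^ n) := by rw [pow_add]; ring
  rw [this]
  exact hm.mul hn

theorem ModGrowth.add {φ ψ : ℍ → ℂ} (hφ : ModGrowth φ) (hψ : ModGrowth ψ) :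
    ModGrowth (φ + ψ) := by
  obtain ⟨m, hm⟩ := hφ
  obtain ⟨n, hn⟩ := hψ
  refine ⟨m + n, ?_⟩
  have : (φ + ψ) * Δ ^ (m + n) = (φ * Δ ^ m) * Δ ^ n + (ψ * Δ ^ n) * Δ ^ m := by
    rw [pow_add]; ring
  rw [this]
  exact (hm.mul (discriminant_pow_bdd n)).add (hn.mul (discriminant_pow_bdd m))

theorem ModGrowth.neg {φ : ℍ → ℂ} (hφ : ModGrowth φ) : ModGrowth (-φ) := by
  obtain ⟨m, hm⟩ := hφ
  refine ⟨m, ?_⟩
  have : -φ * Δ ^ m = -(φ * Δ ^ m) := by ring
  rw [this]
  exact hm.neg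

theorem ModGrowth.prod {ι : Type*} (s : Finset ι) {φ : ι → ℍ → ℂ}
    (h : ∀ i ∈ s, ModGrowth (φ i)) : ModGrowth (∏ i ∈ s, φ i) := by
  classical
  induction s using Finset.induction_on with
  | empty => simpa using ModGrowth.one
  | insert a s ha ih =>
    rw [Finset.prod_insert ha]
    exact (h a (Finset.mem_insert_self a s)).mul
      (ih fun i hi => h i (Finset.mem_insert_of_mem hi))

theorem ModGrowth.sum {ι : Type*} (s : Finset ι) {φ : ι → ℍ → ℂ}
    (h : ∀ i ∈ s, ModGrowth (φ i)) : ModGrowth (∑ i ∈ s, φ i) := by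
  classical
  induction s using Finset.induction_on with
  | empty => simpa using ModGrowth.zero
  | insert a s ha ih =>
    rw [Finset.sum_insert ha]
    exact (h a (Finset.mem_insert_self a s)).add
      (ih fun i hi => h i (Finset.mem_insert_of_mem hi))

variable {𝒢 : Subgroup (GL (Fin 2) ℝ)} [𝒢.IsArithmetic]

/-- The translates of a holomorphic slash invariant form are holomorphic. -/
theorem mdifferentiable_quotientFunc' {k : ℤ} (g : SlashInvariantForm 𝒢 k)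
    (hol : MDifferentiable 𝓘(ℂ) 𝓘(ℂ) g) (q : 𝒮ℒ ⧸ 𝒢.subgroupOf 𝒮ℒ) :
    MDifferentiable 𝓘(ℂ) 𝓘(ℂ) (quotientFunc g q) := by
  induction q using Quotient.inductionOn with
  | h r =>
    rw [quotientFunc_mk]
    exact hol.slash k _

/-- The elementary symmetric functions of the translates of a holomorphic slash invariant form
are holomorphic. -/
theorem mdifferentiable_esymmFun' {k : ℤ} (g : SlashInvariantForm 𝒢 k)
    (hol : MDifferentiable 𝓘(ℂ) 𝓘(ℂ) g) (i : ℕ) :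
    MDifferentiable 𝓘(ℂ) 𝓘(ℂ) (esymmFun g i) := by
  classical
  let _ := Fintype.ofFinite (𝒮ℒ ⧸ 𝒢.subgroupOf 𝒮ℒ)
  rw [esymmFun_eq]
  refine MDifferentiable.sum fun s _ => ?_
  exact MDifferentiable.prod fun q _ => mdifferentiable_quotientFunc' g hol q

/-- The elementary symmetric functions of the translates have moderate growth if all translates
do. -/
theorem modGrowth_esymmFun {k : ℤ} (g : SlashInvariantForm 𝒢 k)
    (hgrowth : ∀ q : 𝒮ℒ ⧸ 𝒢.subgroupOf 𝒮ℒ, ModGrowth (quotientFunc g q)) (i : ℕ) :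
    ModGrowth (esymmFun g i) := by
  classical
  let _ := Fintype.ofFinite (𝒮ℒ ⧸ 𝒢.subgroupOf 𝒮ℒ)
  rw [esymmFun_eq]
  exact ModGrowth.sum _ fun s _ => ModGrowth.prod _ fun q _ => hgrowth q

/-- Moderate growth of all translates `z ↦ g (δ • z)`, `δ ∈ SL(2, ℤ)`, gives moderate growth of
all `quotientFunc g q`. -/
theorem modGrowth_quotientFunc (g : SlashInvariantForm 𝒢 0)
    (hgrowth : ∀ δ : SL(2, ℤ), ModGrowth (fun z => g (δ • z)))
    (q : 𝒮ℒ ⧸ 𝒢.subgroupOf 𝒮ℒ) : ModGrowth (quotientFunc g q) := by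
  induction q using Quotient.inductionOn with
  | h r =>
    obtain ⟨r, γ, rfl⟩ := r
    rw [quotientFunc_mk]
    have h := hgrowth γ⁻¹
    have heq : ((g : ℍ → ℂ) ∣[(0 : ℤ)] (Matrix.SpecialLinearGroup.mapGL ℝ γ)⁻¹)
        = fun z => g (γ⁻¹ • z) := by
      rw [← map_inv]
      ext z
      have h2 : (((g : ℍ → ℂ)) ∣[(0 : ℤ)] (Matrix.SpecialLinearGroup.mapGL ℝ) γ⁻¹) z
        = g (γ⁻¹ • z) * denom γ⁻¹ z ^ (-(0 : ℤ)) := SL_slash_apply (k := 0) (g : ℍ → ℂ) γ⁻¹ z
      rw [h2]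
      simp
    rw [heq]
    exact h

/-- **Invariant polynomial.** The (signed) elementary symmetric functions of the translates of a
holomorphic `𝒢`-invariant function of moderate growth at all cusps are polynomials in `j`. -/
theorem exists_poly_esymm (g : SlashInvariantForm 𝒢 0)
    (hol : MDifferentiable 𝓘(ℂ) 𝓘(ℂ) g)
    (hgrowth : ∀ δ : SL(2, ℤ), ModGrowth (fun z => g (δ • z))) (i : ℕ) :
    ∃ P : ℂ[X], ∀ z, esymmFun g i z = P.eval (R1.jInv z) := by
  obtain ⟨m, hm⟩ := modGrowth_esymmFun g (modGrowth_quotientFunc g hgrowth) i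
  have hinv : ∀ γ : SL(2, ℤ), esymmFun g i ∣[(0 : ℤ)] γ = esymmFun g i := by
    intro γ
    have h := esymmFun_slash_SL g i γ
    simpa using h
  obtain ⟨P, -, hP⟩ := R1.exists_poly_jInv (esymmFun g i) (mdifferentiable_esymmFun' g hol i)
    hinv m hm
  exact ⟨P, hP⟩

/-- The top elementary symmetric function is the product of all translates; if it vanishes at a
point, some translate `z ↦ g (δ • z)` vanishes there. -/
theorem exists_smul_eq_zero_of_esymmFun_card (g : SlashInvariantForm 𝒢 0) (z : ℍ)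
    (h : esymmFun g (Nat.card (𝒮ℒ ⧸ 𝒢.subgroupOf 𝒮ℒ)) z = 0) :
    ∃ δ : SL(2, ℤ), g (δ • z) = 0 := by
  classical
  let _ := Fintype.ofFinite (𝒮ℒ ⧸ 𝒢.subgroupOf 𝒮ℒ)
  rw [esymmFun_apply, Nat.card_eq_fintype_card, ← Finset.card_univ,
    Finset.powersetCard_self, Finset.sum_singleton, Finset.prod_eq_zero_iff] at h
  obtain ⟨q, -, hq⟩ := h
  induction q using Quotient.inductionOn with
  | h r =>
    obtain ⟨r, γ, rfl⟩ := r
    rw [quotientFunc_mk] at hq
    refine ⟨γ⁻¹, ?_⟩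
    have h2 : (((g : ℍ → ℂ)) ∣[(0 : ℤ)] (Matrix.SpecialLinearGroup.mapGL ℝ) γ⁻¹) z
      = g (γ⁻¹ • z) * denom γ⁻¹ z ^ (-(0 : ℤ)) := SL_slash_apply (k := 0) (g : ℍ → ℂ) γ⁻¹ z
    rw [← map_inv] at hq
    rw [h2] at hq
    simpa using hq

/-- **Monic relation.** A holomorphic `𝒢`-invariant function `g` of moderate growth at all cusps
and all its `SL(2, ℤ)`-translates are roots of one monic polynomial of degree
`μ = [SL(2, ℤ) : 𝒢]` with coefficients in `ℂ[j]`; if the constant term vanishes at `j z`, then some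
translate of `g` vanishes at `z`. -/
theorem exists_monic_relation (g : SlashInvariantForm 𝒢 0)
    (hol : MDifferentiable 𝓘(ℂ) 𝓘(ℂ) g)
    (hgrowth : ∀ δ : SL(2, ℤ), ModGrowth (fun z => g (δ • z))) :
    ∃ P : ℕ → ℂ[X], P 0 = 1 ∧
      (∀ (γ : SL(2, ℤ)) (z : ℍ),
        ∑ j ∈ Finset.range (Nat.card (𝒮ℒ ⧸ 𝒢.subgroupOf 𝒮ℒ) + 1),
          (P j).eval (R1.jInv z) * g (γ • z) ^ (Nat.card (𝒮ℒ ⧸ 𝒢.subgroupOf 𝒮ℒ) - j) = 0) ∧
      ∀ z : ℍ, (P (Nat.card (𝒮ℒ ⧸ 𝒢.subgroupOf 𝒮ℒ))).eval (R1.jInv z) = 0 →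
        ∃ δ : SL(2, ℤ), g (δ • z) = 0 := by
  choose P0 hP0 using fun i => exists_poly_esymm g hol hgrowth i
  refine ⟨fun i => if i = 0 then 1 else C ((-1 : ℂ) ^ i) * P0 i, by simp, ?_, ?_⟩
  · intro γ z
    have h := esymm_integrality_slash g γ z
    have hsl : (((g : ℍ → ℂ)) ∣[(0 : ℤ)] γ) z = g (γ • z) := by
      rw [SL_slash_apply]; simp
    rw [hsl] at h
    rw [← h]
    refine Finset.sum_congr rfl fun j _ => ?_
    by_cases hj : j = 0
    · subst hj
      simp [esymmFun_zero]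
    · simp only [hj, if_false, eval_mul, eval_C]
      rw [← hP0 j z]
  · intro z hz
    have hμ : Nat.card (𝒮ℒ ⧸ 𝒢.subgroupOf 𝒮ℒ) ≠ 0 := (card_quotient_pos (𝒢 := 𝒢)).ne'
    simp only [hμ, if_false, eval_mul, eval_C] at hz
    rw [← hP0 _ z] at hz
    have hne : ((-1 : ℂ) ^ Nat.card (𝒮ℒ ⧸ 𝒢.subgroupOf 𝒮ℒ)) ≠ 0 := pow_ne_zero _ (by norm_num)
    exact exists_smul_eq_zero_of_esymmFun_card g z ((mul_eq_zero.mp hz).resolve_left hne)

end

end Fermat.Agent.S24.G3
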