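import Fermat.Agent.S24.H15_Hurwitz
import Fermat.Agent.S24.H9_CombCount
import Fermat.Agent.S24.H19_Comb2
import Fermat.Agent.S24.H16_CardX
import Fermat.Agent.S24.H12_OrbitsT

/-!
# S24, final assembly layer (helper25)

`genus_eq_genusFormula_of_places`: a function field `F / K` (char. zero) with a non-constant
element `x` satisfying the hypotheses of the Riemann-Hurwitz count with `n = #X`,
`X = SL(2, ℤ) ⧸ Γ₀(N)`, and whose numbers of places over `0`, `1728`, `∞` are the numbers of
orbits of `S * T`, `S`, `T` on `X` (and `n` over every other value), has prelude genus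
`genusFormula N`.
-/

set_option autoImplicit false

noncomputable section

namespace Fermat.Agent.S24.Final

open AlgebraicCurve KaehlerDifferential MulAction
open scoped MatrixGroups
open CongruenceSubgroup ModularCurve
open Fermat.Agent.S24.RH Fermat.Agent.S24.Comb Fermat.Agent.S24.Comb2

/-- The triple of orbit counts on `X = SL(2, ℤ) ⧸ Γ₀(N)` is the Euler characteristic `2 g - 2`
of a natural number `g`, and `g = genusFormula N`. -/
theorem exists_genus_nat (N : ℕ) [NeZero N] :
    ∃ g : ℕ, ((Nat.card (X N) : ℤ)
        - (Nat.card (orbitRel.Quotient (Subgroup.zpowers ModularGroup.S) (X N)) : ℤ)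
        - (Nat.card (orbitRel.Quotient
            (Subgroup.zpowers (ModularGroup.S * ModularGroup.T)) (X N)) : ℤ)
        - (Nat.card (orbitRel.Quotient (Subgroup.zpowers ModularGroup.T) (X N)) : ℤ)
        = 2 * (g : ℤ) - 2) ∧ (g : ℚ) = genusFormula N := by
  classical
  haveI : Finite (X N) := finite_X
  letI : Fintype (X N) := Fintype.ofFinite _
  haveI : Nonempty (X N) := ⟨QuotientGroup.mk 1⟩
  have hmul : (MulAction.toPerm ModularGroup.S : Equiv.Perm (X N)) *
      MulAction.toPerm ModularGroup.T = MulAction.toPerm (ModularGroup.S * ModularGroup.T) := by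
    ext x
    simp [mul_smul]
  have htrans : ∀ x y : X N, ∃ g ∈ Subgroup.closure
      ({(MulAction.toPerm ModularGroup.S : Equiv.Perm (X N)),
        MulAction.toPerm ModularGroup.T} : Set (Equiv.Perm (X N))), g x = y := by
    intro x y
    obtain ⟨a, rfl⟩ := QuotientGroup.mk_surjective x
    obtain ⟨b, rfl⟩ := QuotientGroup.mk_surjective y
    refine ⟨MulAction.toPermHom SL(2, ℤ) (X N) (b * a⁻¹), ?_, ?_⟩
    · have hmem : b * a⁻¹ ∈ Subgroup.closure ({ModularGroup.S, ModularGroup.T} : Set SL(2, ℤ)) := by
        rw [SpecialLinearGroup.SL2Z_generators]; trivial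
      have := Subgroup.mem_map_of_mem (MulAction.toPermHom SL(2, ℤ) (X N)) hmem
      rw [MonoidHom.map_closure] at this
      have himg : (MulAction.toPermHom SL(2, ℤ) (X N)) '' {ModularGroup.S, ModularGroup.T} =
          ({(MulAction.toPerm ModularGroup.S : Equiv.Perm (X N)),
            MulAction.toPerm ModularGroup.T} : Set (Equiv.Perm (X N))) := by
        rw [Set.image_pair]; rfl
      rw [himg] at this
      exact this
    · change (b * a⁻¹) • (QuotientGroup.mk a : X N) = QuotientGroup.mk b
      rw [smul_mk]
      congr 1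
      group
  obtain ⟨g, hg⟩ := exists_genus_of_mul_eq (MulAction.toPerm ModularGroup.S : Equiv.Perm (X N))
    (MulAction.toPerm ModularGroup.T) (MulAction.toPerm (ModularGroup.S * ModularGroup.T))
    hmul htrans
  have eS : numCycles (MulAction.toPerm ModularGroup.S : Equiv.Perm (X N)) =
      Nat.card (orbitRel.Quotient (Subgroup.zpowers ModularGroup.S) (X N)) :=
    numCycles_toPerm _
  have eT : numCycles (MulAction.toPerm ModularGroup.T : Equiv.Perm (X N)) =
      Nat.card (orbitRel.Quotient (Subgroup.zpowers ModularGroup.T) (X N)) :=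
    numCycles_toPerm _
  have eST : numCycles (MulAction.toPerm (ModularGroup.S * ModularGroup.T) : Equiv.Perm (X N)) =
      Nat.card (orbitRel.Quotient (Subgroup.zpowers (ModularGroup.S * ModularGroup.T)) (X N)) :=
    numCycles_toPerm _
  rw [eS, eT, eST, ← Nat.card_eq_fintype_card] at hg
  refine ⟨g, by rw [← hg]; ring, ?_⟩
  have hq := genus_count (N := N) (card_X N) (card_orbits_T N)
  have hgq : ((Nat.card (X N) : ℚ)
        - (Nat.card (orbitRel.Quotient (Subgroup.zpowers ModularGroup.S) (X N)) : ℚ)
        - (Nat.card (orbitRel.Quotient (Subgroup.zpowers ModularGroup.T) (X N)) : ℚ)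
        - (Nat.card (orbitRel.Quotient
            (Subgroup.zpowers (ModularGroup.S * ModularGroup.T)) (X N)) : ℚ))
        = 2 * (g : ℚ) - 2 := by exact_mod_cast hg
  linarith

variable {K F : Type*} [Field K] [Field F] [Algebra K F]

/-- **Final assembly, generic form.** -/
theorem genus_eq_genusFormula_of_places (N : ℕ) [NeZero N] [CharZero K] [Nontrivial Ω[F⁄K]]
    [HasCanonicalDivisor (K := K) (F := F)] {x : F}
    (h : CountData (K := K) x (Nat.card (X N)))
    (hprinc : ∀ f : F, f ≠ 0 → ∀ E : Divisor K F, (∀ v : Place K F, E v = v.ord f) →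
      Divisor.degree E = 0)
    (hgen : ∀ c : K, c ≠ 0 → c ≠ 1728 →
      Nat.card {v : Place K F // 0 < v.ord (x - algebraMap K F c)} = Nat.card (X N))
    (h0 : Nat.card {v : Place K F // 0 < v.ord (x - algebraMap K F 0)} =
      Nat.card (orbitRel.Quotient (Subgroup.zpowers (ModularGroup.S * ModularGroup.T)) (X N)))
    (h1728 : Nat.card {v : Place K F // 0 < v.ord (x - algebraMap K F 1728)} =
      Nat.card (orbitRel.Quotient (Subgroup.zpowers ModularGroup.S) (X N)))
    (hinf : Nat.card {v : Place K F // 0 < v.ord x⁻¹} =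
      Nat.card (orbitRel.Quotient (Subgroup.zpowers ModularGroup.T) (X N))) :
    (AlgebraicCurve.genus K F : ℚ) = genusFormula N := by
  classical
  have : Finite (X N) := finite_X
  have : Nonempty (X N) := ⟨QuotientGroup.mk 1⟩
  have hn : 0 < Nat.card (X N) := Nat.card_pos
  obtain ⟨g, hg, hgq⟩ := exists_genus_nat N
  have hne : (0 : K) ≠ 1728 := by norm_num
  have hB : ∀ c : K, c ∉ ({0, 1728} : Finset K) → ∀ v : Place K F,
      0 < v.ord (x - algebraMap K F c) → v.ord (x - algebraMap K F c) = 1 := by
    intro c hc v hv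
    simp only [Finset.mem_insert, Finset.mem_singleton, not_or] at hc
    exact FundId.ord_eq_one_of_card_eq (h.zero c) (hgen c hc.1 hc.2) hv
  have key := genus_eq_of_count h hn hprinc ({0, 1728} : Finset K) hB g (by
    rw [Finset.sum_pair hne, h0, h1728, hinf]
    linarith)
  rw [key, hgq]

end Fermat.Agent.S24.Final
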