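import Fermat.Agent.S24.H25_Inputs
import Fermat.Agent.S24.H6_Ord
import Fermat.Agent.S24.H21_OrbitPlace
import Fermat.Agent.S24.H21_PlaceOfVal
import Fermat.Agent.S24.H9_CombClass
import Fermat.Agent.S24.H17_JLocal

/-!
# S24 (helper25): places over a finite value of `j` and orbits on the cosets

`card_places_of_point`: for a point `z₀ ∈ ℍ` with `j(z₀) = e c`, fixed by `σ ∈ SL(2, ℤ)`, the
places of `F = FK K N` over `j = c` are in bijection with the orbits of `σ` on
`X N = SL(2, ℤ) ⧸ Γ₀(N)`, provided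
* the local degree `s` of `j` at `z₀` is `1` (and `σ = 1`) or a prime with `σ ^ s` acting
  trivially on `X N`,
* (G2) at cosets fixed by `σ` all orders at the attached point are divisible by `s`,
* (SURJ) every place over `c` is the place of one of the attached points.
-/

set_option autoImplicit false

noncomputable section

namespace Fermat.Agent.S24.H25G3

open AlgebraicCurve MulAction IntermediateField UpperHalfPlane
open scoped MatrixGroups Manifold ModularForm
open CongruenceSubgroup ModularCurve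
open Fermat.Agent.S24.RH Fermat.Agent.S24.Comb Fermat.Agent.S24.Real Fermat.Agent.S24.Orb
open Fermat.Agent.S23.R4

variable {K : Type*} [Field K] [Algebra ℚ K] (e : K →+* ℂ) (N : ℕ) [NeZero N]

/-- The point attached to the coset `k` and the base point `z₀`. -/
def pt (z₀ : ℍ) (k : X N) : ℍ := (Quotient.out k)⁻¹ • z₀

omit [NeZero N] in
theorem jInv_pt (z₀ : ℍ) (k : X N) : jInv (pt N z₀ k) = jInv z₀ := jInv_smul _ _

/-- `j - c` as an element of `F`. -/
def tF (c : K) : FK K N := Final.jF K N - algebraMap K (FK K N) c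

theorem tF_ne_zero (c : K) : tF N c ≠ 0 := by
  intro h
  have h1 : Final.jF K N = algebraMap K (FK K N) c := sub_eq_zero.mp h
  exact Alg.not_mem_range_of_transcendental (Final.transcendental_jF K N) ⟨c, h1.symm⟩

omit [NeZero N] in
theorem ordAt_tF (z : ℍ) (c : K) :
    ordAt e z (tF N c) = (ordH (fun w => jInv w - e c) z : ℤ) :=
  ordAt_jF_sub e z c

omit [NeZero N] in
theorem ordH_jInv_sub_smul (γ : SL(2, ℤ)) (z : ℍ) (a : ℂ) :
    ordH (fun w => jInv w - a) (γ • z) = ordH (fun w => jInv w - a) z :=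
  ordH_smul γ (fun w => by simp only [jInv_smul]) z

theorem ordH_jInv_sub_pos (z : ℍ) (a : ℂ) (hz : jInv z = a) :
    0 < ordH (fun w => jInv w - a) z := by
  have hne : (fun w : ℍ => jInv w - a) ≠ 0 := by
    intro h
    obtain ⟨w, hw⟩ := Fermat.Agent.S24.G1.exists_jInv_ne a
    exact hw (sub_eq_zero.mp (congrFun h w))
  have hmd : MDiff (fun w : ℍ => jInv w - a) :=
    (Fermat.Agent.S23.R4.mdifferentiable_jInv).sub mdifferentiable_const
  rw [ordH_pos_iff hmd hne]
  exact sub_eq_zero.mpr hz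


/-- The place of the point `z` (with `j(z) = e c`). -/
theorem exists_place (z : ℍ) (c : K) (hz : jInv z = e c) :
    ∃ (P : Place K (FK K N)) (m : ℕ), 0 < m ∧
      (∀ h : FK K N, h ≠ 0 → ordAt e z h = m * P.ord h) ∧
      ∀ h : FK K N, h ∈ P.toValuationSubring ↔ (h = 0 ∨ 0 ≤ ordAt e z h) :=
  exists_place_of_valuation (ordAt e z) (fun f g hf hg => ordAt_mul e z hf hg)
    (fun f g hf hg hfg => ordAt_add_ge e z hf hg hfg)
    (fun a _ => (ordAt_algebraMap e z a).ge)
    ⟨tF N c, tF_ne_zero N c, by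
      rw [ordAt_tF]
      have := ordH_jInv_sub_pos z (e c) hz
      omega⟩

omit [NeZero N] in
/-- Points attached to cosets in the same `σ`-orbit are `Γ₀(N)`-equivalent. -/
theorem ordAt_pt_eq_of_orbitRel (z₀ : ℍ) (σ : SL(2, ℤ)) (hσ : σ • z₀ = z₀) {k k' : X N}
    (hkk' : orbitRel (Subgroup.zpowers σ) (X N) k k') (h : FK K N) :
    ordAt e (pt N z₀ k) h = ordAt e (pt N z₀ k') h := by
  rw [orbitRel_apply] at hkk'
  obtain ⟨⟨g, hg⟩, hgk⟩ := hkk'
  have hgz : g • z₀ = z₀ := by
    have hle : Subgroup.zpowers σ ≤ MulAction.stabilizer SL(2, ℤ) z₀ := by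
      rw [Subgroup.zpowers_le]
      exact hσ
    exact hle hg
  have hgk' : g • k' = k := hgk
  have hmk : (QuotientGroup.mk (g * Quotient.out k') : X N) = QuotientGroup.mk (Quotient.out k) := by
    rw [← smul_mk, QuotientGroup.out_eq', QuotientGroup.out_eq', hgk']
  have hγ : (g * Quotient.out k')⁻¹ * Quotient.out k ∈ Gamma0 N := QuotientGroup.eq.mp hmk
  have hγ' : ((g * Quotient.out k')⁻¹ * Quotient.out k)⁻¹ ∈ Gamma0 N := inv_mem hγ
  have hpt : pt N z₀ k = ((g * Quotient.out k')⁻¹ * Quotient.out k)⁻¹ • pt N z₀ k' := by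
    have hginv : g⁻¹ • z₀ = z₀ := by
      rw [inv_smul_eq_iff, hgz]
    rw [pt, pt, ← mul_smul]
    conv_rhs => rw [← hginv, ← mul_smul]
    congr 1
    group
  rw [hpt, ordAt_smul_of_mem_Gamma0 e hγ']


/-- **Places over a finite value of `j` ↔ orbits on the cosets.** -/
theorem card_places_of_point [CharZero K] [IsAlgClosed K] (z₀ : ℍ) (c : K)
    (hz₀ : jInv z₀ = e c) (σ : SL(2, ℤ)) (hσ : σ • z₀ = z₀) (s : ℕ)
    (hs : ordH (fun w => jInv w - e c) z₀ = s)
    (hσs : s = 1 ∨ (s.Prime ∧ ∀ x : X N, σ ^ s • x = x))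
    (hG2 : ∀ k : X N, σ • k = k → ∀ h : FK K N, h ≠ 0 → (s : ℤ) ∣ ordAt e (pt N z₀ k) h)
    (hd : ∀ Q : Place K (FK K N), 0 < Q.ord (tF N c) →
      ∃ k : X N, ∀ h : FK K N,
        h ∈ Q.toValuationSubring ↔ (h = 0 ∨ 0 ≤ ordAt e (pt N z₀ k) h)) :
    Nat.card {v : Place K (FK K N) // 0 < v.ord (tF N c)} =
      Nat.card (orbitRel.Quotient (Subgroup.zpowers σ) (X N)) := by
  classical
  haveI : Finite (X N) := finite_X
  letI : Fintype (X N) := Fintype.ofFinite _
  have hpt : ∀ k : X N, jInv (pt N z₀ k) = e c := fun k => by rw [jInv_pt]; exact hz₀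
  choose P m hm hPm hPmem using fun k : X N => exists_place e N (pt N z₀ k) c (hpt k)
  have hspos : 0 < s := by
    rw [← hs]
    exact ordH_jInv_sub_pos z₀ (e c) hz₀
  -- (a)
  have ha : ∀ k, (m k : ℤ) * (P k).ord (tF N c) = s := by
    intro k
    rw [← hPm k (tF N c) (tF_ne_zero N c), ordAt_tF, pt, ordH_jInv_sub_smul, hs]
  -- (b)
  have hb : ∀ k k', orbitRel (Subgroup.zpowers σ) (X N) k k' → P k = P k' := by
    intro k k' hkk'
    apply Place.ext
    ext h
    rw [hPmem k h, hPmem k' h, ordAt_pt_eq_of_orbitRel e N z₀ σ hσ hkk' h]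
  -- (c)
  have hc : ∀ k, s ∣ classCard (orbitRel (Subgroup.zpowers σ) (X N)) k * m k := by
    intro k
    rcases hσs with h1 | ⟨hprime, hpow⟩
    · rw [h1]; exact one_dvd _
    · refine h9_dvd_classCard_mul σ k hprime (hpow k) (m k) fun hfix => ?_
      obtain ⟨π, hπ⟩ := IsDiscreteValuationRing.exists_irreducible (P k).toValuationSubring
      have hπ1 : (P k).ord (π : FK K N) = 1 := (P k).ord_coe_irreducible hπ
      have hπ0 : (π : FK K N) ≠ 0 := by
        intro h0
        rw [h0, (P k).ord_zero] at hπ1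
        exact zero_ne_one hπ1
      have h2 := hG2 k hfix (π : FK K N) hπ0
      rw [hPm k _ hπ0, hπ1, mul_one] at h2
      exact_mod_cast h2
  -- (d)
  have hd' : ∀ Q : Place K (FK K N), 0 < Q.ord (tF N c) → ∃ k, P k = Q := by
    intro Q hQ
    obtain ⟨k, hk⟩ := hd Q hQ
    refine ⟨k, Place.ext ?_⟩
    ext h
    rw [hPmem k h, hk h]
  -- (e)
  haveI := Final.finiteDimensional_jF e N
  obtain ⟨S, hS, hFI⟩ := Alg.fundId_sub (Final.jF K N) (Final.transcendental_jF K N) c
  rw [Final.finrank_jF e N, Nat.card_eq_fintype_card] at hFI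
  exact (card_places_eq_card_classes (orbitRel (Subgroup.zpowers σ) (X N)) P m (tF N c) s hspos
    ha hb hc hd' S hS hFI).1

end Fermat.Agent.S24.H25G3
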