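import Fermat.Agent.S24.H2_Adapter
import Fermat.Agent.S24.H21_Surj

/-!
# S24, package ALG (helper2), part 5: separating places (Chinese remainder / prime avoidance)

`intSubring K x` is the integral closure of `K[x]` in `F`, as a subring of `F`.
* `intSubring_le_place` : it is contained in the valuation ring of every place containing `x`;
* `exists_crt` : a place `Q` containing `x` can be separated from finitely many other places
  `P k` containing `x` by an element of `intSubring K x`;
* `hCRT_sub` : the same in the shape of the hypothesis `hCRT` of `Orb.surj_of_norm`.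
-/

set_option autoImplicit false
set_option linter.style.haveILetI false
set_option linter.unusedSectionVars false

namespace Fermat.Agent.S24.Alg

open IsDedekindDomain AlgebraicCurve WithZero Polynomial IntermediateField

section generic

variable {K F : Type*} [Field K] [Field F] [Algebra K F]

variable (K) in
/-- The integral closure of `K[x]` in `F`, as a subring of `F`. -/
def intSubring (x : F) : Subring F :=
  (integralClosure (Algebra.adjoin K ({x} : Set F)) F).toSubring

theorem mem_intSubring_iff {x h : F} :
    h ∈ intSubring K x ↔ IsIntegral (Algebra.adjoin K ({x} : Set F)) h := Iff.rfl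

theorem self_mem_intSubring (x : F) : x ∈ intSubring K x := by
  rw [mem_intSubring_iff]
  exact isIntegral_algebraMap (R := Algebra.adjoin K ({x} : Set F))
    (x := ⟨x, Algebra.subset_adjoin (Set.mem_singleton x)⟩)

theorem algebraMap_mem_intSubring (x : F) (c : K) : algebraMap K F c ∈ intSubring K x := by
  rw [mem_intSubring_iff]
  exact isIntegral_algebraMap (R := Algebra.adjoin K ({x} : Set F))
    (x := algebraMap K _ c)

/-- The valuation ring of a place, as a `K`-subalgebra of `F`. -/
def placeSubalgebra (v : Place K F) : Subalgebra K F :=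
  { v.toValuationSubring.toSubring with
    algebraMap_mem' := v.algebraMap_mem' }

theorem mem_placeSubalgebra {v : Place K F} {h : F} :
    h ∈ placeSubalgebra v ↔ h ∈ v.toValuationSubring := Iff.rfl

/-- **hR**: the integral closure of `K[x]` is contained in every valuation ring containing
`x`. -/
theorem intSubring_le_place (x : F) (Q : Place K F) (hQ : x ∈ Q.toValuationSubring) :
    ∀ g ∈ intSubring K x, g ∈ Q.toValuationSubring := by
  intro g hg
  rw [mem_intSubring_iff] at hg
  have hle : Algebra.adjoin K ({x} : Set F) ≤ placeSubalgebra Q :=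
    Algebra.adjoin_le (by
      rintro _ rfl
      exact hQ)
  let φ : Algebra.adjoin K ({x} : Set F) →+* Q.toValuationSubring :=
    (Subalgebra.inclusion hle).toRingHom
  have hint : IsIntegral Q.toValuationSubring g := by
    have := IsIntegral.map_of_comp_eq φ (RingHom.id F)
      (by ext a; rfl) hg
    simpa using this
  obtain ⟨y, hy⟩ := IsIntegrallyClosed.isIntegral_iff.1 hint
  rw [← hy]
  exact y.2

theorem mem_of_ord_sub_pos (x : F) (c : K) (Q : Place K F)
    (hQ : 0 < Q.ord (x - algebraMap K F c)) : x ∈ Q.toValuationSubring := by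
  have h1 := mem_of_ord_pos Q hQ
  have h2 := add_mem h1 (Q.algebraMap_mem' c)
  rwa [sub_add_cancel] at h2

theorem intSubring_le_place_of_ord_pos (x : F) (c : K) (Q : Place K F)
    (hQ : 0 < Q.ord (x - algebraMap K F c)) :
    ∀ g ∈ intSubring K x, g ∈ Q.toValuationSubring :=
  intSubring_le_place x Q (mem_of_ord_sub_pos x c Q hQ)

/-- Bridge: integrality over `K[X]` (acting through `X ↦ x`) implies membership in
`intSubring K x`. -/
theorem mem_intSubring_of_isIntegral_poly (x h : F)
    (hh : letI : Algebra K[X] F := (aeval x).toRingHom.toAlgebra; IsIntegral K[X] h) :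
    h ∈ intSubring K x := by
  letI : Algebra K[X] F := (aeval x).toRingHom.toAlgebra
  rw [mem_intSubring_iff]
  let x' : Algebra.adjoin K ({x} : Set F) := ⟨x, Algebra.subset_adjoin (Set.mem_singleton x)⟩
  let φ : K[X] →+* Algebra.adjoin K ({x} : Set F) := (aeval x').toRingHom
  have := IsIntegral.map_of_comp_eq φ (RingHom.id F)
    (by
      ext a
      · show ((aeval x' (C a) : Algebra.adjoin K ({x} : Set F)) : F) = aeval x (C a)
        rw [aeval_C, aeval_C]
        rfl
      · show ((aeval x' X : Algebra.adjoin K ({x} : Set F)) : F) = aeval x X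
        rw [aeval_X, aeval_X]) hh
  simpa using this

end generic

section funField

variable {K F : Type*} [Field K] [CharZero K] [Field F] [Algebra K F]

/-- **Separation of places.** -/
theorem exists_crt (x : F) (hx : Transcendental K x) [FiniteDimensional K⟮x⟯ F]
    {X : Type*} [Finite X] (P : X → Place K F) (hP : ∀ k, x ∈ (P k).toValuationSubring)
    (Q : Place K F) (hQ : x ∈ Q.toValuationSubring) (hne : ∀ k, P k ≠ Q) :
    ∃ h ∈ intSubring K x, h ≠ 0 ∧ 0 < Q.ord h ∧ ∀ k, (P k).ord h = 0 := by
  classical
  letI a1 : Algebra K[X] F := (aeval x).toRingHom.toAlgebra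
  letI a2 : Algebra K[X] K⟮x⟯ := (aeval (AdjoinSimple.gen K x)).toRingHom.toAlgebra
  haveI t1 : IsScalarTower K[X] K⟮x⟯ F := IsScalarTower.of_algebraMap_eq (fun g => by
    show aeval x g = ((aeval (AdjoinSimple.gen K x) g : K⟮x⟯) : F)
    rw [← IntermediateField.algebraMap_apply, ← aeval_algebraMap_apply]
    rfl)
  haveI t2 : IsScalarTower K K[X] F := IsScalarTower.of_algebraMap_eq (fun a => by
    show algebraMap K F a = aeval x (C a)
    rw [aeval_C])
  haveI fr : IsFractionRing K[X] K⟮x⟯ := isFractionRing_adjoin x hx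
  haveI : CharZero K⟮x⟯ := charZero_of_injective_algebraMap (algebraMap K K⟮x⟯).injective
  haveI sep : Algebra.IsSeparable K⟮x⟯ F := inferInstance
  let B := integralClosure K[X] F
  haveI dd : IsDedekindDomain B := IsIntegralClosure.isDedekindDomain K[X] K⟮x⟯ F B
  haveI frB : IsFractionRing B F :=
    IsIntegralClosure.isFractionRing_of_finite_extension K[X] K⟮x⟯ F B
  haveI t3 : IsScalarTower K B F := inferInstance
  have hB : ∀ v : Place K F, x ∈ v.toValuationSubring →
      ∃ p : HeightOneSpectrum B, v = placeOfPrime K p := fun v hv =>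
    exists_prime_of_le (B := B) v
      (fun b => integralClosure_le_place x v hv _ (show IsIntegral K[X] (b : F) from b.2))
  obtain ⟨q, rfl⟩ := hB Q hQ
  choose p hp using fun k => hB (P k) (hP k)
  haveI := Fintype.ofFinite X
  let f : Option X → Ideal B := fun o => o.elim ⊥ (fun k => (p k).asIdeal)
  have hprime : ∀ i ∈ (Finset.univ : Finset (Option X)), (f i).IsPrime := by
    intro i _
    cases i with
    | none => exact Ideal.isPrime_bot
    | some k => exact (p k).isPrime
  have hnot : ¬ ((q.asIdeal : Set B) ⊆
      ⋃ i ∈ ((Finset.univ : Finset (Option X)) : Set (Option X)), f i) := by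
    rw [Ideal.subset_union_prime none none (fun i hi _ _ => hprime i hi)]
    rintro ⟨i, -, hi⟩
    cases i with
    | none => exact q.ne_bot (le_bot_iff.1 hi)
    | some k =>
      have h1 : q.asIdeal = (p k).asIdeal :=
        q.isMaximal.eq_of_le (p k).isPrime.ne_top hi
      have h2 : p k = q := HeightOneSpectrum.ext h1.symm
      exact hne k (by rw [hp k, h2])
  rw [Set.not_subset] at hnot
  obtain ⟨b, hbq, hb⟩ := hnot
  simp only [Set.mem_iUnion, not_exists] at hb
  have hb0 : b ≠ 0 := fun h0 => hb none (Finset.mem_coe.2 (Finset.mem_univ _)) (by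
    show b ∈ (⊥ : Ideal B)
    rw [h0]; exact Ideal.zero_mem _)
  have hbk : ∀ k, b ∉ (p k).asIdeal := fun k hk =>
    hb (some k) (Finset.mem_coe.2 (Finset.mem_univ _)) hk
  have hne0 : algebraMap B F b ≠ 0 := fun h0 =>
    hb0 ((IsFractionRing.injective B F) (by rw [h0, map_zero]))
  refine ⟨algebraMap B F b, mem_intSubring_of_isIntegral_poly x _ b.2, hne0, ?_, fun k => ?_⟩
  · rw [ord_placeOfPrime_pos_iff _ hb0]
    exact hbq
  · rw [hp k]
    have h1 : ¬ 0 < (placeOfPrime K (p k) (F := F)).ord (algebraMap B F b) := by
      rw [ord_placeOfPrime_pos_iff _ hb0]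
      exact hbk k
    have h2 : 0 ≤ (placeOfPrime K (p k) (F := F)).ord (algebraMap B F b) :=
      (mem_iff_ord_nonneg _ hne0).1 ((p k).valuation_le_one b)
    omega

/-- **hCRT** of `Orb.surj_of_norm`, verbatim, with `R := intSubring K x`. -/
theorem hCRT_sub (x : F) (hx : Transcendental K x) [FiniteDimensional K⟮x⟯ F] (c : K)
    {X : Type*} [Finite X] (P : X → Place K F)
    (hP : ∀ k, 0 < (P k).ord (x - algebraMap K F c)) :
    ∀ Q : Place K F, 0 < Q.ord (x - algebraMap K F c) → (∀ k, P k ≠ Q) →
      ∃ h ∈ intSubring K x, h ≠ 0 ∧ 0 < Q.ord h ∧ ∀ k, (P k).ord h = 0 :=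
  fun Q hQ hne => exists_crt x hx P (fun k => mem_of_ord_sub_pos x c (P k) (hP k)) Q
    (mem_of_ord_sub_pos x c Q hQ) hne

/-- `Orb.surj_of_norm` with `hR` and `hCRT` discharged: every place over `x = c` is one of the
given places `P k` as soon as the norm hypothesis holds on `intSubring K x`. -/
theorem surj_of_hNORM (x : F) (hx : Transcendental K x) [FiniteDimensional K⟮x⟯ F] (c : K)
    {X : Type*} [Finite X] (P : X → Place K F)
    (hP : ∀ k, 0 < (P k).ord (x - algebraMap K F c))
    (hNORM : ∀ h ∈ intSubring K x, h ≠ 0 → ∃ Q₀ : Polynomial K,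
      (∃ g ∈ intSubring K x, Polynomial.aeval x Q₀ = h * g) ∧
        (Q₀.eval c = 0 → ∃ k, 0 < (P k).ord h)) :
    ∀ Q : Place K F, 0 < Q.ord (x - algebraMap K F c) → ∃ k, P k = Q :=
  Orb.surj_of_norm P (intSubring K x) x c (intSubring_le_place_of_ord_pos x c)
    (hCRT_sub x hx c P hP) hNORM

end funField

end Fermat.Agent.S24.Alg
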