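import Fermat.Agent.S24.H2_PlacesDedekind

/-!
# S24, package ALG (helper2), part 2: the fundamental identity over `K[X]`

`B` is a Dedekind domain, finite and torsion free over `K[X]`, with fraction field `F`.
For `c : K` the places of `F` attached to the primes of `B` over `(X - c)` satisfy
`∑ ord_v (t - c) * deg v = finrank K[X] B`, where `t` is the image of `X`.
-/

set_option autoImplicit false
set_option linter.style.haveILetI false
set_option linter.unusedSectionVars false

namespace Fermat.Agent.S24.Alg

open IsDedekindDomain AlgebraicCurve WithZero Polynomial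

variable {K : Type*} [Field K] {B F : Type*} [CommRing B] [IsDedekindDomain B] [Field F]
  [Algebra B F] [IsFractionRing B F] [Algebra K[X] B] [Module.Finite K[X] B]
  [FaithfulSMul K[X] B] [Algebra K B] [Algebra K F] [IsScalarTower K B F]
  [IsScalarTower K K[X] B]

/-- The ideal `(X - c)` of `K[X]`. -/
noncomputable def idealAt (c : K) : Ideal K[X] := Ideal.span {X - C c}

instance idealAt_isMaximal (c : K) : (idealAt c).IsMaximal := by
  rw [idealAt]
  exact (PrincipalIdealRing.isMaximal_of_irreducible (irreducible_X_sub_C c))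

theorem idealAt_ne_bot (c : K) : idealAt c ≠ ⊥ := by
  rw [idealAt, Ne, Ideal.span_singleton_eq_bot]
  exact X_sub_C_ne_zero c

theorem finrank_quotient_idealAt (c : K) : Module.finrank K (K[X] ⧸ idealAt c) = 1 := by
  rw [idealAt, (quotientSpanXSubCAlgEquiv c).toLinearEquiv.finrank_eq]
  exact Module.finrank_self K

theorem ne_bot_of_liesOver (c : K) (q : Ideal B) [q.LiesOver (idealAt c)] : q ≠ ⊥ := by
  rintro rfl
  apply idealAt_ne_bot c
  rw [(⊥ : Ideal B).over_def (idealAt c), Ideal.under_def, Ideal.comap_bot_of_injective]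
  exact FaithfulSMul.algebraMap_injective K[X] B

/-- A prime of `B` over `(X - c)` as an element of the height one spectrum. -/
noncomputable def primeOver (c : K) (q : (idealAt c).primesOver B) : HeightOneSpectrum B :=
  haveI : q.1.LiesOver (idealAt c) := q.2.2
  ⟨q.1, q.2.1, ne_bot_of_liesOver c q.1⟩

@[simp]
theorem primeOver_asIdeal (c : K) (q : (idealAt c).primesOver B) :
    (primeOver c q).asIdeal = q.1 := rfl

theorem map_idealAt (c : K) :
    (idealAt c).map (algebraMap K[X] B) = Ideal.span {algebraMap K[X] B (X - C c)} := by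
  rw [idealAt, Ideal.map_span, Set.image_singleton]

theorem algebraMap_X_sub_C_ne_zero (c : K) : algebraMap K[X] B (X - C c) ≠ 0 := by
  intro h
  exact X_sub_C_ne_zero c (FaithfulSMul.algebraMap_injective K[X] B (by rw [h, map_zero]))

theorem ord_eq_ramificationIdx (c : K) (q : (idealAt c).primesOver B) :
    (placeOfPrime K (primeOver c q) (F := F)).ord
        (algebraMap B F (algebraMap K[X] B (X - C c))) =
      (q.1.ramificationIdx K[X] : ℤ) := by
  haveI : q.1.LiesOver (idealAt c) := q.2.2
  haveI : q.1.IsPrime := q.2.1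
  have hne : (idealAt c).map (algebraMap K[X] B) ≠ ⊥ := by
    rw [map_idealAt, Ne, Ideal.span_singleton_eq_bot]
    exact algebraMap_X_sub_C_ne_zero c
  rw [ord_placeOfPrime, HeightOneSpectrum.valuation_of_algebraMap,
    HeightOneSpectrum.intValuation_eq_exp_neg_multiplicity _ (algebraMap_X_sub_C_ne_zero c),
    log_exp, neg_neg, Ideal.IsDedekindDomain.ramificationIdx_eq_multiplicity (idealAt c) q.1 hne,
    map_idealAt]
  rfl

theorem deg_eq_inertiaDeg (c : K) (q : (idealAt c).primesOver B) :
    (placeOfPrime K (primeOver c q) (F := F)).deg = q.1.inertiaDeg K[X] := by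
  haveI : q.1.LiesOver (idealAt c) := q.2.2
  haveI : q.1.IsPrime := q.2.1
  haveI : q.1.IsMaximal := (primeOver c q).isMaximal
  letI : Field (K[X] ⧸ idealAt c) := Ideal.Quotient.field _
  letI : Field (B ⧸ q.1) := Ideal.Quotient.field _
  rw [deg_placeOfPrime, primeOver_asIdeal, Ideal.inertiaDeg_eq_of_isMaximal (idealAt c) q.1,
    ← Module.finrank_mul_finrank K (K[X] ⧸ idealAt c) (B ⧸ q.1), finrank_quotient_idealAt,
    one_mul]

/-- The fundamental identity `∑ e f = n` in terms of places. -/
theorem fundamental_identity (c : K) :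
    ∑ q : (idealAt c).primesOver B,
      (placeOfPrime K (primeOver c q) (F := F)).ord
          (algebraMap B F (algebraMap K[X] B (X - C c))) *
        ((placeOfPrime K (primeOver c q) (F := F)).deg : ℤ) = (Module.finrank K[X] B : ℤ) := by
  rw [← Ideal.sum_ramification_inertia_eq_finrank (idealAt c) B, Nat.cast_sum]
  refine Finset.sum_congr rfl fun q _ => ?_
  rw [Nat.cast_mul]
  rw [ord_eq_ramificationIdx, deg_eq_inertiaDeg]

end Fermat.Agent.S24.Alg
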