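import Fermat.Agent.S24.H25_Wiring
import Fermat.Agent.S24.H2_Adapter

/-!
# S24, package ALG (helper2): the ALG fields of `Final.Inputs`

For `K` algebraically closed of characteristic zero the fields `count`, `princ`, `nontrivial`
of `Final.Inputs K N` follow from `finDim` alone.
-/

set_option autoImplicit false

namespace Fermat.Agent.S24.Alg

open AlgebraicCurve KaehlerDifferential MulAction IntermediateField
open scoped MatrixGroups
open CongruenceSubgroup ModularCurve
open Fermat.Agent.S24.RH Fermat.Agent.S24.Comb Fermat.Agent.S24.Real Fermat.Agent.S24.Final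

variable (K : Type*) [Field K] [Algebra ℚ K] [CharZero K] (N : ℕ) [NeZero N]

theorem inputs_princ [FiniteDimensional K⟮jF K N⟯ (FK K N)] :
    ∀ f : FK K N, f ≠ 0 → ∀ E : Divisor K (FK K N),
      (∀ v : Place K (FK K N), E v = v.ord f) → Divisor.degree E = 0 :=
  degree_principal (jF K N) (transcendental_jF K N)

variable [IsAlgClosed K]

theorem inputs_count [FiniteDimensional K⟮jF K N⟯ (FK K N)] :
    CountData (K := K) (jF K N) (Module.finrank K⟮jF K N⟯ (FK K N)) :=
  countData (jF K N) (transcendental_jF K N)

theorem inputs_nontrivial [FiniteDimensional K⟮jF K N⟯ (FK K N)] :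
    Nontrivial Ω[FK K N⁄K] := by
  have hn : 0 < Module.finrank K⟮jF K N⟯ (FK K N) := Module.finrank_pos
  obtain ⟨v⟩ := (inputs_count K N).exists_place hn
  exact nontrivial_kaehler (K := K) (jF K N) v

variable {K N}

/-- `Final.Inputs` from the degree and the four counts: the ALG fields are automatic. -/
theorem inputs_of_deg_of_counts
    (finDim : FiniteDimensional K⟮jF K N⟯ (FK K N))
    (finrank_eq : Module.finrank K⟮jF K N⟯ (FK K N) = Nat.card (X N))
    (gen : ∀ c : K, c ≠ 0 → c ≠ 1728 →
      Nat.card {v : Place K (FK K N) // 0 < v.ord (jF K N - algebraMap K (FK K N) c)} =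
        Nat.card (X N))
    (zero : Nat.card {v : Place K (FK K N) // 0 < v.ord (jF K N - algebraMap K (FK K N) 0)} =
      Nat.card (orbitRel.Quotient (Subgroup.zpowers (ModularGroup.S * ModularGroup.T)) (X N)))
    (one : Nat.card {v : Place K (FK K N) // 0 < v.ord (jF K N - algebraMap K (FK K N) 1728)} =
      Nat.card (orbitRel.Quotient (Subgroup.zpowers ModularGroup.S) (X N)))
    (inf : Nat.card {v : Place K (FK K N) // 0 < v.ord (jF K N)⁻¹} =
      Nat.card (orbitRel.Quotient (Subgroup.zpowers ModularGroup.T) (X N))) :
    Final.Inputs K N where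
  finDim := finDim
  finrank_eq := finrank_eq
  count := inputs_count K N
  princ := inputs_princ K N
  nontrivial := inputs_nontrivial K N
  gen := gen
  zero := zero
  one := one
  inf := inf

end Fermat.Agent.S24.Alg
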