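import Fermat.Agent.S24.H7_Cusp
import Fermat.Agent.S24.H12_CuspExp

/-!
# S24, package CUSP (helper7): bridge between `ordInf` and helper12's `laurentExp`

`ordInf h x = (laurentExp h x).order` and `MeroAtInf h x ↔ MG h x`.
-/

set_option autoImplicit false

namespace Fermat.Agent.S24.Cusp

open UpperHalfPlane Filter Topology Function
open Fermat.Agent.S24
open scoped MatrixGroups ModularForm Manifold Real

variable {h : ℝ} {x : ℍ → ℂ}

lemma meroAtInf_qFun (hh : 0 < h) : MeroAtInf h (G4.qFun h) :=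
  MeroAtInf.of_isBoundedAtImInfty hh (G4.nice_qFun hh).periodic (G4.nice_qFun hh).holo
    (G4.nice_qFun hh).bdd

lemma qFun_ne_zero_fun (h : ℝ) : (G4.qFun h : ℍ → ℂ) ≠ 0 := by
  intro h0
  exact G4.qFun_ne_zero h UpperHalfPlane.I (congrFun h0 _)

lemma cuspFunction_qFun_eventuallyEq (hh : 0 < h) :
    cuspFunction h (G4.qFun h) =ᶠ[𝓝[≠] 0] id := by
  have hball : Metric.ball (0 : ℂ) 1 ∈ 𝓝[≠] (0 : ℂ) :=
    nhdsWithin_le_nhds (Metric.ball_mem_nhds 0 one_pos)
  filter_upwards [self_mem_nhdsWithin, hball] with q hq hq1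
  have hq1' : ‖q‖ < 1 := by simpa using hq1
  have him := Periodic.im_invQParam_pos_of_norm_lt_one hh hq1' hq
  rw [cuspFunction_eq_of_ne _ _ hq, G4.qFun_apply, ofComplex_apply_of_im_pos him]
  exact Periodic.qParam_right_inv hh.ne' hq

lemma ordInf_qFun (hh : 0 < h) : ordInf h (G4.qFun h) = 1 := by
  unfold ordInf
  rw [meromorphicOrderAt_congr (cuspFunction_qFun_eventuallyEq hh), meromorphicOrderAt_id]
  rfl

/-- The function `z ↦ exp (-2πi z / h)`. -/
noncomputable def qInv (h : ℝ) : ℍ → ℂ := fun z => (G4.qFun h z)⁻¹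

lemma qInv_mul_qFun (h : ℝ) : qInv h * G4.qFun h = 1 := by
  funext z
  simp [qInv, G4.qFun_ne_zero h z]

lemma qInv_ne_zero_fun (h : ℝ) : (qInv h : ℍ → ℂ) ≠ 0 := by
  intro h0
  have := qInv_mul_qFun h
  rw [h0, zero_mul] at this
  exact zero_ne_one this

lemma mdiff_qInv (h : ℝ) : MDiff (qInv h) := by
  have hq := G4.mdifferentiable_qFun h
  rw [UpperHalfPlane.mdifferentiable_iff] at hq ⊢
  have : (qInv h ∘ ofComplex) = fun w => ((G4.qFun h ∘ ofComplex) w)⁻¹ := rfl
  rw [this]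
  exact hq.inv fun w _ => G4.qFun_ne_zero h _

lemma periodic_qInv (hh : 0 < h) : Function.Periodic (qInv h ∘ ofComplex) h := by
  intro w
  have := (G4.nice_qFun hh).periodic w
  simp only [Function.comp_apply, qInv] at this ⊢
  rw [this]

lemma mg_qInv (hh : 0 < h) : G4.MG h (qInv h) :=
  ⟨periodic_qInv hh, mdiff_qInv h, ⟨1, by
    rw [pow_one, qInv_mul_qFun]
    exact Filter.const_boundedAtFilter _ (1 : ℂ)⟩⟩

lemma meroAtInf_qInv (hh : 0 < h) : MeroAtInf h (qInv h) := by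
  refine MeroAtInf.of_mul_isBounded (g := G4.qFun h) (periodic_qInv hh) (mdiff_qInv h)
    (meroAtInf_qFun hh) hh (qFun_ne_zero_fun h) ?_
  rw [qInv_mul_qFun]
  exact Filter.const_boundedAtFilter _ (1 : ℂ)

lemma ordInf_qInv (hh : 0 < h) : ordInf h (qInv h) = -1 := by
  have := MeroAtInf.ordInf_mul (meroAtInf_qInv hh) (meroAtInf_qFun hh) hh (qInv_ne_zero_fun h)
    (qFun_ne_zero_fun h)
  rw [qInv_mul_qFun, MeroAtInf.ordInf_one, ordInf_qFun hh] at this
  linarith

lemma order_laurentExp_qFun (hh : 0 < h) : (G4.laurentExp h (G4.qFun h)).order = 1 := by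
  rw [G4.laurentExp_of_nice hh (G4.nice_qFun hh), G4.qExpansion_qFun hh,
    HahnSeries.ofPowerSeries_X]
  exact HahnSeries.order_single one_ne_zero

lemma order_laurentExp_qInv (hh : 0 < h) : (G4.laurentExp h (qInv h)).order = -1 := by
  have := G4.laurentExp_order_eq_neg hh (mg_qInv hh) (m := 1)
    (by rw [pow_one, qInv_mul_qFun]; exact Filter.const_boundedAtFilter _ (1 : ℂ))
    ⟨1, one_pos, Filter.Eventually.of_forall fun z => by
      have h1 : qInv h z * G4.qFun h z ^ 1 = 1 := by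
        simp [qInv, G4.qFun_ne_zero h z]
      rw [h1]; simp⟩
  simpa using this

/-- Moderate growth in helper12's sense implies meromorphy at the cusp. -/
theorem meroAtInf_of_mg (hh : 0 < h) (hx : G4.MG h x) : MeroAtInf h x := by
  obtain ⟨m, hm⟩ := hx.growth
  exact MeroAtInf.of_mul_isBounded (g := G4.qFun h ^ m) hx.periodic hx.holo
    ((meroAtInf_qFun hh).pow m) hh (pow_ne_zero m (qFun_ne_zero_fun h)) hm

/-- Meromorphy at the cusp implies moderate growth in helper12's sense. -/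
theorem mg_of_meroAtInf (hh : 0 < h) (hx : MeroAtInf h x) : G4.MG h x := by
  refine ⟨hx.periodic, hx.holo, ?_⟩
  by_cases hx0 : x = 0
  · exact ⟨0, by
      rw [hx0, zero_mul]
      exact Filter.const_boundedAtFilter _ (0 : ℂ)⟩
  · refine ⟨(-ordInf h x).toNat, ?_⟩
    have hq := (meroAtInf_qFun hh).pow (-ordInf h x).toNat
    have hq0 : (G4.qFun h) ^ (-ordInf h x).toNat ≠ 0 := pow_ne_zero _ (qFun_ne_zero_fun h)
    rw [← (hx.mul hq).ordInf_nonneg_iff hh (MeroAtInf.mul_ne_zero hx hq hx0 hq0),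
      MeroAtInf.ordInf_mul hx hq hh hx0 hq0,
      MeroAtInf.ordInf_pow (meroAtInf_qFun hh) hh (qFun_ne_zero_fun h), ordInf_qFun hh]
    have := Int.self_le_toNat (-ordInf h x)
    linarith

theorem meroAtInf_iff_mg (hh : 0 < h) : MeroAtInf h x ↔ G4.MG h x :=
  ⟨mg_of_meroAtInf hh, meroAtInf_of_mg hh⟩

/-- **Bridge**: `ordInf` is the order of helper12's Laurent expansion. -/
theorem ordInf_eq_order (hh : 0 < h) (hx : G4.MG h x) :
    ordInf h x = (G4.laurentExp h x).order := by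
  by_cases hx0 : x = 0
  · subst hx0
    rw [G4.laurentExp_zero hh, HahnSeries.order_zero]
    unfold ordInf
    have : meromorphicOrderAt (cuspFunction h (0 : ℍ → ℂ)) 0 = ⊤ := by
      rw [meromorphicOrderAt_eq_top_iff]
      filter_upwards [cuspFunction_const_eventuallyEq h 0] with q hq
      exact hq
    rw [this]; rfl
  have hxm := meroAtInf_of_mg hh hx
  set n := ordInf h x with hn
  set a := (-n).toNat with ha
  set b := n.toNat with hb
  have hab : (n : ℤ) = b - a := by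
    rcases le_total 0 n with h0 | h0
    · rw [ha, hb, Int.toNat_of_nonneg h0, Int.toNat_eq_zero.mpr (by linarith)]; simp
    · rw [ha, hb, Int.toNat_eq_zero.mpr h0, Int.toNat_of_nonneg (by linarith)]; simp
  set u : ℍ → ℂ := G4.qFun h ^ a * qInv h ^ b with hu
  have hum : MeroAtInf h u := ((meroAtInf_qFun hh).pow a).mul ((meroAtInf_qInv hh).pow b)
  have hug : G4.MG h u := ((G4.nice_qFun hh).mg.pow a).mul ((mg_qInv hh).pow b)
  have hqa0 : G4.qFun h ^ a ≠ 0 := pow_ne_zero _ (qFun_ne_zero_fun h)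
  have hqb0 : qInv h ^ b ≠ 0 := pow_ne_zero _ (qInv_ne_zero_fun h)
  have hu0 : u ≠ 0 :=
    MeroAtInf.mul_ne_zero ((meroAtInf_qFun hh).pow a) ((meroAtInf_qInv hh).pow b) hqa0 hqb0
  have hordu : ordInf h u = a - b := by
    rw [hu, MeroAtInf.ordInf_mul ((meroAtInf_qFun hh).pow a) ((meroAtInf_qInv hh).pow b) hh
      hqa0 hqb0, MeroAtInf.ordInf_pow (meroAtInf_qFun hh) hh (qFun_ne_zero_fun h),
      MeroAtInf.ordInf_pow (meroAtInf_qInv hh) hh (qInv_ne_zero_fun h), ordInf_qFun hh,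
      ordInf_qInv hh]
    ring
  have hxu0 : x * u ≠ 0 := MeroAtInf.mul_ne_zero hxm hum hx0 hu0
  have hordxu : ordInf h (x * u) = 0 := by
    rw [MeroAtInf.ordInf_mul hxm hum hh hx0 hu0, hordu, ← hn, hab]; ring
  obtain ⟨L, hL, hLt⟩ := ((hxm.mul hum).ordInf_eq_zero_iff hh hxu0).mp hordxu
  have hbd : IsBoundedAtImInfty (x * u) := hLt.isBigO_one ℝ
  have hlow : ∃ c : ℝ, 0 < c ∧ ∀ᶠ z in atImInfty, c ≤ ‖(x * u) z * G4.qFun h z ^ 0‖ := by
    refine ⟨‖L‖ / 2, by positivity, ?_⟩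
    have h1 : Tendsto (fun z => ‖(x * u) z‖) atImInfty (𝓝 ‖L‖) := hLt.norm
    have h2 : ‖L‖ / 2 < ‖L‖ := by
      have : 0 < ‖L‖ := norm_pos_iff.mpr hL
      linarith
    filter_upwards [h1.eventually (eventually_gt_nhds h2)] with z hz
    simpa using hz.le
  have hzero := G4.laurentExp_order_eq_neg hh (hx.mul hug) (m := 0) (by simpa using hbd) hlow
  rw [G4.laurentExp_mul hh hx hug] at hzero
  have hLx : G4.laurentExp h x ≠ 0 := fun H => hx0 ((G4.laurentExp_eq_zero_iff hh hx).mp H)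
  have hLu : G4.laurentExp h u ≠ 0 := fun H => hu0 ((G4.laurentExp_eq_zero_iff hh hug).mp H)
  rw [HahnSeries.order_mul hLx hLu] at hzero
  have horderu : (G4.laurentExp h u).order = a - b := by
    rw [hu, G4.laurentExp_mul hh ((G4.nice_qFun hh).mg.pow a) ((mg_qInv hh).pow b),
      G4.laurentExp_pow hh (G4.nice_qFun hh).mg, G4.laurentExp_pow hh (mg_qInv hh)]
    have h1 : G4.laurentExp h (G4.qFun h) ≠ 0 := fun H =>
      qFun_ne_zero_fun h ((G4.laurentExp_eq_zero_iff hh (G4.nice_qFun hh).mg).mp H)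
    have h2 : G4.laurentExp h (qInv h) ≠ 0 := fun H =>
      qInv_ne_zero_fun h ((G4.laurentExp_eq_zero_iff hh (mg_qInv hh)).mp H)
    rw [HahnSeries.order_mul (pow_ne_zero _ h1) (pow_ne_zero _ h2), HahnSeries.order_pow,
      HahnSeries.order_pow, order_laurentExp_qFun hh, order_laurentExp_qInv hh]
    simp
    ring
  rw [horderu] at hzero
  simp only [Nat.cast_zero, neg_zero] at hzero
  linarith

end Fermat.Agent.S24.Cusp
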